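import Mathlib
import Fermat.Agent.R.H89_FrobCyc

set_option autoImplicit false

/-!
# G-FL (S19), package MOD-UNR (helper38): inertia-fixed lifts of the residue constants

`A` a valuation subring of `ℚ̄` over the prime `ℓ`, `k = A/𝔪` its residue field.

* `isAlgebraic_residue`        : `k` is algebraic over `𝔽_ℓ`;
* `exists_pow_eq_one_residue`  : every `c' ≠ 0` in `k` is a root of unity of order prime to `ℓ`;
* `exists_inertia_fixed_lift`  : every `c' ∈ k` is the residue of some `c ∈ A` fixed by the inertia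
  group of `A` (Teichmüller: `c = 0` or a root of unity of order prime to `ℓ`; the reduction
  `μ_m(ℚ̄) → μ_m(k)` is injective, hence bijective, and inertia fixes `μ_m`).
-/

noncomputable section

namespace Fermat.Agent.FL.H38

open Polynomial IntermediateField

local notation "Qbar" => AlgebraicClosure ℚ

variable (A : ValuationSubring Qbar)

theorem residue_prime_eq_zero {ℓ : ℕ} (hA : A.LiesOverPrime ℓ) :
    ((ℓ : ℕ) : IsLocalRing.ResidueField A) = 0 := by
  rw [← map_natCast (IsLocalRing.residue A), IsLocalRing.residue_eq_zero_iff,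
    ← ValuationSubring.coe_mem_nonunits_iff]
  have h : (((ℓ : ℕ) : A) : Qbar) = ((ℓ : ℕ) : Qbar) := by push_cast; rfl
  rw [h]
  exact hA

theorem charP_residue {ℓ : ℕ} (hℓ : ℓ.Prime) (hA : A.LiesOverPrime ℓ) :
    CharP (IsLocalRing.ResidueField A) ℓ := by
  have h0 := residue_prime_eq_zero A hA
  have h1 : ringChar (IsLocalRing.ResidueField A) ∣ ℓ := ringChar.dvd h0
  rcases (Nat.dvd_prime hℓ).mp h1 with h | h
  · exact absurd h CharP.ringChar_ne_one
  · have h2 := ringChar.charP (IsLocalRing.ResidueField A)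
    rwa [h] at h2

/-- The residue field of `A` is algebraic over `𝔽_ℓ`. -/
theorem isAlgebraic_residue {ℓ : ℕ} [Fact ℓ.Prime] [CharP (IsLocalRing.ResidueField A) ℓ]
    (a : A) :
    ∃ R : (ZMod ℓ)[X], R ≠ 0 ∧
      eval₂ (ZMod.castHom (dvd_refl ℓ) (IsLocalRing.ResidueField A)) (IsLocalRing.residue A a) R
        = 0 := by
  have hℓ : ℓ.Prime := Fact.out
  have h1 : IsAlgebraic ℚ (a : Qbar) := (AlgebraicClosure.isAlgebraic ℚ).isAlgebraic _
  have h2 : IsAlgebraic ℤ (a : Qbar) := (IsFractionRing.isAlgebraic_iff ℤ ℚ Qbar).mpr h1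
  obtain ⟨P, hP0, hP⟩ := h2
  set Q : ℤ[X] := P.primPart with hQdef
  have hQ : aeval (a : Qbar) Q = 0 := Polynomial.aeval_primPart_eq_zero hP0 hP
  have hQprim : Q.IsPrimitive := Polynomial.isPrimitive_primPart P
  have hQA : eval₂ (Int.castRingHom A) a Q = 0 := by
    apply Subtype.ext
    have h3 : A.subtype (eval₂ (Int.castRingHom A) a Q)
        = eval₂ (Int.castRingHom Qbar) (a : Qbar) Q := by
      rw [Polynomial.hom_eval₂]
      congr 1
    have h4 : eval₂ (Int.castRingHom Qbar) (a : Qbar) Q = 0 := by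
      rw [← hQ, aeval_def]
      congr 1
    exact h3.trans h4
  have hQk : eval₂ (Int.castRingHom (IsLocalRing.ResidueField A)) (IsLocalRing.residue A a) Q
      = 0 := by
    have h3 := congrArg (IsLocalRing.residue A) hQA
    rw [Polynomial.hom_eval₂, map_zero] at h3
    rw [← h3]
    congr 1
  refine ⟨Q.map (Int.castRingHom (ZMod ℓ)), ?_, ?_⟩
  · intro h0
    have hdvd : ∀ i, (ℓ : ℤ) ∣ Q.coeff i := by
      intro i
      have h3 := congrArg (fun R : (ZMod ℓ)[X] => R.coeff i) h0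
      simp only [coeff_map, coeff_zero, eq_intCast] at h3
      exact (ZMod.intCast_zmod_eq_zero_iff_dvd _ _).mp h3
    have hC : C (ℓ : ℤ) ∣ Q := (Polynomial.C_dvd_iff_dvd_coeff _ _).mpr hdvd
    have hunit := hQprim _ hC
    rw [Int.isUnit_iff] at hunit
    have h2le := hℓ.two_le
    rcases hunit with h | h
    · have : (ℓ : ℤ) = 1 := h
      omega
    · have : (ℓ : ℤ) = -1 := h
      omega
  · rw [eval₂_map, ← hQk]
    congr 1
    exact RingHom.ext_int _ _

/-- Every nonzero element of the residue field is a root of unity of order prime to `ℓ`. -/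
theorem exists_pow_eq_one_residue {ℓ : ℕ} (hℓ : ℓ.Prime) (hA : A.LiesOverPrime ℓ)
    (c' : IsLocalRing.ResidueField A) (hc' : c' ≠ 0) :
    ∃ m : ℕ, 0 < m ∧ m.Coprime ℓ ∧ c' ^ m = 1 := by
  classical
  have : Fact ℓ.Prime := ⟨hℓ⟩
  have := charP_residue A hℓ hA
  let _ : Algebra (ZMod ℓ) (IsLocalRing.ResidueField A) := ZMod.algebra _ ℓ
  obtain ⟨a, rfl⟩ := IsLocalRing.residue_surjective c'
  have halg : IsAlgebraic (ZMod ℓ) (IsLocalRing.residue A a) := by
    obtain ⟨R, hR0, hR⟩ := isAlgebraic_residue A (ℓ := ℓ) a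
    exact ⟨R, hR0, hR⟩
  have hint : IsIntegral (ZMod ℓ) (IsLocalRing.residue A a) := halg.isIntegral
  have : FiniteDimensional (ZMod ℓ) (ZMod ℓ)⟮IsLocalRing.residue A a⟯ :=
    IntermediateField.adjoin.finiteDimensional hint
  have : Finite (ZMod ℓ)⟮IsLocalRing.residue A a⟯ := Module.finite_of_finite (ZMod ℓ)
  let _ : Fintype (ZMod ℓ)⟮IsLocalRing.residue A a⟯ := Fintype.ofFinite _
  set x : (ZMod ℓ)⟮IsLocalRing.residue A a⟯ :=
    ⟨IsLocalRing.residue A a, IntermediateField.mem_adjoin_simple_self _ _⟩ with hx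
  have hx0 : x ≠ 0 := by
    intro h
    apply hc'
    exact congrArg Subtype.val h
  have h1 := FiniteField.pow_card_sub_one_eq_one x hx0
  obtain ⟨n, -, hn⟩ := FiniteField.card (ZMod ℓ)⟮IsLocalRing.residue A a⟯ ℓ
  have hq1 : 1 < Fintype.card (ZMod ℓ)⟮IsLocalRing.residue A a⟯ := Fintype.one_lt_card
  refine ⟨Fintype.card (ZMod ℓ)⟮IsLocalRing.residue A a⟯ - 1, by omega, ?_, ?_⟩
  · apply Nat.Coprime.symm
    rw [Nat.Prime.coprime_iff_not_dvd hℓ]
    intro hdvd
    have h2 : ℓ ∣ Fintype.card (ZMod ℓ)⟮IsLocalRing.residue A a⟯ := by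
      rw [hn]
      exact dvd_pow_self ℓ n.ne_zero
    have h3 : ℓ ∣ 1 := by
      have := (Nat.dvd_sub h2 hdvd)
      rwa [Nat.sub_sub_self hq1.le] at this
    exact hℓ.one_lt.ne' (Nat.dvd_one.mp h3)
  · have h2 := congrArg Subtype.val h1
    simpa using h2

/-- **MOD-UNR, core**: every element of the residue field of `A` is the residue of an element of
`A` fixed by the inertia group. -/
theorem exists_inertia_fixed_lift {ℓ : ℕ} (hℓ : ℓ.Prime) (hA : A.LiesOverPrime ℓ)
    (c' : IsLocalRing.ResidueField A) :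
    ∃ c : Qbar, ∃ hc : c ∈ A, (∀ σ ∈ A.inertiaSubgroupIn ℚ, σ c = c) ∧
      IsLocalRing.residue A ⟨c, hc⟩ = c' := by
  classical
  by_cases hc0 : c' = 0
  · refine ⟨0, A.zero_mem, fun σ _ => map_zero σ, ?_⟩
    rw [hc0]
    exact map_zero _
  obtain ⟨m, hm0, hmℓ, hcm⟩ := exists_pow_eq_one_residue A hℓ hA c' hc0
  have : NeZero (m : ℚ) := ⟨by exact_mod_cast hm0.ne'⟩
  obtain ⟨ζ, hζ⟩ := HasEnoughRootsOfUnity.exists_primitiveRoot Qbar m
  have hmA : (m : Qbar) ∉ A.nonunits := Fermat.Agent.R.H89.h89_coprime_not_mem_nonunits A hmℓ hA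
  have hpow : ∀ i : ℕ, (ζ ^ i) ^ m = 1 := by
    intro i
    rw [← pow_mul, mul_comm, pow_mul, hζ.pow_eq_one, one_pow]
  have hζA : ∀ i : ℕ, ζ ^ i ∈ A := by
    intro i
    exact (A.valuation_le_one_iff _).1
      (le_of_eq (Fermat.Agent.R.H89.h89_valuation_eq_one_of_pow_eq_one A hm0.ne' (hpow i)))
  set f : ℕ → IsLocalRing.ResidueField A := fun i => IsLocalRing.residue A ⟨ζ ^ i, hζA i⟩
    with hf
  have hf_inj : Set.InjOn f (Finset.range m : Set ℕ) := by
    intro i hi j hj hij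
    have h1 : IsLocalRing.residue A (⟨ζ ^ i, hζA i⟩ - ⟨ζ ^ j, hζA j⟩) = 0 := by
      rw [map_sub, sub_eq_zero]
      exact hij
    rw [IsLocalRing.residue_eq_zero_iff, ← ValuationSubring.coe_mem_nonunits_iff] at h1
    have h2 : ζ ^ i = ζ ^ j :=
      Fermat.Agent.R.H89.h89_eq_of_sub_mem' A m hmA (hpow i) (hpow j) h1
    exact hζ.pow_inj (Finset.mem_range.mp hi) (Finset.mem_range.mp hj) h2
  have hf_mem : ∀ i ∈ Finset.range m, f i ∈ nthRootsFinset m (1 : IsLocalRing.ResidueField A) := by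
    intro i _
    rw [mem_nthRootsFinset hm0]
    rw [hf]
    simp only
    rw [← map_pow]
    have h1 : (⟨ζ ^ i, hζA i⟩ : A) ^ m = 1 := Subtype.ext (hpow i)
    rw [h1, map_one]
  have himg : (Finset.range m).image f = nthRootsFinset m (1 : IsLocalRing.ResidueField A) := by
    apply Finset.eq_of_subset_of_card_le
    · intro y hy
      obtain ⟨i, hi, rfl⟩ := Finset.mem_image.mp hy
      exact hf_mem i hi
    · rw [Finset.card_image_of_injOn hf_inj, Finset.card_range]
      exact (Multiset.toFinset_card_le _).trans (card_nthRoots m 1)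
  have hc'mem : c' ∈ nthRootsFinset m (1 : IsLocalRing.ResidueField A) :=
    (mem_nthRootsFinset hm0 _).mpr hcm
  rw [← himg, Finset.mem_image] at hc'mem
  obtain ⟨i, -, hi⟩ := hc'mem
  refine ⟨ζ ^ i, hζA i, ?_, hi⟩
  intro σ hσ
  exact Fermat.Agent.R.H89.inertia_fixes_rootsOfUnity ℓ A hA σ hσ m hmℓ (ζ ^ i) (hpow i)

end Fermat.Agent.FL.H38

end
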