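import Fermat.Agent.RED.Defs
import Mathlib.LinearAlgebra.Matrix.Rank

/-!
# G-FL (S19: finite flat model of `J₀(N)[ℓ^k]`): interface statements, layer 0

Head of G-FL: helper36.  Plan: `NOTES/plan/G_FL.md`.
Route: the group law of the Jacobian by linear algebra on Riemann–Roch spaces; the same linear
algebra on the reduced function field has the same ranks, so all pivots are units.

This file: the packages which need nothing but FF-B / FF-R (`RED/Defs.lean`) resp. Mathlib.
All `Stmt_*` are `Prop`s.  Owners prove them in their own files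
`Fermat/Agent/FL/H<seat>_<Name>.lean` (namespace `Fermat.Agent.FL.H<seat>`), as
`theorem stmt_xxx : Fermat.Agent.FL.Stmt_xxx`.  This file contains no `sorry`.

* `IsRiemann k E g c` : Riemann's theorem with the constants `g`, `c`.
* `Stmt_BPF`  : functions with exact pole orders at finitely many places.
* `Stmt_CM`   : `L(D₁) · L(D₂) = L(D₁ + D₂)` (Castelnuovo–Mumford, pencil trick).
* `Stmt_DIV`  : division of Riemann–Roch spaces.
* `Stmt_MULT` : multipliers are multiplications by a function.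
* `Stmt_NSEX` : a divisor of degree `g` which is non-special with respect to finitely many classes.
* `Stmt_SNF`  : constant rank matrices over a local ring with enough evaluations.
-/

set_option autoImplicit false

noncomputable section

open AlgebraicCurve

namespace Fermat.Agent.FL

open Fermat.Agent.RED

/-- Riemann's theorem for `E / k` holds with the constants `g` and `c`:
`l(D) ≥ deg D + 1 - g`, with equality if `deg D ≥ c`. -/
def IsRiemann (k E : Type) [Field k] [Field E] [Algebra k E] (g : ℕ) (c : ℤ) : Prop :=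
  ∀ D : Divisor k E,
    Divisor.degree D + 1 - g ≤ (Module.finrank k (riemannRochSpace D) : ℤ) ∧
    (c ≤ Divisor.degree D →
      (Module.finrank k (riemannRochSpace D) : ℤ) = Divisor.degree D + 1 - g)

/-- **FF-BPF**: if `deg D ≥ c + 1` there is `f ∈ L(D)`, `f ≠ 0`, whose order at each of
finitely many given places `Q` is exactly `- D Q`.
(`L(D - Q)` is a hyperplane of `L(D)`; a vector space over an infinite field is not a finite
union of proper subspaces.) -/
def Stmt_BPF : Prop :=
  ∀ (k E : Type) [Field k] [Field E] [Algebra k E] [IsAlgClosed k], IsFF k E →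
    ∀ (g : ℕ) (c : ℤ), IsRiemann k E g c →
    ∀ D : Divisor k E, c + 1 ≤ Divisor.degree D →
    ∀ S : Finset (Place k E),
      ∃ f : E, f ≠ 0 ∧ f ∈ riemannRochSpace D ∧ ∀ Q ∈ S, Q.ord f = - D Q

/-- **FF-CM** (Castelnuovo–Mumford, in the form given by the base point free pencil trick):
if `deg D₁ ≥ c + 1` and `deg D₂ ≥ deg D₁ + c` then `L(D₁ + D₂)` is spanned by the products
`a b`, `a ∈ L(D₁)`, `b ∈ L(D₂)`.
(Pencil `s₁, s₂ ∈ L(D₁)` without common zero relative to `D₁`; the kernel of
`(a, b) ↦ a s₁ + b s₂` on `L(D₂)²` is `L(D₂ - D₁)`; count dimensions.) -/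
def Stmt_CM : Prop :=
  ∀ (k E : Type) [Field k] [Field E] [Algebra k E] [IsAlgClosed k], IsFF k E →
    ∀ (g : ℕ) (c : ℤ), IsRiemann k E g c →
    ∀ D₁ D₂ : Divisor k E, c + 1 ≤ Divisor.degree D₁ →
      Divisor.degree D₁ + c ≤ Divisor.degree D₂ →
      ∀ f ∈ riemannRochSpace (D₁ + D₂),
        f ∈ Submodule.span k
          {z : E | ∃ a ∈ riemannRochSpace D₁, ∃ b ∈ riemannRochSpace D₂, z = a * b}

/-- **FF-DIV**: if `deg D₂ ≥ c + 1` and `u · L(D₂) ⊆ L(D₁ + D₂ - E₀)` then `u ∈ L(D₁ - E₀)`. -/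
def Stmt_DIV : Prop :=
  ∀ (k E : Type) [Field k] [Field E] [Algebra k E] [IsAlgClosed k], IsFF k E →
    ∀ (g : ℕ) (c : ℤ), IsRiemann k E g c →
    ∀ D₁ D₂ E₀ : Divisor k E, c + 1 ≤ Divisor.degree D₂ →
    ∀ u : E, (∀ w ∈ riemannRochSpace D₂, u * w ∈ riemannRochSpace (D₁ + D₂ - E₀)) →
      u ∈ riemannRochSpace (D₁ - E₀)

/-- **FF-MULT**: a linear map `φ : L(D) → E` with `φ z₁ * z₂ = φ z₂ * z₁` is the multiplication
by a function `h`; if `deg D ≥ c + 1` and `φ (L(D)) ⊆ L(D')` then `h ∈ L(D' - D)`. -/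
def Stmt_MULT : Prop :=
  ∀ (k E : Type) [Field k] [Field E] [Algebra k E] [IsAlgClosed k], IsFF k E →
    ∀ (g : ℕ) (c : ℤ), IsRiemann k E g c →
    ∀ D D' : Divisor k E, c + 1 ≤ Divisor.degree D →
    ∀ φ : ↥(riemannRochSpace D) →ₗ[k] E,
      (∀ z₁ z₂ : ↥(riemannRochSpace D), φ z₁ * (z₂ : E) = φ z₂ * (z₁ : E)) →
      (∀ z, φ z ∈ riemannRochSpace D') →
      ∃ h ∈ riemannRochSpace (D' - D), ∀ z : ↥(riemannRochSpace D), φ z = h * (z : E)

/-- **FF-NSEX**: for finitely many divisors `D` of degree `0` there is an effective divisor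
`E₀` of degree `g` with `l(D + E₀) = 1` for all of them.
(Take `C` of large degree and places `Q₁, …, Q_m`, `m = deg C - g`, each outside the zeros of
one chosen nonzero element of each `L(C + D - Q₁ - ⋯ - Q_{i-1})`; then `l(C + D - ∑ Q_i) = 1`;
`E₀ := div f + C - ∑ Q_i` for `0 ≠ f ∈ L(C - ∑ Q_i)`.) -/
def Stmt_NSEX : Prop :=
  ∀ (k E : Type) [Field k] [Field E] [Algebra k E] [IsAlgClosed k], IsFF k E →
    ∀ (g : ℕ) (c : ℤ), IsRiemann k E g c →
    ∀ 𝒟 : Finset (Divisor k E), (∀ D ∈ 𝒟, Divisor.degree D = 0) →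
      ∃ E₀ : Divisor k E, 0 ≤ E₀ ∧ Divisor.degree E₀ = g ∧
        ∀ D ∈ 𝒟, Module.finrank k (riemannRochSpace (D + E₀)) = 1

/-- **ABS-SNF**: `R` a commutative ring with a ring homomorphism `ρ` to a field `k` detecting
the units (so `R` is local with residue field inside `k`) and a jointly injective family of ring
homomorphisms `ev s` to a field `K`.  A matrix `T` over `R` whose rank at every point `s` is at
most the rank of its reduction is equivalent to `[[1, 0], [0, 0]]`.
(Induction on the rank: a nonzero entry of `ρ T` gives a unit entry of `T`; eliminate; if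
`ρ T = 0` then every `ev s T = 0`, so `T = 0`.) -/
def Stmt_SNF : Prop :=
  ∀ (R k K : Type) [CommRing R] [Field k] [Field K] (ρ : R →+* k),
    (∀ x : R, IsUnit x ↔ ρ x ≠ 0) →
    ∀ (S : Type) (ev : S → R →+* K), (∀ x : R, (∀ s, ev s x = 0) → x = 0) →
    ∀ (m n : ℕ) (T : Matrix (Fin m) (Fin n) R),
      (∀ s, (T.map (ev s)).rank ≤ (T.map ρ).rank) →
      ∃ (P : Matrix (Fin m) (Fin m) R) (Q : Matrix (Fin n) (Fin n) R), IsUnit P ∧ IsUnit Q ∧
        ∀ i j, (P * T * Q) i j =
          if (i : ℕ) = (j : ℕ) ∧ (i : ℕ) < (T.map ρ).rank then 1 else 0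

end Fermat.Agent.FL
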