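import Fermat.Agent.FL.Defs
import Mathlib.LinearAlgebra.Matrix.ToLin
import Mathlib.LinearAlgebra.Matrix.NonsingularInverse

/-!
# G-FL (S19), interface statements, layer 1: regular families of subspaces; the addition chain

Head of G-FL: helper36.  Plan: `NOTES/plan/G_FL.md`.

## Abstract part (Mathlib only)
`EvRing R k K S`: a commutative ring `R` with a reduction `ρ : R →+* k` detecting the units and a
jointly injective family of evaluations `ev s : R →+* K`  (in the application: `R` = the ring of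
one residue class, package ABS-LOC).  A *subbundle* is the column space of a matrix over `R`
whose columns are linearly independent modulo `ρ`.

* `Stmt_IMG` : the column space of a matrix of constant rank is a subbundle.
* `Stmt_KER` : the kernel of a matrix of constant rank is a subbundle.
* `Stmt_ANN` : a subbundle is the kernel of a matrix (equations for a subbundle).
* `Stmt_ECH` : echelon form of a subbundle in a chart which is good modulo `ρ`.
All four are corollaries of `Stmt_SNF`.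

## Function field part (FF-B / FF-R only)
* `Stmt_AddChain` : the five steps of the addition on a function field `E / k`
  (corollary of `Stmt_CM`, `Stmt_MULT`, `Stmt_DIV`).

This file contains no `sorry`.
-/

set_option autoImplicit false

noncomputable section

open AlgebraicCurve Matrix

namespace Fermat.Agent.FL

open Fermat.Agent.RED

/-- A ring with a reduction detecting the units and enough evaluations. -/
structure EvRing (R k K S : Type) [CommRing R] [Field k] [Field K] where
  /-- the reduction -/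
  ρ : R →+* k
  /-- the evaluations -/
  ev : S → R →+* K
  unit_iff : ∀ x : R, IsUnit x ↔ ρ x ≠ 0
  ev_inj : ∀ x : R, (∀ s, ev s x = 0) → x = 0

section Abstract

variable {R k K S : Type} [CommRing R] [Field k] [Field K]

/-- The column space of a matrix over a field. -/
def colSpace {L : Type} [Field L] {ι κ : Type} [Fintype κ] (N : Matrix ι κ L) :
    Submodule L (ι → L) :=
  LinearMap.range N.mulVecLin

/-- The kernel of a matrix over a field. -/
def kerSpace {L : Type} [Field L] {ι κ : Type} [Fintype κ] (N : Matrix ι κ L) :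
    Submodule L (κ → L) :=
  LinearMap.ker N.mulVecLin

/-- The columns of `N` are linearly independent modulo `ρ`: `N` is a basis matrix of a
subbundle. -/
def IsSubB (E : EvRing R k K S) {ι : Type} {d : ℕ} (N : Matrix ι (Fin d) R) : Prop :=
  LinearIndependent k (fun b : Fin d => fun i : ι => E.ρ (N i b))

end Abstract

/-- **ABS-IMG**: if `rank (ev s T) ≤ rank (ρ T)` for all `s`, the column spaces of the
`ev s T` and of `ρ T` are the fibres and the reduction of a subbundle. -/
def Stmt_IMG : Prop :=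
  ∀ (R k K S : Type) [CommRing R] [Field k] [Field K] (E : EvRing R k K S)
    (ι κ : Type) [Fintype ι] [Fintype κ] [DecidableEq ι] [DecidableEq κ] (T : Matrix ι κ R),
    (∀ s, (T.map (E.ev s)).rank ≤ (T.map E.ρ).rank) →
    ∃ (d : ℕ) (N : Matrix ι (Fin d) R), IsSubB E N ∧
      colSpace (N.map E.ρ) = colSpace (T.map E.ρ) ∧
      ∀ s, colSpace (N.map (E.ev s)) = colSpace (T.map (E.ev s))

/-- **ABS-KER**: if `rank (ev s T) ≤ rank (ρ T)` for all `s`, the kernels of the `ev s T` and
of `ρ T` are the fibres and the reduction of a subbundle. -/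
def Stmt_KER : Prop :=
  ∀ (R k K S : Type) [CommRing R] [Field k] [Field K] (E : EvRing R k K S)
    (ι κ : Type) [Fintype ι] [Fintype κ] [DecidableEq ι] [DecidableEq κ] (T : Matrix ι κ R),
    (∀ s, (T.map (E.ev s)).rank ≤ (T.map E.ρ).rank) →
    ∃ (d : ℕ) (N : Matrix κ (Fin d) R), IsSubB E N ∧
      colSpace (N.map E.ρ) = kerSpace (T.map E.ρ) ∧
      ∀ s, colSpace (N.map (E.ev s)) = kerSpace (T.map (E.ev s))

/-- **ABS-ANN**: a subbundle is the kernel of a matrix over `R`. -/
def Stmt_ANN : Prop :=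
  ∀ (R k K S : Type) [CommRing R] [Field k] [Field K] (E : EvRing R k K S)
    (ι : Type) [Fintype ι] [DecidableEq ι] (d : ℕ) (N : Matrix ι (Fin d) R), IsSubB E N →
    ∃ (e : ℕ) (P : Matrix (Fin e) ι R),
      kerSpace (P.map E.ρ) = colSpace (N.map E.ρ) ∧
      ∀ s, kerSpace (P.map (E.ev s)) = colSpace (N.map (E.ev s))

/-- **ABS-ECH**: echelon form of a subbundle in a chart `j` which is good modulo `ρ`. -/
def Stmt_ECH : Prop :=
  ∀ (R k K S : Type) [CommRing R] [Field k] [Field K] (E : EvRing R k K S)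
    (ι : Type) [Fintype ι] [DecidableEq ι] (d : ℕ) (N : Matrix ι (Fin d) R)
    (j : Fin d → ι),
    ((N.map E.ρ).submatrix j id).det ≠ 0 →
    ∃ M : Matrix ι (Fin d) R, (∀ a b, M (j a) b = if a = b then 1 else 0) ∧
      colSpace (M.map E.ρ) = colSpace (N.map E.ρ) ∧
      ∀ s, colSpace (M.map (E.ev s)) = colSpace (N.map (E.ev s))

/-- **FF-CHAIN**: the five steps of the addition of divisor classes on a function field `E / k`.
`E₀, Ex, Ey, E''` are effective of degree `g` with `E'' + E₀ - Ex - Ey = div h`, and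
`l(Ex + Ey - E₀) = 1`; `c ≥ 0`, `deg B₁ ≥ g + c + 1`, `deg B₂ ≥ 2 deg B₁ + c`.
Write `L = riemannRochSpace`.
1. `L(B₂ - Ey) = L(B₁ - Ey) · L(B₂ - B₁)`;
2. `L(B₁ + B₂ - Ex - Ey) = L(B₁ - Ex) · L(B₂ - Ey)`;
3. every multiplier `φ : L(B₁ + B₂ - Ex - Ey) → L(B₁ + B₂ - E₀)` is `a • (h * ·)`;
4. `h · L(B₁ + B₂ - Ex - Ey) = L(B₁ + B₂ - E₀ - E'')`;
5. `u · L(B₂ - E₀) ⊆ L(B₁ + B₂ - E₀ - E'')` iff `u ∈ L(B₁ - E'')`. -/
def Stmt_AddChain : Prop :=
  ∀ (k E : Type) [Field k] [Field E] [Algebra k E] [IsAlgClosed k], IsFF k E →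
    ∀ (g : ℕ) (c : ℤ), IsRiemann k E g c → 0 ≤ c →
    ∀ (B₁ B₂ E₀ Ex Ey E'' : Divisor k E) (h : E),
      0 ≤ E₀ → 0 ≤ Ex → 0 ≤ Ey → 0 ≤ E'' →
      Divisor.degree E₀ = g → Divisor.degree Ex = g → Divisor.degree Ey = g →
      Divisor.degree E'' = g →
      (g : ℤ) + c + 1 ≤ Divisor.degree B₁ → 2 * Divisor.degree B₁ + c ≤ Divisor.degree B₂ →
      h ≠ 0 → (∀ v : Place k E, v.ord h = (E'' + E₀ - Ex - Ey) v) →
      Module.finrank k (riemannRochSpace (Ex + Ey - E₀)) = 1 →
      -- step 1
      (∀ f ∈ riemannRochSpace (B₂ - Ey), f ∈ Submodule.span k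
          {z : E | ∃ a ∈ riemannRochSpace (B₁ - Ey), ∃ b ∈ riemannRochSpace (B₂ - B₁),
            z = a * b}) ∧
      -- step 2
      (∀ f ∈ riemannRochSpace (B₁ + B₂ - Ex - Ey), f ∈ Submodule.span k
          {z : E | ∃ a ∈ riemannRochSpace (B₁ - Ex), ∃ b ∈ riemannRochSpace (B₂ - Ey),
            z = a * b}) ∧
      -- step 3
      (∀ φ : ↥(riemannRochSpace (B₁ + B₂ - Ex - Ey)) →ₗ[k] E,
        (∀ z₁ z₂ : ↥(riemannRochSpace (B₁ + B₂ - Ex - Ey)),
          φ z₁ * (z₂ : E) = φ z₂ * (z₁ : E)) →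
        (∀ z, φ z ∈ riemannRochSpace (B₁ + B₂ - E₀)) →
        ∃ a : k, ∀ z : ↥(riemannRochSpace (B₁ + B₂ - Ex - Ey)), φ z = a • (h * (z : E))) ∧
      -- step 4
      (∀ f : E, f ∈ riemannRochSpace (B₁ + B₂ - E₀ - E'') ↔
        ∃ z ∈ riemannRochSpace (B₁ + B₂ - Ex - Ey), f = h * z) ∧
      -- step 5
      (∀ u : E, u ∈ riemannRochSpace (B₁ - E'') ↔
        ∀ w ∈ riemannRochSpace (B₂ - E₀), u * w ∈ riemannRochSpace (B₁ + B₂ - E₀ - E''))

end Fermat.Agent.FL
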