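import Fermat.Agent.FL.Defs2

/-!
# G-FL (S19), interface statements, layer 2: the addition chain in coordinates

Head of G-FL: helper36.  Plan: `NOTES/plan/G_FL.md` §2.

Coordinates: `ι₁, ι₂₁, ι₂, ι₃, ι₄` index frames (bases) of
`L(B₁), L(B₂ - B₁), L(B₂), L(B₁ + B₂), L(2 B₁ + 2 B₂)`;  `a, b, c` are the structure constants
of the multiplications `L(B₁) × L(B₂ - B₁) → L(B₂)`, `L(B₁) × L(B₂) → L(B₁ + B₂)`,
`L(B₁ + B₂) × L(B₁ + B₂) → L(2 B₁ + 2 B₂)`.

The chain (`Chain.*`), for coordinate subspaces `Wx, Wy ⊆ L(B₁)`, `Y₀ ⊆ L(B₁ + B₂)`,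
`U₀ ⊆ L(B₂)` and a vector `z ∈ L(B₁ + B₂)`:
```
W2 := Wy · (everything)          (= L(B₂ - Ey))
P  := Wx · W2                    (= L(B₁ + B₂ - Ex - Ey))
Yz := Y₀ · z                     (z ∈ P, z ≠ 0)
Ys := { y ∈ Y₀ | y · P ⊆ Yz }    (= the line h z, where h · P ⊆ Y₀)
yP := Ys · P                     (= h z P)
Rr := { y' | y' · z ∈ yP }       (= h P = L(B₁ + B₂ - E₀ - E''))
Z  := { u | u · U₀ ⊆ Rr }        (= L(B₁ - E''))
```
* `Stmt_AbsAdd`    : (abstract, from `Stmt_IMG`, `Stmt_KER`, `Stmt_ANN`) if the dimensions of the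
  seven spaces at every point `s` are on the right side of those of the reduction, then `Z` is a
  subbundle.
* `Stmt_ChainCoord` : (one function field, from `Stmt_AddChain`) the chain computes the
  coordinates of `L(B₁ - E'')`.

This file contains no `sorry`.
-/

set_option autoImplicit false

noncomputable section

open AlgebraicCurve Matrix

namespace Fermat.Agent.FL

open Fermat.Agent.RED

section Chain

variable {L : Type} [Field L] {α β γ : Type} [Fintype α] [Fintype β]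

/-- The bilinear map with structure constants `t`. -/
def bil (t : α → β → γ → L) (u : α → L) (w : β → L) : γ → L :=
  fun l => ∑ i, ∑ j, t i j l * u i * w j

/-- The span of the products `u · w`, `u ∈ U`, `w ∈ W`. -/
def mulSpan (t : α → β → γ → L) (U : Submodule L (α → L)) (W : Submodule L (β → L)) :
    Submodule L (γ → L) :=
  Submodule.span L {v | ∃ u ∈ U, ∃ w ∈ W, v = bil t u w}

/-- The transporter `{u | u · W ⊆ T}`. -/
def transp (t : α → β → γ → L) (W : Submodule L (β → L)) (T : Submodule L (γ → L)) :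
    Submodule L (α → L) where
  carrier := {u | ∀ w ∈ W, bil t u w ∈ T}
  zero_mem' := by
    intro w _
    have : bil t (0 : α → L) w = 0 := by
      funext l
      simp [bil]
    rw [this]
    exact T.zero_mem
  add_mem' := by
    intro u u' hu hu' w hw
    have : bil t (u + u') w = bil t u w + bil t u' w := by
      funext l
      simp only [bil, Pi.add_apply, mul_add, add_mul, Finset.sum_add_distrib]
    rw [this]
    exact T.add_mem (hu w hw) (hu' w hw)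
  smul_mem' := by
    intro r u hu w hw
    have : bil t (r • u) w = r • bil t u w := by
      funext l
      simp only [bil, Pi.smul_apply, smul_eq_mul, Finset.mul_sum]
      refine Finset.sum_congr rfl fun i _ => Finset.sum_congr rfl fun j _ => ?_
      ring
    rw [this]
    exact T.smul_mem r (hu w hw)

end Chain

/-- The data of the chain over a field `L`. -/
structure ChainData (L ι₁ ι₂₁ ι₂ ι₃ ι₄ : Type) [Field L] where
  /-- structure constants of `L(B₁) × L(B₂ - B₁) → L(B₂)` -/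
  a : ι₁ → ι₂₁ → ι₂ → L
  /-- structure constants of `L(B₁) × L(B₂) → L(B₁ + B₂)` -/
  b : ι₁ → ι₂ → ι₃ → L
  /-- structure constants of `L(B₁ + B₂) × L(B₁ + B₂) → L(2 B₁ + 2 B₂)` -/
  c : ι₃ → ι₃ → ι₄ → L
  /-- coordinates of `L(B₁ - Ex)` -/
  Wx : Submodule L (ι₁ → L)
  /-- coordinates of `L(B₁ - Ey)` -/
  Wy : Submodule L (ι₁ → L)
  /-- coordinates of `L(B₁ + B₂ - E₀)` -/
  Y₀ : Submodule L (ι₃ → L)
  /-- coordinates of `L(B₂ - E₀)` -/
  U₀ : Submodule L (ι₂ → L)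
  /-- coordinates of a nonzero element of `L(B₁ + B₂ - Ex - Ey)` -/
  z : ι₃ → L

namespace ChainData

variable {L ι₁ ι₂₁ ι₂ ι₃ ι₄ : Type} [Field L] [Fintype ι₁] [Fintype ι₂₁] [Fintype ι₂]
  [Fintype ι₃] (X : ChainData L ι₁ ι₂₁ ι₂ ι₃ ι₄)

/-- `Wy · L(B₂ - B₁)`. -/
def W2 : Submodule L (ι₂ → L) := mulSpan X.a X.Wy ⊤

/-- `Wx · W2`. -/
def P : Submodule L (ι₃ → L) := mulSpan X.b X.Wx X.W2

/-- `Y₀ · z`. -/
def Yz : Submodule L (ι₄ → L) := mulSpan X.c X.Y₀ (Submodule.span L {X.z})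

/-- `{y ∈ Y₀ | y · P ⊆ Y₀ · z}`. -/
def Ys : Submodule L (ι₃ → L) := X.Y₀ ⊓ transp X.c X.P X.Yz

/-- `Ys · P`. -/
def yP : Submodule L (ι₄ → L) := mulSpan X.c X.Ys X.P

/-- `{y' | y' · z ∈ Ys · P}`. -/
def Rr : Submodule L (ι₃ → L) := transp X.c (Submodule.span L {X.z}) X.yP

/-- `{u | u · U₀ ⊆ Rr}`. -/
def Z : Submodule L (ι₁ → L) := transp X.b X.U₀ X.Rr

end ChainData

/-- The chain data at a ring homomorphism `f : R →+* L`, from data over `R`:
structure constants `a, b, c` over `R`, basis matrices `Nx, Ny, NY, NU` and a vector `z`. -/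
def chainAt {R L ι₁ ι₂₁ ι₂ ι₃ ι₄ : Type} [CommRing R] [Field L] {dx dy dY dU : ℕ}
    (a : ι₁ → ι₂₁ → ι₂ → R) (b : ι₁ → ι₂ → ι₃ → R) (c : ι₃ → ι₃ → ι₄ → R)
    (Nx : Matrix ι₁ (Fin dx) R) (Ny : Matrix ι₁ (Fin dy) R) (NY : Matrix ι₃ (Fin dY) R)
    (NU : Matrix ι₂ (Fin dU) R) (z : ι₃ → R) (f : R →+* L) :
    ChainData L ι₁ ι₂₁ ι₂ ι₃ ι₄ where
  a := fun i j l => f (a i j l)
  b := fun i j l => f (b i j l)
  c := fun i j l => f (c i j l)
  Wx := colSpace (Nx.map f)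
  Wy := colSpace (Ny.map f)
  Y₀ := colSpace (NY.map f)
  U₀ := colSpace (NU.map f)
  z := fun i => f (z i)

/-- **ABS-ADD**: the chain over an `EvRing`.  If at every point `s` the dimensions of the
image-type spaces `W2, P, Yz, yP` are at most, and those of the kernel-type spaces `Ys, Rr, Z`
at least, the dimensions of the corresponding spaces of the reduction, then `Z` is a subbundle.
(Seven applications of `Stmt_IMG` / `Stmt_ANN` + `Stmt_KER`.) -/
def Stmt_AbsAdd : Prop :=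
  ∀ (R k K S : Type) [CommRing R] [Field k] [Field K] (E : EvRing R k K S)
    (ι₁ ι₂₁ ι₂ ι₃ ι₄ : Type) [Fintype ι₁] [Fintype ι₂₁] [Fintype ι₂] [Fintype ι₃] [Fintype ι₄]
    [DecidableEq ι₁] [DecidableEq ι₂₁] [DecidableEq ι₂] [DecidableEq ι₃] [DecidableEq ι₄]
    (dx dy dY dU : ℕ)
    (a : ι₁ → ι₂₁ → ι₂ → R) (b : ι₁ → ι₂ → ι₃ → R) (c : ι₃ → ι₃ → ι₄ → R)
    (Nx : Matrix ι₁ (Fin dx) R) (Ny : Matrix ι₁ (Fin dy) R) (NY : Matrix ι₃ (Fin dY) R)
    (NU : Matrix ι₂ (Fin dU) R) (z : ι₃ → R),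
    IsSubB E Nx → IsSubB E Ny → IsSubB E NY → IsSubB E NU →
    (∀ s, Module.finrank K (chainAt a b c Nx Ny NY NU z (E.ev s)).W2 ≤
      Module.finrank k (chainAt a b c Nx Ny NY NU z E.ρ).W2) →
    (∀ s, Module.finrank K (chainAt a b c Nx Ny NY NU z (E.ev s)).P ≤
      Module.finrank k (chainAt a b c Nx Ny NY NU z E.ρ).P) →
    (∀ s, Module.finrank K (chainAt a b c Nx Ny NY NU z (E.ev s)).Yz ≤
      Module.finrank k (chainAt a b c Nx Ny NY NU z E.ρ).Yz) →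
    (∀ s, Module.finrank k (chainAt a b c Nx Ny NY NU z E.ρ).Ys ≤
      Module.finrank K (chainAt a b c Nx Ny NY NU z (E.ev s)).Ys) →
    (∀ s, Module.finrank K (chainAt a b c Nx Ny NY NU z (E.ev s)).yP ≤
      Module.finrank k (chainAt a b c Nx Ny NY NU z E.ρ).yP) →
    (∀ s, Module.finrank k (chainAt a b c Nx Ny NY NU z E.ρ).Rr ≤
      Module.finrank K (chainAt a b c Nx Ny NY NU z (E.ev s)).Rr) →
    (∀ s, Module.finrank k (chainAt a b c Nx Ny NY NU z E.ρ).Z ≤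
      Module.finrank K (chainAt a b c Nx Ny NY NU z (E.ev s)).Z) →
    ∃ (d : ℕ) (N : Matrix ι₁ (Fin d) R), IsSubB E N ∧
      colSpace (N.map E.ρ) = (chainAt a b c Nx Ny NY NU z E.ρ).Z ∧
      ∀ s, colSpace (N.map (E.ev s)) = (chainAt a b c Nx Ny NY NU z (E.ev s)).Z

/-- The coordinate subspace of a subspace `W` of `E` with respect to a family `e`. -/
def coordSpace {k E ι : Type} [Field k] [Field E] [Algebra k E] [Fintype ι] (e : ι → E)
    (W : Submodule k E) : Submodule k (ι → k) where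
  carrier := {u | ∑ i, u i • e i ∈ W}
  zero_mem' := by simp
  add_mem' := by
    intro u u' hu hu'
    have : ∑ i, (u + u') i • e i = ∑ i, u i • e i + ∑ i, u' i • e i := by
      simp only [Pi.add_apply, add_smul, Finset.sum_add_distrib]
    show ∑ i, (u + u') i • e i ∈ W
    rw [this]
    exact W.add_mem hu hu'
  smul_mem' := by
    intro r u hu
    have : ∑ i, (r • u) i • e i = r • ∑ i, u i • e i := by
      simp only [Pi.smul_apply, smul_eq_mul, mul_smul, Finset.smul_sum]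
    show ∑ i, (r • u) i • e i ∈ W
    rw [this]
    exact W.smul_mem r hu

/-- `e` is a basis of `L(D)`: linearly independent, in `L(D)`, spanning. -/
def IsFrameOf {k E ι : Type} [Field k] [Field E] [Algebra k E] (e : ι → E)
    (D : Divisor k E) : Prop :=
  LinearIndependent k e ∧ Submodule.span k (Set.range e) = riemannRochSpace D

/-- **FF-CHAINCOORD**: on a function field `E / k` with frames `e₁, e₂₁, e₂, e₃, e₄` of
`L(B₁), L(B₂ - B₁), L(B₂), L(B₁ + B₂), L(2 B₁ + 2 B₂)` and structure constants `a, b, c`, under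
the hypotheses of `Stmt_AddChain`, the chain started with the coordinates of
`L(B₁ - Ex), L(B₁ - Ey), L(B₁ + B₂ - E₀), L(B₂ - E₀)` and of `0 ≠ z ∈ L(B₁ + B₂ - Ex - Ey)`
consists of the coordinates of
`L(B₂ - Ey)`, `L(B₁ + B₂ - Ex - Ey)`, `z · L(B₁ + B₂ - E₀)`, `k · h z`, `h z · L(B₁ + B₂ - Ex - Ey)`,
`L(B₁ + B₂ - E₀ - E'')`, `L(B₁ - E'')`; their dimensions are (with `bᵢ = deg Bᵢ`)
`b₂ - 2g + 1`, `b₁ + b₂ - 3g + 1`, `b₁ + b₂ - 2g + 1`, `1`, `b₁ + b₂ - 3g + 1`,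
`b₁ + b₂ - 3g + 1`, `b₁ - 2g + 1`. -/
def Stmt_ChainCoord : Prop :=
  ∀ (k E : Type) [Field k] [Field E] [Algebra k E] [IsAlgClosed k], IsFF k E →
    ∀ (g : ℕ) (c₀ : ℤ), IsRiemann k E g c₀ → 0 ≤ c₀ →
    ∀ (B₁ B₂ E₀ Ex Ey E'' : Divisor k E) (h zf : E),
      0 ≤ E₀ → 0 ≤ Ex → 0 ≤ Ey → 0 ≤ E'' →
      Divisor.degree E₀ = g → Divisor.degree Ex = g → Divisor.degree Ey = g →
      Divisor.degree E'' = g →
      (g : ℤ) + c₀ + 1 ≤ Divisor.degree B₁ → 2 * Divisor.degree B₁ + c₀ ≤ Divisor.degree B₂ →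
      h ≠ 0 → (∀ v : Place k E, v.ord h = (E'' + E₀ - Ex - Ey) v) →
      Module.finrank k (riemannRochSpace (Ex + Ey - E₀)) = 1 →
      zf ≠ 0 → zf ∈ riemannRochSpace (B₁ + B₂ - Ex - Ey) →
    ∀ (ι₁ ι₂₁ ι₂ ι₃ ι₄ : Type) [Fintype ι₁] [Fintype ι₂₁] [Fintype ι₂] [Fintype ι₃] [Fintype ι₄]
      (e₁ : ι₁ → E) (e₂₁ : ι₂₁ → E) (e₂ : ι₂ → E) (e₃ : ι₃ → E) (e₄ : ι₄ → E),
      IsFrameOf e₁ B₁ → IsFrameOf e₂₁ (B₂ - B₁) → IsFrameOf e₂ B₂ → IsFrameOf e₃ (B₁ + B₂) →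
      IsFrameOf e₄ (2 • B₁ + 2 • B₂) →
    ∀ (X : ChainData k ι₁ ι₂₁ ι₂ ι₃ ι₄),
      (∀ i j, e₁ i * e₂₁ j = ∑ l, X.a i j l • e₂ l) →
      (∀ i j, e₁ i * e₂ j = ∑ l, X.b i j l • e₃ l) →
      (∀ i j, e₃ i * e₃ j = ∑ l, X.c i j l • e₄ l) →
      X.Wx = coordSpace e₁ (riemannRochSpace (B₁ - Ex)) →
      X.Wy = coordSpace e₁ (riemannRochSpace (B₁ - Ey)) →
      X.Y₀ = coordSpace e₃ (riemannRochSpace (B₁ + B₂ - E₀)) →
      X.U₀ = coordSpace e₂ (riemannRochSpace (B₂ - E₀)) →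
      zf = ∑ i, X.z i • e₃ i →
      X.W2 = coordSpace e₂ (riemannRochSpace (B₂ - Ey)) ∧
      X.P = coordSpace e₃ (riemannRochSpace (B₁ + B₂ - Ex - Ey)) ∧
      X.Rr = coordSpace e₃ (riemannRochSpace (B₁ + B₂ - E₀ - E'')) ∧
      X.Z = coordSpace e₁ (riemannRochSpace (B₁ - E'')) ∧
      (Module.finrank k X.W2 : ℤ) = Divisor.degree B₂ - 2 * g + 1 ∧
      (Module.finrank k X.P : ℤ) = Divisor.degree B₁ + Divisor.degree B₂ - 3 * g + 1 ∧
      (Module.finrank k X.Yz : ℤ) = Divisor.degree B₁ + Divisor.degree B₂ - 2 * g + 1 ∧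
      Module.finrank k X.Ys = 1 ∧
      (Module.finrank k X.yP : ℤ) = Divisor.degree B₁ + Divisor.degree B₂ - 3 * g + 1 ∧
      (Module.finrank k X.Rr : ℤ) = Divisor.degree B₁ + Divisor.degree B₂ - 3 * g + 1 ∧
      (Module.finrank k X.Z : ℤ) = Divisor.degree B₁ - 2 * g + 1

end Fermat.Agent.FL
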