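import Fermat.Agent.FL.Defs3
import Fermat.Agent.RED.H17_Lift
import Fermat.Agent.Lib.HopfOrderLoc.Defs

/-!
# G-FL (S19), interface statements, layer 3: the abstract main theorem

Head of G-FL: helper36.  Plan: `NOTES/plan/G_FL.md` (v2).

Setting (abstract form of G-RED, helper17's `RedSetup`): `F / K` a function field with a
reduction `S : RedSetup K F k F'` (Gauss valuation ring `S.V`, reduction `S.rd`, reduction of
places `S.r` with the divisor identity), such that the genus does not drop (`S.GenusLE'`).
A group `Γ` (the decomposition group) acts semilinearly on `F` and on `F'`, compatibly with the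
reduction; the subgroup `I` (inertia) acts trivially on `F'`  (`GalRed`).

* `constVal S`  : the valuation ring `A = K ∩ V` of the constants.
* `GalRed S Γ`  : the Galois action on a reduction datum.
* `Stmt_FLAbs`  : **the abstract main theorem**: every finite `Γ`-stable set `𝒮` of points of
  `Pic⁰(F)` has finitely many coordinate functions `h j : 𝒮 → A`, `I`-equivariant, separating,
  such that the ring generated by them is `Γ`-stable and the (partial) addition
  `(x, y) ↦ h j (x + y)` lies in `pairRing A h`.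

The hypotheses (UNR) and (FR) of `Stmt_FLAbs` are what the modular curve has to supply
(packages MOD-UNR, MOD-FRAME); everything else is function field theory + linear algebra.
This file contains no `sorry`.
-/

set_option autoImplicit false

noncomputable section

open AlgebraicCurve

namespace Fermat.Agent.FL

open Fermat.Agent.RED Fermat.Agent.RED.H17 Fermat.Agent.Lib.HopfOrder
  Fermat.Agent.Lib.HopfOrderLoc

section Ctx

variable {K F k F' : Type} [Field K] [Field F] [Algebra K F] [Field k] [Field F']
  [Algebra k F']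

/-- The valuation ring of the constants: `A = K ∩ V`. -/
def constVal (S : RedSetup K F k F') : ValuationSubring K :=
  S.V.comap (algebraMap K F)

theorem mem_constVal (S : RedSetup K F k F') (c : K) :
    c ∈ constVal S ↔ algebraMap K F c ∈ S.V := Iff.rfl

/-- A group `Γ` acting semilinearly on `F / K` and on `F' / k`, compatibly with the reduction
datum `S`; the subgroup `I` acts trivially on `F'`.
(`Γ` = decomposition group of the place, `I` = inertia group.) -/
structure GalRed (S : RedSetup K F k F') (Γ : Type) [Group Γ] where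
  /-- the action on the function field -/
  act : Γ →* SemilinearAut K F
  /-- the action on the reduced function field -/
  act' : Γ →* SemilinearAut k F'
  /-- the inertia subgroup -/
  I : Subgroup Γ
  mem_V : ∀ (σ : Γ) (u : F), u ∈ S.V → act σ • u ∈ S.V
  rd_smul : ∀ (σ : Γ) (u : F), u ∈ S.V → S.rd (act σ • u) = act' σ • S.rd u
  r_smul : ∀ (σ : Γ) (P : Place K F), S.r (act σ • P) = act' σ • S.r P
  inertia : ∀ σ ∈ I, act' σ = 1

end Ctx

/-- **(UNR)**: every constant of the residue field is the reduction of an inertia-fixed integral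
constant. -/
def HasUnrConst {K F k F' : Type} [Field K] [Field F] [Algebra K F] [Field k] [Field F']
    [Algebra k F'] (S : RedSetup K F k F') {Γ : Type} [Group Γ] (G : GalRed S Γ) : Prop :=
  ∀ c' : k, ∃ c : K, c ∈ constVal S ∧ (∀ σ ∈ G.I, SemilinearAut.baseAut (G.act σ) c = c) ∧
    S.rd (algebraMap K F c) = algebraMap k F' c'

/-- **(FR)**: there is a `Γ`-fixed place `Pinf` such that for all large `b` the space `L(b Pinf)`
has a basis of `Γ`-fixed Gauss-integral functions whose reductions are a basis of
`L~(b r(Pinf))`. -/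
def HasRatFrames {K F k F' : Type} [Field K] [Field F] [Algebra K F] [Field k] [Field F']
    [Algebra k F'] (S : RedSetup K F k F') {Γ : Type} [Group Γ] (G : GalRed S Γ) : Prop :=
  ∃ Pinf : Place K F, (∀ σ : Γ, G.act σ • Pinf = Pinf) ∧ ∃ b₀ : ℕ, ∀ b : ℕ, b₀ ≤ b →
    ∃ (n : ℕ) (e : Fin n → F), IsFrameOf e (Finsupp.single Pinf (b : ℤ)) ∧ (∀ i, e i ∈ S.V) ∧
      (∀ (σ : Γ) i, G.act σ • e i = e i) ∧
      IsFrameOf (fun i => S.rd (e i)) (Finsupp.single (S.r Pinf) (b : ℤ))

/-- The conclusion of the abstract main theorem for a set `𝒮` of points of `Pic⁰(F)`: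
finitely many coordinate functions `h j : 𝒮 → K` such that
* the values are integral;
* `h j (σ x) = σ (h j x)` for `σ` in the inertia group;
* for every `σ ∈ Γ` the function `σ x ↦ σ (h j x)` (the twist of `h j` by `σ`) lies in the ring
  generated by the `h i` and the integral constants;
* the `h j` separate the points of `𝒮`;
* `(x, y) ↦ h j (x + y)` (where `x + y ∈ 𝒮`) is the restriction of an element of
  `pairRing A h`. -/
def HasIntCoords {K F k F' : Type} [Field K] [Field F] [Algebra K F] [Field k] [Field F']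
    [Algebra k F'] (S : RedSetup K F k F') {Γ : Type} [Group Γ] (G : GalRed S Γ)
    (𝒮 : Set (Pic0 K F)) : Prop :=
  ∃ (ι : Type) (_ : Finite ι) (h : ι → 𝒮 → K),
    (∀ j x, h j x ∈ constVal S) ∧
    (∀ j, ∀ σ ∈ G.I, ∀ (x : 𝒮) (hx : G.act σ • (x : Pic0 K F) ∈ 𝒮),
      h j ⟨_, hx⟩ = SemilinearAut.baseAut (G.act σ) (h j x)) ∧
    (∀ j (σ : Γ), ∃ φ ∈ genRing (constVal S).toSubring h,
      ∀ (x : 𝒮) (hx : G.act σ • (x : Pic0 K F) ∈ 𝒮),
        φ ⟨_, hx⟩ = SemilinearAut.baseAut (G.act σ) (h j x)) ∧
    (∀ x y : 𝒮, x ≠ y → ∃ j, h j x ≠ h j y) ∧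
    (∀ j, ∃ φ ∈ pairRing (constVal S).toSubring h,
      ∀ (x y : 𝒮) (hxy : (x : Pic0 K F) + (y : Pic0 K F) ∈ 𝒮), φ (x, y) = h j ⟨_, hxy⟩)

/-- **The abstract main theorem of G-FL** (head: helper36; packages: `FL/Defs5.lean`). -/
def Stmt_FLAbs : Prop :=
  ∀ (K F k F' : Type) [Field K] [Field F] [Algebra K F] [Field k] [Field F'] [Algebra k F']
    [IsAlgClosed K] [IsAlgClosed k] (S : RedSetup K F k F'), IsFF K F → IsFF k F' →
    S.GenusLE' →
  ∀ (Γ : Type) [Group Γ] (G : GalRed S Γ), HasUnrConst S G → HasRatFrames S G →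
  ∀ 𝒮 : Set (Pic0 K F), 𝒮.Finite → (∀ (σ : Γ), ∀ x ∈ 𝒮, G.act σ • x ∈ 𝒮) →
    HasIntCoords S G 𝒮

end Fermat.Agent.FL
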