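import Fermat.Agent.FL.Defs4

/-!
# G-FL (S19), interface statements, layer 4: the packages of the abstract main theorem

Head of G-FL: helper36.  Plan: `NOTES/plan/G_FL.md` (v2).  Setting: `FL/Defs4.lean`
(`S : RedSetup K F k F'`, `G : GalRed S Γ`).  `L = riemannRochSpace`, `r_* = Finsupp.mapDomain S.r`.

## Reduction of frames (package RED-FRAME)
* `rc S`            : reduction of constants `K → k` (junk value `0` outside `A = constVal S`).
* `IsIntFrame S e D`: `e` is a basis of `L(D)` of Gauss-integral functions whose reductions are a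
                      basis of `L~(r_* D)`.
* `IsEch S e D J M` : `M` is the echelon basis, in the chart `J`, of the coordinates of `L(D)`
                      with respect to `e`; its entries are integral and its reduction spans the
                      coordinates of `L~(r_* D)`.
* `Stmt_Genus`, `Stmt_FrameInt`, `Stmt_FrameLift`, `Stmt_SubRed`, `Stmt_EchInt`, `Stmt_EchUnique`.

## Representatives (package RED-REP)
* `Stmt_RedLinEq`, `Stmt_Rep`, `Stmt_Sep`, `Stmt_ILift`.

## The family version of the addition (package FAM-ADD)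
* `famRing`, `Stmt_FamAdd`.

## The coordinate system and the assembly
* `CoordSys S G 𝒯`, `CoordSys.gen`, `Stmt_Setup`, `Stmt_Basic`, `Stmt_Comul`, `Stmt_DStab`.

This file contains no `sorry`.
-/

set_option autoImplicit false

noncomputable section

open AlgebraicCurve Matrix

namespace Fermat.Agent.FL

open Fermat.Agent.RED Fermat.Agent.RED.H17 Fermat.Agent.Lib.HopfOrder
  Fermat.Agent.Lib.HopfOrderLoc

section Defs

variable {K F k F' : Type} [Field K] [Field F] [Algebra K F] [Field k] [Field F']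
  [Algebra k F']

open Classical in
/-- Reduction of constants (junk value `0` outside `A`). -/
def rc (S : RedSetup K F k F') (c : K) : k :=
  if h : algebraMap K F c ∈ S.V then Classical.choose (S.red_const c h) else 0

theorem rc_spec (S : RedSetup K F k F') {c : K} (h : algebraMap K F c ∈ S.V) :
    S.red ⟨_, h⟩ = algebraMap k F' (rc S c) := by
  unfold rc
  rw [dif_pos h]
  exact Classical.choose_spec (S.red_const c h)

/-- `e` is a basis of `L(D)` consisting of Gauss-integral functions whose reductions are a basis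
of `L~(r_* D)`. -/
def IsIntFrame (S : RedSetup K F k F') {ι : Type} (e : ι → F) (D : Divisor K F) : Prop :=
  IsFrameOf e D ∧ (∀ i, e i ∈ S.V) ∧
    IsFrameOf (fun i => S.rd (e i)) (Finsupp.mapDomain S.r D)

/-- `M` is the integral echelon basis in the chart `J` of the coordinates of `L(D)` with respect
to `e`, and its reduction spans the coordinates of `L~(r_* D)`. -/
def IsEch (S : RedSetup K F k F') {ι : Type} [Fintype ι] {d : ℕ} (e : ι → F)
    (D : Divisor K F) (J : Fin d → ι) (M : Matrix ι (Fin d) K) : Prop :=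
  (∀ a b, M (J a) b = if a = b then 1 else 0) ∧
  colSpace M = coordSpace e (riemannRochSpace D) ∧
  (∀ i b, M i b ∈ constVal S) ∧
  colSpace (M.map (rc S)) =
    coordSpace (fun i => S.rd (e i)) (riemannRochSpace (Finsupp.mapDomain S.r D))

/-- The ring of functions on `P` generated by the integral constants and the entries of two
families of matrices. -/
def famRing (A : Subring K) {P ι : Type} {d : ℕ} (Mx My : P → Matrix ι (Fin d) K) :
    Subring (P → K) :=
  Subring.closure ({φ | ∃ a ∈ A, φ = fun _ => a} ∪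
    ({φ | ∃ i b, φ = fun p => Mx p i b} ∪ {φ | ∃ i b, φ = fun p => My p i b}))

end Defs

/-! ## Package RED-FRAME -/

/-- **GENUS**: if the genus does not drop, `F` and `F'` satisfy Riemann's theorem with the same
constants, `l(D) ≤ l~(r_* D)` for all `D`, with equality if `deg D ≥ c`.
(`H42.stmt_FFR_riemann` on both sides, `H17.RedSetup.le_finrank_Rsub`, `Rsub_le`.) -/
def Stmt_Genus : Prop :=
  ∀ (K F k F' : Type) [Field K] [Field F] [Algebra K F] [Field k] [Field F'] [Algebra k F']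
    [IsAlgClosed K] [IsAlgClosed k] (S : RedSetup K F k F'), IsFF K F → IsFF k F' →
    S.GenusLE' →
    ∃ (g : ℕ) (c : ℤ), 0 ≤ c ∧ IsRiemann K F g c ∧ IsRiemann k F' g c ∧
      (∀ D : Divisor K F, Module.finrank K (riemannRochSpace D) ≤
        Module.finrank k (riemannRochSpace (Finsupp.mapDomain S.r D))) ∧
      (∀ D : Divisor K F, c ≤ Divisor.degree D →
        Module.finrank k (riemannRochSpace (Finsupp.mapDomain S.r D)) =
          Module.finrank K (riemannRochSpace D))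

/-- **FRAME-INT**: if the reductions of the Gauss-integral functions `e i` are linearly
independent, a linear combination of the `e i` is Gauss-integral only if its coefficients are
integral; then its reduction is the linear combination of the reductions. -/
def Stmt_FrameInt : Prop :=
  ∀ (K F k F' : Type) [Field K] [Field F] [Algebra K F] [Field k] [Field F'] [Algebra k F']
    (S : RedSetup K F k F') (ι : Type) [Fintype ι] (e : ι → F), (∀ i, e i ∈ S.V) →
    LinearIndependent k (fun i => S.rd (e i)) →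
    ∀ u : ι → K, (∑ i, u i • e i) ∈ S.V →
      (∀ i, u i ∈ constVal S) ∧ S.rd (∑ i, u i • e i) = ∑ i, rc S (u i) • S.rd (e i)

/-- **FRAME-LIFT**: if `l~(r_* D) ≤ l(D)` then `L(D)` has an integral frame. -/
def Stmt_FrameLift : Prop :=
  ∀ (K F k F' : Type) [Field K] [Field F] [Algebra K F] [Field k] [Field F'] [Algebra k F']
    [IsAlgClosed K] [IsAlgClosed k] (S : RedSetup K F k F'), IsFF K F → IsFF k F' →
    ∀ D : Divisor K F,
      Module.finrank k (riemannRochSpace (Finsupp.mapDomain S.r D)) ≤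
        Module.finrank K (riemannRochSpace D) →
      ∃ (n : ℕ) (e : Fin n → F), IsIntFrame S e D

/-- **SUB-RED**: let `e` be an integral frame of `L(B)` and `E ≥ 0` with
`l~(r_* (B - E)) ≤ l(B - E)`.  The coordinates of `L(B - E)` have an integral basis matrix whose
reduction is a basis matrix of the coordinates of `L~(r_* (B - E))`. -/
def Stmt_SubRed : Prop :=
  ∀ (K F k F' : Type) [Field K] [Field F] [Algebra K F] [Field k] [Field F'] [Algebra k F']
    [IsAlgClosed K] [IsAlgClosed k] (S : RedSetup K F k F'), IsFF K F → IsFF k F' →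
    ∀ (B E : Divisor K F) (ι : Type) [Fintype ι] (e : ι → F), IsIntFrame S e B → 0 ≤ E →
      Module.finrank k (riemannRochSpace (Finsupp.mapDomain S.r (B - E))) ≤
        Module.finrank K (riemannRochSpace (B - E)) →
      ∃ (d : ℕ) (N : Matrix ι (Fin d) K), (∀ i b, N i b ∈ constVal S) ∧
        LinearIndependent k (fun b : Fin d => fun i : ι => rc S (N i b)) ∧
        colSpace N = coordSpace e (riemannRochSpace (B - E)) ∧
        colSpace (N.map (rc S)) = coordSpace (fun i => S.rd (e i))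
          (riemannRochSpace (Finsupp.mapDomain S.r (B - E)))

/-- **ECH-INT**: in the situation of SUB-RED, if the chart `J` is good for the reduction (the
coordinates of `L~(r_* (B - E))` have an echelon basis `M'` in the chart `J`), the coordinates
of `L(B - E)` have an integral echelon basis in the chart `J`, with reduction `M'`. -/
def Stmt_EchInt : Prop :=
  ∀ (K F k F' : Type) [Field K] [Field F] [Algebra K F] [Field k] [Field F'] [Algebra k F']
    [IsAlgClosed K] [IsAlgClosed k] (S : RedSetup K F k F'), IsFF K F → IsFF k F' →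
    ∀ (B E : Divisor K F) (ι : Type) [Fintype ι] (e : ι → F), IsIntFrame S e B → 0 ≤ E →
      Module.finrank k (riemannRochSpace (Finsupp.mapDomain S.r (B - E))) ≤
        Module.finrank K (riemannRochSpace (B - E)) →
      ∀ (d : ℕ) (J : Fin d → ι) (M' : Matrix ι (Fin d) k),
        (∀ a b, M' (J a) b = if a = b then 1 else 0) →
        colSpace M' = coordSpace (fun i => S.rd (e i))
          (riemannRochSpace (Finsupp.mapDomain S.r (B - E))) →
        ∃ M : Matrix ι (Fin d) K, IsEch S e (B - E) J M ∧ M.map (rc S) = M'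

/-- **ECH-UNIQUE** (linear algebra): an echelon basis of a subspace in a chart is unique, and
every subspace of dimension `d` has an echelon basis in some chart. -/
def Stmt_EchUnique : Prop :=
  ∀ (L ι : Type) [Field L] [Fintype ι] (d : ℕ),
    (∀ (J : Fin d → ι) (M M' : Matrix ι (Fin d) L),
      (∀ a b, M (J a) b = if a = b then 1 else 0) →
      (∀ a b, M' (J a) b = if a = b then 1 else 0) → colSpace M = colSpace M' → M = M') ∧
    (∀ W : Submodule L (ι → L), Module.finrank L W = d →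
      ∃ (J : Fin d → ι) (M : Matrix ι (Fin d) L),
        (∀ a b, M (J a) b = if a = b then 1 else 0) ∧ colSpace M = W)

/-! ## Package RED-REP -/

/-- **RED-LINEQ**: the reduction of a principal divisor is principal. -/
def Stmt_RedLinEq : Prop :=
  ∀ (K F k F' : Type) [Field K] [Field F] [Algebra K F] [Field k] [Field F'] [Algebra k F']
    [IsAlgClosed K] [IsAlgClosed k] (S : RedSetup K F k F'), IsFF K F → IsFF k F' →
    ∀ (D : Divisor K F) (f : F), f ≠ 0 → (∀ v : Place K F, D v = v.ord f) →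
      ∃ f' : F', f' ≠ 0 ∧ ∀ Q : Place k F', Finsupp.mapDomain S.r D Q = Q.ord f'

/-- **REP**: a divisor `D` of degree `g` with `l~(r_* D) = 1` is linearly equivalent to exactly
one effective divisor `E`; `l(E) = l~(r_* E) = 1`. -/
def Stmt_Rep : Prop :=
  ∀ (K F k F' : Type) [Field K] [Field F] [Algebra K F] [Field k] [Field F'] [Algebra k F']
    [IsAlgClosed K] [IsAlgClosed k] (S : RedSetup K F k F'), IsFF K F → IsFF k F' →
    ∀ (g : ℕ) (c : ℤ), IsRiemann K F g c → IsRiemann k F' g c →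
    ∀ D : Divisor K F, Divisor.degree D = g →
      Module.finrank k (riemannRochSpace (Finsupp.mapDomain S.r D)) = 1 →
      ∃ E : Divisor K F, 0 ≤ E ∧ (∃ f : F, f ≠ 0 ∧ ∀ v : Place K F, (E - D) v = v.ord f) ∧
        (∀ E' : Divisor K F, 0 ≤ E' →
          (∃ f : F, f ≠ 0 ∧ ∀ v : Place K F, (E' - D) v = v.ord f) → E' = E) ∧
        Module.finrank K (riemannRochSpace E) = 1 ∧
        Module.finrank k (riemannRochSpace (Finsupp.mapDomain S.r E)) = 1

/-- **SEP**: `L(B - E)` determines the effective divisor `E` (if `deg (B - E) ≥ c + 1`). -/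
def Stmt_Sep : Prop :=
  ∀ (k E : Type) [Field k] [Field E] [Algebra k E] [IsAlgClosed k], IsFF k E →
    ∀ (g : ℕ) (c : ℤ), IsRiemann k E g c →
    ∀ B E₁ E₂ : Divisor k E, 0 ≤ E₁ → 0 ≤ E₂ →
      c + 1 ≤ Divisor.degree (B - E₁) → c + 1 ≤ Divisor.degree (B - E₂) →
      riemannRochSpace (B - E₁) = riemannRochSpace (B - E₂) → E₁ = E₂

/-- **I-LIFT**: every effective divisor of the reduced field is the reduction of an effective
divisor fixed by the inertia group.
(`Q ≠ r(Pinf)`: choose `t ∈ L~(n r(Pinf) - Q)` with a simple zero at `Q`, lift its coordinates in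
the rational frame to inertia-fixed integral constants, take the unique zero of the lift in the
fibre of `Q`: `H17.RedSetup.exists_unique_zero_of_ord_rd_eq_one`.  `Q = r(Pinf)`: take `Pinf`.) -/
def Stmt_ILift : Prop :=
  ∀ (K F k F' : Type) [Field K] [Field F] [Algebra K F] [Field k] [Field F'] [Algebra k F']
    [IsAlgClosed K] [IsAlgClosed k] (S : RedSetup K F k F'), IsFF K F → IsFF k F' →
    S.GenusLE' →
  ∀ (Γ : Type) [Group Γ] (G : GalRed S Γ), HasUnrConst S G → HasRatFrames S G →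
  ∀ E' : Divisor k F', 0 ≤ E' →
    ∃ E : Divisor K F, 0 ≤ E ∧ Finsupp.mapDomain S.r E = E' ∧ ∀ σ ∈ G.I, G.act σ • E = E

/-! ## Package FAM-ADD -/

/-- **FAM-ADD**: the addition in families.  `P` a finite index set; `Ex p, Ey p, Ez p` effective
divisors of degree `g` with constant reductions `Ex', Ey', Ez'` and
`Ez p + E₀ ~ Ex p + Ey p`, `l~(Ex' + Ey' - r_* E₀) = 1`; `Mx p, My p, Mz p` the integral echelon
bases of the coordinates of `L(B₁ - Ex p), L(B₁ - Ey p), L(B₁ - Ez p)` in charts `Jx, Jy, Jz`.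
Then every entry of `Mz` is a quotient `N / D` of two elements of the ring generated by the
integral constants and the entries of `Mx`, `My`, with `D` unit-valued.
(Proof: `H18.locRing` for the ring `famRing` and the class `P` is an `EvRing`; `Stmt_AbsAdd` with
the ranks from `Stmt_ChainCoord` on `F` (at every `p`) and on `F'` (for the reduction);
`Stmt_ECH` in the chart `Jz`; `Stmt_EchUnique`.) -/
def Stmt_FamAdd : Prop :=
  ∀ (K F k F' : Type) [Field K] [Field F] [Algebra K F] [Field k] [Field F'] [Algebra k F']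
    [IsAlgClosed K] [IsAlgClosed k] (S : RedSetup K F k F'), IsFF K F → IsFF k F' →
  ∀ (g : ℕ) (c : ℤ), 0 ≤ c → IsRiemann K F g c → IsRiemann k F' g c →
    (∀ D : Divisor K F, Module.finrank K (riemannRochSpace D) ≤
      Module.finrank k (riemannRochSpace (Finsupp.mapDomain S.r D))) →
  ∀ (B₁ B₂ E₀ : Divisor K F), (g : ℤ) + c + 1 ≤ Divisor.degree B₁ →
    2 * Divisor.degree B₁ + c ≤ Divisor.degree B₂ → 0 ≤ E₀ → Divisor.degree E₀ = g →
  ∀ (n₁ n₂₁ n₂ n₃ n₄ : ℕ) (e₁ : Fin n₁ → F) (e₂₁ : Fin n₂₁ → F) (e₂ : Fin n₂ → F)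
    (e₃ : Fin n₃ → F) (e₄ : Fin n₄ → F),
    IsIntFrame S e₁ B₁ → IsIntFrame S e₂₁ (B₂ - B₁) → IsIntFrame S e₂ B₂ →
    IsIntFrame S e₃ (B₁ + B₂) → IsIntFrame S e₄ (2 • B₁ + 2 • B₂) →
  ∀ (P : Type) [Finite P] (Ex Ey Ez : P → Divisor K F) (Ex' Ey' Ez' : Divisor k F'),
    (∀ p, 0 ≤ Ex p ∧ Divisor.degree (Ex p) = g ∧ Finsupp.mapDomain S.r (Ex p) = Ex') →
    (∀ p, 0 ≤ Ey p ∧ Divisor.degree (Ey p) = g ∧ Finsupp.mapDomain S.r (Ey p) = Ey') →
    (∀ p, 0 ≤ Ez p ∧ Divisor.degree (Ez p) = g ∧ Finsupp.mapDomain S.r (Ez p) = Ez') →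
    (∀ p, ∃ f : F, f ≠ 0 ∧ ∀ v : Place K F, v.ord f = (Ez p + E₀ - Ex p - Ey p) v) →
    Module.finrank k (riemannRochSpace (Ex' + Ey' - Finsupp.mapDomain S.r E₀)) = 1 →
  ∀ (d : ℕ) (Jx Jy Jz : Fin d → Fin n₁) (Mx My Mz : P → Matrix (Fin n₁) (Fin d) K),
    (∀ p, IsEch S e₁ (B₁ - Ex p) Jx (Mx p)) → (∀ p, IsEch S e₁ (B₁ - Ey p) Jy (My p)) →
    (∀ p, IsEch S e₁ (B₁ - Ez p) Jz (Mz p)) →
  ∀ (i : Fin n₁) (b : Fin d), ∃ D N : P → K,
    D ∈ famRing (constVal S).toSubring Mx My ∧ N ∈ famRing (constVal S).toSubring Mx My ∧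
    (∀ p, D p ≠ 0 ∧ (D p)⁻¹ ∈ constVal S) ∧ ∀ p, D p * Mz p i b = N p

/-! ## The coordinate system -/

/-- A coordinate system for the finite set `𝒯` of points of `Pic⁰(F)`: rational integral frames
of `L(B₁), …`, an inertia-fixed base divisor `E₀`, the representatives `E x` (`[E x - E₀] = x`,
`l~(r_* (E x)) = 1`), a chart for every reduced divisor and the integral echelon bases `M x` of
the coordinates of `L(B₁ - E x)`. -/
structure CoordSys {K F k F' : Type} [Field K] [Field F] [Algebra K F] [Field k] [Field F']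
    [Algebra k F'] (S : RedSetup K F k F') {Γ : Type} [Group Γ] (G : GalRed S Γ)
    (𝒯 : Set (Pic0 K F)) where
  /-- the genus -/
  g : ℕ
  /-- the bound in Riemann's theorem -/
  c : ℤ
  hc : 0 ≤ c
  hR : IsRiemann K F g c
  hR' : IsRiemann k F' g c
  semi : ∀ D : Divisor K F, Module.finrank K (riemannRochSpace D) ≤
    Module.finrank k (riemannRochSpace (Finsupp.mapDomain S.r D))
  /-- the first rational divisor -/
  B₁ : Divisor K F
  /-- the second rational divisor -/
  B₂ : Divisor K F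
  hB₁ : (g : ℤ) + c + 1 ≤ Divisor.degree B₁
  hB₂ : 2 * Divisor.degree B₁ + c ≤ Divisor.degree B₂
  fixB₁ : ∀ σ : Γ, G.act σ • B₁ = B₁
  fixB₂ : ∀ σ : Γ, G.act σ • B₂ = B₂
  /-- the number of elements of the frame of `L(B₁)` -/
  n₁ : ℕ
  /-- the number of elements of the frame of `L(B₂ - B₁)` -/
  n₂₁ : ℕ
  /-- the number of elements of the frame of `L(B₂)` -/
  n₂ : ℕ
  /-- the number of elements of the frame of `L(B₁ + B₂)` -/
  n₃ : ℕ
  /-- the number of elements of the frame of `L(2 B₁ + 2 B₂)` -/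
  n₄ : ℕ
  /-- the frame of `L(B₁)` -/
  e₁ : Fin n₁ → F
  /-- the frame of `L(B₂ - B₁)` -/
  e₂₁ : Fin n₂₁ → F
  /-- the frame of `L(B₂)` -/
  e₂ : Fin n₂ → F
  /-- the frame of `L(B₁ + B₂)` -/
  e₃ : Fin n₃ → F
  /-- the frame of `L(2 B₁ + 2 B₂)` -/
  e₄ : Fin n₄ → F
  he₁ : IsIntFrame S e₁ B₁
  he₂₁ : IsIntFrame S e₂₁ (B₂ - B₁)
  he₂ : IsIntFrame S e₂ B₂
  he₃ : IsIntFrame S e₃ (B₁ + B₂)
  he₄ : IsIntFrame S e₄ (2 • B₁ + 2 • B₂)
  fix₁ : ∀ (σ : Γ) i, G.act σ • e₁ i = e₁ i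
  fix₂₁ : ∀ (σ : Γ) i, G.act σ • e₂₁ i = e₂₁ i
  fix₂ : ∀ (σ : Γ) i, G.act σ • e₂ i = e₂ i
  fix₃ : ∀ (σ : Γ) i, G.act σ • e₃ i = e₃ i
  fix₄ : ∀ (σ : Γ) i, G.act σ • e₄ i = e₄ i
  /-- the base divisor -/
  E₀ : Divisor K F
  hE₀ : 0 ≤ E₀
  degE₀ : Divisor.degree E₀ = g
  fixE₀ : ∀ σ ∈ G.I, G.act σ • E₀ = E₀
  /-- the representatives -/
  E : 𝒯 → Divisor K F
  hE : ∀ x : 𝒯, 0 ≤ E x ∧ Divisor.degree (E x) = g
  mkE : ∀ x : 𝒯, ∃ D : Divisor.degZero (K := K) (F := F),
    Pic0.mk D = (x : Pic0 K F) ∧ (D : Divisor K F) = E x - E₀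
  ns : ∀ x : 𝒯, Module.finrank k (riemannRochSpace (Finsupp.mapDomain S.r (E x))) = 1
  /-- the codimension-`g` dimension `l(B₁) - g` -/
  d : ℕ
  /-- the charts -/
  J : Divisor k F' → Fin d → Fin n₁
  /-- the echelon bases -/
  M : 𝒯 → Matrix (Fin n₁) (Fin d) K
  hM : ∀ x : 𝒯, IsEch S e₁ (B₁ - E x) (J (Finsupp.mapDomain S.r (E x))) (M x)

namespace CoordSys

variable {K F k F' : Type} [Field K] [Field F] [Algebra K F] [Field k] [Field F']
  [Algebra k F'] {S : RedSetup K F k F'} {Γ : Type} [Group Γ] {G : GalRed S Γ}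
  {𝒯 : Set (Pic0 K F)} (CS : CoordSys S G 𝒯)

/-- The class of a point: the reduction of its representative. -/
def cls (x : 𝒯) : Divisor k F' := Finsupp.mapDomain S.r (CS.E x)

open Classical in
/-- The generators on a subset `𝒮 ⊆ 𝒯`: the indicators of the classes and the entries of the
echelon bases, cut off by the indicators. -/
def gen (𝒮 : Set (Pic0 K F)) (h𝒮 : 𝒮 ⊆ 𝒯) :
    (𝒯 ⊕ (𝒯 × Fin CS.n₁ × Fin CS.d)) → 𝒮 → K
  | Sum.inl x₀, x => if CS.cls ⟨x, h𝒮 x.2⟩ = CS.cls x₀ then 1 else 0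
  | Sum.inr (x₀, i, b), x => if CS.cls ⟨x, h𝒮 x.2⟩ = CS.cls x₀ then CS.M ⟨x, h𝒮 x.2⟩ i b else 0

end CoordSys

/-- **SETUP**: under the hypotheses of the abstract main theorem every finite `Γ`-stable set
has a coordinate system.
(`Stmt_Genus`; frames from `HasRatFrames`; `E₀~` from `Stmt_NSEX` on `F'` for the reductions of
representatives of the points; `E₀` from `Stmt_ILift`; `E x` from `Stmt_Rep`; charts from
`Stmt_EchUnique`; `M x` from `Stmt_EchInt`.) -/
def Stmt_Setup : Prop :=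
  ∀ (K F k F' : Type) [Field K] [Field F] [Algebra K F] [Field k] [Field F'] [Algebra k F']
    [IsAlgClosed K] [IsAlgClosed k] (S : RedSetup K F k F'), IsFF K F → IsFF k F' →
    S.GenusLE' →
  ∀ (Γ : Type) [Group Γ] (G : GalRed S Γ), HasUnrConst S G → HasRatFrames S G →
  ∀ 𝒯 : Set (Pic0 K F), 𝒯.Finite → (∀ (σ : Γ), ∀ x ∈ 𝒯, G.act σ • x ∈ 𝒯) →
    Nonempty (CoordSys S G 𝒯)

/-- **BASIC**: the generators are integral, inertia-equivariant and separate the points. -/
def Stmt_Basic : Prop :=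
  ∀ (K F k F' : Type) [Field K] [Field F] [Algebra K F] [Field k] [Field F'] [Algebra k F']
    [IsAlgClosed K] [IsAlgClosed k] (S : RedSetup K F k F'), IsFF K F → IsFF k F' →
  ∀ (Γ : Type) [Group Γ] (G : GalRed S Γ) (𝒯 : Set (Pic0 K F)) (CS : CoordSys S G 𝒯)
    (𝒮 : Set (Pic0 K F)) (h𝒮 : 𝒮 ⊆ 𝒯),
    (∀ j x, CS.gen 𝒮 h𝒮 j x ∈ constVal S) ∧
    (∀ j, ∀ σ ∈ G.I, ∀ (x : 𝒮) (hx : G.act σ • (x : Pic0 K F) ∈ 𝒮),
      CS.gen 𝒮 h𝒮 j ⟨_, hx⟩ = SemilinearAut.baseAut (G.act σ) (CS.gen 𝒮 h𝒮 j x)) ∧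
    (∀ x y : 𝒮, x ≠ y → ∃ j, CS.gen 𝒮 h𝒮 j x ≠ CS.gen 𝒮 h𝒮 j y)

/-- **COMUL**: the addition is given by elements of `pairRing`. -/
def Stmt_Comul : Prop :=
  ∀ (K F k F' : Type) [Field K] [Field F] [Algebra K F] [Field k] [Field F'] [Algebra k F']
    [IsAlgClosed K] [IsAlgClosed k] (S : RedSetup K F k F'), IsFF K F → IsFF k F' →
  ∀ (Γ : Type) [Group Γ] (G : GalRed S Γ) (𝒯 : Set (Pic0 K F)), 𝒯.Finite →
  ∀ (CS : CoordSys S G 𝒯) (𝒮 : Set (Pic0 K F)) (h𝒮 : 𝒮 ⊆ 𝒯),
    (∀ x ∈ 𝒮, ∀ y ∈ 𝒮, x + y ∈ 𝒯) →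
    ∀ j, ∃ φ ∈ pairRing (constVal S).toSubring (CS.gen 𝒮 h𝒮),
      ∀ (x y : 𝒮) (hxy : (x : Pic0 K F) + (y : Pic0 K F) ∈ 𝒮),
        φ (x, y) = CS.gen 𝒮 h𝒮 j ⟨_, hxy⟩

/-- **DSTAB**: the ring generated by the generators is stable under the twist by `Γ`. -/
def Stmt_DStab : Prop :=
  ∀ (K F k F' : Type) [Field K] [Field F] [Algebra K F] [Field k] [Field F'] [Algebra k F']
    [IsAlgClosed K] [IsAlgClosed k] (S : RedSetup K F k F'), IsFF K F → IsFF k F' →
  ∀ (Γ : Type) [Group Γ] (G : GalRed S Γ) (𝒯 : Set (Pic0 K F)), 𝒯.Finite →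
    (∀ (σ : Γ), ∀ x ∈ 𝒯, G.act σ • x ∈ 𝒯) →
  ∀ (CS : CoordSys S G 𝒯) (𝒮 : Set (Pic0 K F)) (h𝒮 : 𝒮 ⊆ 𝒯),
    (∀ (σ : Γ), ∀ x ∈ 𝒮, G.act σ • x ∈ 𝒮) →
    ∀ j (σ : Γ), ∃ φ ∈ genRing (constVal S).toSubring (CS.gen 𝒮 h𝒮),
      ∀ (x : 𝒮) (hx : G.act σ • (x : Pic0 K F) ∈ 𝒮),
        φ ⟨_, hx⟩ = SemilinearAut.baseAut (G.act σ) (CS.gen 𝒮 h𝒮 j x)

end Fermat.Agent.FL
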