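import Fermat.Agent.Lib.HopfOrderLoc.Defs
import Fermat.Prelude.Def_ModularCurve_ArithmeticGalois
import Fermat.Prelude.Def_FLTPrelim_Ramification

/-!
# G-FL (S19), interface statements, layer 5: the concrete main theorem at a tame level

Head of G-FL: helper36.  `Stmt_FLTameC` is `FL.Stmt_FLAbs` (FL/Defs4.lean) for the modular
function field of a tame level `M` (`5 ≤ ℓ`, or `ℓ = 3 ∧ 2 ∣ M`, or `ℓ = 2 ∧ 3 ∣ M`), stated
without `RedSetup` / `GalRed`:

for every valuation subring `A` of `ℚ̄` over `ℓ` and every finite set `𝒮` of points of `J₀(M)`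
stable under the decomposition group of `A` there are finitely many functions `h j : 𝒮 → A`,
equivariant for the inertia group, separating the points, such that the twists by the
decomposition group lie in `genRing A h` and the (partial) addition lies in `pairRing A h`.

* ASM-C1 (helper33): `Stmt_FLAbs → (HasRatFrames at tame level) → Stmt_FLTameC`.
* ASM-C2 (helper32): `Stmt_FLTameC → FL.H2.stmt_Level → S19.H32.Stmt_FLGenCore`
  (`𝒮 = levelPull (J₀(p)[ℓ^k]) ⊆ J₀(M)`, `M ∈ {p, 2p, 3p}`).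
* S15 ROUTE-F (helper66) uses `Stmt_FLTameC` for sets of points of infinite order.

This file contains no `sorry`.
-/

set_option autoImplicit false

noncomputable section

open ModularCurve

namespace Fermat.Agent.FL

open Fermat.Agent.Lib.HopfOrder Fermat.Agent.Lib.HopfOrderLoc

/-- The tame levels: those where the Deuring reduction datum `HasDR` is available
(`RED.H76.stmt_DR2`). -/
def IsTame (M ℓ : ℕ) : Prop := 5 ≤ ℓ ∨ (ℓ = 3 ∧ 2 ∣ M) ∨ (ℓ = 2 ∧ 3 ∣ M)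

/-- **The concrete main theorem of G-FL at a tame level.** -/
def Stmt_FLTameC : Prop :=
  ∀ (M ℓ : ℕ) [NeZero M], ℓ.Prime → ¬ ℓ ∣ M → IsTame M ℓ →
  ∀ A : ValuationSubring (AlgebraicClosure ℚ), A.LiesOverPrime ℓ →
  ∀ 𝒮 : Set (JZero M), 𝒮.Finite →
    (∀ σ ∈ A.decompositionSubgroup ℚ, ∀ x ∈ 𝒮, σ • x ∈ 𝒮) →
    ∃ (ι : Type) (_ : Finite ι) (h : ι → 𝒮 → AlgebraicClosure ℚ),
      (∀ j x, h j x ∈ A) ∧
      (∀ j, ∀ σ ∈ A.inertiaSubgroupIn ℚ, ∀ (x : 𝒮) (hx : σ • (x : JZero M) ∈ 𝒮),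
        h j ⟨_, hx⟩ = σ (h j x)) ∧
      (∀ j, ∀ σ ∈ A.decompositionSubgroup ℚ, ∃ φ ∈ genRing A.toSubring h,
        ∀ (x : 𝒮) (hx : σ • (x : JZero M) ∈ 𝒮), φ ⟨_, hx⟩ = σ (h j x)) ∧
      (∀ x y : 𝒮, x ≠ y → ∃ j, h j x ≠ h j y) ∧
      (∀ j, ∃ φ ∈ pairRing A.toSubring h,
        ∀ (x y : 𝒮) (hxy : (x : JZero M) + (y : JZero M) ∈ 𝒮), φ (x, y) = h j ⟨_, hxy⟩)

end Fermat.Agent.FL
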