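import Fermat.Agent.FL.Defs
import Fermat.Agent.RED.H17_FF
import Fermat.Agent.RED.H42_RiemannFinal
import Fermat.Agent.RED.H51_Basic

/-!
# G-FL, package FF-NSEX (helper1): a common non-special effective divisor of degree `g`

`H01.stmt_NSEX : Stmt_NSEX`: for finitely many divisors `D` of degree `0` on a function field
`E / k` (`k` algebraically closed) with Riemann's theorem for the constants `g`, `c`, there is an
effective divisor `E₀` of degree `g` with `l(D + E₀) = 1` for all of them.

The divisor is reduced: `E₀ = ∑_{v ∈ A} v` for a set `A` of `g` distinct places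
(`exists_common_pts`).  Proof: add the points one at a time, keeping `l(D + ∑ A) ≤ 1` for all `D`.
For a divisor `D'` with `deg D' + 1 < g + l(D')` the set of places `v` with
`L(D' + v) ≠ L(D')` is finite (`badSet_finite`, from Riemann's equality in large degree); in the
remaining case `l(D') = 0` and one more point raises the dimension by at most one.
Riemann's inequality gives `l(D + E₀) ≥ 1`.
-/

set_option autoImplicit false
set_option linter.style.haveILetI false
set_option linter.unusedSectionVars false

noncomputable section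

open AlgebraicCurve

attribute [local instance] Classical.propDecidable

namespace Fermat.Agent.FL.H01

open Fermat.Agent.RED Fermat.Agent.RED.H17

local notation "L" => riemannRochSpace

variable {k F : Type*} [Field k] [Field F] [Algebra k F]

/-- The places `v` with `L(D + v) ≠ L(D)`. -/
def badSet (D : Divisor k F) : Set (Place k F) :=
  {v | ¬ (L (D + Finsupp.single v 1) ≤ L D)}

/-- If `deg D + 1 < g + l(D)` then `L(D + v) = L(D)` for all but finitely many places `v`. -/
theorem badSet_finite (H : FFHyp k F) {g : ℕ} {c : ℤ} (hR : IsGenus k F g c)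
    (D : Divisor k F)
    (hD : Divisor.degree D + 1 < (g : ℤ) + Module.finrank k (L D)) :
    (badSet D).Finite := by
  by_contra hinf
  have hinf' : (badSet D).Infinite := hinf
  obtain ⟨B, hBsub, hBcard⟩ := hinf'.exists_subset_card_eq ((c - Divisor.degree D).toNat)
  have h1 := H.finrank_add_ptsDiv_ge D B (fun v hv => hBsub hv)
  have hdeg : Divisor.degree (D + ptsDiv B)
      = Divisor.degree D + (c - Divisor.degree D).toNat := by
    rw [map_add, degree_ptsDiv H.deg_one, hBcard]
  have h2 := (hR (D + ptsDiv B)).2 (by rw [hdeg]; omega)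
  rw [hdeg] at h2
  rw [hBcard] at h1
  omega

/-- `g` distinct places `A` with `l(D + ∑ A) ≤ 1` for finitely many `D` of degree `0`. -/
theorem exists_common_pts_le [Infinite k] (H : FFHyp k F) {g : ℕ} {c : ℤ}
    (hR : IsGenus k F g c) (𝒟 : Finset (Divisor k F))
    (h𝒟 : ∀ D ∈ 𝒟, Divisor.degree D = 0) (j : ℕ) (hj : j ≤ g) :
    ∃ A : Finset (Place k F), A.card = j ∧
      ∀ D ∈ 𝒟, Module.finrank k (L (D + ptsDiv A)) ≤ 1 := by
  induction j with
  | zero =>
    refine ⟨∅, rfl, fun D hD => ?_⟩
    rw [ptsDiv_empty, add_zero]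
    have h0 := H.le D (by rw [h𝒟 D hD])
    rw [h𝒟 D hD] at h0
    omega
  | succ j ih =>
    obtain ⟨A, hA, hl⟩ := ih (by omega)
    haveI := H.infinite_place
    -- the finite set of places to avoid
    let T : Set (Place k F) := (↑A : Set (Place k F)) ∪
      ⋃ D ∈ 𝒟, {v | Divisor.degree (D + ptsDiv A) + 1
          < (g : ℤ) + Module.finrank k (L (D + ptsDiv A)) ∧ v ∈ badSet (D + ptsDiv A)}
    have hT : T.Finite := by
      refine (Finset.finite_toSet A).union ?_
      refine Set.Finite.biUnion (Finset.finite_toSet 𝒟) fun D _ => ?_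
      by_cases hc : Divisor.degree (D + ptsDiv A) + 1
          < (g : ℤ) + Module.finrank k (L (D + ptsDiv A))
      · exact (badSet_finite H hR _ hc).subset fun v hv => hv.2
      · exact Set.finite_empty.subset fun v hv => (hc hv.1).elim
    obtain ⟨v, hv⟩ := hT.exists_notMem
    have hvA : v ∉ A := fun h => hv (Or.inl (Finset.mem_coe.mpr h))
    refine ⟨insert v A, by rw [Finset.card_insert_of_notMem hvA, hA], fun D hD => ?_⟩
    rw [ptsDiv_insert hvA, ← add_assoc]
    have hdegA : Divisor.degree (D + ptsDiv A) = j := by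
      rw [map_add, degree_ptsDiv H.deg_one, hA, h𝒟 D hD, zero_add]
    by_cases hc : Divisor.degree (D + ptsDiv A) + 1
        < (g : ℤ) + Module.finrank k (L (D + ptsDiv A))
    · have hgood : L (D + ptsDiv A + Finsupp.single v 1) ≤ L (D + ptsDiv A) := by
        by_contra hbad
        apply hv
        refine Or.inr ?_
        simp only [Set.mem_iUnion]
        exact ⟨D, hD, hc, hbad⟩
      haveI := H.finite (D + ptsDiv A)
      exact (Submodule.finrank_mono hgood).trans (hl D hD)
    · have h1 := H.finrank_add_single_le (D + ptsDiv A) v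
      rw [hdegA] at hc
      omega

/-- **FF-NSEX**, reduced form: `g` distinct places `A` with `l(D + ∑ A) = 1` for finitely many
divisors `D` of degree `0`. -/
theorem exists_common_pts [Infinite k] (H : FFHyp k F) {g : ℕ} {c : ℤ}
    (hR : IsGenus k F g c) (𝒟 : Finset (Divisor k F))
    (h𝒟 : ∀ D ∈ 𝒟, Divisor.degree D = 0) :
    ∃ A : Finset (Place k F), A.card = g ∧
      ∀ D ∈ 𝒟, Module.finrank k (L (D + ptsDiv A)) = 1 := by
  obtain ⟨A, hA, hl⟩ := exists_common_pts_le H hR 𝒟 h𝒟 g le_rfl
  refine ⟨A, hA, fun D hD => le_antisymm (hl D hD) ?_⟩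
  have h1 := (hR (D + ptsDiv A)).1
  rw [map_add, degree_ptsDiv H.deg_one, hA, h𝒟 D hD] at h1
  omega

/-- **FF-NSEX.** -/
theorem stmt_NSEX : Stmt_NSEX := by
  intro k E _ _ _ _ hFF g c hR 𝒟 h𝒟
  have H : FFHyp k E :=
    { principal := H42.stmt_FFB_principal k E hFF
      deg_one := H51.stmt_FFB_deg k E hFF
      finite := H42.stmt_FFR_finite k E hFF
      le := fun D => (H42.stmt_FFR_le k E hFF D).2
      transc := by
        obtain ⟨x, hx, -⟩ := hFF
        exact ⟨x, hx⟩ }
  have hR' : IsGenus k E g c := fun D => hR D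
  obtain ⟨A, hA, hl⟩ := exists_common_pts H hR' 𝒟 h𝒟
  refine ⟨ptsDiv A, ?_, ?_, hl⟩
  · intro v
    exact ptsDiv_nonneg A v
  · rw [degree_ptsDiv H.deg_one, hA]

end Fermat.Agent.FL.H01
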