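import Fermat.Agent.Lib.HopfOrderGen
import Fermat.Agent.Lib.HopfOrderLoc.Defs
import Fermat.Agent.FL.Defs

/-!
# G-FL, package ABS-LOC (helper18): the local ring of a residue class

`K` a field, `A` a valuation subring, `S` a finite set, `T` a ring of `A`-valued functions on `S`
containing the constants of `A`.  A *class* is a nonempty subset `C ⊆ S` whose indicator lies in
`T` and on which every element of `T` has constant reduction modulo the maximal ideal of `A`.

* `locRing A T C : Subring (C → K)`: the functions `φ` on `C` with `D φ = N` on `C` for some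
  `N, D ∈ T`, `D` unit-valued on `C`.
* `locRed : locRing A T C →+* ResidueField A`: the reduction; it detects units
  (`isUnit_iff_locRed_ne_zero`), so `locRing` is a local ring.
* `locEv s : locRing A T C →+* K`: the evaluations, jointly injective (`eq_zero_of_locEv`).
  These are the hypotheses of `Fermat.Agent.FL.Stmt_SNF`.
* `restr : T →+* locRing A T C`: restriction to the class.
* `extend_mem`: the extension by zero of an element of `locRing A T C` lies in `T`;
  `mem_of_cover`: a function whose restriction to every class of a cover lies in the local ring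
  lies in `T`.
* instances for `pairRing` and `genRing`: `isFunRing_pairRing`, `isClass_prod`.
-/

set_option autoImplicit false
set_option linter.unusedSectionVars false

noncomputable section

namespace Fermat.Agent.FL.H18

open Fermat.Agent.Lib.HopfOrder Fermat.Agent.Lib.HopfOrderLoc

variable {K : Type} [Field K] (A : ValuationSubring K) {S : Type}

/-- `T` is a ring of `A`-valued functions containing the constants of `A`. -/
structure IsFunRingA (T : Subring (S → K)) : Prop where
  const_mem : ∀ a ∈ A, (fun _ : S => a) ∈ T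
  val_mem : ∀ g ∈ T, ∀ s, g s ∈ A

/-- `C` is a class for `T`: nonempty, its indicator lies in `T`, and the elements of `T` have
constant reduction on `C`. -/
structure IsClass (T : Subring (S → K)) (C : Set S) : Prop where
  nonempty : C.Nonempty
  ind_mem : (fun s => (C.indicator (fun _ => (1 : K)) s)) ∈ T
  cong : ∀ g ∈ T, ∀ s ∈ C, ∀ s' ∈ C, A.valuation (g s - g s') < 1

variable {A}

section Val

theorem val_le_one_of_mem {a : K} (ha : a ∈ A) : A.valuation a ≤ 1 :=
  (A.valuation_le_one_iff a).mpr ha

theorem mem_of_val_le_one {a : K} (ha : A.valuation a ≤ 1) : a ∈ A :=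
  (A.valuation_le_one_iff a).mp ha

theorem val_inv_eq_one {a : K} (ha : A.valuation a = 1) : A.valuation a⁻¹ = 1 := by
  rw [map_inv₀, ha, inv_one]

theorem ne_zero_of_val_eq_one {a : K} (ha : A.valuation a = 1) : a ≠ 0 := by
  intro h
  rw [h, map_zero] at ha
  exact zero_ne_one ha

theorem val_eq_one_of_sub_lt {a b : K} (hb : A.valuation b = 1) (h : A.valuation (a - b) < 1) :
    A.valuation a = 1 := by
  have h1 : a = b + (a - b) := by ring
  rw [h1, Valuation.map_add_eq_of_lt_left _ (by rw [hb]; exact h), hb]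

theorem val_sub_lt_of_lt {a b : K} (ha : A.valuation a < 1) (hb : A.valuation b < 1) :
    A.valuation (a - b) < 1 :=
  lt_of_le_of_lt (Valuation.map_sub _ a b) (max_lt ha hb)

theorem val_add_lt_of_lt {a b : K} (ha : A.valuation a < 1) (hb : A.valuation b < 1) :
    A.valuation (a + b) < 1 :=
  lt_of_le_of_lt (Valuation.map_add _ a b) (max_lt ha hb)

theorem val_mul_lt_of_lt_of_le {a b : K} (ha : A.valuation a < 1) (hb : A.valuation b ≤ 1) :
    A.valuation (a * b) < 1 := by
  rw [map_mul]
  exact mul_lt_one_of_lt_of_le ha hb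

end Val

variable (A)

/-- The local ring of the class `C`. -/
def locRing (T : Subring (S → K)) (C : Set S) : Subring (C → K) where
  carrier := {φ | ∃ N ∈ T, ∃ D ∈ T, (∀ s : C, A.valuation (D s) = 1) ∧
    ∀ s : C, D s * φ s = N s}
  zero_mem' := ⟨0, T.zero_mem, 1, T.one_mem, fun _ => by simp, fun _ => by simp⟩
  one_mem' := ⟨1, T.one_mem, 1, T.one_mem, fun _ => by simp, fun _ => by simp⟩
  add_mem' := by
    rintro φ ψ ⟨N, hN, D, hD, hDu, h⟩ ⟨N', hN', D', hD', hDu', h'⟩
    refine ⟨N * D' + N' * D, T.add_mem (T.mul_mem hN hD') (T.mul_mem hN' hD), D * D',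
      T.mul_mem hD hD', fun s => ?_, fun s => ?_⟩
    · show A.valuation (D s * D' s) = 1
      rw [map_mul, hDu s, hDu' s, one_mul]
    · show D s * D' s * (φ s + ψ s) = N s * D' s + N' s * D s
      rw [← h s, ← h' s]
      ring
  mul_mem' := by
    rintro φ ψ ⟨N, hN, D, hD, hDu, h⟩ ⟨N', hN', D', hD', hDu', h'⟩
    refine ⟨N * N', T.mul_mem hN hN', D * D', T.mul_mem hD hD', fun s => ?_, fun s => ?_⟩
    · show A.valuation (D s * D' s) = 1
      rw [map_mul, hDu s, hDu' s, one_mul]
    · show D s * D' s * (φ s * ψ s) = N s * N' s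
      rw [← h s, ← h' s]
      ring
  neg_mem' := by
    rintro φ ⟨N, hN, D, hD, hDu, h⟩
    refine ⟨-N, T.neg_mem hN, D, hD, hDu, fun s => ?_⟩
    show D s * -φ s = -N s
    rw [← h s]
    ring

variable {A}

theorem mem_locRing {T : Subring (S → K)} {C : Set S} {φ : C → K} :
    φ ∈ locRing A T C ↔ ∃ N ∈ T, ∃ D ∈ T, (∀ s : C, A.valuation (D s) = 1) ∧
      ∀ s : C, D s * φ s = N s := Iff.rfl

variable {T : Subring (S → K)} {C : Set S}

/-- Restriction of the elements of `T` to the class. -/
def restr (A : ValuationSubring K) (T : Subring (S → K)) (C : Set S) : T →+* locRing A T C where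
  toFun g := ⟨fun s => (g : S → K) s, (g : S → K), g.2, 1, T.one_mem, fun _ => by simp,
    fun _ => by simp⟩
  map_one' := rfl
  map_mul' _ _ := rfl
  map_zero' := rfl
  map_add' _ _ := rfl

@[simp] theorem restr_apply (g : T) (s : C) :
    ((restr A T C g : locRing A T C) : C → K) s = (g : S → K) s := rfl

/-- Evaluation at a point of the class. -/
def locEv (A : ValuationSubring K) (T : Subring (S → K)) (C : Set S) (s : C) :
    locRing A T C →+* K where
  toFun φ := (φ : C → K) s
  map_one' := rfl
  map_mul' _ _ := rfl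
  map_zero' := rfl
  map_add' _ _ := rfl

@[simp] theorem locEv_apply (s : C) (φ : locRing A T C) : locEv A T C s φ = (φ : C → K) s := rfl

/-- The evaluations are jointly injective. -/
theorem eq_zero_of_locEv (φ : locRing A T C) (h : ∀ s, locEv A T C s φ = 0) : φ = 0 :=
  Subtype.ext (funext h)

/-- The values of the elements of the local ring lie in `A`. -/
theorem locRing_val_mem (hT : IsFunRingA A T) (φ : locRing A T C) (s : C) :
    (φ : C → K) s ∈ A := by
  obtain ⟨N, hN, D, hD, hDu, h⟩ := φ.2
  have hD0 := ne_zero_of_val_eq_one (hDu s)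
  have : (φ : C → K) s = N s * (D s)⁻¹ := by
    rw [← h s]
    field_simp
  rw [this]
  exact A.mul_mem _ _ (hT.val_mem N hN s) (mem_of_val_le_one (val_inv_eq_one (hDu s)).le)

/-- The elements of the local ring have constant reduction on the class. -/
theorem locRing_cong (hT : IsFunRingA A T) (hC : IsClass A T C) (φ : locRing A T C)
    (s s' : C) : A.valuation ((φ : C → K) s - (φ : C → K) s') < 1 := by
  obtain ⟨N, hN, D, hD, hDu, h⟩ := φ.2
  have hD0 := ne_zero_of_val_eq_one (hDu s)
  have hD0' := ne_zero_of_val_eq_one (hDu s')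
  have key : (φ : C → K) s - (φ : C → K) s'
      = ((N s - N s') * D s' + N s' * (D s' - D s)) * ((D s)⁻¹ * (D s')⁻¹) := by
    have e1 : (φ : C → K) s = N s * (D s)⁻¹ := by
      rw [← h s]; field_simp
    have e2 : (φ : C → K) s' = N s' * (D s')⁻¹ := by
      rw [← h s']; field_simp
    rw [e1, e2]
    field_simp
    ring
  rw [key]
  refine val_mul_lt_of_lt_of_le (val_add_lt_of_lt ?_ ?_) ?_
  · exact val_mul_lt_of_lt_of_le (hC.cong N hN s s.2 s' s'.2) (hDu s').le
  · rw [mul_comm]
    exact val_mul_lt_of_lt_of_le (hC.cong D hD s' s'.2 s s.2)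
      (val_le_one_of_mem (hT.val_mem N hN s'))
  · rw [map_mul, val_inv_eq_one (hDu s), val_inv_eq_one (hDu s'), one_mul]

/-- The base point of a class. -/
def IsClass.pt (hC : IsClass A T C) : C := ⟨hC.nonempty.some, hC.nonempty.some_mem⟩

/-- The reduction of the local ring of a class. -/
def locRed (hT : IsFunRingA A T) (hC : IsClass A T C) :
    locRing A T C →+* IsLocalRing.ResidueField A where
  toFun φ := IsLocalRing.residue A ⟨(φ : C → K) hC.pt, locRing_val_mem hT φ hC.pt⟩
  map_one' := by
    have : (⟨((1 : locRing A T C) : C → K) hC.pt, locRing_val_mem hT 1 hC.pt⟩ : A) = 1 := rfl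
    rw [this, map_one]
  map_mul' φ ψ := by
    rw [← map_mul]
    rfl
  map_zero' := by
    have : (⟨((0 : locRing A T C) : C → K) hC.pt, locRing_val_mem hT 0 hC.pt⟩ : A) = 0 := rfl
    rw [this, map_zero]
  map_add' φ ψ := by
    rw [← map_add]
    rfl

theorem residue_eq_zero_iff_val {a : K} (ha : a ∈ A) :
    IsLocalRing.residue A ⟨a, ha⟩ = 0 ↔ A.valuation a < 1 := by
  rw [IsLocalRing.residue_eq_zero_iff]
  exact A.valuation_lt_one_iff ⟨a, ha⟩

/-- The reduction can be computed at any point of the class. -/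
theorem locRed_eq (hT : IsFunRingA A T) (hC : IsClass A T C) (φ : locRing A T C) (s : C) :
    locRed hT hC φ = IsLocalRing.residue A ⟨(φ : C → K) s, locRing_val_mem hT φ s⟩ := by
  show IsLocalRing.residue A _ = IsLocalRing.residue A _
  rw [← sub_eq_zero, ← map_sub]
  exact (residue_eq_zero_iff_val _).mpr (locRing_cong hT hC φ hC.pt s)

theorem locRed_eq_zero_iff (hT : IsFunRingA A T) (hC : IsClass A T C) (φ : locRing A T C)
    (s : C) : locRed hT hC φ = 0 ↔ A.valuation ((φ : C → K) s) < 1 := by
  rw [locRed_eq hT hC φ s]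
  exact residue_eq_zero_iff_val _

theorem locRed_ne_zero_iff (hT : IsFunRingA A T) (hC : IsClass A T C) (φ : locRing A T C)
    (s : C) : locRed hT hC φ ≠ 0 ↔ A.valuation ((φ : C → K) s) = 1 := by
  rw [Ne, locRed_eq_zero_iff hT hC φ s, not_lt]
  constructor
  · intro h
    exact le_antisymm (val_le_one_of_mem (locRing_val_mem hT φ s)) h
  · intro h
    exact h.ge

/-- **The reduction detects the units**: the ring of a class is a local ring. -/
theorem isUnit_iff_locRed_ne_zero (hT : IsFunRingA A T) (hC : IsClass A T C)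
    (φ : locRing A T C) : IsUnit φ ↔ locRed hT hC φ ≠ 0 := by
  constructor
  · intro h
    exact (h.map (locRed hT hC)).ne_zero
  · intro h
    have hu : ∀ s : C, A.valuation ((φ : C → K) s) = 1 := fun s =>
      (locRed_ne_zero_iff hT hC φ s).mp h
    obtain ⟨N, hN, D, hD, hDu, hND⟩ := φ.2
    have hNu : ∀ s : C, A.valuation (N s) = 1 := fun s => by
      rw [← hND s, map_mul, hDu s, hu s, one_mul]
    let ψ : locRing A T C := ⟨fun s => ((φ : C → K) s)⁻¹, D, hD, N, hN, hNu, fun s => by
      have h0 := ne_zero_of_val_eq_one (hu s)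
      rw [← hND s]
      field_simp⟩
    refine IsUnit.of_mul_eq_one ψ (Subtype.ext (funext fun s => ?_))
    show (φ : C → K) s * ((φ : C → K) s)⁻¹ = 1
    exact mul_inv_cancel₀ (ne_zero_of_val_eq_one (hu s))

theorem locRed_restr (hT : IsFunRingA A T) (hC : IsClass A T C) (g : T) (s : C) :
    locRed hT hC (restr A T C g)
      = IsLocalRing.residue A ⟨(g : S → K) s, hT.val_mem g g.2 s⟩ :=
  locRed_eq hT hC _ s

/-- The local ring of a class satisfies the hypotheses of `Stmt_SNF`: constant rank matrices
over it are equivalent to `[[1, 0], [0, 0]]`. -/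
theorem snf_locRing (hSNF : Fermat.Agent.FL.Stmt_SNF) (hT : IsFunRingA A T)
    (hC : IsClass A T C) (m n : ℕ) (Tm : Matrix (Fin m) (Fin n) (locRing A T C))
    (hrank : ∀ s : C, (Tm.map (locEv A T C s)).rank ≤ (Tm.map (locRed hT hC)).rank) :
    ∃ (P : Matrix (Fin m) (Fin m) (locRing A T C)) (Q : Matrix (Fin n) (Fin n) (locRing A T C)),
      IsUnit P ∧ IsUnit Q ∧ ∀ i j, (P * Tm * Q) i j =
        if (i : ℕ) = (j : ℕ) ∧ (i : ℕ) < (Tm.map (locRed hT hC)).rank then 1 else 0 :=
  hSNF (locRing A T C) (IsLocalRing.ResidueField A) K (locRed hT hC)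
    (isUnit_iff_locRed_ne_zero hT hC) C (locEv A T C) eq_zero_of_locEv m n Tm hrank

/-! ### Back to `T` -/

section Back

variable [Finite S]

open Classical in
/-- Extension by zero of a function on a class. -/
def extend (C : Set S) (φ : C → K) : S → K :=
  fun s => if h : s ∈ C then φ ⟨s, h⟩ else 0

theorem extend_of_mem {φ : C → K} {s : S} (h : s ∈ C) : extend C φ s = φ ⟨s, h⟩ := by
  unfold extend
  rw [dif_pos h]

theorem extend_of_notMem {φ : C → K} {s : S} (h : s ∉ C) : extend C φ s = 0 := by
  unfold extend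
  rw [dif_neg h]

/-- A function which on every class of a cover is a quotient `N / D` with `N, D ∈ T` and `D`
unit-valued on the class lies in `T`. -/
theorem mem_of_cover (hT : IsFunRingA A T) (φ : S → K)
    (h : ∀ s₀ : S, ∃ C : Set S, s₀ ∈ C ∧ IsClass A T C ∧
      (fun s : C => φ s) ∈ locRing A T C) : φ ∈ T := by
  classical
  refine mem_of_local_units A T hT.const_mem hT.val_mem φ fun s₀ => ?_
  obtain ⟨C, hs₀, hC, N, hN, D, hD, hDu, hND⟩ := h s₀
  refine ⟨(fun s => C.indicator (fun _ => (1 : K)) s) * D,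
    (fun s => C.indicator (fun _ => (1 : K)) s) * N, T.mul_mem hC.ind_mem hD,
    T.mul_mem hC.ind_mem hN, fun s => ?_, ?_⟩
  · show C.indicator (fun _ => (1 : K)) s * D s * φ s = C.indicator (fun _ => (1 : K)) s * N s
    by_cases hs : s ∈ C
    · rw [Set.indicator_of_mem hs, one_mul, one_mul]
      exact hND ⟨s, hs⟩
    · rw [Set.indicator_of_notMem hs, zero_mul, zero_mul, zero_mul]
  · have h1 : ((fun s => C.indicator (fun _ => (1 : K)) s) * D) s₀ = D s₀ := by
      show C.indicator (fun _ => (1 : K)) s₀ * D s₀ = D s₀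
      rw [Set.indicator_of_mem hs₀, one_mul]
    rw [h1]
    have h2 := hDu ⟨s₀, hs₀⟩
    exact ⟨ne_zero_of_val_eq_one h2, mem_of_val_le_one (val_inv_eq_one h2).le⟩

/-- The extension by zero of an element of the local ring of a class lies in `T`. -/
theorem extend_mem (hT : IsFunRingA A T) (hC : IsClass A T C) (φ : locRing A T C) :
    extend C (φ : C → K) ∈ T := by
  classical
  obtain ⟨N, hN, D, hD, hDu, hND⟩ := φ.2
  set e : S → K := fun s => C.indicator (fun _ => (1 : K)) s with he
  have heT : e ∈ T := hC.ind_mem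
  refine div_mem_of_units A.toSubring T hT.const_mem (e * D + (1 - e)) (e * N)
    (extend C (φ : C → K)) (T.add_mem (T.mul_mem heT hD) (T.sub_mem T.one_mem heT))
    (T.mul_mem heT hN) (fun s => ?_) (fun s => ?_) (fun s => ?_)
  · exact hT.val_mem _ (T.add_mem (T.mul_mem heT hD) (T.sub_mem T.one_mem heT)) s
  · show e s * D s + (1 - e s) ≠ 0 ∧ (e s * D s + (1 - e s))⁻¹ ∈ A.toSubring
    by_cases hs : s ∈ C
    · have h1 : e s = 1 := Set.indicator_of_mem hs _
      rw [h1, one_mul, sub_self, add_zero]
      have h2 := hDu ⟨s, hs⟩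
      exact ⟨ne_zero_of_val_eq_one h2, mem_of_val_le_one (val_inv_eq_one h2).le⟩
    · have h1 : e s = 0 := Set.indicator_of_notMem hs _
      rw [h1, zero_mul, sub_zero, zero_add, inv_one]
      exact ⟨one_ne_zero, A.one_mem⟩
  · show (e s * D s + (1 - e s)) * extend C (φ : C → K) s = e s * N s
    by_cases hs : s ∈ C
    · have h1 : e s = 1 := Set.indicator_of_mem hs _
      rw [h1, one_mul, sub_self, add_zero, one_mul, extend_of_mem hs]
      exact hND ⟨s, hs⟩
    · have h1 : e s = 0 := Set.indicator_of_notMem hs _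
      rw [h1, extend_of_notMem hs, mul_zero, zero_mul]

end Back

/-! ### The rings `genRing` and `pairRing` -/

section Gen

variable {M ι : Type} (h : ι → M → K)

theorem const_mem_pairRing' {a : K} (ha : a ∈ A) :
    (fun _ : M × M => a) ∈ pairRing A.toSubring h :=
  Subring.subset_closure (Or.inl ⟨a, ha, rfl⟩)

theorem fst_mem_pairRing' (j : ι) : (fun p : M × M => h j p.1) ∈ pairRing A.toSubring h :=
  Subring.subset_closure (Or.inr (Or.inl ⟨j, rfl⟩))

theorem snd_mem_pairRing' (j : ι) : (fun p : M × M => h j p.2) ∈ pairRing A.toSubring h :=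
  Subring.subset_closure (Or.inr (Or.inr ⟨j, rfl⟩))

theorem pairRing_val_mem' (hA : ∀ j x, h j x ∈ A) {g : M × M → K}
    (hg : g ∈ pairRing A.toSubring h) (p : M × M) : g p ∈ A := by
  induction hg using Subring.closure_induction with
  | mem g hg =>
    rcases hg with ⟨a, ha, rfl⟩ | ⟨j, rfl⟩ | ⟨j, rfl⟩
    · exact ha
    · exact hA j _
    · exact hA j _
  | zero => exact A.zero_mem
  | one => exact A.one_mem
  | add g g' _ _ hg hg' => exact A.add_mem _ _ hg hg'
  | neg g _ hg => exact A.neg_mem _ hg
  | mul g g' _ _ hg hg' => exact A.mul_mem _ _ hg hg'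

theorem isFunRingA_genRing (hA : ∀ j x, h j x ∈ A) : IsFunRingA A (genRing A.toSubring h) where
  const_mem := fun a ha => Subring.subset_closure (Or.inl ⟨a, ha, rfl⟩)
  val_mem := by
    intro g hg s
    induction hg using Subring.closure_induction with
    | mem g hg =>
      rcases hg with ⟨a, ha, rfl⟩ | ⟨j, rfl⟩
      · exact ha
      · exact hA j s
    | zero => exact A.zero_mem
    | one => exact A.one_mem
    | add g g' _ _ hg hg' => exact A.add_mem _ _ hg hg'
    | neg g _ hg => exact A.neg_mem _ hg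
    | mul g g' _ _ hg hg' => exact A.mul_mem _ _ hg hg'

theorem isFunRingA_pairRing (hA : ∀ j x, h j x ∈ A) :
    IsFunRingA A (pairRing A.toSubring h) where
  const_mem := fun _ ha => const_mem_pairRing' h ha
  val_mem := fun _ hg p => pairRing_val_mem' h hA hg p

/-- Constant reduction on a set passes from generators to the generated ring. -/
theorem cong_closure {S' : Type} (G : Set (S' → K)) (C : Set S')
    (hG : ∀ g ∈ G, (∀ s, g s ∈ A) ∧ ∀ s ∈ C, ∀ s' ∈ C, A.valuation (g s - g s') < 1)
    (g : S' → K) (hg : g ∈ Subring.closure G) :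
    (∀ s, g s ∈ A) ∧ ∀ s ∈ C, ∀ s' ∈ C, A.valuation (g s - g s') < 1 := by
  induction hg using Subring.closure_induction with
  | mem g hg => exact hG g hg
  | zero => exact ⟨fun _ => A.zero_mem, fun s _ s' _ => by simp⟩
  | one => exact ⟨fun _ => A.one_mem, fun s _ s' _ => by simp⟩
  | add g g' _ _ hg hg' =>
    refine ⟨fun s => A.add_mem _ _ (hg.1 s) (hg'.1 s), fun s hs s' hs' => ?_⟩
    show A.valuation (g s + g' s - (g s' + g' s')) < 1
    rw [show g s + g' s - (g s' + g' s') = (g s - g s') + (g' s - g' s') by ring]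
    exact val_add_lt_of_lt (hg.2 s hs s' hs') (hg'.2 s hs s' hs')
  | neg g _ hg =>
    refine ⟨fun s => A.neg_mem _ (hg.1 s), fun s hs s' hs' => ?_⟩
    show A.valuation (-g s - -g s') < 1
    rw [show -g s - -g s' = -(g s - g s') by ring, Valuation.map_neg]
    exact hg.2 s hs s' hs'
  | mul g g' _ _ hg hg' =>
    refine ⟨fun s => A.mul_mem _ _ (hg.1 s) (hg'.1 s), fun s hs s' hs' => ?_⟩
    show A.valuation (g s * g' s - g s' * g' s') < 1
    rw [show g s * g' s - g s' * g' s' = (g s - g s') * g' s + (g' s - g' s') * g s' by ring]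
    exact val_add_lt_of_lt
      (val_mul_lt_of_lt_of_le (hg.2 s hs s' hs') (val_le_one_of_mem (hg'.1 s)))
      (val_mul_lt_of_lt_of_le (hg'.2 s hs s' hs') (val_le_one_of_mem (hg.1 s')))

/-- A class for `genRing`: the generators have constant reduction on `C` and the indicator of
`C` lies in `genRing`. -/
theorem isClass_genRing (hA : ∀ j x, h j x ∈ A) (C : Set M) (hne : C.Nonempty)
    (hind : (fun s => C.indicator (fun _ => (1 : K)) s) ∈ genRing A.toSubring h)
    (hcong : ∀ j, ∀ s ∈ C, ∀ s' ∈ C, A.valuation (h j s - h j s') < 1) :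
    IsClass A (genRing A.toSubring h) C where
  nonempty := hne
  ind_mem := hind
  cong := fun g hg => (cong_closure _ C (fun g hg => by
    rcases hg with ⟨a, ha, rfl⟩ | ⟨j, rfl⟩
    · exact ⟨fun _ => ha, fun s _ s' _ => by simp⟩
    · exact ⟨fun s => hA j s, hcong j⟩) g hg).2

theorem comp_fst_mem_pairRing {g : M → K} (hg : g ∈ genRing A.toSubring h) :
    (fun p : M × M => g p.1) ∈ pairRing A.toSubring h := by
  induction hg using Subring.closure_induction with
  | mem g hg =>
    rcases hg with ⟨a, ha, rfl⟩ | ⟨j, rfl⟩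
    · exact const_mem_pairRing' h ha
    · exact fst_mem_pairRing' h j
  | zero => exact Subring.zero_mem _
  | one => exact Subring.one_mem _
  | add g g' _ _ hg hg' => exact Subring.add_mem _ hg hg'
  | neg g _ hg => exact Subring.neg_mem _ hg
  | mul g g' _ _ hg hg' => exact Subring.mul_mem _ hg hg'

theorem comp_snd_mem_pairRing {g : M → K} (hg : g ∈ genRing A.toSubring h) :
    (fun p : M × M => g p.2) ∈ pairRing A.toSubring h := by
  induction hg using Subring.closure_induction with
  | mem g hg =>
    rcases hg with ⟨a, ha, rfl⟩ | ⟨j, rfl⟩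
    · exact const_mem_pairRing' h ha
    · exact snd_mem_pairRing' h j
  | zero => exact Subring.zero_mem _
  | one => exact Subring.one_mem _
  | add g g' _ _ hg hg' => exact Subring.add_mem _ hg hg'
  | neg g _ hg => exact Subring.neg_mem _ hg
  | mul g g' _ _ hg hg' => exact Subring.mul_mem _ hg hg'

/-- The product of two classes for `genRing` is a class for `pairRing`. -/
theorem isClass_prod (hA : ∀ j x, h j x ∈ A) {C C' : Set M}
    (hC : IsClass A (genRing A.toSubring h) C) (hC' : IsClass A (genRing A.toSubring h) C') :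
    IsClass A (pairRing A.toSubring h) (C ×ˢ C') where
  nonempty := hC.nonempty.prod hC'.nonempty
  ind_mem := by
    classical
    have h1 := comp_fst_mem_pairRing h hC.ind_mem
    have h2 := comp_snd_mem_pairRing h hC'.ind_mem
    have h3 := Subring.mul_mem _ h1 h2
    have h4 : (fun p : M × M => (C ×ˢ C').indicator (fun _ => (1 : K)) p)
        = (fun p : M × M => C.indicator (fun _ => (1 : K)) p.1)
          * (fun p : M × M => C'.indicator (fun _ => (1 : K)) p.2) := by
      funext p
      show _ = C.indicator (fun _ => (1 : K)) p.1 * C'.indicator (fun _ => (1 : K)) p.2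
      by_cases hp1 : p.1 ∈ C
      · by_cases hp2 : p.2 ∈ C'
        · rw [Set.indicator_of_mem hp1, Set.indicator_of_mem hp2,
            Set.indicator_of_mem (Set.mk_mem_prod hp1 hp2), one_mul]
        · rw [Set.indicator_of_notMem hp2, mul_zero,
            Set.indicator_of_notMem (fun hp => hp2 hp.2)]
      · rw [Set.indicator_of_notMem hp1, zero_mul,
          Set.indicator_of_notMem (fun hp => hp1 hp.1)]
    rw [h4]
    exact h3
  cong := fun g hg => (cong_closure _ (C ×ˢ C') (fun g hg => by
    rcases hg with ⟨a, ha, rfl⟩ | ⟨j, rfl⟩ | ⟨j, rfl⟩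
    · exact ⟨fun _ => ha, fun s _ s' _ => by simp⟩
    · exact ⟨fun s => hA j _, fun s hs s' hs' =>
        hC.cong _ (Subring.subset_closure (Or.inr ⟨j, rfl⟩)) _ hs.1 _ hs'.1⟩
    · exact ⟨fun s => hA j _, fun s hs s' hs' =>
        hC'.cong _ (Subring.subset_closure (Or.inr ⟨j, rfl⟩)) _ hs.2 _ hs'.2⟩) g hg).2

/-- **Final step for (COMUL)**: a function on `M × M` which on every product of classes
`C × C'` (covering `M × M`) lies in the local ring of `pairRing` lies in `pairRing`. -/
theorem mem_pairRing_of_classes [Finite M] (hA : ∀ j x, h j x ∈ A) (φ : M × M → K)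
    (hφ : ∀ x y : M, ∃ C C' : Set M, x ∈ C ∧ y ∈ C' ∧ IsClass A (genRing A.toSubring h) C ∧
      IsClass A (genRing A.toSubring h) C' ∧
      (fun s : ↥(C ×ˢ C') => φ s) ∈ locRing A (pairRing A.toSubring h) (C ×ˢ C')) :
    φ ∈ pairRing A.toSubring h := by
  refine mem_of_cover (isFunRingA_pairRing h hA) φ fun s₀ => ?_
  obtain ⟨C, C', hx, hy, hC, hC', hmem⟩ := hφ s₀.1 s₀.2
  exact ⟨C ×ˢ C', ⟨hx, hy⟩, isClass_prod h hA hC hC', hmem⟩

/-- **Final step for D-stability**: a function on `M` which on every class of a cover lies in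
the local ring of `genRing` lies in `genRing`. -/
theorem mem_genRing_of_classes [Finite M] (hA : ∀ j x, h j x ∈ A) (φ : M → K)
    (hφ : ∀ x : M, ∃ C : Set M, x ∈ C ∧ IsClass A (genRing A.toSubring h) C ∧
      (fun s : C => φ s) ∈ locRing A (genRing A.toSubring h) C) :
    φ ∈ genRing A.toSubring h :=
  mem_of_cover (isFunRingA_genRing h hA) φ hφ

end Gen

end Fermat.Agent.FL.H18
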