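import Fermat.Agent.FL.H18_Loc
import Fermat.Agent.FL.Defs2

/-!
# G-FL, package ABS-LOC (helper18): the local ring of a residue class is an `EvRing`
-/

set_option autoImplicit false

noncomputable section

namespace Fermat.Agent.FL.H18

variable {K : Type} [Field K] {A : ValuationSubring K} {S : Type} {T : Subring (S → K)}
  {C : Set S}

/-- The local ring of a class, with its reduction and its evaluations, is an `EvRing`. -/
def locEvRing (hT : IsFunRingA A T) (hC : IsClass A T C) :
    EvRing (locRing A T C) (IsLocalRing.ResidueField A) K C where
  ρ := locRed hT hC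
  ev := locEv A T C
  unit_iff := isUnit_iff_locRed_ne_zero hT hC
  ev_inj := eq_zero_of_locEv

@[simp] theorem locEvRing_ρ (hT : IsFunRingA A T) (hC : IsClass A T C) :
    (locEvRing hT hC).ρ = locRed hT hC := rfl

@[simp] theorem locEvRing_ev (hT : IsFunRingA A T) (hC : IsClass A T C) (s : C) :
    (locEvRing hT hC).ev s = locEv A T C s := rfl

end Fermat.Agent.FL.H18
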