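import Fermat.Agent.FL.Defs3

/-!
# G-FL (S19), coordinates (helper2): dictionary between subspaces of `E` and coordinate spaces

`lin e u = ∑ i, u i • e i`.  For families `e, e', e''` with structure constants `t`
(`e i * e' j = ∑ l, t i j l • e'' l`):
* `lin_bil` : `lin e'' (bil t u w) = lin e u * lin e' w`;
* `mulSpan_eq_coordSpace` : `mulSpan t U W = coordSpace e'' (lin e U * lin e' W)` (`e''` independent);
* `mem_transp_coordSpace` : `u ∈ transp t (coordSpace e' W') (coordSpace e'' T')` iff
  `lin e u * w ∈ T'` for all `w ∈ W'` (`W'` inside the span of `e'`);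
* `finrank_coordSpace` : `dim (coordSpace e W) = dim W` (`e` independent, `W` inside its span).
-/

set_option autoImplicit false
set_option linter.style.haveILetI false
set_option linter.unusedSectionVars false

noncomputable section

namespace Fermat.Agent.FL.H2

open Fermat.Agent.FL

variable {k E : Type} [Field k] [Field E] [Algebra k E]
variable {ι ι' ι'' : Type} [Fintype ι] [Fintype ι'] [Fintype ι'']

/-- `u ↦ ∑ i, u i • e i`. -/
def lin (e : ι → E) : (ι → k) →ₗ[k] E := Fintype.linearCombination k e

theorem lin_apply (e : ι → E) (u : ι → k) : lin e u = ∑ i, u i • e i :=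
  Fintype.linearCombination_apply k e u

theorem range_lin (e : ι → E) : LinearMap.range (lin (k := k) e) = Submodule.span k (Set.range e) :=
  Fintype.range_linearCombination k e

theorem lin_injective {e : ι → E} (he : LinearIndependent k e) :
    Function.Injective (lin (k := k) e) :=
  he.fintypeLinearCombination_injective

theorem mem_coordSpace {e : ι → E} {W : Submodule k E} {u : ι → k} :
    u ∈ coordSpace e W ↔ lin e u ∈ W := by
  rw [lin_apply]; rfl

theorem coordSpace_eq_comap (e : ι → E) (W : Submodule k E) :
    coordSpace e W = W.comap (lin e) := by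
  ext u
  rw [mem_coordSpace, Submodule.mem_comap]

theorem map_coordSpace {e : ι → E} {W : Submodule k E}
    (hW : W ≤ Submodule.span k (Set.range e)) : (coordSpace e W).map (lin e) = W := by
  rw [coordSpace_eq_comap]
  exact Submodule.map_comap_eq_of_le (by rw [range_lin]; exact hW)

theorem coordSpace_map {e : ι → E} (he : LinearIndependent k e) (U : Submodule k (ι → k)) :
    coordSpace e (U.map (lin e)) = U := by
  rw [coordSpace_eq_comap]
  exact Submodule.comap_map_eq_of_injective (lin_injective he) U

theorem finrank_coordSpace {e : ι → E} (he : LinearIndependent k e) {W : Submodule k E}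
    (hW : W ≤ Submodule.span k (Set.range e)) :
    Module.finrank k (coordSpace e W) = Module.finrank k W := by
  have h1 := (Submodule.equivMapOfInjective (lin (k := k) e) (lin_injective he)
    (coordSpace e W)).finrank_eq
  rw [h1, map_coordSpace hW]

theorem coordSpace_top_of_span {e : ι → E} {W : Submodule k E}
    (hW : Submodule.span k (Set.range e) = W) : coordSpace e W = ⊤ := by
  rw [coordSpace_eq_comap, ← hW, ← range_lin]
  ext u
  simp only [Submodule.mem_comap, LinearMap.mem_range, exists_apply_eq_apply, Submodule.mem_top]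

/-- The structure constants compute the product. -/
theorem lin_bil {e : ι → E} {e' : ι' → E} {e'' : ι'' → E} {t : ι → ι' → ι'' → k}
    (ht : ∀ i j, e i * e' j = ∑ l, t i j l • e'' l) (u : ι → k) (w : ι' → k) :
    lin e'' (bil t u w) = lin e u * lin e' w := by
  rw [lin_apply, lin_apply, lin_apply, Finset.sum_mul_sum]
  simp only [bil, Finset.sum_smul]
  rw [Finset.sum_comm]
  refine Finset.sum_congr rfl fun i _ => ?_
  rw [Finset.sum_comm]
  refine Finset.sum_congr rfl fun j _ => ?_
  rw [smul_mul_smul_comm, ht i j, Finset.smul_sum]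
  refine Finset.sum_congr rfl fun l _ => ?_
  rw [smul_smul]
  congr 1
  ring

theorem map_mulSpan {e : ι → E} {e' : ι' → E} {e'' : ι'' → E} {t : ι → ι' → ι'' → k}
    (ht : ∀ i j, e i * e' j = ∑ l, t i j l • e'' l) (U : Submodule k (ι → k))
    (W : Submodule k (ι' → k)) :
    (mulSpan t U W).map (lin e'') = U.map (lin e) * W.map (lin e') := by
  rw [mulSpan, Submodule.map_span, Submodule.mul_eq_span_mul_set]
  congr 1
  ext x
  constructor
  · rintro ⟨v, ⟨u, hu, w, hw, rfl⟩, rfl⟩
    rw [lin_bil ht]
    exact Set.mul_mem_mul ⟨u, hu, rfl⟩ ⟨w, hw, rfl⟩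
  · rintro ⟨a, ⟨u, hu, rfl⟩, b, ⟨w, hw, rfl⟩, rfl⟩
    exact ⟨bil t u w, ⟨u, hu, w, hw, rfl⟩, lin_bil ht u w⟩

theorem mulSpan_eq_coordSpace {e : ι → E} {e' : ι' → E} {e'' : ι'' → E}
    {t : ι → ι' → ι'' → k} (he'' : LinearIndependent k e'')
    (ht : ∀ i j, e i * e' j = ∑ l, t i j l • e'' l) (U : Submodule k (ι → k))
    (W : Submodule k (ι' → k)) :
    mulSpan t U W = coordSpace e'' (U.map (lin e) * W.map (lin e')) := by
  rw [← map_mulSpan ht, coordSpace_map he'']

theorem mem_transp_coordSpace {e : ι → E} {e' : ι' → E} {e'' : ι'' → E}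
    {t : ι → ι' → ι'' → k} (ht : ∀ i j, e i * e' j = ∑ l, t i j l • e'' l)
    {W' : Submodule k E} (hW' : W' ≤ Submodule.span k (Set.range e')) {T' : Submodule k E}
    {u : ι → k} :
    u ∈ transp t (coordSpace e' W') (coordSpace e'' T') ↔ ∀ w ∈ W', lin e u * w ∈ T' := by
  constructor
  · intro hu w hw
    have hw' : w ∈ LinearMap.range (lin (k := k) e') := by rw [range_lin]; exact hW' hw
    obtain ⟨w₀, rfl⟩ := hw'
    have := hu w₀ (mem_coordSpace.mpr hw)
    rw [mem_coordSpace, lin_bil ht] at this
    exact this
  · intro hu w₀ hw₀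
    rw [mem_coordSpace, lin_bil ht]
    exact hu _ (mem_coordSpace.mp hw₀)

/-- `M * span {z}` is the image of `M` under multiplication by `z`. -/
theorem finrank_mul_span_singleton (M : Submodule k E) {z : E} (hz : z ≠ 0) :
    Module.finrank k (M * Submodule.span k {z} : Submodule k E) = Module.finrank k M := by
  have hinj : Function.Injective (LinearMap.mulRight k z) := fun a b hab =>
    mul_right_cancel₀ hz hab
  have heq : (M * Submodule.span k {z} : Submodule k E) = M.map (LinearMap.mulRight k z) := by
    ext x
    rw [Submodule.mem_mul_span_singleton, Submodule.mem_map]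
    rfl
  rw [heq]
  exact (Submodule.equivMapOfInjective _ hinj M).finrank_eq.symm

theorem finrank_span_singleton_mul (M : Submodule k E) {z : E} (hz : z ≠ 0) :
    Module.finrank k (Submodule.span k {z} * M : Submodule k E) = Module.finrank k M := by
  rw [mul_comm]
  exact finrank_mul_span_singleton M hz

end Fermat.Agent.FL.H2
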