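import Fermat.Agent.FL.Defs2

/-!
# G-FL (S19), abstract packages ABS-ECH, ABS-ANN, ABS-IMG, ABS-KER (helper46)

* `stmt_ECH : Stmt_ECH` and `stmt_ANN : Stmt_ANN` (no normal form needed: a unit minor);
* `stmt_IMG_of : Stmt_SNF → Stmt_IMG`, `stmt_KER_of : Stmt_SNF → Stmt_KER`.

Everything is done with matrix identities over `R`, which are then mapped to the fields.
-/

set_option autoImplicit false

noncomputable section

open Matrix

namespace Fermat.Agent.FL.H46

open Fermat.Agent.FL

/-! ### Column spaces and kernels over a field -/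

section Field

variable {L : Type} [Field L]

theorem mem_colSpace_iff {ι κ : Type} [Fintype κ] (N : Matrix ι κ L) (x : ι → L) :
    x ∈ colSpace N ↔ ∃ y : κ → L, N *ᵥ y = x := by
  rw [colSpace, LinearMap.mem_range]
  rfl

theorem mem_kerSpace_iff {ι κ : Type} [Fintype κ] (N : Matrix ι κ L) (x : κ → L) :
    x ∈ kerSpace N ↔ N *ᵥ x = 0 := by
  rw [kerSpace, LinearMap.mem_ker]
  rfl

/-- Multiplication on the right by a matrix with a right inverse does not change the column
space. -/
theorem colSpace_mul_rightInv {ι κ μ : Type} [Fintype κ] [Fintype μ] [DecidableEq κ]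
    (A : Matrix ι κ L) (B : Matrix κ μ L) (B' : Matrix μ κ L) (h : B * B' = 1) :
    colSpace (A * B) = colSpace A := by
  ext x
  rw [mem_colSpace_iff, mem_colSpace_iff]
  constructor
  · rintro ⟨y, rfl⟩
    exact ⟨B *ᵥ y, by rw [Matrix.mulVec_mulVec]⟩
  · rintro ⟨y, rfl⟩
    refine ⟨B' *ᵥ y, ?_⟩
    rw [Matrix.mulVec_mulVec, Matrix.mul_assoc, h, Matrix.mul_one]

/-- Transport of column spaces along a reindexing. -/
theorem mem_colSpace_submatrix {ι ι' κ κ' : Type} [Fintype κ] [Fintype κ'] (A : Matrix ι κ L)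
    (e₁ : ι' ≃ ι) (e₂ : κ' ≃ κ) (x : ι' → L) :
    x ∈ colSpace (A.submatrix e₁ e₂) ↔ x ∘ e₁.symm ∈ colSpace A := by
  rw [mem_colSpace_iff, mem_colSpace_iff]
  constructor
  · rintro ⟨y, rfl⟩
    refine ⟨y ∘ e₂.symm, ?_⟩
    rw [Matrix.submatrix_mulVec_equiv]
    funext i
    simp
  · rintro ⟨y, hy⟩
    refine ⟨y ∘ e₂, ?_⟩
    rw [Matrix.submatrix_mulVec_equiv]
    have h1 : (y ∘ e₂) ∘ e₂.symm = y := by funext i; simp
    rw [h1, hy]
    funext i
    simp

/-- Transport of kernels along a reindexing. -/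
theorem mem_kerSpace_submatrix {ι ι' κ κ' : Type} [Fintype κ] [Fintype κ'] (A : Matrix ι κ L)
    (e₁ : ι' ≃ ι) (e₂ : κ' ≃ κ) (x : κ' → L) :
    x ∈ kerSpace (A.submatrix e₁ e₂) ↔ x ∘ e₂.symm ∈ kerSpace A := by
  rw [mem_kerSpace_iff, mem_kerSpace_iff, Matrix.submatrix_mulVec_equiv]
  constructor
  · intro h
    funext i
    have := congrFun h (e₁.symm i)
    simpa using this
  · intro h
    funext i
    have := congrFun h (e₁ i)
    simpa using this

end Field

/-! ### Matrix identities over `R`, mapped to a field -/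

section Mapped

variable {R : Type} [CommRing R] {L : Type} [Field L] (f : R →+* L)

theorem map_mul' {ι κ μ : Type} [Fintype κ] (A : Matrix ι κ R) (B : Matrix κ μ R) :
    (A * B).map f = A.map f * B.map f :=
  Matrix.map_mul

theorem map_one' {ι : Type} [DecidableEq ι] : (1 : Matrix ι ι R).map f = 1 :=
  Matrix.map_one f (map_zero f) (map_one f)

theorem map_zero' {ι κ : Type} : (0 : Matrix ι κ R).map f = 0 :=
  Matrix.map_zero f (map_zero f)

theorem map_add' {ι κ : Type} (A B : Matrix ι κ R) : (A + B).map f = A.map f + B.map f :=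
  Matrix.map_add f (map_add f) A B

/-- `T Q = N J` with `Q`, `J` right invertible: `N` and `T` have the same column space. -/
theorem colSpace_eq_of {ι κ : Type} [Fintype κ] [DecidableEq κ] {d : ℕ}
    (T : Matrix ι κ R) (N : Matrix ι (Fin d) R) (Q Q' : Matrix κ κ R)
    (J : Matrix (Fin d) κ R) (J' : Matrix κ (Fin d) R)
    (hQ : Q * Q' = 1) (hJ : J * J' = 1) (h : T * Q = N * J) :
    colSpace (N.map f) = colSpace (T.map f) := by
  have h1 : colSpace (T.map f * Q.map f) = colSpace (T.map f) :=
    colSpace_mul_rightInv _ _ (Q'.map f) (by rw [← map_mul', hQ, map_one'])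
  have h2 : colSpace (N.map f * J.map f) = colSpace (N.map f) :=
    colSpace_mul_rightInv _ _ (J'.map f) (by rw [← map_mul', hJ, map_one'])
  rw [← h1, ← h2, ← map_mul', ← map_mul', h]

/-- `T N = 0` and `A T + N B = 1`: the column space of `N` is the kernel of `T`. -/
theorem colSpace_eq_kerSpace_of {μ κ : Type} [Fintype κ] [Fintype μ] [DecidableEq κ] {d : ℕ}
    (T : Matrix μ κ R) (N : Matrix κ (Fin d) R) (A : Matrix κ μ R) (B : Matrix (Fin d) κ R)
    (h1 : T * N = 0) (h2 : A * T + N * B = 1) :
    colSpace (N.map f) = kerSpace (T.map f) := by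
  ext x
  rw [mem_colSpace_iff, mem_kerSpace_iff]
  constructor
  · rintro ⟨y, rfl⟩
    rw [Matrix.mulVec_mulVec, ← map_mul', h1, map_zero', Matrix.zero_mulVec]
  · intro hx
    refine ⟨B.map f *ᵥ x, ?_⟩
    have h3 : (A.map f * T.map f + N.map f * B.map f) *ᵥ x = x := by
      rw [← map_mul', ← map_mul', ← map_add', h2, map_one', Matrix.one_mulVec]
    rw [Matrix.add_mulVec, ← Matrix.mulVec_mulVec, hx, Matrix.mulVec_zero, zero_add,
      ← Matrix.mulVec_mulVec] at h3
    exact h3

end Mapped

/-- A matrix with a left inverse is a basis matrix of a subbundle. -/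
theorem isSubB_of_leftInv {R k K S : Type} [CommRing R] [Field k] [Field K] (E : EvRing R k K S)
    {ι : Type} [Fintype ι] [DecidableEq ι] {d : ℕ} (N : Matrix ι (Fin d) R)
    (G : Matrix (Fin d) ι R) (h : G * N = 1) : IsSubB E N := by
  have h1 : Function.Injective (N.map E.ρ).mulVec := by
    intro x y hxy
    have h2 : ∀ z : Fin d → k, (G.map E.ρ) *ᵥ ((N.map E.ρ) *ᵥ z) = z := by
      intro z
      rw [Matrix.mulVec_mulVec, ← map_mul', h, map_one', Matrix.one_mulVec]
    have hxy' : (N.map E.ρ) *ᵥ x = (N.map E.ρ) *ᵥ y := hxy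
    rw [← h2 x, ← h2 y, hxy']
  exact Matrix.mulVec_injective_iff.mp h1

/-! ### ABS-ECH -/

/-- The echelon form, with the matrix identities which give it. -/
theorem exists_echelon {R k K S : Type} [CommRing R] [Field k] [Field K] (E : EvRing R k K S)
    {ι : Type} [Fintype ι] [DecidableEq ι] (d : ℕ) (N : Matrix ι (Fin d) R) (j : Fin d → ι)
    (hdet : ((N.map E.ρ).submatrix j id).det ≠ 0) :
    ∃ (M : Matrix ι (Fin d) R) (V V' : Matrix (Fin d) (Fin d) R),
      (∀ a b, M (j a) b = if a = b then 1 else 0) ∧ M = N * V ∧ V * V' = 1 ∧ V' * V = 1 := by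
  have h1 : (N.map E.ρ).submatrix j id = (N.submatrix j id).map E.ρ := rfl
  rw [h1] at hdet
  have h2 : E.ρ (N.submatrix j id).det = ((N.submatrix j id).map E.ρ).det := by
    rw [RingHom.map_det]
    rfl
  have h3 : IsUnit (N.submatrix j id).det := by
    rw [E.unit_iff, h2]
    exact hdet
  refine ⟨N * (N.submatrix j id)⁻¹, (N.submatrix j id)⁻¹, N.submatrix j id, ?_, rfl,
    Matrix.nonsing_inv_mul _ h3, Matrix.mul_nonsing_inv _ h3⟩
  intro a b
  have h4 : (N * (N.submatrix j id)⁻¹) (j a) b =
      (N.submatrix j id * (N.submatrix j id)⁻¹) a b := by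
    rw [Matrix.mul_apply, Matrix.mul_apply]
    rfl
  rw [h4, Matrix.mul_nonsing_inv _ h3, Matrix.one_apply]

/-- **ABS-ECH.** -/
theorem stmt_ECH : Stmt_ECH := by
  intro R k K S _ _ _ E ι _ _ d N j hdet
  obtain ⟨M, V, V', hM, hMN, hVV', hV'V⟩ := exists_echelon E d N j hdet
  refine ⟨M, hM, ?_, fun s => ?_⟩
  · rw [hMN, map_mul']
    exact colSpace_mul_rightInv _ _ (V'.map E.ρ) (by rw [← map_mul', hVV', map_one'])
  · rw [hMN, map_mul']
    exact colSpace_mul_rightInv _ _ (V'.map (E.ev s)) (by rw [← map_mul', hVV', map_one'])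

/-! ### ABS-ANN -/

/-- A matrix over a field with linearly independent columns has a nonzero maximal minor. -/
theorem exists_chart {k : Type} [Field k] {ι : Type} [Fintype ι] [DecidableEq ι] (d : ℕ)
    (A : Matrix ι (Fin d) k) (h : LinearIndependent k A.col) :
    ∃ j : Fin d → ι, (A.submatrix j id).det ≠ 0 := by
  classical
  -- the rows span everything
  have hrank : A.rank = d := by
    have h1 : Aᵀ.rank = Fintype.card (Fin d) := LinearIndependent.rank_matrix (M := Aᵀ) h
    rw [Matrix.rank_transpose, Fintype.card_fin] at h1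
    exact h1
  have hspan : Submodule.span k (Set.range A.row) = ⊤ := by
    apply Submodule.eq_top_of_finrank_eq
    rw [← Matrix.rank_eq_finrank_span_row, hrank, Module.finrank_fin_fun]
  obtain ⟨b, hb, hbspan, hbli⟩ := exists_linearIndependent k (Set.range A.row)
  rw [hspan] at hbspan
  -- `b` is a basis
  let B : Module.Basis b k (Fin d → k) := Module.Basis.mk hbli (by
    rw [Subtype.range_coe_subtype, Set.setOf_mem_eq, hbspan])
  haveI : Finite b := (Set.finite_range A.row).subset hb |>.to_subtype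
  haveI : Fintype b := Fintype.ofFinite b
  have hcard : Fintype.card b = d := by
    have := Module.finrank_eq_card_basis B
    rw [Module.finrank_fin_fun] at this
    exact this.symm
  let e : Fin d ≃ b := (Fintype.equivFinOfCardEq hcard).symm
  have hrow : ∀ x : b, ∃ i : ι, A.row i = (x : Fin d → k) := fun x => hb x.2
  choose i hi using hrow
  refine ⟨fun a => i (e a), ?_⟩
  have hli : LinearIndependent k (A.submatrix (fun a => i (e a)) id).row := by
    have h1 : (A.submatrix (fun a => i (e a)) id).row = (fun x : b => (x : Fin d → k)) ∘ e := by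
      funext a
      exact hi (e a)
    rw [h1]
    exact hbli.comp e e.injective
  rw [Matrix.linearIndependent_rows_iff_isUnit, Matrix.isUnit_iff_isUnit_det] at hli
  exact hli.ne_zero

/-- The selection matrix of a map `c`: `(sel c *ᵥ x) a = x (c a)`. -/
def sel (R : Type) [CommRing R] {α β : Type} [DecidableEq β] (c : α → β) : Matrix α β R :=
  fun a i => if c a = i then 1 else 0

theorem sel_mul_apply {R : Type} [CommRing R] {α β γ : Type} [DecidableEq β] [Fintype β]
    (c : α → β) (M : Matrix β γ R) (a : α) (g : γ) : (sel R c * M) a g = M (c a) g := by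
  rw [Matrix.mul_apply]
  simp [sel]

theorem mul_sel_transpose_apply {R : Type} [CommRing R] {α β γ : Type} [DecidableEq β]
    [Fintype β] (c : α → β) (M : Matrix γ β R) (a : α) (g : γ) :
    (M * (sel R c)ᵀ) g a = M g (c a) := by
  rw [Matrix.mul_apply]
  simp [sel]

/-- **ABS-ANN.** -/
theorem stmt_ANN : Stmt_ANN := by
  intro R k K S _ _ _ E ι _ _ d N hN
  obtain ⟨j, hj⟩ := exists_chart d (N.map E.ρ) hN
  obtain ⟨M, V, V', hM, hMN, hVV', hV'V⟩ := exists_echelon E d N j hj
  -- `sel j * M = 1`
  have h1 : sel R j * M = 1 := by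
    ext a b
    rw [sel_mul_apply, hM, Matrix.one_apply]
  obtain ⟨P₀, hP₀⟩ : ∃ P₀ : Matrix ι ι R, P₀ = 1 - M * sel R j := ⟨_, rfl⟩
  have h2 : P₀ * M = 0 := by
    rw [hP₀, Matrix.sub_mul, Matrix.one_mul, Matrix.mul_assoc, h1, Matrix.mul_one, sub_self]
  have h3 : P₀ + M * sel R j = 1 := by
    rw [hP₀]; abel
  -- reindex the rows
  let eι : ι ≃ Fin (Fintype.card ι) := Fintype.equivFin ι
  refine ⟨Fintype.card ι, P₀.submatrix eι.symm id, ?_, fun s => ?_⟩
  all_goals
    have hA : (1 : Matrix ι ι R).submatrix id eι.symm * P₀.submatrix eι.symm id = P₀ := by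
      have := Matrix.submatrix_mul_equiv (1 : Matrix ι ι R) P₀ (id : ι → ι) eι.symm (id : ι → ι)
      rw [this, Matrix.one_mul]
      rfl
    have hker := fun (L : Type) (_ : Field L) (f : R →+* L) =>
      colSpace_eq_kerSpace_of f (P₀.submatrix eι.symm id) M
        ((1 : Matrix ι ι R).submatrix id eι.symm) (sel R j)
        (by
          have := Matrix.submatrix_mul_equiv P₀ M (eι.symm : Fin (Fintype.card ι) → ι)
            (Equiv.refl ι) (id : Fin d → Fin d)
          have h5 : P₀.submatrix eι.symm id * M =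
              (P₀ * M).submatrix eι.symm id := by
            rw [← this]; rfl
          rw [h5, h2]; rfl)
        (by rw [hA]; exact h3)
  · rw [← hker k _ E.ρ, hMN, map_mul']
    exact colSpace_mul_rightInv _ _ (V'.map E.ρ) (by rw [← map_mul', hVV', map_one'])
  · rw [← hker K _ (E.ev s), hMN, map_mul']
    exact colSpace_mul_rightInv _ _ (V'.map (E.ev s)) (by rw [← map_mul', hVV', map_one'])

end Fermat.Agent.FL.H46

end
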