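import Fermat.Agent.FL.H38_FrameLift
import Fermat.Agent.FL.H2_Coord
import Fermat.Agent.FL.H46_Bundle

/-!
# G-FL (S19), package RED-FRAME, part 3 (helper38): SUB-RED and ECH-INT

* `colSpace_eq_coordSpace`: the matrix of the coordinates of a family `f` with respect to an
  independent family `e` has column space `coordSpace e (span f)`;
* `stmt_SubRed : Stmt_SubRed`;
* `stmt_EchInt : Stmt_EchInt`.
-/

set_option autoImplicit false

noncomputable section

open AlgebraicCurve Matrix

namespace Fermat.Agent.FL.H38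

open Fermat.Agent.FL Fermat.Agent.RED Fermat.Agent.RED.H17

local notation "L" => riemannRochSpace

/-! ### Linear algebra -/

section LinAlg

variable {k E : Type} [Field k] [Field E] [Algebra k E]
variable {ι κ : Type} [Fintype ι] [Fintype κ]

theorem lin_mulVec (e : ι → E) (f : κ → E) (N : Matrix ι κ k)
    (hN : ∀ b, f b = ∑ i, N i b • e i) (c : κ → k) :
    H2.lin e (N *ᵥ c) = H2.lin f c := by
  rw [H2.lin_apply, H2.lin_apply]
  have h1 : ∀ i, (N *ᵥ c) i • e i = ∑ b, c b • (N i b • e i) := by
    intro i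
    rw [Matrix.mulVec, dotProduct, Finset.sum_smul]
    refine Finset.sum_congr rfl fun b _ => ?_
    rw [smul_smul, mul_comm]
  rw [Finset.sum_congr rfl fun i _ => h1 i, Finset.sum_comm]
  refine Finset.sum_congr rfl fun b _ => ?_
  rw [hN b, Finset.smul_sum]

/-- The matrix of the coordinates of `f` with respect to the independent family `e` has column
space `coordSpace e (span f)`. -/
theorem colSpace_eq_coordSpace {e : ι → E} (he : LinearIndependent k e) (f : κ → E)
    (N : Matrix ι κ k) (hN : ∀ b, f b = ∑ i, N i b • e i) :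
    colSpace N = coordSpace e (Submodule.span k (Set.range f)) := by
  ext u
  rw [H46.mem_colSpace_iff, H2.mem_coordSpace, ← H2.range_lin, LinearMap.mem_range]
  constructor
  · rintro ⟨c, rfl⟩
    exact ⟨c, (lin_mulVec e f N hN c).symm⟩
  · rintro ⟨c, hc⟩
    refine ⟨c, H2.lin_injective he ?_⟩
    rw [lin_mulVec e f N hN c, hc]

omit [Fintype ι] in
/-- The columns of a matrix with an identity minor are linearly independent. -/
theorem linearIndependent_col_of_chart {d : ℕ} (J : Fin d → ι) (M : Matrix ι (Fin d) k)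
    (hM : ∀ a b, M (J a) b = if a = b then 1 else 0) :
    LinearIndependent k (fun b : Fin d => fun i : ι => M i b) := by
  rw [Fintype.linearIndependent_iff]
  intro c hc a
  have h1 := congrFun hc (J a)
  rw [Finset.sum_apply] at h1
  simp only [Pi.smul_apply, smul_eq_mul, hM, Pi.zero_apply] at h1
  rw [Finset.sum_eq_single a] at h1
  · simpa using h1
  · intro b _ hb
    rw [if_neg (Ne.symm hb), mul_zero]
  · intro h
    exact absurd (Finset.mem_univ a) h

end LinAlg

/-! ### Function fields -/

section FF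

variable {K F k F' : Type} [Field K] [Field F] [Algebra K F] [Field k] [Field F']
  [Algebra k F'] (S : RedSetup K F k F')

theorem nonneg_apply' {k E : Type} [Field k] [Field E] [Algebra k E] {A : Divisor k E}
    (hA : 0 ≤ A) (v : Place k E) : 0 ≤ A v := by
  have := hA
  rw [Finsupp.le_def] at this
  simpa using this v

theorem L_sub_le' {k E : Type} [Field k] [Field E] [Algebra k E] {D A : Divisor k E}
    (hA : 0 ≤ A) : L (D - A) ≤ L D := by
  refine L_mono' fun v => ?_
  rw [Finsupp.sub_apply]
  have := nonneg_apply' hA v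
  omega

theorem L_red_sub_le (B E : Divisor K F) (hE : 0 ≤ E) :
    L (Finsupp.mapDomain S.r (B - E)) ≤ L (Finsupp.mapDomain S.r B) := by
  refine L_mono' fun Q => ?_
  have h1 : Finsupp.mapDomain S.r B
      = Finsupp.mapDomain S.r (B - E) + Finsupp.mapDomain S.r E := by
    rw [← Finsupp.mapDomain_add, sub_add_cancel]
  rw [h1, Finsupp.add_apply]
  have := mapDomain_nonneg' S.r (D := E) (nonneg_apply' hE) Q
  omega

/-- The coordinates of a frame of `L(B - E)` of Gauss-integral functions with respect to an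
integral frame of `L(B)`. -/
theorem exists_coord_matrix {B E : Divisor K F} {ι : Type} [Fintype ι] {e : ι → F}
    (he : IsIntFrame S e B) (hE : 0 ≤ E) {κ : Type} [Fintype κ] (f : κ → F)
    (hfV : ∀ b, f b ∈ S.V) (hfD : ∀ b, f b ∈ L (B - E)) :
    ∃ N : Matrix ι κ K, (∀ b, f b = ∑ i, N i b • e i) ∧ (∀ i b, N i b ∈ constVal S) ∧
      ∀ b, S.rd (f b) = ∑ i, rc S (N i b) • S.rd (e i) := by
  have hfB : ∀ b, ∃ u : ι → K, H2.lin e u = f b := by
    intro b
    have h1 : f b ∈ Submodule.span K (Set.range e) := by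
      rw [he.1.2]
      exact L_sub_le' hE (hfD b)
    rw [← H2.range_lin] at h1
    exact h1
  choose N hN using hfB
  have hN' : ∀ b, f b = ∑ i, N b i • e i := fun b => by rw [← hN b, H2.lin_apply]
  have key := fun b => frameInt S e he.2.1 he.2.2.1 (N b) (by rw [← hN' b]; exact hfV b)
  refine ⟨Matrix.of fun i b => N b i, hN', fun i b => (key b).1 i, fun b => ?_⟩
  rw [hN' b]
  exact (key b).2

/-- **SUB-RED.** -/
theorem stmt_SubRed : Stmt_SubRed := by
  intro K F k F' _ _ _ _ _ _ _ _ S hFF hFF' B E ι _ e he hE hle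
  obtain ⟨d, f, hf, hfV, hf'⟩ := stmt_FrameLift K F k F' S hFF hFF' (B - E) hle
  have hfD : ∀ b, f b ∈ L (B - E) := fun b => by
    rw [← hf.2]
    exact Submodule.subset_span (Set.mem_range_self b)
  obtain ⟨N, hN1, hN2, hN3⟩ := exists_coord_matrix S he hE f hfV hfD
  refine ⟨d, N, hN2, ?_, ?_, ?_⟩
  · refine LinearIndependent.of_comp (H2.lin (fun i => S.rd (e i))) ?_
    have h1 : (H2.lin (fun i => S.rd (e i))) ∘ (fun b : Fin d => fun i : ι => rc S (N i b))
        = fun b => S.rd (f b) := by
      funext b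
      rw [Function.comp_apply, H2.lin_apply, hN3 b]
    rw [h1]
    exact hf'.1
  · rw [colSpace_eq_coordSpace he.1.1 f N hN1, hf.2]
  · rw [colSpace_eq_coordSpace he.2.2.1 (fun b => S.rd (f b)) (N.map (rc S)) hN3, hf'.2]

/-- **ECH-INT.** -/
theorem stmt_EchInt : Stmt_EchInt := by
  intro K F k F' _ _ _ _ _ _ _ _ S hFF hFF' B E ι _ e he hE hle d J M' hM'J hM'
  have H := ffHyp_of_isFF hFF
  have H' := ffHyp_of_isFF hFF'
  have : Infinite k := IsAlgClosed.instInfinite
  -- the frame of the reduction given by `M'`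
  have hW : L (Finsupp.mapDomain S.r (B - E)) ≤
      Submodule.span k (Set.range fun i => S.rd (e i)) := by
    rw [he.2.2.2]
    exact L_red_sub_le S B E hE
  have hcol : LinearIndependent k (fun b : Fin d => fun i : ι => M' i b) :=
    linearIndependent_col_of_chart J M' hM'J
  have hy : IsFrameOf (fun b : Fin d => H2.lin (fun i => S.rd (e i)) (fun i : ι => M' i b))
      (Finsupp.mapDomain S.r (B - E)) := by
    refine ⟨hcol.map' _ (LinearMap.ker_eq_bot.mpr (H2.lin_injective he.2.2.1)), ?_⟩
    have h1 : (Set.range fun b : Fin d =>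
        H2.lin (fun i => S.rd (e i)) (fun i : ι => M' i b))
        = (H2.lin (fun i => S.rd (e i))) '' Set.range (fun b : Fin d => fun i : ι => M' i b) := by
      rw [← Set.range_comp]
      rfl
    have h2 : Submodule.span k (Set.range (fun b : Fin d => fun i : ι => M' i b))
        = colSpace M' := (Matrix.range_mulVecLin M').symm
    rw [h1, ← Submodule.map_span, h2, hM', H2.map_coordSpace hW]
  obtain ⟨f, hfV, hfy, hf⟩ := exists_lift_frame S H H' hle _ hy
  have hfD : ∀ b, f b ∈ L (B - E) := fun b => by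
    rw [← hf.2]
    exact Submodule.subset_span (Set.mem_range_self b)
  obtain ⟨N, hN1, hN2, hN3⟩ := exists_coord_matrix S he hE f hfV hfD
  -- the reduction of `N` is `M'`
  have hNM : ∀ i b, rc S (N i b) = M' i b := by
    intro i b
    have h1 : H2.lin (fun i => S.rd (e i)) (fun i => rc S (N i b))
        = H2.lin (fun i => S.rd (e i)) (fun i => M' i b) := by
      rw [← hfy b, hN3 b, H2.lin_apply]
    exact congrFun (H2.lin_injective he.2.2.1 h1) i
  -- matrices over `A`
  let NA : Matrix ι (Fin d) (constVal S) := Matrix.of fun i b => ⟨N i b, hN2 i b⟩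
  let P : Matrix (Fin d) (Fin d) (constVal S) := NA.submatrix J id
  have hNAmap : NA.map (rcHom S) = M' := by
    ext i b
    exact hNM i b
  have hPmap : P.map (rcHom S) = 1 := by
    ext a b
    rw [Matrix.one_apply]
    show rc S (N (J a) b) = _
    rw [hNM, hM'J]
  have hdet : IsUnit P.det := by
    apply isUnit_of_rcHom_ne_zero
    rw [RingHom.map_det, RingHom.mapMatrix_apply, hPmap, Matrix.det_one]
    exact one_ne_zero
  have hPinv : P * P⁻¹ = 1 := Matrix.mul_nonsing_inv P hdet
  have hinvP : P⁻¹ * P = 1 := Matrix.nonsing_inv_mul P hdet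
  have hQmap : (P⁻¹).map (rcHom S) = 1 := by
    have h1 : (P * P⁻¹).map (rcHom S) = 1 := by
      rw [hPinv]
      exact H46.map_one' (rcHom S)
    rw [H46.map_mul' (rcHom S), hPmap, Matrix.one_mul] at h1
    exact h1
  let MA : Matrix ι (Fin d) (constVal S) := NA * P⁻¹
  have hNK : NA.map ((constVal S).subtype) = N := by
    ext i b
    rfl
  have hrc : ∀ X : Matrix ι (Fin d) (constVal S),
      (X.map ((constVal S).subtype)).map (rc S) = X.map (rcHom S) := by
    intro X
    ext i b
    rfl
  have hMmap : (MA.map ((constVal S).subtype)).map (rc S) = M' := by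
    rw [hrc, H46.map_mul' (rcHom S), hNAmap, hQmap, Matrix.mul_one]
  refine ⟨MA.map ((constVal S).subtype), ⟨?_, ?_, ?_, ?_⟩, hMmap⟩
  · intro a b
    have h1 : MA (J a) b = (P * P⁻¹) a b := by
      show (NA * P⁻¹) (J a) b = (P * P⁻¹) a b
      rw [Matrix.mul_apply, Matrix.mul_apply]
      rfl
    rw [Matrix.map_apply, h1, hPinv, Matrix.one_apply]
    split_ifs
    · rfl
    · rfl
  · rw [H46.map_mul' ((constVal S).subtype), hNK]
    rw [H46.colSpace_mul_rightInv N _ (P.map ((constVal S).subtype))
      (by rw [← H46.map_mul' ((constVal S).subtype), hinvP]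
          exact H46.map_one' ((constVal S).subtype))]
    rw [colSpace_eq_coordSpace he.1.1 f N hN1, hf.2]
  · intro i b
    exact (MA i b).2
  · rw [hMmap, hM']

end FF

end Fermat.Agent.FL.H38
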