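import Fermat.Agent.FL.Defs5

/-!
# G-FL (helper21): transport of echelon bases under the Galois action

`S : RedSetup K F k F'`, `G : GalRed S Γ`, `σ ∈ Γ`, `τ = baseAut (G.act σ)` the action on the
constants.

* `H21_smul_mem_L_iff`     : `g • f ∈ L(g • D) ↔ f ∈ L(D)` for a semilinear automorphism `g`;
* `H21_mem_coordSpace_smul_iff` : coordinates of `L(g • D)` in a `g`-fixed family;
* `H21_mem_colSpace_map_iff`    : the column space of a matrix twisted by a ring automorphism;
* `H21_constVal_baseAut`   : `τ` preserves the valuation ring of the constants;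
* `H21_rc_baseAut`         : `rc (τ c) = τ' (rc c)` for integral `c` (`τ'` = action on `k`);
* `H21_mapDomain_r_smul`   : `r_* (σ • D) = σ' • r_* D`;
* `H21_isEch_smul`         : **transport of `IsEch`**: if `e` is integral and `σ`-fixed, then
  `IsEch S e D J M → IsEch S e (σ • D) J (τ M)`.
-/

set_option autoImplicit false
set_option linter.unusedSectionVars false

noncomputable section

open AlgebraicCurve Matrix

namespace Fermat.Agent.FL.H21

open Fermat.Agent.RED Fermat.Agent.RED.H17 Fermat.Agent.FL

section Semilinear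

variable {K F : Type} [Field K] [Field F] [Algebra K F]

/-- `g • f ∈ L(g • D) ↔ f ∈ L(D)`. -/
theorem H21_smul_mem_L_iff (g : SemilinearAut K F) (D : Divisor K F) (f : F) :
    g • f ∈ riemannRochSpace (g • D) ↔ f ∈ riemannRochSpace D := by
  rw [mem_riemannRochSpace_iff, mem_riemannRochSpace_iff]
  constructor
  · intro h v
    rcases h (g • v) with h0 | h1
    · left
      exact (smul_eq_zero_iff_eq g).mp h0
    · right
      rwa [SemilinearAut.divisor_smul_apply_smul, SemilinearAut.ord_smul] at h1
  · intro h w
    rcases h (g⁻¹ • w) with h0 | h1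
    · left
      rw [h0, smul_zero]
    · right
      have e1 : (g • D) w = D (g⁻¹ • w) := SemilinearAut.divisor_smul_apply g D w
      have e2 : w.ord (g • f) = (g⁻¹ • w).ord f := by
        have := SemilinearAut.ord_smul g (g⁻¹ • w) f
        rwa [smul_inv_smul] at this
      rw [e1, e2]
      exact h1

/-- Semilinearity. -/
theorem H21_smul_smul_eq (g : SemilinearAut K F) (a : K) (x : F) :
    g • (a • x) = (SemilinearAut.baseAut g a) • (g • x) := by
  rw [Algebra.smul_def, Algebra.smul_def, smul_mul', SemilinearAut.smul_algebraMap]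

theorem H21_smul_sum_smul (g : SemilinearAut K F) {ι : Type} [Fintype ι] (u : ι → K)
    (e : ι → F) :
    g • (∑ i, u i • e i) = ∑ i, (SemilinearAut.baseAut g (u i)) • (g • e i) := by
  rw [Finset.smul_sum]
  exact Finset.sum_congr rfl fun i _ => H21_smul_smul_eq g (u i) (e i)

/-- The coordinates of `L(g • D)` with respect to a `g`-fixed family. -/
theorem H21_mem_coordSpace_smul_iff (g : SemilinearAut K F) {ι : Type} [Fintype ι] (e : ι → F)
    (he : ∀ i, g • e i = e i) (D : Divisor K F) (u : ι → K) :
    u ∈ coordSpace e (riemannRochSpace (g • D)) ↔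
      (fun i => (SemilinearAut.baseAut g).symm (u i)) ∈ coordSpace e (riemannRochSpace D) := by
  have key : ∑ i, u i • e i = g • ∑ i, (SemilinearAut.baseAut g).symm (u i) • e i := by
    rw [H21_smul_sum_smul]
    refine Finset.sum_congr rfl fun i _ => ?_
    rw [RingEquiv.apply_symm_apply, he i]
  show ∑ i, u i • e i ∈ riemannRochSpace (g • D) ↔
    ∑ i, (SemilinearAut.baseAut g).symm (u i) • e i ∈ riemannRochSpace D
  rw [key, H21_smul_mem_L_iff]

/-- `r_*`-type transport: `mapDomain r (g • D) = g' • mapDomain r D` if `r (g • P) = g' • r P`. -/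
theorem H21_mapDomain_smul {k F' : Type} [Field k] [Field F'] [Algebra k F']
    (r : Place K F → Place k F') (g : SemilinearAut K F) (g' : SemilinearAut k F')
    (h : ∀ P, r (g • P) = g' • r P) (D : Divisor K F) :
    Finsupp.mapDomain r (g • D) = g' • Finsupp.mapDomain r D := by
  rw [SemilinearAut.divisor_smul_def, SemilinearAut.divisor_smul_def, ← Finsupp.mapDomain_comp,
    ← Finsupp.mapDomain_comp]
  congr 1
  funext P
  exact h P

end Semilinear

section Col

variable {L : Type} [Field L]

/-- The column space of a matrix twisted by a ring automorphism. -/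
theorem H21_mem_colSpace_map_iff {ι κ : Type} [Fintype κ] (τ : L ≃+* L) (N : Matrix ι κ L)
    (u : ι → L) :
    u ∈ colSpace (N.map τ) ↔ (fun i => τ.symm (u i)) ∈ colSpace N := by
  unfold colSpace
  rw [LinearMap.mem_range, LinearMap.mem_range]
  constructor
  · rintro ⟨w, rfl⟩
    refine ⟨fun j => τ.symm (w j), ?_⟩
    funext i
    simp only [Matrix.mulVecLin_apply, Matrix.mulVec, dotProduct, Matrix.map_apply, map_sum,
      map_mul, RingEquiv.symm_apply_apply]
  · rintro ⟨w, hw⟩
    refine ⟨fun j => τ (w j), ?_⟩
    funext i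
    have h1 := congrFun hw i
    simp only [Matrix.mulVecLin_apply, Matrix.mulVec, dotProduct] at h1 ⊢
    have h2 := congrArg τ h1
    rw [RingEquiv.apply_symm_apply, map_sum] at h2
    rw [← h2]
    refine Finset.sum_congr rfl fun j _ => ?_
    rw [Matrix.map_apply, map_mul]

end Col

section Gal

variable {K F k F' : Type} [Field K] [Field F] [Algebra K F] [Field k] [Field F']
  [Algebra k F'] {S : RedSetup K F k F'} {Γ : Type} [Group Γ] (G : GalRed S Γ)

/-- The Galois action preserves the valuation ring of the constants. -/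
theorem H21_constVal_baseAut (σ : Γ) {c : K} (hc : c ∈ constVal S) :
    SemilinearAut.baseAut (G.act σ) c ∈ constVal S := by
  have h := G.mem_V σ (algebraMap K F c) hc
  rwa [SemilinearAut.smul_algebraMap] at h

/-- The reduction of constants is Galois equivariant. -/
theorem H21_rc_baseAut (σ : Γ) {c : K} (hc : c ∈ constVal S) :
    rc S (SemilinearAut.baseAut (G.act σ) c) = SemilinearAut.baseAut (G.act' σ) (rc S c) := by
  have hc' : algebraMap K F (SemilinearAut.baseAut (G.act σ) c) ∈ S.V :=
    H21_constVal_baseAut G σ hc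
  have h1 := G.rd_smul σ (algebraMap K F c) hc
  rw [SemilinearAut.smul_algebraMap, S.rd_of_mem hc', rc_spec S hc', S.rd_of_mem hc,
    rc_spec S hc, SemilinearAut.smul_algebraMap] at h1
  exact (algebraMap k F').injective h1

/-- `r_* (σ • D) = σ' • r_* D`. -/
theorem H21_mapDomain_r_smul (σ : Γ) (D : Divisor K F) :
    Finsupp.mapDomain S.r (G.act σ • D) = G.act' σ • Finsupp.mapDomain S.r D :=
  H21_mapDomain_smul S.r (G.act σ) (G.act' σ) (G.r_smul σ) D

/-- The reductions of a `σ`-fixed integral family are `σ'`-fixed. -/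
theorem H21_rd_fixed (σ : Γ) {ι : Type} (e : ι → F) (heV : ∀ i, e i ∈ S.V)
    (he : ∀ i, G.act σ • e i = e i) (i : ι) : G.act' σ • S.rd (e i) = S.rd (e i) := by
  rw [← G.rd_smul σ (e i) (heV i), he i]

/-- **Transport of `IsEch`** under the Galois action. -/
theorem H21_isEch_smul (σ : Γ) {ι : Type} [Fintype ι] {d : ℕ} (e : ι → F)
    (heV : ∀ i, e i ∈ S.V) (he : ∀ i, G.act σ • e i = e i) (D : Divisor K F)
    (J : Fin d → ι) (M : Matrix ι (Fin d) K) (h : IsEch S e D J M) :
    IsEch S e (G.act σ • D) J (M.map (SemilinearAut.baseAut (G.act σ))) := by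
  obtain ⟨h1, h2, h3, h4⟩ := h
  refine ⟨?_, ?_, ?_, ?_⟩
  · intro a b
    rw [Matrix.map_apply, h1 a b]
    split_ifs
    · exact map_one _
    · exact map_zero _
  · ext u
    rw [H21_mem_colSpace_map_iff, h2, H21_mem_coordSpace_smul_iff (G.act σ) e he D u]
  · intro i b
    rw [Matrix.map_apply]
    exact H21_constVal_baseAut G σ (h3 i b)
  · have hM : (M.map (SemilinearAut.baseAut (G.act σ))).map (rc S)
        = (M.map (rc S)).map (SemilinearAut.baseAut (G.act' σ)) := by
      ext i b
      simp only [Matrix.map_apply]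
      exact H21_rc_baseAut G σ (h3 i b)
    ext u
    rw [hM, H21_mem_colSpace_map_iff, h4, H21_mapDomain_r_smul,
      H21_mem_coordSpace_smul_iff (G.act' σ) (fun i => S.rd (e i))
        (H21_rd_fixed G σ e heV he) _ u]

end Gal

end Fermat.Agent.FL.H21
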