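import Fermat.Agent.FL.H51_DStab
import Fermat.Agent.FL.H21_EchTransport

/-!
# G-FL, package DSTAB (helper51): `Stmt_EchSmul` discharged

`stmt_EchSmul : Stmt_EchSmul` (helper21's `H21_isEch_smul`), hence
`stmt_DStab_of' : Stmt_FamAdd → Stmt_RedLinEq → Stmt_EchConst → Stmt_DStab`.
This file contains no `sorry`.
-/

set_option autoImplicit false

noncomputable section

open AlgebraicCurve

namespace Fermat.Agent.FL.H51

/-- **(B) transport of `IsEch`** (helper21). -/
theorem stmt_EchSmul : Stmt_EchSmul := by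
  intro K F k F' _ _ _ _ _ _ S Γ _ G σ ι _ d e he heV D J M h
  exact Fermat.Agent.FL.H21.H21_isEch_smul (G := G) σ e heV he D J M h

/-- **DSTAB**, with the transport discharged. -/
theorem stmt_DStab_of' (hFA : Stmt_FamAdd) (hRL : Stmt_RedLinEq) (hEC : Stmt_EchConst) :
    Stmt_DStab :=
  stmt_DStab_of hFA hRL stmt_EchSmul hEC

end Fermat.Agent.FL.H51
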