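import Fermat.Agent.FL.Defs
import Fermat.Agent.S17.Height.H35_PencilFF

/-!
# G-FL (S19), function field leaves (helper2): `Stmt_BPF`, `Stmt_CM`, `Stmt_DIV`, `Stmt_MULT`

All four are consequences of Riemann's theorem `IsRiemann k E g c` and of the basic hypotheses
`RED.H42.Hyp k E` (which hold for every function field of one variable over an algebraically
closed field: `S17.H35.hyp_of_isFF`).  The pencil trick itself is helper35's
(`S17/Height/H35_Pencil.lean`); here it is used with the constant `c` of `IsRiemann`, which may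
be `-1` (genus `0`).

* `exists_place` : a function field has a place.
* `neg_one_le_of_isRiemann`, `genus_le_of_isRiemann` : `-1 ≤ c`, `g ≤ c + 1`.
* `L_bpf_single` : `L(D)` has no base point at `v` if `deg D ≥ c + 1`.
* `exists_ne_zero_mem_L` : `L(D) ≠ 0` if `deg D ≥ c + 1`.
* `bpf_finset` : the same at finitely many places simultaneously.
* `mul_L_eq_of_isRiemann` : `L(D₁) * L(D₂) = L(D₁ + D₂)`.
* `mem_L_of_mul_mem`, `multiplier` : the generic forms of FF-DIV and FF-MULT.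
* `stmt_BPF`, `stmt_CM`, `stmt_DIV`, `stmt_MULT`.
-/

set_option autoImplicit false
set_option linter.style.haveILetI false
set_option linter.unusedSectionVars false

noncomputable section

open AlgebraicCurve

namespace Fermat.Agent.FL.H2

open Fermat.Agent.RED Fermat.Agent.RED.H42 Fermat.Agent.S17.H35

variable {k E : Type} [Field k] [Field E] [Algebra k E]

local notation "L" => riemannRochSpace

/-- A function field of one variable has a place. -/
theorem exists_place (hFF : IsFF k E) (H : Hyp k E) : Nonempty (Place k E) := by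
  obtain ⟨x, hx, -⟩ := hFF
  have hx' : x ∉ Set.range (algebraMap k E) := by
    rintro ⟨a, rfl⟩
    exact hx (isAlgebraic_algebraMap a)
  obtain ⟨v, -⟩ := H.exists_pole x hx'
  exact ⟨v⟩

theorem degree_zsmul_single (H : Hyp k E) (v : Place k E) (n : ℤ) :
    Divisor.degree (Finsupp.single v n : Divisor k E) = n := by
  rw [Divisor.degree_single, H.deg_one v]
  simp

/-- The constant `c` of Riemann's theorem is at least `g - 1`. -/
theorem genus_le_of_isRiemann (hFF : IsFF k E) (H : Hyp k E) {g : ℕ} {c : ℤ}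
    (hR : IsRiemann k E g c) : (g : ℤ) ≤ c + 1 := by
  obtain ⟨v⟩ := exists_place hFF H
  have h1 := (hR (Finsupp.single v c)).2 (by rw [degree_zsmul_single H])
  rw [degree_zsmul_single H] at h1
  have h2 : (0 : ℤ) ≤ (Module.finrank k (L (Finsupp.single v c : Divisor k E)) : ℤ) :=
    Int.natCast_nonneg _
  omega

theorem neg_one_le_of_isRiemann (hFF : IsFF k E) (H : Hyp k E) {g : ℕ} {c : ℤ}
    (hR : IsRiemann k E g c) : -1 ≤ c := by
  have := genus_le_of_isRiemann hFF H hR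
  omega

/-- `L(D)` has no base point at `v` if `deg D ≥ c + 1`. -/
theorem L_bpf_single (H : Hyp k E) {g : ℕ} {c : ℤ} (hR : IsRiemann k E g c) {D : Divisor k E}
    (hD : c + 1 ≤ Divisor.degree D) (v : Place k E) :
    ∃ f ∈ L D, f ≠ 0 ∧ v.ord f = -D v := by
  classical
  have h1 := (hR D).2 (by omega)
  have h2 := (hR (D - Finsupp.single v 1)).2 (by rw [degree_sub_single H.deg_one]; omega)
  rw [degree_sub_single H.deg_one] at h2
  have hle : L (D - Finsupp.single v 1) ≤ L D := L_mono (by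
    rw [Finsupp.le_def]
    intro w
    rw [Finsupp.sub_apply]
    have : 0 ≤ (Finsupp.single v (1 : ℤ)) w := by
      rw [Finsupp.single_apply]; split_ifs <;> omega
    omega)
  have hlt : ¬ L D ≤ L (D - Finsupp.single v 1) := by
    intro h
    have heq : L (D - Finsupp.single v 1) = L D := le_antisymm hle h
    rw [heq] at h2
    omega
  obtain ⟨f, hf, hfD⟩ := SetLike.not_le_iff_exists.mp hlt
  have hf0 : f ≠ 0 := by
    rintro rfl
    exact hfD (Submodule.zero_mem _)
  refine ⟨f, hf, hf0, ?_⟩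
  by_contra hcon
  exact hfD ((mem_L_sub_single_iff hf hf0 v).mpr hcon)

/-- `L(D) ≠ 0` if `deg D ≥ c + 1`. -/
theorem exists_ne_zero_mem_L (hFF : IsFF k E) (H : Hyp k E) {g : ℕ} {c : ℤ}
    (hR : IsRiemann k E g c) {D : Divisor k E} (hD : c + 1 ≤ Divisor.degree D) :
    ∃ f ∈ L D, f ≠ 0 := by
  obtain ⟨v⟩ := exists_place hFF H
  obtain ⟨f, hf, hf0, -⟩ := L_bpf_single H hR hD v
  exact ⟨f, hf, hf0⟩

/-- **FF-BPF**, generic form. -/
theorem bpf_finset [Infinite k] (hFF : IsFF k E) (H : Hyp k E) {g : ℕ} {c : ℤ}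
    (hR : IsRiemann k E g c) {D : Divisor k E} (hD : c + 1 ≤ Divisor.degree D)
    (S : Finset (Place k E)) :
    ∃ f : E, f ≠ 0 ∧ f ∈ L D ∧ ∀ Q ∈ S, Q.ord f = - D Q := by
  classical
  let p : Option S → Submodule k (L D) := fun o =>
    match o with
    | none => ⊥
    | some Q => Submodule.comap (L D).subtype (L (D - Finsupp.single Q.1 1))
  have hp : ∀ o, p o ≠ ⊤ := by
    intro o
    cases o with
    | none =>
      intro h
      obtain ⟨s, hs, hs0⟩ := exists_ne_zero_mem_L hFF H hR hD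
      have h1 : (⟨s, hs⟩ : L D) ∈ (⊥ : Submodule k (L D)) := by
        show (⟨s, hs⟩ : L D) ∈ p none
        rw [h]; trivial
      rw [Submodule.mem_bot] at h1
      exact hs0 (congrArg Subtype.val h1)
    | some Q =>
      intro h
      obtain ⟨f, hf, hf0, hfv⟩ := L_bpf_single H hR hD Q.1
      have h1 : (⟨f, hf⟩ : L D) ∈ p (some Q) := by rw [h]; trivial
      have h2 : f ∈ L (D - Finsupp.single Q.1 1) := h1
      exact (mem_L_sub_single_iff hf hf0 Q.1).mp h2 hfv
  obtain ⟨t, ht⟩ := Submodule.exists_forall_notMem_of_forall_ne_top p hp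
  have ht0 : (t : E) ≠ 0 := by
    intro h
    apply ht none
    show t ∈ (⊥ : Submodule k (L D))
    rw [Submodule.mem_bot]
    exact Subtype.ext h
  refine ⟨t.1, ht0, t.2, ?_⟩
  intro Q hQ
  by_contra hcon
  apply ht (some ⟨Q, hQ⟩)
  show (t : E) ∈ L (D - Finsupp.single Q 1)
  exact (mem_L_sub_single_iff t.2 ht0 Q).mpr hcon

/-- **FF-CM**, generic form: `L(D₁) * L(D₂) = L(D₁ + D₂)`. -/
theorem mul_L_eq_of_isRiemann [Infinite k] (hFF : IsFF k E) (H : Hyp k E) {g : ℕ} {c : ℤ}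
    (hR : IsRiemann k E g c) {D₁ D₂ : Divisor k E} (h1 : c + 1 ≤ Divisor.degree D₁)
    (h2 : Divisor.degree D₁ + c ≤ Divisor.degree D₂) :
    L D₁ * L D₂ = L (D₁ + D₂) := by
  have hc := neg_one_le_of_isRiemann hFF H hR
  apply le_antisymm
  · rw [Submodule.mul_le]
    intro f hf b hb
    exact mul_mem_L_add hf hb
  · intro f hf
    have hne : L D₁ ≠ ⊥ := by
      obtain ⟨s, hs, hs0⟩ := exists_ne_zero_mem_L hFF H hR h1
      exact (Submodule.ne_bot_iff _).mpr ⟨s, hs, hs0⟩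
    obtain ⟨s, hs, t, ht, hst⟩ :=
      exists_bpfPair H (le_refl (L D₁)) hne (L_bpf_single H hR h1)
    have hdim : Module.finrank k (L (D₁ + D₂)) + Module.finrank k (L (D₂ - D₁))
        ≤ 2 * Module.finrank k (L D₂) := by
      have e1 := (hR (D₁ + D₂)).2 (by rw [map_add]; omega)
      have e2 := (hR (D₂ - D₁)).2 (by rw [map_sub]; omega)
      have e3 := (hR D₂).2 (by omega)
      rw [map_add] at e1
      rw [map_sub] at e2
      omega
    obtain ⟨u, hu, w, hw, rfl⟩ := pencil_surj H hst hdim hf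
    exact Submodule.add_mem _ (Submodule.mul_mem_mul hs hu) (Submodule.mul_mem_mul ht hw)

/-- **FF-DIV**, generic form. -/
theorem mem_L_of_mul_mem (H : Hyp k E) {g : ℕ} {c : ℤ} (hR : IsRiemann k E g c)
    {D₁ D₂ E₀ : Divisor k E} (hD : c + 1 ≤ Divisor.degree D₂) {u : E}
    (hu : ∀ w ∈ L D₂, u * w ∈ L (D₁ + D₂ - E₀)) : u ∈ L (D₁ - E₀) := by
  by_cases hu0 : u = 0
  · rw [hu0]; exact Submodule.zero_mem _
  apply mem_L_of_neg_le_ord
  intro v
  obtain ⟨f, hf, hf0, hfv⟩ := L_bpf_single H hR hD v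
  have h1 := neg_le_ord_of_mem (hu f hf) (mul_ne_zero hu0 hf0) v
  rw [v.ord_mul hu0 hf0, hfv] at h1
  simp only [Finsupp.sub_apply, Finsupp.add_apply] at h1 ⊢
  omega

/-- **FF-MULT**, generic form. -/
theorem multiplier (hFF : IsFF k E) (H : Hyp k E) {g : ℕ} {c : ℤ} (hR : IsRiemann k E g c)
    {D D' : Divisor k E} (hD : c + 1 ≤ Divisor.degree D) (φ : ↥(L D) →ₗ[k] E)
    (hsym : ∀ z₁ z₂ : ↥(L D), φ z₁ * (z₂ : E) = φ z₂ * (z₁ : E))
    (hφ : ∀ z, φ z ∈ L D') :
    ∃ h ∈ L (D' - D), ∀ z : ↥(L D), φ z = h * (z : E) := by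
  obtain ⟨z₀, hz₀, hz₀0⟩ := exists_ne_zero_mem_L hFF H hR hD
  have hmul : ∀ z : ↥(L D), φ z = φ ⟨z₀, hz₀⟩ * z₀⁻¹ * (z : E) := by
    intro z
    have h1 := hsym z ⟨z₀, hz₀⟩
    simp only at h1
    field_simp
    exact h1
  refine ⟨φ ⟨z₀, hz₀⟩ * z₀⁻¹, ?_, hmul⟩
  set h := φ ⟨z₀, hz₀⟩ * z₀⁻¹ with hh
  by_cases hh0 : h = 0
  · rw [hh0]; exact Submodule.zero_mem _
  apply mem_L_of_neg_le_ord
  intro v
  obtain ⟨f, hf, hf0, hfv⟩ := L_bpf_single H hR hD v
  have h1 : h * f ∈ L D' := by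
    rw [← hmul ⟨f, hf⟩]
    exact hφ _
  have h2 := neg_le_ord_of_mem h1 (mul_ne_zero hh0 hf0) v
  rw [v.ord_mul hh0 hf0, hfv] at h2
  simp only [Finsupp.sub_apply] at h2 ⊢
  omega

/-! ## The statements of `FL/Defs.lean` -/

/-- **FF-BPF**. -/
theorem stmt_BPF : Stmt_BPF := by
  intro k E _ _ _ _ hFF g c hR D hD S
  have H := hyp_of_isFF k E hFF
  have : Infinite k := IsAlgClosed.instInfinite
  exact bpf_finset hFF H hR hD S

/-- **FF-CM**. -/
theorem stmt_CM : Stmt_CM := by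
  intro k E _ _ _ _ hFF g c hR D₁ D₂ h1 h2 f hf
  have H := hyp_of_isFF k E hFF
  have : Infinite k := IsAlgClosed.instInfinite
  rw [← mul_L_eq_of_isRiemann hFF H hR h1 h2, Submodule.mul_eq_span_mul_set] at hf
  refine Submodule.span_mono ?_ hf
  rintro z ⟨a, ha, b, hb, rfl⟩
  exact ⟨a, ha, b, hb, rfl⟩

/-- **FF-DIV**. -/
theorem stmt_DIV : Stmt_DIV := by
  intro k E _ _ _ _ hFF g c hR D₁ D₂ E₀ hD u hu
  exact mem_L_of_mul_mem (hyp_of_isFF k E hFF) hR hD hu

/-- **FF-MULT**. -/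
theorem stmt_MULT : Stmt_MULT := by
  intro k E _ _ _ _ hFF g c hR D D' hD φ hsym hφ
  exact multiplier hFF (hyp_of_isFF k E hFF) hR hD φ hsym hφ

end Fermat.Agent.FL.H2
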