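import Fermat.Agent.FL.Defs5
import Fermat.Agent.FL.H2_FF
import Fermat.Agent.RED.H42_RiemannFinal
import Fermat.Agent.RED.H51_Basic

/-!
# G-FL (S19), package RED-REP (helper60), part 1: `Stmt_RedLinEq`, `Stmt_Sep`, `Stmt_Rep`

* `ffHyp_of_isFF` : the function field hypotheses `FFHyp` from `IsFF` (FF-B, FF-R).
* `stmt_RedLinEq` : the reduction of a principal divisor is principal (scale to a Gauss unit,
  divisor identity).
* `stmt_Sep` : `L(B - E)` determines `E` (FF-BPF).
* `stmt_Rep` : a divisor `D` of degree `g` with `l~(r_* D) = 1` is linearly equivalent to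
  exactly one effective divisor (Riemann's inequality + semicontinuity).
-/

set_option autoImplicit false
set_option linter.style.haveILetI false
set_option linter.unusedSectionVars false

noncomputable section

open AlgebraicCurve

attribute [local instance] Classical.propDecidable

namespace Fermat.Agent.FL.H60

open Fermat.Agent.RED Fermat.Agent.RED.H17

local notation "L" => riemannRochSpace

/-- The function field hypotheses from `IsFF`. -/
theorem ffHyp_of_isFF {k E : Type} [Field k] [Field E] [Algebra k E] [IsAlgClosed k]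
    (hFF : IsFF k E) : FFHyp k E :=
  { principal := H42.stmt_FFB_principal k E hFF
    deg_one := H51.stmt_FFB_deg k E hFF
    finite := H42.stmt_FFR_finite k E hFF
    le := fun D => (H42.stmt_FFR_le k E hFF D).2
    transc := by
      obtain ⟨x, hx, -⟩ := hFF
      exact ⟨x, hx⟩ }

section Red

variable {K F k F' : Type} [Field K] [Field F] [Algebra K F] [Field k] [Field F']
  [Algebra k F'] (S : RedSetup K F k F')

/-- The reduction of the divisor of `f`: it is the divisor of the reduction of a Gauss unit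
`c f`. -/
theorem exists_rd_principal {D : Divisor K F} {f : F} (hf : f ≠ 0)
    (hD : ∀ v : Place K F, D v = v.ord f) :
    ∃ f' : F', f' ≠ 0 ∧ ∀ Q : Place k F', Finsupp.mapDomain S.r D Q = Q.ord f' := by
  obtain ⟨c, hc, hGU⟩ := S.exists_isGU_scale hf
  refine ⟨S.rd (algebraMap K F c * f), hGU.2, fun Q => ?_⟩
  have h := S.DI ⟨_, hGU.1⟩ (by rw [← S.rd_of_mem hGU.1]; exact hGU.2) D (fun P => by
    rw [hD P]
    show P.ord f = P.ord (algebraMap K F c * f)
    rw [ord_algebraMap_mul P hc f]) Q
  rw [← S.rd_of_mem hGU.1] at h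
  exact h

end Red

/-- **RED-LINEQ.** -/
theorem stmt_RedLinEq : Stmt_RedLinEq := by
  intro K F k F' _ _ _ _ _ _ _ _ S _ _ D f hf hD
  exact exists_rd_principal S hf hD

/-- **SEP.** -/
theorem stmt_Sep : Stmt_Sep := by
  intro k E _ _ _ _ hFF g c hR B E₁ E₂ _ _ h1 h2 heq
  -- it suffices to compare the two divisors on the union of their supports
  have key : ∀ (E₁ E₂ : Divisor k E), c + 1 ≤ Divisor.degree (B - E₁) →
      L (B - E₁) ≤ L (B - E₂) → ∀ Q : Place k E, E₂ Q ≤ E₁ Q := by
    intro E₁ E₂ h1 hle Q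
    obtain ⟨f, hf0, hfL, hford⟩ := H2.stmt_BPF k E hFF g c hR (B - E₁) h1 {Q}
    have h3 := hford Q (Finset.mem_singleton_self Q)
    have h4 := ord_ge_of_mem_L (hle hfL) hf0 Q
    rw [Finsupp.sub_apply] at h3 h4
    omega
  ext Q
  exact le_antisymm (key E₂ E₁ h2 heq.ge Q) (key E₁ E₂ h1 heq.le Q)

/-- **REP.** -/
theorem stmt_Rep : Stmt_Rep := by
  intro K F k F' _ _ _ _ _ _ _ _ S hFF hFF' g c hR hR' D hdeg hl
  have H := ffHyp_of_isFF hFF
  have H' := ffHyp_of_isFF hFF'
  have hyp : H42.Hyp K F := S17.H35.hyp_of_isFF K F hFF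
  have hyp' : H42.Hyp k F' := S17.H35.hyp_of_isFF k F' hFF'
  haveI : Infinite k := IsAlgClosed.instInfinite
  haveI : Module.Finite K (L D) := H.finite D
  haveI : Module.Finite k (L (Finsupp.mapDomain S.r D)) := H'.finite _
  -- `l(D) = 1`
  have hge : 1 ≤ Module.finrank K (L D) := by
    have := (hR D).1
    rw [hdeg] at this
    omega
  have hle : Module.finrank K (L D) ≤ 1 := by
    have h1 := S.le_finrank_Rsub H H' _ D rfl
    have h2 := Submodule.finrank_mono (S.Rsub_le H.principal D)
    omega
  have hone : Module.finrank K (L D) = 1 := le_antisymm hle hge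
  -- a nonzero element of `L(D)`
  obtain ⟨⟨f, hfL⟩, hf0⟩ : ∃ x : L D, x ≠ 0 := by
    have : 0 < Module.finrank K (L D) := by omega
    exact Module.finrank_pos_iff_exists_ne_zero.mp this
  have hf : f ≠ 0 := fun h => hf0 (Subtype.ext h)
  set E : Divisor K F := D + dv H.principal f with hE
  have hEpos : 0 ≤ E := by
    rw [Finsupp.le_def]
    intro v
    rw [hE, Finsupp.add_apply, dv_apply]
    have := ord_ge_of_mem_L hfL hf v
    simp only [Finsupp.coe_zero, Pi.zero_apply]
    omega
  have hED : ∀ v : Place K F, (E - D) v = v.ord f := by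
    intro v
    rw [hE, add_sub_cancel_left, dv_apply]
  refine ⟨E, hEpos, ⟨f, hf, hED⟩, ?_, ?_, ?_⟩
  · -- uniqueness
    rintro E' hE' ⟨f', hf', hE'D⟩
    have hf'L : f' ∈ L D := by
      rw [mem_L_iff_ord]
      intro v
      right
      have h1 := hE'D v
      have h2 := Finsupp.le_def.mp hE' v
      simp only [Finsupp.coe_zero, Pi.zero_apply] at h2
      rw [Finsupp.sub_apply] at h1
      omega
    -- `f'` is a multiple of `f`
    obtain ⟨a, ha⟩ : ∃ a : K, a • (⟨f, hfL⟩ : L D) = ⟨f', hf'L⟩ := by
      have hspan := (finrank_eq_one_iff_of_nonzero' (⟨f, hfL⟩ : L D) hf0).mp hone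
      exact hspan ⟨f', hf'L⟩
    have ha' : f' = algebraMap K F a * f := by
      have := congrArg Subtype.val ha
      simp only [Submodule.coe_smul, Algebra.smul_def] at this
      exact this.symm
    have ha0 : a ≠ 0 := by
      rintro rfl
      rw [map_zero, zero_mul] at ha'
      exact hf' ha'
    ext v
    have h1 := hE'D v
    have h2 := hED v
    rw [Finsupp.sub_apply] at h1 h2
    rw [ha', ord_algebraMap_mul v ha0 f] at h1
    omega
  · -- `l(E) = l(D) = 1`
    rw [hE, H42.finrank_L_add_principal hyp hf (fun v => dv_apply H.principal f v)]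
    exact hone
  · -- `l~(r_* E) = l~(r_* D) = 1`
    obtain ⟨f', hf', hprin⟩ := exists_rd_principal S hf (fun v => dv_apply H.principal f v)
    rw [hE, Finsupp.mapDomain_add,
      H42.finrank_L_add_principal hyp' hf' hprin]
    exact hl

end Fermat.Agent.FL.H60
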