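import Fermat.Agent.FL.H21_EchExists
import Fermat.Agent.FL.H38_SubRed
import Fermat.Agent.FL.H60_Rep
import Fermat.Agent.FL.H51_DStabFinal

/-!
# G-FL (helper21): `Stmt_EchConst`, and DSTAB from FAM-ADD alone

* `stmt_EchConst_of : Stmt_EchInt → Stmt_EchUnique → H51.Stmt_EchConst`;
* `stmt_EchConst    : H51.Stmt_EchConst`;
* `stmt_DStab_of_famAdd : Stmt_FamAdd → Stmt_DStab`.
-/

set_option autoImplicit false

noncomputable section

open AlgebraicCurve

namespace Fermat.Agent.FL.H21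

open Fermat.Agent.FL

/-- **(D) constant echelon bases**, from ECH-INT and ECH-UNIQUE. -/
theorem stmt_EchConst_of (hEI : Stmt_EchInt) (hEU : Stmt_EchUnique) : H51.Stmt_EchConst := by
  intro K F k F' _ _ _ _ _ _ _ _ S hFF hFF' Γ _ G 𝒯 CS h𝒯 E hE hdeg
  obtain ⟨x, hx⟩ := h𝒯
  exact exists_isEch_of_deg hEI hEU S hFF hFF' G CS ⟨x, hx⟩ E hE hdeg

/-- **(D) constant echelon bases.** -/
theorem stmt_EchConst : H51.Stmt_EchConst :=
  stmt_EchConst_of H38.stmt_EchInt H46.stmt_EchUnique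

/-- **DSTAB** from the addition in families. -/
theorem stmt_DStab_of_famAdd (hFA : Stmt_FamAdd) : Stmt_DStab :=
  H51.stmt_DStab_of' hFA H60.stmt_RedLinEq stmt_EchConst

end Fermat.Agent.FL.H21
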