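import Fermat.Agent.FL.Defs5
import Fermat.Agent.FL.H01_NSEX
import Fermat.Agent.FL.H2_Coord

/-!
# G-FL: package SETUP (helper36)

`stmt_Setup_of : Stmt_Genus → Stmt_ILift → Stmt_Rep → Stmt_EchUnique → Stmt_EchInt → Stmt_Setup`:
every finite `Γ`-stable set of points has a coordinate system.
-/

set_option autoImplicit false
set_option linter.style.haveILetI false
set_option linter.unusedSectionVars false

noncomputable section

open AlgebraicCurve

namespace Fermat.Agent.FL.H36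

open Fermat.Agent.FL Fermat.Agent.RED Fermat.Agent.RED.H17 Fermat.Agent.Lib.HopfOrder
  Fermat.Agent.Lib.HopfOrderLoc

local notation "L" => riemannRochSpace

/-- The function field hypotheses from `IsFF`. -/
theorem ffHyp_of_isFF (k E : Type) [Field k] [Field E] [Algebra k E] [IsAlgClosed k]
    (hFF : IsFF k E) : FFHyp k E :=
  { principal := H42.stmt_FFB_principal k E hFF
    deg_one := H51.stmt_FFB_deg k E hFF
    finite := H42.stmt_FFR_finite k E hFF
    le := fun D => (H42.stmt_FFR_le k E hFF D).2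
    transc := by
      obtain ⟨x, hx, -⟩ := hFF
      exact ⟨x, hx⟩ }

section

variable {K F k F' : Type} [Field K] [Field F] [Algebra K F] [Field k] [Field F']
  [Algebra k F'] (S : RedSetup K F k F')

theorem degree_single_of_deg_one (H : FFHyp K F) (P : Place K F) (n : ℤ) :
    Divisor.degree (Finsupp.single P n : Divisor K F) = n := by
  rw [Divisor.degree_single, H.deg_one P]
  simp

theorem mapDomain_sub' (D D' : Divisor K F) :
    Finsupp.mapDomain S.r (D - D') = Finsupp.mapDomain S.r D - Finsupp.mapDomain S.r D' :=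
  map_sub (Finsupp.mapDomain.addMonoidHom S.r) D D'

theorem mapDomain_add' (D D' : Divisor K F) :
    Finsupp.mapDomain S.r (D + D') = Finsupp.mapDomain S.r D + Finsupp.mapDomain S.r D' :=
  Finsupp.mapDomain_add

/-- Frames of `L(b Pinf)` as integral frames. -/
theorem exists_intFrame {Γ : Type} [Group Γ] (G : GalRed S Γ) (Pinf : Place K F) (b₀ : ℕ)
    (hfr : ∀ b : ℕ, b₀ ≤ b →
      ∃ (n : ℕ) (e : Fin n → F), IsFrameOf e (Finsupp.single Pinf (b : ℤ)) ∧ (∀ i, e i ∈ S.V) ∧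
        (∀ (σ : Γ) i, G.act σ • e i = e i) ∧
        IsFrameOf (fun i => S.rd (e i)) (Finsupp.single (S.r Pinf) (b : ℤ)))
    (b : ℕ) (hb : b₀ ≤ b) (B : Divisor K F) (hB : B = Finsupp.single Pinf (b : ℤ)) :
    ∃ (n : ℕ) (e : Fin n → F), IsIntFrame S e B ∧ ∀ (σ : Γ) i, G.act σ • e i = e i := by
  obtain ⟨n, e, h1, h2, h3, h4⟩ := hfr b hb
  refine ⟨n, e, ⟨?_, h2, ?_⟩, h3⟩
  · rw [hB]; exact h1
  · rw [hB, Finsupp.mapDomain_single]; exact h4

end

/-- **SETUP.** -/
theorem stmt_Setup_of (hGen : Stmt_Genus) (hIL : Stmt_ILift) (hRep : Stmt_Rep)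
    (hEU : Stmt_EchUnique) (hEI : Stmt_EchInt) : Stmt_Setup := by
  intro K F k F' _ _ _ _ _ _ _ _ S hFF hFF' hG Γ _ G hU hFr 𝒯 hfin hstab
  classical
  have H : FFHyp K F := ffHyp_of_isFF K F hFF
  have H' : FFHyp k F' := ffHyp_of_isFF k F' hFF'
  obtain ⟨g, c, hc, hR, hR', hsemi, heq⟩ := hGen K F k F' S hFF hFF' hG
  have hFr' := hFr
  obtain ⟨Pinf, hPfix, b₀, hfr⟩ := hFr'
  -- the degrees
  set b₁ : ℕ := b₀ + g + c.toNat + 1 with hb₁
  set b₂ : ℕ := 2 * b₁ + c.toNat + b₀ with hb₂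
  have hcN : (c.toNat : ℤ) = c := Int.toNat_of_nonneg hc
  set B₁ : Divisor K F := Finsupp.single Pinf (b₁ : ℤ) with hB₁
  set B₂ : Divisor K F := Finsupp.single Pinf (b₂ : ℤ) with hB₂
  have hdB₁ : Divisor.degree B₁ = b₁ := degree_single_of_deg_one H Pinf _
  have hdB₂ : Divisor.degree B₂ = b₂ := degree_single_of_deg_one H Pinf _
  have hfixB : ∀ (n : ℤ) (σ : Γ), G.act σ • (Finsupp.single Pinf n : Divisor K F) =
      Finsupp.single Pinf n := by
    intro n σ
    rw [SemilinearAut.smul_single, hPfix]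
  -- the frames
  obtain ⟨n₁, e₁, he₁, fix₁⟩ := exists_intFrame S G Pinf b₀ hfr b₁ (by omega) B₁ rfl
  obtain ⟨n₂₁, e₂₁, he₂₁, fix₂₁⟩ := exists_intFrame S G Pinf b₀ hfr (b₂ - b₁) (by omega)
    (B₂ - B₁) (by
      rw [hB₁, hB₂, ← Finsupp.single_sub]
      congr 1
      have : b₁ ≤ b₂ := by omega
      push_cast [Nat.cast_sub this]
      rfl)
  obtain ⟨n₂, e₂, he₂, fix₂⟩ := exists_intFrame S G Pinf b₀ hfr b₂ (by omega) B₂ rfl
  obtain ⟨n₃, e₃, he₃, fix₃⟩ := exists_intFrame S G Pinf b₀ hfr (b₁ + b₂) (by omega)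
    (B₁ + B₂) (by
      rw [hB₁, hB₂, ← Finsupp.single_add]
      congr 1)
  obtain ⟨n₄, e₄, he₄, fix₄⟩ := exists_intFrame S G Pinf b₀ hfr (2 * b₁ + 2 * b₂) (by omega)
    (2 • B₁ + 2 • B₂) (by
      rw [hB₁, hB₂, Finsupp.smul_single, Finsupp.smul_single, ← Finsupp.single_add]
      congr 1)
  -- representatives of the points
  have hrep : ∀ x : 𝒯, ∃ D : Divisor.degZero (K := K) (F := F), Pic0.mk D = (x : Pic0 K F) :=
    fun x => Pic0.mk_surjective _
  choose Dx hDx using hrep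
  haveI : Fintype ↥𝒯 := hfin.fintype
  set 𝒟 : Finset (Divisor k F') :=
    Finset.univ.image (fun x : 𝒯 => Finsupp.mapDomain S.r (Dx x : Divisor K F)) with h𝒟
  have hdeg𝒟 : ∀ D ∈ 𝒟, Divisor.degree D = 0 := by
    intro D hD
    rw [h𝒟, Finset.mem_image] at hD
    obtain ⟨x, -, rfl⟩ := hD
    rw [degree_mapDomain H.deg_one H'.deg_one]
    exact Divisor.mem_degZero.mp (Dx x).2
  obtain ⟨E₀', hE₀'pos, hE₀'deg, hns⟩ := H01.stmt_NSEX k F' hFF' g c hR' 𝒟 hdeg𝒟
  obtain ⟨E₀, hE₀, hrE₀, hfixE₀⟩ := hIL K F k F' S hFF hFF' hG Γ G hU hFr E₀' hE₀'pos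
  have hdE₀ : Divisor.degree E₀ = g := by
    rw [← degree_mapDomain H.deg_one H'.deg_one S.r E₀, hrE₀, hE₀'deg]
  -- the representatives `E x`
  have hE : ∀ x : 𝒯, ∃ E : Divisor K F, 0 ≤ E ∧
      (∃ f : F, f ≠ 0 ∧ ∀ v : Place K F, (E - ((Dx x : Divisor K F) + E₀)) v = v.ord f) ∧
      Module.finrank k (L (Finsupp.mapDomain S.r E)) = 1 := by
    intro x
    have hd : Divisor.degree ((Dx x : Divisor K F) + E₀) = g := by
      rw [map_add, hdE₀, Divisor.mem_degZero.mp (Dx x).2, zero_add]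
    have h1 : Module.finrank k (L (Finsupp.mapDomain S.r ((Dx x : Divisor K F) + E₀))) = 1 := by
      rw [mapDomain_add', hrE₀]
      exact hns _ (Finset.mem_image_of_mem _ (Finset.mem_univ x))
    obtain ⟨E, hE0, hEf, -, -, hE1⟩ := hRep K F k F' S hFF hFF' g c hR hR' _ hd h1
    exact ⟨E, hE0, hEf, hE1⟩
  choose E hE0 hEf hE1 using hE
  have hdE : ∀ x : 𝒯, Divisor.degree (E x) = g := by
    intro x
    obtain ⟨f, hf, hfv⟩ := hEf x
    have h2 : E x - ((Dx x : Divisor K F) + E₀) = dv H.principal f :=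
      eq_dv H.principal hfv
    have h3 := degree_dv H.principal f
    rw [← h2, map_sub, map_add, hdE₀, Divisor.mem_degZero.mp (Dx x).2, zero_add] at h3
    omega
  have hmkE : ∀ x : 𝒯, ∃ D : Divisor.degZero (K := K) (F := F),
      Pic0.mk D = (x : Pic0 K F) ∧ (D : Divisor K F) = E x - E₀ := by
    intro x
    have hmem : E x - E₀ ∈ Divisor.degZero (K := K) (F := F) := by
      rw [Divisor.mem_degZero, map_sub, hdE x, hdE₀, sub_self]
    refine ⟨⟨E x - E₀, hmem⟩, ?_, rfl⟩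
    rw [← hDx x]
    unfold Pic0.mk
    rw [QuotientAddGroup.eq]
    rw [AddSubgroup.mem_addSubgroupOf]
    obtain ⟨f, hf, hfv⟩ := hEf x
    refine ⟨f⁻¹, inv_ne_zero hf, fun v => ?_⟩
    rw [Place.ord_inv, ← hfv v]
    simp only [AddSubgroup.coe_add, NegMemClass.coe_neg, Finsupp.coe_add, Finsupp.coe_neg,
      Finsupp.coe_sub, Pi.add_apply, Pi.neg_apply, Pi.sub_apply]
    ring
  -- the dimension `d` and the charts
  set e₁' : Fin n₁ → F' := fun i => S.rd (e₁ i) with he₁'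
  set W' : Divisor k F' → Submodule k (Fin n₁ → k) :=
    fun Et => coordSpace e₁' (L (Finsupp.mapDomain S.r B₁ - Et)) with hW'
  set d : ℕ := (b₁ + 1 - 2 * g) with hd
  have hdimW : ∀ x : 𝒯, Module.finrank k (W' (Finsupp.mapDomain S.r (E x))) = d := by
    intro x
    have hle : L (Finsupp.mapDomain S.r B₁ - Finsupp.mapDomain S.r (E x)) ≤
        Submodule.span k (Set.range e₁') := by
      rw [he₁.2.2.2]
      intro f hf
      rw [mem_L_iff_ord] at hf ⊢
      intro v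
      rcases hf v with h0 | h0
      · exact Or.inl h0
      · right
        have hpos : 0 ≤ Finsupp.mapDomain S.r (E x) v :=
          mapDomain_nonneg' S.r (fun a => hE0 x a) v
        rw [Finsupp.sub_apply] at h0
        omega
    rw [hW', H2.finrank_coordSpace he₁.2.2.1 hle]
    have hdeg : Divisor.degree (Finsupp.mapDomain S.r B₁ - Finsupp.mapDomain S.r (E x)) =
        (b₁ : ℤ) - g := by
      rw [map_sub, degree_mapDomain H.deg_one H'.deg_one, degree_mapDomain H.deg_one H'.deg_one,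
        hdB₁, hdE x]
    have h2 := (hR' (Finsupp.mapDomain S.r B₁ - Finsupp.mapDomain S.r (E x))).2
      (by rw [hdeg]; omega)
    rw [hdeg] at h2
    omega
  have hdn : d ≤ n₁ := by
    have h1 : Module.finrank K (L B₁) = n₁ := by
      rw [← he₁.1.2, finrank_span_eq_card he₁.1.1, Fintype.card_fin]
    have h2 := (hR B₁).2 (by rw [hdB₁]; omega)
    rw [hdB₁, h1] at h2
    omega
  have hchart : ∀ Et : Divisor k F', ∃ (J : Fin d → Fin n₁) (M : Matrix (Fin n₁) (Fin d) k),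
      Module.finrank k (W' Et) = d →
        (∀ a b, M (J a) b = if a = b then 1 else 0) ∧ colSpace M = W' Et := by
    intro Et
    by_cases h : Module.finrank k (W' Et) = d
    · obtain ⟨J, M, h1, h2⟩ := (hEU k (Fin n₁) d).2 (W' Et) h
      exact ⟨J, M, fun _ => ⟨h1, h2⟩⟩
    · exact ⟨fun a => Fin.castLE hdn a, 0, fun h' => absurd h' h⟩
  choose J M' hJM using hchart
  -- the echelon bases
  have hM : ∀ x : 𝒯, ∃ M : Matrix (Fin n₁) (Fin d) K,
      IsEch S e₁ (B₁ - E x) (J (Finsupp.mapDomain S.r (E x))) M := by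
    intro x
    obtain ⟨h1, h2⟩ := hJM (Finsupp.mapDomain S.r (E x)) (hdimW x)
    have hle : Module.finrank k (L (Finsupp.mapDomain S.r (B₁ - E x))) ≤
        Module.finrank K (L (B₁ - E x)) :=
      le_of_eq (heq _ (by rw [map_sub, hdB₁, hdE x]; omega))
    obtain ⟨M, hM, -⟩ := hEI K F k F' S hFF hFF' B₁ (E x) (Fin n₁) e₁ he₁ (hE0 x) hle d
      (J (Finsupp.mapDomain S.r (E x))) (M' (Finsupp.mapDomain S.r (E x))) h1
      (by rw [h2, hW', mapDomain_sub'])
    exact ⟨M, hM⟩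
  choose M hM using hM
  exact ⟨{
    g := g, c := c, hc := hc, hR := hR, hR' := hR', semi := hsemi
    B₁ := B₁, B₂ := B₂
    hB₁ := by rw [hdB₁]; omega
    hB₂ := by rw [hdB₁, hdB₂]; omega
    fixB₁ := hfixB _, fixB₂ := hfixB _
    n₁ := n₁, n₂₁ := n₂₁, n₂ := n₂, n₃ := n₃, n₄ := n₄
    e₁ := e₁, e₂₁ := e₂₁, e₂ := e₂, e₃ := e₃, e₄ := e₄
    he₁ := he₁, he₂₁ := he₂₁, he₂ := he₂, he₃ := he₃, he₄ := he₄
    fix₁ := fix₁, fix₂₁ := fix₂₁, fix₂ := fix₂, fix₃ := fix₃, fix₄ := fix₄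
    E₀ := E₀, hE₀ := hE₀, degE₀ := hdE₀, fixE₀ := hfixE₀
    E := E, hE := fun x => ⟨hE0 x, hdE x⟩, mkE := hmkE, ns := hE1
    d := d, J := J, M := M, hM := hM }⟩

end Fermat.Agent.FL.H36
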