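import Fermat.Agent.FL.Defs5
import Fermat.Agent.FL.H46_Bundle

/-!
# G-FL, package FAM-ADD (helper46), part 1: `Stmt_EchUnique`

Echelon bases in a chart: uniqueness and existence (linear algebra over a field).
-/

set_option autoImplicit false

noncomputable section

open Matrix

namespace Fermat.Agent.FL.H46

open Fermat.Agent.FL

/-- An echelon matrix in a chart has linearly independent columns. -/
theorem linearIndependent_col_of_ech {L ι : Type} [Field L] [Fintype ι] {d : ℕ}
    (J : Fin d → ι) (M : Matrix ι (Fin d) L)
    (hM : ∀ a b, M (J a) b = if a = b then 1 else 0) : LinearIndependent L M.col := by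
  classical
  rw [Fintype.linearIndependent_iff]
  intro v hv a
  have h1 := congrFun hv (J a)
  simp only [Finset.sum_apply, Pi.smul_apply, Matrix.col_apply, smul_eq_mul, Pi.zero_apply,
    hM] at h1
  rw [Finset.sum_eq_single a] at h1
  · simpa using h1
  · intro b _ hb
    rw [if_neg (Ne.symm hb), mul_zero]
  · intro h
    exact absurd (Finset.mem_univ a) h

/-- The coefficients of a vector of the column space of an echelon matrix are its coordinates
in the chart. -/
theorem mulVec_ech_apply {L ι : Type} [Field L] [Fintype ι] {d : ℕ}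
    (J : Fin d → ι) (M : Matrix ι (Fin d) L)
    (hM : ∀ a b, M (J a) b = if a = b then 1 else 0) (v : Fin d → L) (a : Fin d) :
    (M *ᵥ v) (J a) = v a := by
  classical
  rw [Matrix.mulVec, dotProduct]
  simp only [hM]
  rw [Finset.sum_eq_single a]
  · simp
  · intro b _ hb
    rw [if_neg (Ne.symm hb), zero_mul]
  · intro h
    exact absurd (Finset.mem_univ a) h

/-- Uniqueness of the echelon basis in a chart. -/
theorem ech_unique {L ι : Type} [Field L] [Fintype ι] {d : ℕ}
    (J : Fin d → ι) (M M' : Matrix ι (Fin d) L)
    (hM : ∀ a b, M (J a) b = if a = b then 1 else 0)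
    (hM' : ∀ a b, M' (J a) b = if a = b then 1 else 0) (h : colSpace M = colSpace M') :
    M = M' := by
  classical
  ext i b
  -- the column `b` of `M'` lies in the column space of `M`
  have h1 : M' *ᵥ (Pi.single b 1) ∈ colSpace M := by
    rw [h, mem_colSpace_iff]
    exact ⟨_, rfl⟩
  rw [mem_colSpace_iff] at h1
  obtain ⟨v, hv⟩ := h1
  have h2 : v = Pi.single b 1 := by
    funext a
    have h3 := congrFun hv (J a)
    rw [mulVec_ech_apply J M hM, mulVec_ech_apply J M' hM'] at h3
    exact h3
  rw [h2] at hv
  have h4 := congrFun hv i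
  simpa [Matrix.mulVec_single] using h4

/-- Existence of an echelon basis in some chart. -/
theorem exists_ech {L ι : Type} [Field L] [Fintype ι] {d : ℕ} (W : Submodule L (ι → L))
    (hW : Module.finrank L W = d) :
    ∃ (J : Fin d → ι) (M : Matrix ι (Fin d) L),
      (∀ a b, M (J a) b = if a = b then 1 else 0) ∧ colSpace M = W := by
  classical
  let bs : Module.Basis (Fin d) L W := Module.finBasisOfFinrankEq L W hW
  let N : Matrix ι (Fin d) L := fun i b => (bs b : ι → L) i
  have hcol : N.col = fun b => (bs b : ι → L) := by
    funext b i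
    rfl
  have hli : LinearIndependent L N.col := by
    rw [hcol]
    exact bs.linearIndependent.map' W.subtype (Submodule.ker_subtype W)
  have hsp : colSpace N = W := by
    rw [colSpace, Matrix.range_mulVecLin, hcol]
    have h1 : Set.range (fun b => (bs b : ι → L)) = W.subtype '' Set.range bs := by
      rw [← Set.range_comp]
      rfl
    rw [h1, Submodule.span_image, bs.span_eq, Submodule.map_top, Submodule.range_subtype]
  obtain ⟨J, hJ⟩ := exists_chart d N hli
  have hu : IsUnit (N.submatrix J id).det := isUnit_iff_ne_zero.mpr hJ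
  refine ⟨J, N * (N.submatrix J id)⁻¹, fun a b => ?_, ?_⟩
  · have h1 : (N * (N.submatrix J id)⁻¹) (J a) b =
        ((N.submatrix J id) * (N.submatrix J id)⁻¹) a b := by
      rw [Matrix.mul_apply, Matrix.mul_apply]
      rfl
    rw [h1, Matrix.mul_nonsing_inv _ hu, Matrix.one_apply]
  · rw [← hsp]
    exact colSpace_mul_rightInv _ _ (N.submatrix J id) (Matrix.nonsing_inv_mul _ hu)

/-- **ECH-UNIQUE.** -/
theorem stmt_EchUnique : Stmt_EchUnique := by
  intro L ι _ _ d
  exact ⟨fun J M M' hM hM' h => ech_unique J M M' hM hM' h, fun W hW => exists_ech W hW⟩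

end Fermat.Agent.FL.H46
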