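import Fermat.Agent.FL.H21_EchTransport
import Fermat.Agent.FL.H36_Setup
import Fermat.Agent.FL.H46_EchUnique

/-!
# G-FL (helper21): existence of integral echelon bases for divisors of degree `g`

For helper51's package DSTAB.

* `isEch_smul`           : transport of `IsEch` under the Galois action (the form asked for by
                           helper51; the proof is `H21_isEch_smul`);
* `finrank_L_smul`       : `l(g • D) = l(D)` for a semilinear automorphism `g`;
* `finrank_colSpace_of_ech` : the column space of an echelon matrix with `d` columns has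
                           dimension `d`;
* `finrank_L_sub_of_deg` : in a coordinate system, `l(B₁ - E) = d` for every effective `E` of
                           degree `g`, and the same for the reduction;
* `exists_isEch_of_deg`  : **every effective divisor `E` of degree `g` has an integral echelon
                           basis of the coordinates of `L(B₁ - E)` in some chart.**
-/

set_option autoImplicit false
set_option linter.unusedSectionVars false

noncomputable section

open AlgebraicCurve Matrix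

namespace Fermat.Agent.FL.H21

open Fermat.Agent.RED Fermat.Agent.RED.H17 Fermat.Agent.FL

section Semi

variable {K F : Type} [Field K] [Field F] [Algebra K F]

/-- The additive isomorphism `f ↦ g • f` from `L(D)` to `L(g • D)`. -/
def smulLEquiv (g : SemilinearAut K F) (D : Divisor K F) :
    riemannRochSpace D ≃+ riemannRochSpace (g • D) where
  toFun f := ⟨g • (f : F), (H21_smul_mem_L_iff g D f).mpr f.2⟩
  invFun f := ⟨g⁻¹ • (f : F), by
    have h := (H21_smul_mem_L_iff g D (g⁻¹ • (f : F))).mp
    rw [smul_inv_smul] at h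
    exact h f.2⟩
  left_inv f := by
    apply Subtype.ext
    show g⁻¹ • (g • (f : F)) = f
    rw [inv_smul_smul]
  right_inv f := by
    apply Subtype.ext
    show g • (g⁻¹ • (f : F)) = f
    rw [smul_inv_smul]
  map_add' f f' := by
    apply Subtype.ext
    show g • ((f : F) + (f' : F)) = g • (f : F) + g • (f' : F)
    rw [smul_add]

theorem smulLEquiv_apply (g : SemilinearAut K F) (D : Divisor K F) (f : riemannRochSpace D) :
    ((smulLEquiv g D f : riemannRochSpace (g • D)) : F) = g • (f : F) := rfl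

/-- `l(g • D) = l(D)` for a semilinear automorphism `g`. -/
theorem finrank_L_smul (g : SemilinearAut K F) (D : Divisor K F) :
    Module.finrank K (riemannRochSpace (g • D)) = Module.finrank K (riemannRochSpace D) := by
  have h := rank_eq_of_equiv_equiv (R := K) (R' := K) (SemilinearAut.baseAut g)
    (smulLEquiv g D) (SemilinearAut.baseAut g).bijective (by
      intro r m
      apply Subtype.ext
      show g • (r • (m : F)) = (SemilinearAut.baseAut g r) • (g • (m : F))
      exact H21_smul_smul_eq g r m)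
  unfold Module.finrank
  rw [h]

end Semi

section Col

variable {L : Type} [Field L]

/-- The column space of an echelon matrix with `d` columns has dimension `d`. -/
theorem finrank_colSpace_of_ech {ι : Type} [Fintype ι] {d : ℕ} (J : Fin d → ι)
    (M : Matrix ι (Fin d) L) (hM : ∀ a b, M (J a) b = if a = b then 1 else 0) :
    Module.finrank L (colSpace M) = d := by
  rw [colSpace, Matrix.range_mulVecLin,
    finrank_span_eq_card (H46.linearIndependent_col_of_ech J M hM), Fintype.card_fin]

end Col

section Gal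

variable {K F k F' : Type} [Field K] [Field F] [Algebra K F] [Field k] [Field F']
  [Algebra k F']

/-- **Transport of `IsEch`** under the Galois action (the form used in DSTAB). -/
theorem isEch_smul (S : RedSetup K F k F') {Γ : Type} [Group Γ] (G : GalRed S Γ) (σ : Γ)
    {ι : Type} [Fintype ι] {d : ℕ} (e : ι → F) (he : ∀ i, G.act σ • e i = e i)
    (hV : ∀ i, e i ∈ S.V) (D : Divisor K F) (J : Fin d → ι) (M : Matrix ι (Fin d) K)
    (h : IsEch S e D J M) :
    IsEch S e (G.act σ • D) J (M.map (SemilinearAut.baseAut (G.act σ))) :=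
  H21_isEch_smul G σ e hV he D J M h

/-- `L(B - E) ≤ span e` for a frame `e` of `L(B)` and `E ≥ 0`. -/
theorem L_sub_le_span {k₀ E₀ : Type} [Field k₀] [Field E₀] [Algebra k₀ E₀] {ι : Type}
    {e : ι → E₀} {B E : Divisor k₀ E₀} (he : IsFrameOf e B) (hE : ∀ v, 0 ≤ E v) :
    riemannRochSpace (B - E) ≤ Submodule.span k₀ (Set.range e) := by
  rw [he.2]
  intro f hf
  rw [mem_L_iff_ord] at hf ⊢
  intro v
  rcases hf v with h0 | h0
  · exact Or.inl h0
  · right
    have hpos := hE v
    rw [Finsupp.sub_apply] at h0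
    omega

/-- In a coordinate system: `d = l(B₁) - g = deg B₁ + 1 - 2 g`. -/
theorem coordSys_d_eq (S : RedSetup K F k F')
    {Γ : Type} [Group Γ] (G : GalRed S Γ) {𝒯 : Set (Pic0 K F)} (CS : CoordSys S G 𝒯) (x : 𝒯) :
    (CS.d : ℤ) = Divisor.degree CS.B₁ + 1 - 2 * CS.g := by
  obtain ⟨h1, h2, -, -⟩ := CS.hM x
  have hd : Module.finrank K (colSpace (CS.M x)) = CS.d := finrank_colSpace_of_ech _ _ h1
  have hle : riemannRochSpace (CS.B₁ - CS.E x) ≤ Submodule.span K (Set.range CS.e₁) :=
    L_sub_le_span CS.he₁.1 (fun v => (CS.hE x).1 v)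
  rw [h2, H2.finrank_coordSpace CS.he₁.1.1 hle] at hd
  have hdeg : Divisor.degree (CS.B₁ - CS.E x) = Divisor.degree CS.B₁ - CS.g := by
    rw [map_sub, (CS.hE x).2]
  have hB := CS.hB₁
  have hc := CS.hc
  have h3 := (CS.hR (CS.B₁ - CS.E x)).2 (by rw [hdeg]; omega)
  rw [hdeg, hd] at h3
  omega

/-- In a coordinate system, `l(B₁ - E) = d` for every divisor `E` of degree `g`. -/
theorem finrank_L_sub_of_deg (S : RedSetup K F k F')
    {Γ : Type} [Group Γ] (G : GalRed S Γ) {𝒯 : Set (Pic0 K F)} (CS : CoordSys S G 𝒯) (x : 𝒯)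
    (E : Divisor K F) (hdeg : Divisor.degree E = CS.g) :
    Module.finrank K (riemannRochSpace (CS.B₁ - E)) = CS.d := by
  have hd := coordSys_d_eq S G CS x
  have hdeg' : Divisor.degree (CS.B₁ - E) = Divisor.degree CS.B₁ - CS.g := by
    rw [map_sub, hdeg]
  have hB := CS.hB₁
  have hc := CS.hc
  have h3 := (CS.hR (CS.B₁ - E)).2 (by rw [hdeg']; omega)
  rw [hdeg'] at h3
  omega

/-- In a coordinate system, `l~(r_* (B₁ - E)) = d` for every divisor `E` of degree `g`. -/
theorem finrank_L_red_sub_of_deg [IsAlgClosed K] [IsAlgClosed k] (S : RedSetup K F k F')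
    (hFF : IsFF K F) (hFF' : IsFF k F')
    {Γ : Type} [Group Γ] (G : GalRed S Γ) {𝒯 : Set (Pic0 K F)} (CS : CoordSys S G 𝒯) (x : 𝒯)
    (E : Divisor K F) (hdeg : Divisor.degree E = CS.g) :
    Module.finrank k (riemannRochSpace (Finsupp.mapDomain S.r (CS.B₁ - E))) = CS.d := by
  have H : FFHyp K F := H36.ffHyp_of_isFF K F hFF
  have H' : FFHyp k F' := H36.ffHyp_of_isFF k F' hFF'
  have hd := coordSys_d_eq S G CS x
  have hdeg' : Divisor.degree (Finsupp.mapDomain S.r (CS.B₁ - E)) =
      Divisor.degree CS.B₁ - CS.g := by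
    rw [degree_mapDomain H.deg_one H'.deg_one, map_sub, hdeg]
  have hB := CS.hB₁
  have hc := CS.hc
  have h3 := (CS.hR' (Finsupp.mapDomain S.r (CS.B₁ - E))).2 (by rw [hdeg']; omega)
  rw [hdeg'] at h3
  omega

/-- **Constant echelon basis**: in a coordinate system, the coordinates of `L(B₁ - E)` have an
integral echelon basis in some chart, for every effective divisor `E` of degree `g`. -/
theorem exists_isEch_of_deg (hEI : Stmt_EchInt) (hEU : Stmt_EchUnique)
    [IsAlgClosed K] [IsAlgClosed k] (S : RedSetup K F k F')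
    (hFF : IsFF K F) (hFF' : IsFF k F') {Γ : Type} [Group Γ] (G : GalRed S Γ)
    {𝒯 : Set (Pic0 K F)} (CS : CoordSys S G 𝒯) (x : 𝒯) (E : Divisor K F) (hE : 0 ≤ E)
    (hdeg : Divisor.degree E = CS.g) :
    ∃ (J : Fin CS.d → Fin CS.n₁) (M : Matrix (Fin CS.n₁) (Fin CS.d) K),
      IsEch S CS.e₁ (CS.B₁ - E) J M := by
  have h1 := finrank_L_sub_of_deg S G CS x E hdeg
  have h2 := finrank_L_red_sub_of_deg S hFF hFF' G CS x E hdeg
  have hle' : riemannRochSpace (Finsupp.mapDomain S.r (CS.B₁ - E)) ≤
      Submodule.span k (Set.range fun i => S.rd (CS.e₁ i)) := by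
    rw [H36.mapDomain_sub']
    exact L_sub_le_span CS.he₁.2.2 (fun v => mapDomain_nonneg' S.r (fun a => hE a) v)
  have hW : Module.finrank k (coordSpace (fun i => S.rd (CS.e₁ i))
      (riemannRochSpace (Finsupp.mapDomain S.r (CS.B₁ - E)))) = CS.d := by
    rw [H2.finrank_coordSpace CS.he₁.2.2.1 hle', h2]
  obtain ⟨J, M', hJ, hM'⟩ := (hEU k (Fin CS.n₁) CS.d).2 _ hW
  obtain ⟨M, hM, -⟩ := hEI K F k F' S hFF hFF' CS.B₁ E (Fin CS.n₁) CS.e₁ CS.he₁ hE
    (by rw [h1, h2]) CS.d J M' hJ hM'
  exact ⟨J, M, hM⟩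

/-- The version with the reduction: the chart `J` and the reduced echelon basis can be
prescribed. -/
theorem exists_isEch_of_chart (hEI : Stmt_EchInt)
    [IsAlgClosed K] [IsAlgClosed k] (S : RedSetup K F k F')
    (hFF : IsFF K F) (hFF' : IsFF k F') {Γ : Type} [Group Γ] (G : GalRed S Γ)
    {𝒯 : Set (Pic0 K F)} (CS : CoordSys S G 𝒯) (x : 𝒯) (E : Divisor K F) (hE : 0 ≤ E)
    (hdeg : Divisor.degree E = CS.g) (J : Fin CS.d → Fin CS.n₁)
    (M' : Matrix (Fin CS.n₁) (Fin CS.d) k) (hJ : ∀ a b, M' (J a) b = if a = b then 1 else 0)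
    (hM' : colSpace M' = coordSpace (fun i => S.rd (CS.e₁ i))
      (riemannRochSpace (Finsupp.mapDomain S.r (CS.B₁ - E)))) :
    ∃ M : Matrix (Fin CS.n₁) (Fin CS.d) K, IsEch S CS.e₁ (CS.B₁ - E) J M ∧ M.map (rc S) = M' := by
  have h1 := finrank_L_sub_of_deg S G CS x E hdeg
  have h2 := finrank_L_red_sub_of_deg S hFF hFF' G CS x E hdeg
  exact hEI K F k F' S hFF hFF' CS.B₁ E (Fin CS.n₁) CS.e₁ CS.he₁ hE
    (by rw [h1, h2]) CS.d J M' hJ hM'

end Gal

end Fermat.Agent.FL.H21
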