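import Fermat.Agent.FL.H22_FrameRat
import Fermat.Agent.FL.Defs4
import Fermat.Agent.RED.H17_LiftMove

/-!
# G-FL, package MOD-FRAME (helper22), part 3: rational frames of `L(b ∞)`

Setting: `F = F_N · ℚ̄ ⊆ ℚ̄((q))`, `A` a valuation subring of `ℚ̄`, `V` the Gauss valuation ring of
`F`, `r` a map of places with the conservation law, `S = H17.redSetupOf A h r hr`.

* `linearIndependent_of_rd`: functions of `V` with linearly independent reductions are linearly
  independent;
* `exists_frame`: if `l~(b · r ∞) ≤ l(b ∞)` then `L(b ∞)` has a basis `e` of Gauss-integral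
  functions with rational `q`-expansions whose reductions are a basis of `L~(b · r ∞)`
  (the saturated lattice of the rational integral functions: LAT over `(ℚ, A ∩ ℚ)`);
* `hasRatFrames_of`: `HasRatFrames S G` for every Galois context `G` acting through the
  arithmetic Galois action.
-/

set_option autoImplicit false
set_option linter.style.haveILetI false
set_option linter.unusedSectionVars false
set_option synthInstance.maxHeartbeats 400000
set_option maxHeartbeats 1000000

open ModularCurve AlgebraicCurve Fermat.Agent.S28 Fermat.Agent.S28.H73 Fermat.Agent.RED.H73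

noncomputable section

namespace Fermat.Agent.FL.H22

open Fermat.Agent.RED Fermat.Agent.RED.H17 Fermat.Agent.S17 Fermat.Agent.S17.H35
  Fermat.Agent.RED.KD.H22 Fermat.Agent.S24

local notation "L" => riemannRochSpace

/-! ## Independence of the reductions implies independence -/

section Abs

variable {K F k F' : Type} [Field K] [Field F] [Algebra K F] [Field k] [Field F']
  [Algebra k F'] (S : RedSetup K F k F')

theorem red_sum_mul {ι : Type} (s : Finset ι) (a u : ι → F) (ha : ∀ i, a i ∈ S.V)
    (hu : ∀ i, u i ∈ S.V) :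
    ∃ hmem : ∑ i ∈ s, a i * u i ∈ S.V,
      S.red ⟨_, hmem⟩ = ∑ i ∈ s, S.red ⟨a i, ha i⟩ * S.red ⟨u i, hu i⟩ := by
  have h1 : ((∑ i ∈ s, (⟨a i, ha i⟩ : S.V) * ⟨u i, hu i⟩ : S.V) : F) = ∑ i ∈ s, a i * u i :=
    map_sum S.V.subtype _ _
  refine ⟨h1 ▸ (∑ i ∈ s, (⟨a i, ha i⟩ : S.V) * ⟨u i, hu i⟩ : S.V).2, ?_⟩
  have h2 : (⟨∑ i ∈ s, a i * u i, h1 ▸ (∑ i ∈ s, (⟨a i, ha i⟩ : S.V) * ⟨u i, hu i⟩ : S.V).2⟩
      : S.V) = ∑ i ∈ s, (⟨a i, ha i⟩ : S.V) * ⟨u i, hu i⟩ := Subtype.ext h1.symm
  rw [h2, map_sum]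
  exact Finset.sum_congr rfl fun i _ => map_mul _ _ _

/-- Functions of the Gauss ring with linearly independent reductions are linearly
independent. -/
theorem linearIndependent_of_rd {ι : Type} [Fintype ι] (u : ι → F) (hu : ∀ i, u i ∈ S.V)
    (h : LinearIndependent k (fun i => S.rd (u i))) : LinearIndependent K u := by
  rw [Fintype.linearIndependent_iff]
  intro c hc
  by_contra hne
  have hc0 : c ≠ 0 := by
    intro h0
    apply hne
    intro i
    rw [h0]
    rfl
  obtain ⟨m, hm0, hm⟩ := H42.exists_max_coeff (constVal S) c hc0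
  have ha : ∀ i, algebraMap K F (c i * (c m)⁻¹) ∈ S.V := fun i => (mem_constVal S _).mp (hm i)
  have hsum : ∑ i, algebraMap K F (c i * (c m)⁻¹) * u i = 0 := by
    have h1 : ∀ i, algebraMap K F (c i * (c m)⁻¹) * u i
        = algebraMap K F (c m)⁻¹ * (c i • u i) := by
      intro i
      rw [map_mul, Algebra.smul_def]
      ring
    rw [Finset.sum_congr rfl fun i _ => h1 i, ← Finset.mul_sum, hc, mul_zero]
  obtain ⟨hmem, hred⟩ := red_sum_mul S Finset.univ (fun i => algebraMap K F (c i * (c m)⁻¹)) u ha hu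
  have h0 : S.red ⟨_, hmem⟩ = 0 := by
    have : (⟨_, hmem⟩ : S.V) = 0 := Subtype.ext hsum
    rw [this, map_zero]
  rw [h0] at hred
  choose γ hγ using fun i => S.red_const (c i * (c m)⁻¹) (ha i)
  have h2 : ∑ i, γ i • S.rd (u i) = 0 := by
    rw [hred]
    refine Finset.sum_congr rfl fun i _ => ?_
    rw [Algebra.smul_def, ← hγ i, S.rd_of_mem (hu i)]
  have h3 := Fintype.linearIndependent_iff.mp h γ h2 m
  have h4 := hγ m
  have h5 : (⟨algebraMap K F (c m * (c m)⁻¹), ha m⟩ : S.V) = 1 := by
    apply Subtype.ext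
    show algebraMap K F (c m * (c m)⁻¹) = 1
    rw [mul_inv_cancel₀ hm0, map_one]
  rw [h5, map_one, h3, map_zero] at h4
  exact one_ne_zero h4

end Abs

/-! ## Orthonormal bases of a span, in terms of series -/

section Ortho

variable {C : Type} [Field C] (O : ValuationSubring C)
  {F₀ : IntermediateField C (LaurentSeries C)}

theorem coe_sum_smul_C {d : ℕ} (q : Fin d → C) (y : Fin d → ↥F₀) :
    ((∑ j, q j • y j : ↥F₀) : LaurentSeries C)
      = ∑ j, HahnSeries.C (q j) * ((y j : ↥F₀) : LaurentSeries C) := by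
  rw [H42.coe_sum_smul]
  exact Finset.sum_congr rfl fun j _ => (HahnSeries.C_mul_eq_smul).symm

/-- **LAT** for the span of a linearly independent family, in terms of series. -/
theorem exists_orthonormal_span (hFS : H42.FracScalable O F₀) (h₀ : HasScale O F₀) {d : ℕ}
    (y : Fin d → ↥F₀)
    (hy : ∀ q : Fin d → C,
      ∑ j, HahnSeries.C (q j) * ((y j : ↥F₀) : LaurentSeries C) = 0 → ∀ j, q j = 0) :
    ∃ e₀ : Fin d → ↥(gaussValSub O F₀ h₀),
      LinearIndependent (kV O) (fun i => gaussResF' O h₀ (e₀ i)) ∧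
      ∀ i, ∃ q : Fin d → C, (((e₀ i : ↥(gaussValSub O F₀ h₀)) : ↥F₀) : LaurentSeries C)
        = ∑ j, HahnSeries.C (q j) * ((y j : ↥F₀) : LaurentSeries C) := by
  have hy_li : LinearIndependent C y := by
    rw [Fintype.linearIndependent_iff]
    intro q hq
    apply hy q
    rw [← coe_sum_smul_C, hq]
    rfl
  haveI : FiniteDimensional C (Submodule.span C (Set.range y)) :=
    FiniteDimensional.span_of_finite C (Set.finite_range y)
  have hWdim : Module.finrank C (Submodule.span C (Set.range y)) = d := by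
    rw [finrank_span_eq_card hy_li, Fintype.card_fin]
  obtain ⟨e', he'⟩ := H42.exists_isOrthonormalF O hFS h₀ (Submodule.span C (Set.range y))
  refine ⟨fun i => e' (Fin.cast hWdim.symm i), ?_, fun i => ?_⟩
  · exact he'.indep.comp _ (Fin.cast_injective _)
  · have h1 := he'.mem (Fin.cast hWdim.symm i)
    obtain ⟨q, hq⟩ := (Submodule.mem_span_range_iff_exists_fun C).mp h1
    refine ⟨q, ?_⟩
    rw [← coe_sum_smul_C, hq]

end Ortho

/-! ## Extension of coefficients from `F_N` to `F_N · ℚ̄` -/

section BCF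

variable (N : ℕ) [NeZero N]

/-- The extension of coefficients `F_N → F_N · ℚ̄`. -/
def bcF (y : ↥(modularFunctionFieldFull N)) : FN N :=
  ⟨coeffEmb Kbar (y : LaurentSeries ℚ), coeffEmb_mem_laurentBaseChange Kbar y.2⟩

@[simp] theorem coe_bcF (y : ↥(modularFunctionFieldFull N)) :
    ((bcF N y : FN N) : LaurentSeries Kbar) = coeffEmb Kbar (y : LaurentSeries ℚ) := rfl

theorem coeffEmb_C (q : ℚ) :
    coeffEmb Kbar (HahnSeries.C q : LaurentSeries ℚ) = HahnSeries.C (algebraMap ℚ Kbar q) := by
  rw [coeffEmb]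
  exact coeffMap_single _ 0 q

/-- `coeffEmb` of a rational linear combination. -/
theorem coeffEmb_sum_C_mul {d : ℕ} (q : Fin d → ℚ) (x : Fin d → LaurentSeries ℚ) :
    coeffEmb Kbar (∑ j, HahnSeries.C (q j) * x j)
      = ∑ j, HahnSeries.C (algebraMap ℚ Kbar (q j)) * coeffEmb Kbar (x j) := by
  rw [map_sum]
  refine Finset.sum_congr rfl fun j _ => ?_
  rw [map_mul, coeffEmb_C]

theorem coe_sum_smul_FN {d : ℕ} (a : Fin d → Kbar) (f : Fin d → FN N) :
    ((∑ j, a j • f j : FN N) : LaurentSeries Kbar)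
      = ∑ j, HahnSeries.C (a j) * ((f j : FN N) : LaurentSeries Kbar) := by
  rw [H42.coe_sum_smul]
  exact Finset.sum_congr rfl fun j _ => (HahnSeries.C_mul_eq_smul).symm

end BCF

/-! ## The frames -/

section Main

variable (N : ℕ) [NeZero N] (A : ValuationSubring Kbar)

theorem bcF_mem_gaussValSub
    (y : ↥(gaussValSub (subV ℚ A) (modularFunctionFieldFull N) (hasScale_full _ N))) :
    bcF N (y : ↥(modularFunctionFieldFull N)) ∈
      gaussValSub A (modularFunctionFieldBar N) (hasScale_laurentBaseChange A N) := by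
  rw [mem_gaussValSub_iff]
  have h1 : (((y : ↥(modularFunctionFieldFull N)) : LaurentSeries ℚ)) ∈ gaussRingV (subV ℚ A) :=
    (mem_gaussValSub_iff _ _ _).mp y.2
  exact bc_mem_gaussRingV A h1

theorem gaussResF'_bcF
    (y : ↥(gaussValSub (subV ℚ A) (modularFunctionFieldFull N) (hasScale_full _ N))) :
    ((gaussResF' A (hasScale_laurentBaseChange A N) ⟨bcF N y, bcF_mem_gaussValSub N A y⟩ :
        ↥(redField A (modularFunctionFieldBar N) (hasScale_laurentBaseChange A N))) :
        LaurentSeries (kV A))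
      = coeffMap (resMap A)
        ((gaussResF' (subV ℚ A) (hasScale_full _ N) y :
          ↥(redField (subV ℚ A) (modularFunctionFieldFull N) (hasScale_full _ N))) :
          LaurentSeries (kV (subV ℚ A))) := by
  have h1 : (((y : ↥(modularFunctionFieldFull N)) : LaurentSeries ℚ)) ∈ gaussRingV (subV ℚ A) :=
    (mem_gaussValSub_iff _ _ _).mp y.2
  exact gaussRedV_bc A h1

/-- The reductions of the extensions of coefficients of an orthonormal family are linearly
independent over the big residue field. -/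
theorem linearIndependent_red_bcF {n : ℕ}
    (e : Fin n → ↥(gaussValSub (subV ℚ A) (modularFunctionFieldFull N) (hasScale_full _ N)))
    (he : LinearIndependent (kV (subV ℚ A))
      (fun i => gaussResF' (subV ℚ A) (hasScale_full _ N) (e i))) :
    LinearIndependent (kV A) (fun i => gaussResF' A (hasScale_laurentBaseChange A N)
      ⟨bcF N (e i), bcF_mem_gaussValSub N A (e i)⟩) := by
  have h1 : LinearIndependent (kV (subV ℚ A))
      (fun i => ((gaussResF' (subV ℚ A) (hasScale_full _ N) (e i) :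
        ↥(redField (subV ℚ A) (modularFunctionFieldFull N) (hasScale_full _ N))) :
        LaurentSeries (kV (subV ℚ A)))) :=
    he.map' (H42.valL _) (LinearMap.ker_eq_bot.mpr (H42.valL_injective _))
  letI : Algebra (kV (subV ℚ A)) (kV A) := (resMap A).toAlgebra
  have h2 := linearIndependent_bc (k := kV A) h1
  refine LinearIndependent.of_comp (H42.valL _) ?_
  have h3 : (H42.valL (redField A (modularFunctionFieldBar N) (hasScale_laurentBaseChange A N)))
      ∘ (fun i => gaussResF' A (hasScale_laurentBaseChange A N)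
        ⟨bcF N (e i), bcF_mem_gaussValSub N A (e i)⟩)
      = fun i => bc (kV (subV ℚ A)) (kV A)
        ((gaussResF' (subV ℚ A) (hasScale_full _ N) (e i) :
          ↥(redField (subV ℚ A) (modularFunctionFieldFull N) (hasScale_full _ N))) :
          LaurentSeries (kV (subV ℚ A))) := by
    funext i
    exact gaussResF'_bcF N A (e i)
  rw [h3]
  exact h2

/-- **MOD-FRAME, core**: if `l~(b · r ∞) ≤ l(b ∞)`, then `L(b ∞)` has a basis of Gauss-integral
functions with rational `q`-expansions whose reductions are a basis of `L~(b · r ∞)`. -/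
theorem exists_frame [IsAlgClosed (kV A)]
    (hFF' : IsFF (kV A)
      ↥(redField A (modularFunctionFieldBar N) (hasScale_laurentBaseChange A N)))
    {r : Place Kbar (FN N) →
      Place (kV A) ↥(redField A (modularFunctionFieldBar N) (hasScale_laurentBaseChange A N))}
    (hr : IsRed A (hasScale_laurentBaseChange A N) r) (b : ℕ)
    (hb : Module.finrank (kV A) (L (Finsupp.single (r (cuspInf N)) (b : ℤ))) ≤
      Module.finrank Kbar (L (Finsupp.single (cuspInf N) (b : ℤ)))) :
    ∃ (n : ℕ) (e : Fin n → FN N), IsFrameOf e (Finsupp.single (cuspInf N) (b : ℤ)) ∧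
      (∀ i, e i ∈ (redSetupOf A (hasScale_laurentBaseChange A N) r hr).V) ∧
      (∀ i, ∃ y : LaurentSeries ℚ, coeffEmb Kbar y = (e i : LaurentSeries Kbar)) ∧
      IsFrameOf (fun i => (redSetupOf A (hasScale_laurentBaseChange A N) r hr).rd (e i))
        (Finsupp.single (r (cuspInf N)) (b : ℤ)) := by
  classical
  set S := redSetupOf A (hasScale_laurentBaseChange A N) r hr with hS
  have hFF : IsFF Kbar (FN N) := Fermat.Agent.RED.H95.stmt_HKA_isFF N
  have H : FFHyp Kbar (FN N) := ffHyp_of_isFF Kbar (FN N) hFF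
  have H' : FFHyp (kV A)
      ↥(redField A (modularFunctionFieldBar N) (hasScale_laurentBaseChange A N)) :=
    ffHyp_of_isFF _ _ hFF'
  -- the rational basis of helper35
  set C := ratCtxMod N with hC
  set d := C.ratDim b with hd
  have hkP : C.kP (b : ℤ) = Finsupp.single (cuspInf N) (b : ℤ) := rfl
  have hf_li : LinearIndependent Kbar (fun i : Fin d => C.ratSeq i) := C.ratSeq_li b
  have hf_span : Submodule.span Kbar (Set.range fun i : Fin d => C.ratSeq i)
      = L (Finsupp.single (cuspInf N) (b : ℤ)) := C.ratSeq_span b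
  have hdim : Module.finrank Kbar (L (Finsupp.single (cuspInf N) (b : ℤ))) = d :=
    C.finrank_L_kP b
  choose y hy using fun i : Fin d => exists_rat_of_fixed N (C.ratSeq_fixed (i : ℕ))
  -- the rational functions `y` are linearly independent
  have hy_li : ∀ q : Fin d → ℚ,
      ∑ j, HahnSeries.C (q j) * ((y j : ↥(modularFunctionFieldFull N)) : LaurentSeries ℚ) = 0 →
        ∀ j, q j = 0 := by
    intro q hq j
    have h1 := coeffEmb_sum_C_mul q (fun j => ((y j : ↥(modularFunctionFieldFull N))
      : LaurentSeries ℚ))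
    rw [hq, map_zero] at h1
    have h3 : ∑ j : Fin d, algebraMap ℚ Kbar (q j) • C.ratSeq (j : ℕ) = 0 := by
      apply Subtype.ext
      rw [coe_sum_smul_FN]
      have h5 : ∑ j : Fin d, HahnSeries.C (algebraMap ℚ Kbar (q j))
          * ((C.ratSeq (j : ℕ) : FN N) : LaurentSeries Kbar)
          = ∑ j : Fin d, HahnSeries.C (algebraMap ℚ Kbar (q j))
            * coeffEmb Kbar ((y j : ↥(modularFunctionFieldFull N)) : LaurentSeries ℚ) :=
        Finset.sum_congr rfl fun j _ => by rw [hy j]
      rw [h5, ← h1]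
      rfl
    have h4 := Fintype.linearIndependent_iff.mp hf_li _ h3 j
    exact (algebraMap ℚ Kbar).injective (by rw [h4, map_zero])
  -- the orthonormal basis
  obtain ⟨e₀, he_li, he_mem⟩ := exists_orthonormal_span (subV ℚ A) (fracScalable_full _ N)
    (hasScale_full _ N) y hy_li
  have hEV : ∀ i, bcF N (e₀ i) ∈ S.V := fun i => bcF_mem_gaussValSub N A (e₀ i)
  have hEL : ∀ i, bcF N (e₀ i) ∈ L (Finsupp.single (cuspInf N) (b : ℤ)) := by
    intro i
    obtain ⟨q, hq⟩ := he_mem i
    have h1 : bcF N (e₀ i) = ∑ j : Fin d, algebraMap ℚ Kbar (q j) • C.ratSeq (j : ℕ) := by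
      apply Subtype.ext
      rw [coe_sum_smul_FN, coe_bcF, hq, coeffEmb_sum_C_mul]
      exact Finset.sum_congr rfl fun j _ => by rw [hy j]
    rw [h1, ← hf_span]
    exact Submodule.sum_mem _ fun j _ =>
      Submodule.smul_mem _ _ (Submodule.subset_span ⟨j, rfl⟩)
  have hrd : ∀ i, S.rd (bcF N (e₀ i)) = gaussResF' A (hasScale_laurentBaseChange A N)
      ⟨bcF N (e₀ i), bcF_mem_gaussValSub N A (e₀ i)⟩ := fun i => S.rd_of_mem (hEV i)
  have hrd_li : LinearIndependent (kV A) (fun i => S.rd (bcF N (e₀ i))) := by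
    have := linearIndependent_red_bcF N A e₀ he_li
    rw [show (fun i => S.rd (bcF N (e₀ i))) = fun i => gaussResF' A
      (hasScale_laurentBaseChange A N) ⟨bcF N (e₀ i), bcF_mem_gaussValSub N A (e₀ i)⟩ from
      funext hrd]
    exact this
  have hE_li : LinearIndependent Kbar (fun i => bcF N (e₀ i)) :=
    linearIndependent_of_rd S _ hEV hrd_li
  haveI : Module.Finite Kbar (L (Finsupp.single (cuspInf N) (b : ℤ))) := H.finite _
  haveI : Module.Finite (kV A) (L (Finsupp.single (r (cuspInf N)) (b : ℤ))) := H'.finite _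
  have hrdL : ∀ i, S.rd (bcF N (e₀ i)) ∈ L (Finsupp.single (r (cuspInf N)) (b : ℤ)) := by
    intro i
    have h1 := S.Rsub_le H.principal (Finsupp.single (cuspInf N) (b : ℤ))
      ⟨bcF N (e₀ i), hEV i, hEL i, rfl⟩
    rw [Finsupp.mapDomain_single] at h1
    exact h1
  refine ⟨d, fun i => bcF N (e₀ i), ⟨hE_li, ?_⟩, hEV, fun i => ⟨_, rfl⟩, ⟨hrd_li, ?_⟩⟩
  · refine Submodule.eq_of_le_of_finrank_eq ?_ ?_
    · rw [Submodule.span_le]
      rintro _ ⟨i, rfl⟩
      exact hEL i
    · rw [finrank_span_eq_card hE_li, Fintype.card_fin, hdim]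
  · refine Submodule.eq_of_le_of_finrank_le ?_ ?_
    · rw [Submodule.span_le]
      rintro _ ⟨i, rfl⟩
      exact hrdL i
    · rw [finrank_span_eq_card hrd_li, Fintype.card_fin]
      exact hb.trans hdim.le

/-- **MOD-FRAME**: `HasRatFrames` for every Galois context acting through the arithmetic
Galois action, if the genus does not drop. -/
theorem hasRatFrames_of [IsAlgClosed (kV A)]
    (hFF' : IsFF (kV A)
      ↥(redField A (modularFunctionFieldBar N) (hasScale_laurentBaseChange A N)))
    {r : Place Kbar (FN N) →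
      Place (kV A) ↥(redField A (modularFunctionFieldBar N) (hasScale_laurentBaseChange A N))}
    (hr : IsRed A (hasScale_laurentBaseChange A N) r)
    (hG : GenusLE A (hasScale_laurentBaseChange A N) r) {Γ : Type} [Group Γ]
    (G : GalRed (redSetupOf A (hasScale_laurentBaseChange A N) r hr) Γ)
    (hGal : ∀ σ : Γ, ∃ τ : Kbar ≃ₐ[ℚ] Kbar,
      G.act σ = arithmeticGalois (modularFunctionFieldFull N) τ) :
    HasRatFrames (redSetupOf A (hasScale_laurentBaseChange A N) r hr) G := by
  obtain ⟨c, hc⟩ := hG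
  have hFF : IsFF Kbar (FN N) := Fermat.Agent.RED.H95.stmt_HKA_isFF N
  have H : FFHyp Kbar (FN N) := ffHyp_of_isFF Kbar (FN N) hFF
  refine ⟨cuspInf N, fun σ => ?_, c.toNat, fun b hb => ?_⟩
  · obtain ⟨τ, hτ⟩ := hGal σ
    rw [hτ]
    exact smul_cuspInf N τ
  · have hdeg : c ≤ Divisor.degree (Finsupp.single (cuspInf N) (b : ℤ)) := by
      rw [Divisor.degree_single, H.deg_one]
      have : c.toNat ≤ b := hb
      omega
    have hb' := hc _ hdeg
    rw [Finsupp.mapDomain_single] at hb'
    obtain ⟨n, e, h1, h2, h3, h4⟩ := exists_frame N A hFF' hr b hb'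
    refine ⟨n, e, h1, h2, fun σ i => ?_, h4⟩
    obtain ⟨τ, hτ⟩ := hGal σ
    obtain ⟨y, hy⟩ := h3 i
    rw [hτ]
    apply Subtype.ext
    rw [coe_arithmeticGalois_smul, ← hy, coeffMap_coeffEmb]

end Main

end Fermat.Agent.FL.H22
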