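import Fermat.Agent.RED.H73_GAVal
import Mathlib.LinearAlgebra.Dual.Lemmas
import Mathlib.LinearAlgebra.Finsupp.LinearCombination

/-!
# G-FL, package MOD-FRAME (helper22), part 1: extension of the field of coefficients

`k₀ ⊆ k` fields, `β = coeffMap (algebraMap k₀ k) : k₀((q)) → k((q))`.

* `coeff_sum_smul_bc`: a `k₀`-linear functional `ψ` of `k`, applied coefficientwise to a
  `k`-linear combination of series with coefficients in `k₀`;
* `linearIndependent_bc`: series which are linearly independent over `k₀` are linearly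
  independent over `k`;
* `mem_of_bc_mem_adjoin`: **descent**: if `β y` lies in the field generated over `k` by
  `β (F₀)`, `F₀` a subfield of `k₀((q))`, then `y ∈ F₀`;
* `gaussRedV_bc`: the Gauss ring and its reduction commute with `β`
  (`O₀ = O ∩ k₀`, residue fields `κ₀ ⊆ κ`).
-/

set_option autoImplicit false

open ModularCurve Fermat.Agent.S28 Fermat.Agent.S28.H73 Fermat.Agent.RED.H73

noncomputable section

namespace Fermat.Agent.FL.H22

/-! ## Coefficientwise functionals -/

section Functional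

variable {k₀ k : Type*} [Field k₀] [Field k] [Algebra k₀ k]

/-- The extension of coefficients. -/
abbrev bc (k₀ k : Type*) [Field k₀] [Field k] [Algebra k₀ k] :
    LaurentSeries k₀ →+* LaurentSeries k :=
  coeffMap (algebraMap k₀ k)

theorem bc_injective : Function.Injective (bc k₀ k) := by
  intro x y hxy
  ext n
  have := congrArg (fun z : LaurentSeries k => z.coeff n) hxy
  simp only [coeffMap_coeff] at this
  exact (algebraMap k₀ k).injective this

theorem C_eq_algebraMap' {K : Type*} [Field K] (c : K) :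
    (HahnSeries.C c : LaurentSeries K) = algebraMap K (LaurentSeries K) c := by
  rw [algebraMap_laurentSeries_eq_single]
  rfl

theorem coeff_C_mul' {K : Type*} [Field K] (a : K) (x : LaurentSeries K) (m : ℤ) :
    (HahnSeries.C a * x).coeff m = a * x.coeff m := by
  rw [HahnSeries.C_mul_eq_smul, HahnSeries.coeff_smul, smul_eq_mul]

theorem coeff_sum_C_mul {K : Type*} [Field K] {ι : Type*} (s : Finset ι) (a : ι → K)
    (x : ι → LaurentSeries K) (m : ℤ) :
    (∑ i ∈ s, HahnSeries.C (a i) * x i).coeff m = ∑ i ∈ s, a i * (x i).coeff m := by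
  classical
  induction s using Finset.induction_on with
  | empty => simp
  | insert j s hj ih =>
    rw [Finset.sum_insert hj, Finset.sum_insert hj, HahnSeries.coeff_add, ih, coeff_C_mul']

/-- A `k₀`-linear functional of `k`, applied to the coefficients of a `k`-linear combination of
series with coefficients in `k₀`. -/
theorem coeff_sum_C_mul_bc (ψ : k →ₗ[k₀] k₀) {ι : Type*} (s : Finset ι) (a : ι → k)
    (f : ι → LaurentSeries k₀) (m : ℤ) :
    ψ ((∑ i ∈ s, HahnSeries.C (a i) * bc k₀ k (f i)).coeff m)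
      = (∑ i ∈ s, HahnSeries.C (ψ (a i)) * f i).coeff m := by
  rw [coeff_sum_C_mul, coeff_sum_C_mul, map_sum]
  refine Finset.sum_congr rfl fun i _ => ?_
  rw [coeffMap_coeff, mul_comm, ← Algebra.smul_def, map_smul, smul_eq_mul, mul_comm]

/-- Series which are linearly independent over `k₀` are linearly independent over `k`
(in the form of a statement on linear combinations). -/
theorem eq_zero_of_sum_C_mul_bc {ι : Type*} [Fintype ι] {f : ι → LaurentSeries k₀}
    (hf : ∀ c : ι → k₀, ∑ i, HahnSeries.C (c i) * f i = 0 → ∀ i, c i = 0)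
    (a : ι → k) (ha : ∑ i, HahnSeries.C (a i) * bc k₀ k (f i) = 0) : ∀ i, a i = 0 := by
  intro i
  rw [← Module.forall_dual_apply_eq_zero_iff k₀ (a i)]
  intro ψ
  have h1 : ∑ j, HahnSeries.C (ψ (a j)) * f j = 0 := by
    ext m
    rw [← coeff_sum_C_mul_bc ψ Finset.univ a f m, ha, HahnSeries.coeff_zero, map_zero,
      HahnSeries.coeff_zero]
  exact hf _ h1 i

theorem linearIndependent_iff_C_mul {K : Type*} [Field K] {ι : Type*} [Fintype ι]
    (x : ι → LaurentSeries K) :
    LinearIndependent K x ↔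
      ∀ c : ι → K, ∑ i, HahnSeries.C (c i) * x i = 0 → ∀ i, c i = 0 := by
  rw [Fintype.linearIndependent_iff]
  have h : ∀ c : ι → K, ∑ i, c i • x i = ∑ i, HahnSeries.C (c i) * x i := fun c =>
    Finset.sum_congr rfl fun i _ => (HahnSeries.C_mul_eq_smul).symm
  constructor
  · intro H c hc
    exact H c (by rw [h c]; exact hc)
  · intro H c hc
    exact H c (by rw [← h c]; exact hc)

/-- Series which are linearly independent over `k₀` are linearly independent over `k`. -/
theorem linearIndependent_bc {ι : Type*} [Fintype ι] {f : ι → LaurentSeries k₀}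
    (hf : LinearIndependent k₀ f) : LinearIndependent k (fun i => bc k₀ k (f i)) := by
  rw [linearIndependent_iff_C_mul] at hf ⊢
  exact eq_zero_of_sum_C_mul_bc hf

end Functional

/-! ## Descent -/

section Descent

variable {k₀ k : Type*} [Field k₀] [Field k] [Algebra k₀ k]

/-- The elements of the `k`-algebra generated by `β (F₀)` are the `k`-linear combinations of
elements of `β (F₀)`. -/
theorem exists_repr_of_mem_adjoin (F₀ : IntermediateField k₀ (LaurentSeries k₀))
    {x : LaurentSeries k}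
    (hx : x ∈ Algebra.adjoin k (⇑(bc k₀ k) '' (F₀ : Set (LaurentSeries k₀)))) :
    ∃ (n : ℕ) (a : Fin n → k) (f : Fin n → LaurentSeries k₀), (∀ i, f i ∈ F₀) ∧
      x = ∑ i, HahnSeries.C (a i) * bc k₀ k (f i) := by
  have h2 := Algebra.adjoin_eq_span (R := k) (s := ⇑(bc k₀ k) '' (F₀ : Set (LaurentSeries k₀)))
  have h3 : ((Submonoid.closure (⇑(bc k₀ k) '' (F₀ : Set (LaurentSeries k₀)))
      : Submonoid (LaurentSeries k)) : Set (LaurentSeries k))
      = ⇑(bc k₀ k) '' (F₀ : Set (LaurentSeries k₀)) := by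
    have h4 : (⇑(bc k₀ k) '' (F₀ : Set (LaurentSeries k₀)))
        = ((F₀.toSubfield.toSubring.toSubmonoid.map (bc k₀ k).toMonoidHom :
            Submonoid (LaurentSeries k)) : Set (LaurentSeries k)) := rfl
    rw [h4, Submonoid.closure_eq]
  rw [h3] at h2
  have hx' : x ∈ Subalgebra.toSubmodule
      (Algebra.adjoin k (⇑(bc k₀ k) '' (F₀ : Set (LaurentSeries k₀)))) := hx
  rw [h2] at hx'
  obtain ⟨n, a, g, hsum⟩ :=
    (@Submodule.mem_span_set' k (LaurentSeries k) _ _ Algebra.toModule x _).mp hx'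
  choose f hf hfg using fun i => (g i).2
  refine ⟨n, a, f, hf, ?_⟩
  rw [← hsum]
  refine Finset.sum_congr rfl fun i _ => ?_
  rw [hfg i, C_eq_algebraMap']
  exact Algebra.smul_def _ _

/-- **Descent**: a series with coefficients in `k₀` which lies in the field generated over `k`
by `β (F₀)` lies in `F₀`. -/
theorem mem_of_bc_mem_adjoin (F₀ : IntermediateField k₀ (LaurentSeries k₀))
    {y : LaurentSeries k₀}
    (hy : bc k₀ k y ∈ IntermediateField.adjoin k (⇑(bc k₀ k) '' (F₀ : Set (LaurentSeries k₀)))) :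
    y ∈ F₀ := by
  obtain ⟨r, hr, s, hs, hrs⟩ := IntermediateField.mem_adjoin_iff_div.mp hy
  by_cases hs0 : s = 0
  · rw [hs0, div_zero] at hrs
    have : y = 0 := bc_injective (by rw [hrs, map_zero])
    rw [this]
    exact F₀.zero_mem
  obtain ⟨n, a, f, hf, rfl⟩ := exists_repr_of_mem_adjoin F₀ hr
  obtain ⟨n', b, g, hg, rfl⟩ := exists_repr_of_mem_adjoin F₀ hs
  -- the equation in linear form
  have hE : ∑ j, HahnSeries.C (b j) * bc k₀ k (y * g j)
      = ∑ i, HahnSeries.C (a i) * bc k₀ k (f i) := by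
    rw [eq_div_iff hs0] at hrs
    rw [← hrs, Finset.mul_sum]
    refine Finset.sum_congr rfl fun j _ => ?_
    rw [map_mul]
    ring
  -- a functional which does not kill the denominator
  obtain ⟨m, hm⟩ : ∃ m : ℤ, (∑ j, HahnSeries.C (b j) * bc k₀ k (g j)).coeff m ≠ 0 := by
    by_contra hcon
    push Not at hcon
    exact hs0 (HahnSeries.ext (funext fun m => by rw [hcon m, HahnSeries.coeff_zero]))
  obtain ⟨ψ, hψ⟩ := Module.Projective.exists_dual_ne_zero k₀ hm
  have hG : (∑ j, HahnSeries.C (ψ (b j)) * g j) ≠ 0 := by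
    intro h0
    apply hψ
    have := coeff_sum_C_mul_bc ψ Finset.univ b g m
    rw [h0, HahnSeries.coeff_zero] at this
    exact this
  have hF : y * (∑ j, HahnSeries.C (ψ (b j)) * g j) = ∑ i, HahnSeries.C (ψ (a i)) * f i := by
    ext p
    rw [← coeff_sum_C_mul_bc ψ Finset.univ a f p, ← hE,
      coeff_sum_C_mul_bc ψ Finset.univ b _ p, Finset.mul_sum]
    congr 1
    refine Finset.sum_congr rfl fun j _ => ?_
    ring
  have hsmul : ∀ (c : k₀) {z : LaurentSeries k₀}, z ∈ F₀ → HahnSeries.C c * z ∈ F₀ := by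
    intro c z hz
    rw [C_eq_algebraMap']
    exact F₀.mul_mem (F₀.algebraMap_mem c) hz
  have hy : y = (∑ i, HahnSeries.C (ψ (a i)) * f i) / (∑ j, HahnSeries.C (ψ (b j)) * g j) := by
    rw [eq_div_iff hG, hF]
  rw [hy]
  exact F₀.div_mem (F₀.sum_mem fun i _ => hsmul _ (hf i)) (F₀.sum_mem fun j _ => hsmul _ (hg j))

end Descent

/-! ## The Gauss ring -/

section Gauss

variable {K₀ K : Type} [Field K₀] [Field K] [Algebra K₀ K] (O : ValuationSubring K)

/-- The valuation ring `O ∩ K₀` of the small field. -/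
abbrev subV (K₀ : Type) {K : Type} [Field K₀] [Field K] [Algebra K₀ K]
    (O : ValuationSubring K) : ValuationSubring K₀ :=
  O.comap (algebraMap K₀ K)

/-- The inclusion `O ∩ K₀ → O`. -/
def inclV : ↥(subV K₀ O) →+* ↥O :=
  ((algebraMap K₀ K).comp (subV K₀ O).subtype).codRestrict O
    (fun x => ValuationSubring.mem_comap.mp x.2)

@[simp] theorem coe_inclV (a : ↥(subV K₀ O)) :
    ((inclV O a : ↥O) : K) = algebraMap K₀ K (a : K₀) := rfl

instance isLocalHom_inclV : IsLocalHom (inclV (K₀ := K₀) O) := by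
  refine ⟨fun a ha => ?_⟩
  rw [isUnit_iff_inv_mem] at ha ⊢
  obtain ⟨h1, h2⟩ := ha
  rw [coe_inclV] at h1 h2
  refine ⟨fun h0 => h1 (by rw [h0, map_zero]), ?_⟩
  rw [ValuationSubring.mem_comap, map_inv₀]
  exact h2

/-- The inclusion of the residue fields. -/
def resMap : kV (subV K₀ O) →+* kV O :=
  IsLocalRing.ResidueField.map (inclV (K₀ := K₀) O)

theorem resMap_resV (a : ↥(subV K₀ O)) :
    resMap O (resV (subV K₀ O) a) = resV O (inclV O a) :=
  IsLocalRing.ResidueField.map_residue _ _

theorem iotaV_coeffMap_inclV (g : LaurentSeries ↥(subV K₀ O)) :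
    iotaV O (coeffMap (inclV O) g) = bc K₀ K (iotaV (subV K₀ O) g) := by
  ext n
  rfl

theorem redV_coeffMap_inclV (g : LaurentSeries ↥(subV K₀ O)) :
    redV O (coeffMap (inclV O) g) = coeffMap (resMap O) (redV (subV K₀ O) g) := by
  ext n
  simp only [redV_coeff, coeffMap_coeff]
  exact (resMap_resV O _).symm

theorem coeffMap_resMap_ne_zero {y : LaurentSeries (kV (subV K₀ O))} (hy : y ≠ 0) :
    coeffMap (resMap (K₀ := K₀) O) y ≠ 0 := by
  intro h
  apply hy
  ext n
  have := congrArg (fun z : LaurentSeries (kV O) => z.coeff n) h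
  simp only [coeffMap_coeff, HahnSeries.coeff_zero] at this
  rw [HahnSeries.coeff_zero]
  exact (resMap (K₀ := K₀) O).injective (by rw [this, map_zero])

/-- The Gauss ring is compatible with the extension of the coefficients. -/
theorem bc_mem_gaussRingV {x : LaurentSeries K₀} (hx : x ∈ gaussRingV (subV K₀ O)) :
    bc K₀ K x ∈ gaussRingV O := by
  obtain ⟨g, h, hg, hgx⟩ := hx
  refine ⟨coeffMap (inclV O) g, coeffMap (inclV O) h, ?_, ?_⟩
  · rw [redV_coeffMap_inclV]
    exact coeffMap_resMap_ne_zero O hg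
  · rw [iotaV_coeffMap_inclV, iotaV_coeffMap_inclV, ← map_mul, hgx]

/-- The reduction of the Gauss ring is compatible with the extension of the coefficients. -/
theorem gaussRedV_bc {x : LaurentSeries K₀} (hx : x ∈ gaussRingV (subV K₀ O)) :
    gaussRedV O ⟨bc K₀ K x, bc_mem_gaussRingV O hx⟩
      = coeffMap (resMap O) (gaussRedV (subV K₀ O) ⟨x, hx⟩) := by
  have hx' := hx
  obtain ⟨g, h, hg, hgx⟩ := hx'
  have h1 : redV O (coeffMap (inclV O) g) ≠ 0 := by
    rw [redV_coeffMap_inclV]
    exact coeffMap_resMap_ne_zero O hg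
  have h2 : iotaV O (coeffMap (inclV O) g) * bc K₀ K x = iotaV O (coeffMap (inclV O) h) := by
    rw [iotaV_coeffMap_inclV, iotaV_coeffMap_inclV, ← map_mul, hgx]
  rw [gaussRedV_eq O ⟨bc K₀ K x, bc_mem_gaussRingV O hx⟩ h1 h2,
    gaussRedV_eq (subV K₀ O) ⟨x, hx⟩ hg hgx, redV_coeffMap_inclV, redV_coeffMap_inclV,
    map_div₀]

end Gauss

end Fermat.Agent.FL.H22
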