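import Fermat.Agent.FL.H22_FrameBC
import Fermat.Agent.RED.H42_Lat3
import Fermat.Agent.S17.Height.H35_RatMod

/-!
# G-FL, package MOD-FRAME (helper22), part 2: the rational structure of `L(b ∞)`

* `hasScale_full`, `fracScalable_full`: the scaling properties of the rational modular function
  field `F_N ⊆ ℚ((q))` for every valuation subring of `ℚ`;
* `exists_rat_of_fixed`: a `G_ℚ`-fixed function of `F_N · ℚ̄` is the extension of coefficients of
  an element of `F_N`;
* `exists_ratFrame`: `L(b ∞)` has a basis consisting of extensions of coefficients of elements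
  `y i ∈ F_N`.
-/

set_option autoImplicit false
set_option linter.style.haveILetI false
set_option synthInstance.maxHeartbeats 400000
set_option maxHeartbeats 1000000

open ModularCurve AlgebraicCurve Fermat.Agent.S28 Fermat.Agent.S28.H73 Fermat.Agent.RED.H73

noncomputable section

namespace Fermat.Agent.FL.H22

open Fermat.Agent.RED Fermat.Agent.S17 Fermat.Agent.S17.H35 Fermat.Agent.RED.KD.H22
  Fermat.Agent.S24

local notation "L" => riemannRochSpace

/-! ## The rational function field -/

theorem coeffEmb_rat (x : LaurentSeries ℚ) : coeffEmb ℚ x = x := by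
  ext n
  rw [coeffEmb_coeff]
  rfl

theorem laurentBaseChange_rat (F₀ : IntermediateField ℚ (LaurentSeries ℚ)) :
    laurentBaseChange ℚ F₀ = F₀ := by
  have h : (⇑(coeffEmb ℚ) '' (F₀ : Set (LaurentSeries ℚ))) = (F₀ : Set (LaurentSeries ℚ)) := by
    ext x
    constructor
    · rintro ⟨y, hy, rfl⟩
      rw [coeffEmb_rat]
      exact hy
    · intro hx
      exact ⟨x, hx, coeffEmb_rat x⟩
  rw [laurentBaseChange, h]
  exact IntermediateField.adjoin_self ℚ F₀

theorem hasScale_full (Z : ValuationSubring ℚ) (N : ℕ) :
    HasScale Z (modularFunctionFieldFull N) := by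
  have := hasScale_laurentBaseChange Z N
  rwa [laurentBaseChange_rat] at this

theorem fracScalable_full (Z : ValuationSubring ℚ) (N : ℕ) :
    H42.FracScalable Z (modularFunctionFieldFull N) := by
  have := H42.fracScalable_laurentBaseChange Z N
  rwa [laurentBaseChange_rat] at this

/-! ## Fixed functions are rational -/

/-- A series over `ℚ̄` whose coefficients are fixed by `G_ℚ` has rational coefficients. -/
theorem exists_coeffEmb_eq {x : LaurentSeries Kbar}
    (hx : ∀ σ : GQ, coeffMap ((σ : Kbar ≃ₐ[ℚ] Kbar) : Kbar →+* Kbar) x = x) :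
    ∃ y : LaurentSeries ℚ, coeffEmb Kbar y = x := by
  have h1 : ∀ n : ℤ, ∃ q : ℚ, algebraMap ℚ Kbar q = x.coeff n := by
    intro n
    apply qbar_rational_of_fixed
    intro σ
    have := congrArg (fun z : LaurentSeries Kbar => z.coeff n) (hx σ)
    simpa using this
  choose q hq using h1
  have hsupp : Function.support q ⊆ x.support := by
    intro n hn
    show x.coeff n ≠ 0
    rw [← hq n]
    intro h0
    exact hn ((algebraMap ℚ Kbar).injective (by rw [h0, map_zero]))
  refine ⟨⟨q, x.isPWO_support.mono hsupp⟩, ?_⟩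
  ext n
  rw [coeffEmb_coeff]
  exact hq n

variable (N : ℕ) [NeZero N]

/-- A `G_ℚ`-fixed function of `F_N · ℚ̄` comes from `F_N`. -/
theorem exists_rat_of_fixed {f : FN N} (hf : f ∈ fixedFun (galN N)) :
    ∃ y : ↥(modularFunctionFieldFull N),
      coeffEmb Kbar (y : LaurentSeries ℚ) = (f : LaurentSeries Kbar) := by
  obtain ⟨y, hy⟩ := exists_coeffEmb_eq (x := (f : LaurentSeries Kbar)) (fun σ => by
    have := congrArg (fun z : FN N => (z : LaurentSeries Kbar)) (hf σ)
    exact this)
  refine ⟨⟨y, ?_⟩, hy⟩
  apply mem_of_bc_mem_adjoin (k := Kbar) (modularFunctionFieldFull N)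
  have hmem : (f : LaurentSeries Kbar) ∈ modularFunctionFieldBar N := f.2
  rw [← hy] at hmem
  exact hmem

end Fermat.Agent.FL.H22
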