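import Fermat.Agent.FL.H33_ModCtx
import Fermat.Agent.FL.H38_UnrConst
import Fermat.Agent.FL.Defs6

/-!
# G-FL (S19), package ASM-C1 (helper33): the main theorem at the tame levels, in concrete terms

* `Stmt_TameFrames` : **(FR)** for the Galois context `tameCtx` of `F_M · ℚ̄` (package MOD-FRAME).
* `HasIntCoordsAt A M 𝒮` : the conclusion of the abstract main theorem for a set `𝒮 ⊆ J₀(M)`,
  in concrete terms: finitely many functions `h j : 𝒮 → ℚ̄` with values in `A`, equivariant for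
  the inertia group of `A`, separating the points, such that the twist of `h j` by an element
  of the decomposition group lies in `genRing A h` and `(x, y) ↦ h j (x + y)` in `pairRing A h`.
* `hasUnrConst_tame` : **(UNR)** for `tameCtx` (from helper38's Teichmüller lifts).
* `hasIntCoordsAt_of` : translation `HasIntCoords (tameSetup ..) (tameCtx ..) 𝒮 → HasIntCoordsAt`.
* `stmt_FLTame` : `Stmt_FLAbs → Stmt_TameFrames →` for every tame `(M, ℓ, A)` and every finite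
  set `𝒮 ⊆ J₀(M)` stable under the decomposition group of `A`: `HasIntCoordsAt A M 𝒮`.
* `stmt_FLTameC_of` : `Stmt_FLAbs → Stmt_TameFrames → Stmt_FLTameC` (`FL/Defs6.lean`).

This file contains no `sorry`.
-/

set_option autoImplicit false
set_option linter.style.haveILetI false
set_option linter.unusedSectionVars false
set_option linter.unusedVariables false
set_option synthInstance.maxHeartbeats 400000
set_option maxHeartbeats 1000000

noncomputable section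

open AlgebraicCurve ModularCurve Fermat.Agent.S28 Fermat.Agent.S28.H73 Fermat.Agent.RED.H73
  Fermat.Agent.RED Fermat.Agent.RED.H17 Fermat.Agent.RED.H33
  Fermat.Agent.Lib.HopfOrder Fermat.Agent.Lib.HopfOrderLoc

namespace Fermat.Agent.FL.H33

/-- **(FR) at the tame levels** (package MOD-FRAME): rational integral frames of `L(b ∞)`. -/
def Stmt_TameFrames : Prop :=
  ∀ (M ℓ : ℕ) [NeZero M] (hℓ : ℓ.Prime) (hM : ¬ ℓ ∣ M)
    (htame : 5 ≤ ℓ ∨ (ℓ = 3 ∧ 2 ∣ M) ∨ (ℓ = 2 ∧ 3 ∣ M))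
    (A : ValuationSubring (AlgebraicClosure ℚ)) (hA : A.LiesOverPrime ℓ),
    HasRatFrames (tameSetup M ℓ hℓ hM htame A hA) (tameCtx M ℓ hℓ hM htame A hA)

/-- **Integral coordinates on a set of points of `J₀(M)`** at the place `A`:
finitely many functions `h j : 𝒮 → ℚ̄` such that
* the values lie in `A`;
* `h j (σ x) = σ (h j x)` for `σ` in the inertia group of `A`;
* for `σ` in the decomposition group of `A` the function `σ x ↦ σ (h j x)` is the restriction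
  of an element of `genRing A h`;
* the `h j` separate the points of `𝒮`;
* `(x, y) ↦ h j (x + y)` (where `x + y ∈ 𝒮`) is the restriction of an element of
  `pairRing A h`. -/
def HasIntCoordsAt (A : ValuationSubring (AlgebraicClosure ℚ)) (M : ℕ) (𝒮 : Set (JZero M)) :
    Prop :=
  ∃ (ι : Type) (_ : Finite ι) (h : ι → 𝒮 → AlgebraicClosure ℚ),
    (∀ j x, h j x ∈ A) ∧
    (∀ j, ∀ σ ∈ A.inertiaSubgroupIn ℚ, ∀ (x : 𝒮) (hx : σ • (x : JZero M) ∈ 𝒮),
      h j ⟨_, hx⟩ = σ (h j x)) ∧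
    (∀ j, ∀ σ ∈ A.decompositionSubgroup ℚ, ∃ φ ∈ genRing A.toSubring h,
      ∀ (x : 𝒮) (hx : σ • (x : JZero M) ∈ 𝒮), φ ⟨_, hx⟩ = σ (h j x)) ∧
    (∀ x y : 𝒮, x ≠ y → ∃ j, h j x ≠ h j y) ∧
    (∀ j, ∃ φ ∈ pairRing A.toSubring h,
      ∀ (x y : 𝒮) (hxy : (x : JZero M) + (y : JZero M) ∈ 𝒮), φ (x, y) = h j ⟨_, hxy⟩)

section Tame

variable (M ℓ : ℕ) [NeZero M] (hℓ : ℓ.Prime) (hM : ¬ ℓ ∣ M)
  (htame : 5 ≤ ℓ ∨ (ℓ = 3 ∧ 2 ∣ M) ∨ (ℓ = 2 ∧ 3 ∣ M))
  (A : ValuationSubring (AlgebraicClosure ℚ)) (hA : A.LiesOverPrime ℓ)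

/-- **(UNR)** for the Galois context of `F_M · ℚ̄`. -/
theorem hasUnrConst_tame :
    HasUnrConst (tameSetup M ℓ hℓ hM htame A hA) (tameCtx M ℓ hℓ hM htame A hA) :=
  hasUnrConst_tameCtx M ℓ hℓ hM htame A hA
    (fun c' => Fermat.Agent.FL.H38.exists_inertia_fixed_lift A hℓ hA c')

/-- Translation of the abstract conclusion into concrete terms. -/
theorem hasIntCoordsAt_of (𝒮 : Set (JZero M))
    (H : HasIntCoords (tameSetup M ℓ hℓ hM htame A hA) (tameCtx M ℓ hℓ hM htame A hA) 𝒮) :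
    HasIntCoordsAt A M 𝒮 := by
  obtain ⟨ι, hι, h, h1, h2, h3, h4, h5⟩ := H
  have hcv : constVal (tameSetup M ℓ hℓ hM htame A hA) = A :=
    constVal_tameSetup M ℓ hℓ hM htame A hA
  refine ⟨ι, hι, h, ?_, ?_, ?_, h4, ?_⟩
  · intro j x
    have := h1 j x
    rwa [hcv] at this
  · intro j σ hσ x hx
    have hdec : σ ∈ A.decompositionSubgroup ℚ := by
      obtain ⟨g, -, rfl⟩ := hσ
      exact g.2
    have hI : (⟨σ, hdec⟩ : ↥(A.decompositionSubgroup ℚ)) ∈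
        (tameCtx M ℓ hℓ hM htame A hA).I :=
      (mem_tameCtx_I_iff M ℓ hℓ hM htame A hA ⟨σ, hdec⟩).mpr hσ
    exact h2 j ⟨σ, hdec⟩ hI x hx
  · intro j σ hσ
    obtain ⟨φ, hφ, hφx⟩ := h3 j ⟨σ, hσ⟩
    refine ⟨φ, ?_, fun x hx => hφx x hx⟩
    rwa [hcv] at hφ
  · intro j
    obtain ⟨φ, hφ, hφx⟩ := h5 j
    refine ⟨φ, ?_, hφx⟩
    rwa [hcv] at hφ

/-- **ASM-C1**: the main theorem of G-FL at the tame levels, in concrete terms. -/
theorem stmt_FLTame (hAbs : Stmt_FLAbs) (hFr : Stmt_TameFrames)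
    (M ℓ : ℕ) [NeZero M] (hℓ : ℓ.Prime) (hM : ¬ ℓ ∣ M)
    (htame : 5 ≤ ℓ ∨ (ℓ = 3 ∧ 2 ∣ M) ∨ (ℓ = 2 ∧ 3 ∣ M))
    (A : ValuationSubring (AlgebraicClosure ℚ)) (hA : A.LiesOverPrime ℓ)
    (𝒮 : Set (JZero M)) (hfin : 𝒮.Finite)
    (hst : ∀ σ ∈ A.decompositionSubgroup ℚ, ∀ x ∈ 𝒮, σ • x ∈ 𝒮) :
    HasIntCoordsAt A M 𝒮 := by
  haveI : IsAlgClosed (kV A) := isAlgClosed_kV A
  refine hasIntCoordsAt_of M ℓ hℓ hM htame A hA 𝒮 ?_
  exact hAbs (AlgebraicClosure ℚ) ↥(modularFunctionFieldBar M) (kV A)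
    ↥(redField A (modularFunctionFieldBar M) (hasScale_laurentBaseChange A M))
    (tameSetup M ℓ hℓ hM htame A hA) (isFF_bar M) (isFF_tame M ℓ hℓ hM A hA)
    (tameSetup_genusLE' M ℓ hℓ hM htame A hA)
    ↥(A.decompositionSubgroup ℚ) (tameCtx M ℓ hℓ hM htame A hA)
    (hasUnrConst_tame M ℓ hℓ hM htame A hA) (hFr M ℓ hℓ hM htame A hA)
    𝒮 hfin (fun σ x hx => hst σ.1 σ.2 x hx)

end Tame

/-- **ASM-C1** in the form of `FL/Defs6.lean`:
`Stmt_FLAbs → (HasRatFrames at the tame levels) → Stmt_FLTameC`. -/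
theorem stmt_FLTameC_of (hAbs : Stmt_FLAbs) (hFr : Stmt_TameFrames) : Stmt_FLTameC := by
  intro M ℓ _ hℓ hM htame A hA 𝒮 hfin hst
  exact stmt_FLTame hAbs hFr M ℓ hℓ hM htame A hA 𝒮 hfin hst

end Fermat.Agent.FL.H33
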