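import Fermat.Agent.FL.H22_Frame
import Fermat.Agent.FL.H33_Tame

/-!
# G-FL, package MOD-FRAME (helper22): `Stmt_TameFrames`

`stmt_TameFrames : H33.Stmt_TameFrames`: at a tame level `M` the spaces `L(b ∞)`, `b` large, have
bases of Gauss-integral functions with rational `q`-expansions (hence fixed by the decomposition
group) whose reductions are bases of `L~(b · r ∞)`.
-/

set_option autoImplicit false
set_option linter.style.haveILetI false
set_option synthInstance.maxHeartbeats 400000
set_option maxHeartbeats 1000000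

open ModularCurve AlgebraicCurve Fermat.Agent.S28 Fermat.Agent.S28.H73 Fermat.Agent.RED.H73

noncomputable section

namespace Fermat.Agent.FL.H22

open Fermat.Agent.RED Fermat.Agent.RED.H17 Fermat.Agent.RED.H33

/-- **MOD-FRAME.** -/
theorem stmt_TameFrames : H33.Stmt_TameFrames := by
  intro M ℓ _ hℓ hM htame A hA
  haveI : IsAlgClosed (kV A) := isAlgClosed_kV A
  exact hasRatFrames_of M A (H33.isFF_tame M ℓ hℓ hM A hA)
    (H33.tameR_isRed M ℓ hℓ hM htame A hA) (H33.tameR_genusLE M ℓ hℓ hM htame A hA)
    (H33.tameCtx M ℓ hℓ hM htame A hA) (fun σ => ⟨σ, rfl⟩)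

end Fermat.Agent.FL.H22
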