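import Fermat.Agent.FL.Defs2
import Fermat.Agent.FL.H2_FF

/-!
# G-FL (S19), package FF-CHAIN (helper2): `Stmt_AddChain`

The five steps of the addition of divisor classes on a function field, from
`mul_L_eq_of_isRiemann` (CM), `multiplier` (MULT) and `mem_L_of_mul_mem` (DIV) of `FL/H2_FF.lean`.
-/

set_option autoImplicit false
set_option linter.style.haveILetI false
set_option linter.unusedSectionVars false

noncomputable section

open AlgebraicCurve

namespace Fermat.Agent.FL.H2

open Fermat.Agent.RED Fermat.Agent.RED.H42 Fermat.Agent.S17.H35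

variable {k E : Type} [Field k] [Field E] [Algebra k E]

local notation "L" => riemannRochSpace

/-- The span form of CM. -/
theorem mem_span_mul_of_mem_L [Infinite k] (hFF : IsFF k E) (H : Hyp k E) {g : ℕ} {c : ℤ}
    (hR : IsRiemann k E g c) {D₁ D₂ D : Divisor k E} (h1 : c + 1 ≤ Divisor.degree D₁)
    (h2 : Divisor.degree D₁ + c ≤ Divisor.degree D₂) (hD : D₁ + D₂ = D) {f : E}
    (hf : f ∈ L D) :
    f ∈ Submodule.span k {z : E | ∃ a ∈ L D₁, ∃ b ∈ L D₂, z = a * b} := by
  rw [← hD, ← mul_L_eq_of_isRiemann hFF H hR h1 h2, Submodule.mul_eq_span_mul_set] at hf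
  refine Submodule.span_mono ?_ hf
  rintro z ⟨a, ha, b, hb, rfl⟩
  exact ⟨a, ha, b, hb, rfl⟩

/-- Multiplication by `h` with `div h = A - B` is a bijection `L(D + A - B) → L(D)`... in the
form: `f ∈ L(D - A)` iff `f = h z` with `z ∈ L(D - B)`, if `ord h = A - B`. -/
theorem mem_L_iff_exists_mul {h : E} (hh : h ≠ 0) {D₁ D₂ P : Divisor k E}
    (hdiv : ∀ v : Place k E, v.ord h = P v) (hD : D₁ + P = D₂) (f : E) :
    f ∈ L D₁ ↔ ∃ z ∈ L D₂, f = h * z := by
  constructor
  · intro hf
    refine ⟨h⁻¹ * f, ?_, by field_simp⟩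
    by_cases hf0 : f = 0
    · rw [hf0, mul_zero]; exact Submodule.zero_mem _
    apply mem_L_of_neg_le_ord
    intro v
    have h1 := neg_le_ord_of_mem hf hf0 v
    rw [v.ord_mul (inv_ne_zero hh) hf0, v.ord_inv, hdiv v, ← hD, Finsupp.add_apply]
    omega
  · rintro ⟨z, hz, rfl⟩
    by_cases hz0 : z = 0
    · rw [hz0, mul_zero]; exact Submodule.zero_mem _
    apply mem_L_of_neg_le_ord
    intro v
    have h1 := neg_le_ord_of_mem hz hz0 v
    rw [← hD, Finsupp.add_apply] at h1
    rw [v.ord_mul hh hz0, hdiv v]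
    omega

/-- **FF-CHAIN**. -/
theorem stmt_AddChain : Stmt_AddChain := by
  intro k E _ _ _ _ hFF g c hR hc B₁ B₂ E₀ Ex Ey E'' h hE₀ hEx hEy hE'' dE₀ dEx dEy dE''
    hB₁ hB₂ hh hdiv hl
  have H := hyp_of_isFF k E hFF
  have : Infinite k := IsAlgClosed.instInfinite
  refine ⟨?_, ?_, ?_, ?_, ?_⟩
  · -- step 1
    intro f hf
    exact mem_span_mul_of_mem_L hFF H hR (D₁ := B₁ - Ey) (D₂ := B₂ - B₁)
      (by rw [map_sub]; omega) (by rw [map_sub, map_sub]; omega) (by abel) hf
  · -- step 2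
    intro f hf
    exact mem_span_mul_of_mem_L hFF H hR (D₁ := B₁ - Ex) (D₂ := B₂ - Ey)
      (by rw [map_sub]; omega) (by rw [map_sub, map_sub]; omega) (by abel) hf
  · -- step 3
    intro φ hsym hφ
    obtain ⟨h', hh', hmul⟩ := multiplier hFF H hR (D := B₁ + B₂ - Ex - Ey)
      (D' := B₁ + B₂ - E₀)
      (by rw [map_sub, map_sub, map_add]; omega) φ hsym hφ
    have heq : B₁ + B₂ - E₀ - (B₁ + B₂ - Ex - Ey) = Ex + Ey - E₀ := by abel
    rw [heq] at hh'
    have hhL : h ∈ L (Ex + Ey - E₀) := by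
      apply mem_L_of_neg_le_ord
      intro v
      rw [hdiv v]
      have h1 : 0 ≤ E'' v := by
        have := hE''
        rw [Finsupp.le_def] at this
        simpa using this v
      simp only [Finsupp.sub_apply, Finsupp.add_apply]
      omega
    have hne : (⟨h, hhL⟩ : L (Ex + Ey - E₀)) ≠ 0 := by
      intro h0
      exact hh (congrArg Subtype.val h0)
    obtain ⟨a, ha⟩ := (finrank_eq_one_iff_of_nonzero' _ hne).mp hl ⟨h', hh'⟩
    have ha' : a • h = h' := congrArg Subtype.val ha
    refine ⟨a, fun z => ?_⟩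
    rw [hmul z, ← ha', smul_mul_assoc]
  · -- step 4
    intro f
    exact mem_L_iff_exists_mul hh hdiv (by abel) f
  · -- step 5
    intro u
    constructor
    · intro hu w hw
      have := mul_mem_L_add hu hw
      have heq : B₁ - E'' + (B₂ - E₀) = B₁ + B₂ - E₀ - E'' := by abel
      rwa [heq] at this
    · intro hu
      have heq : B₁ + (B₂ - E₀) - E'' = B₁ + B₂ - E₀ - E'' := by abel
      refine mem_L_of_mul_mem H hR (D₁ := B₁) (D₂ := B₂ - E₀) (E₀ := E'')
        (by rw [map_sub]; omega) ?_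
      intro w hw
      rw [heq]
      exact hu w hw

end Fermat.Agent.FL.H2
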