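import Fermat.Agent.FL.H2_Basic1

/-!
# G-FL (S19), package BASIC (helper2): `Stmt_Basic`

The generators `CS.gen` of a coordinate system are integral, inertia-equivariant and separate
the points.

* `CoordSys.finrank_L_E_le_one` : `l(E x) ≤ 1`.
* `CoordSys.E_smul` : `E (σ x) = σ (E x)` for `σ` in the inertia group.
* `CoordSys.cls_smul` : `cls (σ x) = cls x` for `σ` in the inertia group.
* `CoordSys.M_smul` : `M (σ x) = σ (M x)` for `σ` in the inertia group.
* `CoordSys.E_injective`, `CoordSys.M_injective_of_cls_eq`.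
* `stmt_Basic : Stmt_Basic`.
-/

set_option autoImplicit false
set_option linter.style.haveILetI false
set_option linter.unusedSectionVars false
set_option linter.unusedVariables false
set_option maxHeartbeats 1000000

noncomputable section

open AlgebraicCurve Matrix

namespace Fermat.Agent.FL.H2

open Fermat.Agent.FL Fermat.Agent.RED Fermat.Agent.RED.H17 Fermat.Agent.RED.H42
  Fermat.Agent.S17.H35

local notation "L" => riemannRochSpace

variable {K F k F' : Type} [Field K] [Field F] [Algebra K F] [Field k] [Field F']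
  [Algebra k F'] {S : RedSetup K F k F'} {Γ : Type} [Group Γ] {G : GalRed S Γ}
  {𝒯 : Set (Pic0 K F)} (CS : CoordSys S G 𝒯)

/-- The reduction of divisors commutes with the inertia group. -/
theorem mapDomain_r_smul (G : GalRed S Γ) {σ : Γ} (hσ : σ ∈ G.I) (D : Divisor K F) :
    Finsupp.mapDomain S.r (G.act σ • D) = Finsupp.mapDomain S.r D := by
  rw [SemilinearAut.divisor_smul_def, ← Finsupp.mapDomain_comp]
  congr 1
  funext P
  show S.r (G.act σ • P) = S.r P
  rw [G.r_smul, G.inertia σ hσ, one_smul]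

theorem smul_nonneg_divisor (σ : SemilinearAut K F) {D : Divisor K F} (hD : 0 ≤ D) :
    0 ≤ σ • D := by
  rw [Finsupp.le_def]
  intro w
  rw [SemilinearAut.divisor_smul_apply]
  have := hD
  rw [Finsupp.le_def] at this
  simpa using this (σ⁻¹ • w)

namespace CoordSysAux

/-- `l(E x) ≤ 1`. -/
theorem finrank_L_E_le_one (x : 𝒯) : Module.finrank K (L (CS.E x)) ≤ 1 := by
  have := CS.semi (CS.E x)
  rw [CS.ns x] at this
  exact this

/-- Two representatives of the same class agree. -/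
theorem E_eq_of_class (H : Hyp K F) (y : 𝒯) {D : Divisor K F} (hD : 0 ≤ D)
    (D₀ : Divisor.degZero (K := K) (F := F)) (hD₀ : Pic0.mk D₀ = (y : Pic0 K F))
    (hD₀' : (D₀ : Divisor K F) = D - CS.E₀) : D = CS.E y := by
  obtain ⟨Dy, hDy, hDy'⟩ := CS.mkE y
  have h1 : Pic0.mk D₀ = Pic0.mk Dy := by rw [hD₀, hDy]
  have h2 : D₀ - Dy ∈ (Divisor.principal (K := K) (F := F)).addSubgroupOf
      (Divisor.degZero (K := K) (F := F)) := QuotientAddGroup.eq_iff_sub_mem.mp h1
  rw [AddSubgroup.mem_addSubgroupOf] at h2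
  obtain ⟨f, hf, hdiv⟩ := h2
  refine eq_of_principal_of_finrank_le_one H (CS.hE y).1 hD hf (fun v => ?_)
    (finrank_L_E_le_one CS y)
  rw [← hdiv v]
  show (D - CS.E y) v = ((D₀ : Divisor K F) - (Dy : Divisor K F)) v
  rw [hD₀', hDy']
  simp only [Finsupp.sub_apply]
  ring

/-- `E (σ x) = σ (E x)` for `σ` in the inertia group. -/
theorem E_smul (H : Hyp K F) {σ : Γ} (hσ : σ ∈ G.I) (x y : 𝒯)
    (hxy : (y : Pic0 K F) = G.act σ • (x : Pic0 K F)) :
    CS.E y = G.act σ • CS.E x := by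
  obtain ⟨Dx, hDx, hDx'⟩ := CS.mkE x
  symm
  refine E_eq_of_class CS H y (smul_nonneg_divisor _ (CS.hE x).1)
    (SemilinearAut.degZeroSMulHom (G.act σ) Dx) ?_ ?_
  · rw [hxy, ← hDx, SemilinearAut.pic0_smul_mk]
  · rw [SemilinearAut.coe_degZeroSMulHom, hDx', smul_sub, CS.fixE₀ σ hσ]

/-- `cls (σ x) = cls x` for `σ` in the inertia group. -/
theorem cls_smul (H : Hyp K F) {σ : Γ} (hσ : σ ∈ G.I) (x y : 𝒯)
    (hxy : (y : Pic0 K F) = G.act σ • (x : Pic0 K F)) :
    CS.cls y = CS.cls x := by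
  show Finsupp.mapDomain S.r (CS.E y) = Finsupp.mapDomain S.r (CS.E x)
  rw [E_smul CS H hσ x y hxy, mapDomain_r_smul G hσ]

/-- `M (σ x) = σ (M x)` for `σ` in the inertia group. -/
theorem M_smul (H : Hyp K F) {σ : Γ} (hσ : σ ∈ G.I) (x y : 𝒯)
    (hxy : (y : Pic0 K F) = G.act σ • (x : Pic0 K F)) (i : Fin CS.n₁) (b : Fin CS.d) :
    CS.M y i b = SemilinearAut.baseAut (G.act σ) (CS.M x i b) := by
  have hcls := cls_smul CS H hσ x y hxy
  have hE := E_smul CS H hσ x y hxy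
  obtain ⟨hx1, hx2, -, -⟩ := CS.hM x
  obtain ⟨hy1, hy2, -, -⟩ := CS.hM y
  have hJ : CS.J (Finsupp.mapDomain S.r (CS.E y)) = CS.J (Finsupp.mapDomain S.r (CS.E x)) :=
    congrArg CS.J hcls
  set τ := SemilinearAut.baseAut (G.act σ) with hτ
  have key : CS.M y = (CS.M x).map τ := by
    refine ech_unique (CS.J (Finsupp.mapDomain S.r (CS.E y))) _ _ hy1 ?_ ?_
    · intro a b
      rw [hJ, Matrix.map_apply, hx1 a b]
      split_ifs <;> simp
    · rw [hy2]
      ext u
      rw [mem_colSpace_map_iff, hx2, mem_coordSpace, mem_coordSpace]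
      have he : (fun i => G.act σ • CS.e₁ i) = CS.e₁ := funext (CS.fix₁ σ)
      have hu : (fun i => SemilinearAut.baseAut (G.act σ) (τ.symm (u i))) = u :=
        funext fun i => τ.apply_symm_apply (u i)
      have h2 := smul_mem_L_iff (G.act σ) (CS.B₁ - CS.E x)
        (lin CS.e₁ (fun i => τ.symm (u i)))
      rw [smul_lin, he, hu, smul_sub, CS.fixB₁ σ, ← hE] at h2
      exact h2
  rw [key, Matrix.map_apply]

/-- The representative determines the point. -/
theorem eq_of_E_eq (x y : 𝒯) (h : CS.E x = CS.E y) : x = y := by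
  obtain ⟨Dx, hDx, hDx'⟩ := CS.mkE x
  obtain ⟨Dy, hDy, hDy'⟩ := CS.mkE y
  apply Subtype.ext
  rw [← hDx, ← hDy]
  congr 1
  apply Subtype.ext
  rw [hDx', hDy', h]

/-- The echelon basis determines the point. -/
theorem eq_of_M_eq (H : Hyp K F) (x y : 𝒯) (h : CS.M x = CS.M y) : x = y := by
  obtain ⟨-, hx2, -, -⟩ := CS.hM x
  obtain ⟨-, hy2, -, -⟩ := CS.hM y
  apply eq_of_E_eq CS
  have hsp := CS.he₁.1.2
  have hle : ∀ z : 𝒯, L (CS.B₁ - CS.E z) ≤ Submodule.span K (Set.range CS.e₁) := by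
    intro z
    rw [hsp]
    exact L_mono (sub_le_self _ (CS.hE z).1)
  have hL : L (CS.B₁ - CS.E x) = L (CS.B₁ - CS.E y) := by
    rw [← map_coordSpace (hle x), ← map_coordSpace (hle y), ← hx2, ← hy2, h]
  have hc := CS.hc
  have hB := CS.hB₁
  refine sep H CS.hR (B := CS.B₁) ?_ ?_ hL
  · rw [map_sub, (CS.hE x).2]; omega
  · rw [map_sub, (CS.hE y).2]; omega

end CoordSysAux

open CoordSysAux

/-- **BASIC**. -/
theorem stmt_Basic : Stmt_Basic := by
  classical
  intro K F k F' _ _ _ _ _ _ _ _ S hFF hFF' Γ _ G 𝒯 CS 𝒮 h𝒮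
  have H := hyp_of_isFF K F hFF
  refine ⟨?_, ?_, ?_⟩
  · -- integrality
    intro j x
    rcases j with x₀ | ⟨x₀, i, b⟩
    · simp only [CoordSys.gen]
      split_ifs
      · exact (constVal S).one_mem
      · exact (constVal S).zero_mem
    · simp only [CoordSys.gen]
      split_ifs
      · exact (CS.hM ⟨x, h𝒮 x.2⟩).2.2.1 i b
      · exact (constVal S).zero_mem
  · -- inertia
    intro j σ hσ x hx
    have hcls : CS.cls ⟨_, h𝒮 hx⟩ = CS.cls ⟨x, h𝒮 x.2⟩ :=
      cls_smul CS H hσ ⟨x, h𝒮 x.2⟩ ⟨_, h𝒮 hx⟩ rfl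
    rcases j with x₀ | ⟨x₀, i, b⟩
    · simp only [CoordSys.gen]
      rw [hcls]
      split_ifs
      · rw [map_one]
      · rw [map_zero]
    · simp only [CoordSys.gen]
      rw [hcls]
      split_ifs
      · exact M_smul CS H hσ ⟨x, h𝒮 x.2⟩ ⟨_, h𝒮 hx⟩ rfl i b
      · rw [map_zero]
  · -- separation
    intro x y hxy
    by_cases hcls : CS.cls ⟨x, h𝒮 x.2⟩ = CS.cls ⟨y, h𝒮 y.2⟩
    · have hM : CS.M ⟨x, h𝒮 x.2⟩ ≠ CS.M ⟨y, h𝒮 y.2⟩ := by
        intro h
        have h1 := eq_of_M_eq CS H _ _ h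
        apply hxy
        apply Subtype.ext
        exact congrArg (fun z : 𝒯 => (z : Pic0 K F)) h1
      have : ∃ i b, CS.M ⟨x, h𝒮 x.2⟩ i b ≠ CS.M ⟨y, h𝒮 y.2⟩ i b := by
        by_contra hcon
        push Not at hcon
        exact hM (Matrix.ext hcon)
      obtain ⟨i, b, hib⟩ := this
      refine ⟨Sum.inr (⟨x, h𝒮 x.2⟩, i, b), ?_⟩
      simp only [CoordSys.gen]
      rw [if_pos trivial, if_pos hcls.symm]
      exact hib
    · refine ⟨Sum.inl ⟨x, h𝒮 x.2⟩, ?_⟩
      simp only [CoordSys.gen]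
      rw [if_pos trivial, if_neg (fun h => hcls h.symm)]
      exact one_ne_zero

end Fermat.Agent.FL.H2
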