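import Fermat.Agent.FL.H2_Coord
import Fermat.Agent.FL.H2_AddChain

/-!
# G-FL (S19), package FF-CHAINCOORD (helper2): `Stmt_ChainCoord`

The addition chain in coordinates: the seven spaces of `ChainData` are the coordinate spaces of
the Riemann–Roch spaces of `Stmt_AddChain`, with the expected dimensions.
-/

set_option autoImplicit false
set_option linter.style.haveILetI false
set_option linter.unusedSectionVars false
set_option maxHeartbeats 1000000

noncomputable section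

open AlgebraicCurve

namespace Fermat.Agent.FL.H2

open Fermat.Agent.FL Fermat.Agent.RED Fermat.Agent.RED.H42 Fermat.Agent.S17.H35

variable {k E : Type} [Field k] [Field E] [Algebra k E]

local notation "L" => riemannRochSpace

theorem L_sub_le {D A : Divisor k E} (hA : 0 ≤ A) : L (D - A) ≤ L D :=
  L_mono (sub_le_self D hA)

theorem nonneg_apply {A : Divisor k E} (hA : 0 ≤ A) (v : Place k E) : 0 ≤ A v := by
  have := hA
  rw [Finsupp.le_def] at this
  simpa using this v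

/-- **FF-CHAINCOORD**. -/
theorem stmt_ChainCoord : Stmt_ChainCoord := by
  intro k E _ _ _ _ hFF g c₀ hR hc B₁ B₂ E₀ Ex Ey E'' h zf hE₀ hEx hEy hE'' dE₀ dEx dEy dE''
    hB₁ hB₂ hh hdiv hl hzf0 hzf ι₁ ι₂₁ ι₂ ι₃ ι₄ _ _ _ _ _ e₁ e₂₁ e₂ e₃ e₄ f₁ f₂₁ f₂ f₃ f₄ X
    ha hb hcc hWx hWy hY₀ hU₀ hz
  have H := hyp_of_isFF k E hFF
  have : Infinite k := IsAlgClosed.instInfinite
  obtain ⟨-, -, s3, s4, s5⟩ := stmt_AddChain k E hFF g c₀ hR hc B₁ B₂ E₀ Ex Ey E'' h hE₀ hEx hEy
    hE'' dE₀ dEx dEy dE'' hB₁ hB₂ hh hdiv hl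
  obtain ⟨li₁, sp₁⟩ := f₁
  obtain ⟨li₂₁, sp₂₁⟩ := f₂₁
  obtain ⟨li₂, sp₂⟩ := f₂
  obtain ⟨li₃, sp₃⟩ := f₃
  obtain ⟨li₄, sp₄⟩ := f₄
  -- the element `zf` in coordinates
  have hzlin : lin e₃ X.z = zf := by rw [lin_apply, hz]
  -- inclusions
  have hLy1 : L (B₁ - Ey) ≤ Submodule.span k (Set.range e₁) := by rw [sp₁]; exact L_sub_le hEy
  have hLx1 : L (B₁ - Ex) ≤ Submodule.span k (Set.range e₁) := by rw [sp₁]; exact L_sub_le hEx
  have hL2y : L (B₂ - Ey) ≤ Submodule.span k (Set.range e₂) := by rw [sp₂]; exact L_sub_le hEy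
  have hLU : L (B₂ - E₀) ≤ Submodule.span k (Set.range e₂) := by rw [sp₂]; exact L_sub_le hE₀
  have hLP3 : L (B₁ + B₂ - Ex - Ey) ≤ L (B₁ + B₂) :=
    (L_sub_le hEy).trans (L_sub_le hEx)
  have hLP : L (B₁ + B₂ - Ex - Ey) ≤ Submodule.span k (Set.range e₃) := by rw [sp₃]; exact hLP3
  have hLY3 : L (B₁ + B₂ - E₀) ≤ L (B₁ + B₂) := L_sub_le hE₀
  have hLY : L (B₁ + B₂ - E₀) ≤ Submodule.span k (Set.range e₃) := by rw [sp₃]; exact hLY3
  have hLRY : L (B₁ + B₂ - E₀ - E'') ≤ L (B₁ + B₂ - E₀) := L_sub_le hE''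
  have hLR : L (B₁ + B₂ - E₀ - E'') ≤ Submodule.span k (Set.range e₃) := hLRY.trans hLY
  have hLZ : L (B₁ - E'') ≤ Submodule.span k (Set.range e₁) := by rw [sp₁]; exact L_sub_le hE''
  have h4 : ∀ {x y : E}, x ∈ L (B₁ + B₂) → y ∈ L (B₁ + B₂) → x * y ∈ L (2 • B₁ + 2 • B₂) := by
    intro x y hx hy
    have := mul_mem_L_add hx hy
    have heq : B₁ + B₂ + (B₁ + B₂) = 2 • B₁ + 2 • B₂ := by rw [two_nsmul, two_nsmul]; abel
    rwa [heq] at this
  -- degrees
  have d2y : Divisor.degree (B₂ - Ey) = Divisor.degree B₂ - g := by rw [map_sub, dEy]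
  have dP : Divisor.degree (B₁ + B₂ - Ex - Ey) = Divisor.degree B₁ + Divisor.degree B₂ - 2 * g := by
    rw [map_sub, map_sub, map_add, dEx, dEy]; ring
  have dY : Divisor.degree (B₁ + B₂ - E₀) = Divisor.degree B₁ + Divisor.degree B₂ - g := by
    rw [map_sub, map_add, dE₀]
  have dR : Divisor.degree (B₁ + B₂ - E₀ - E'')
      = Divisor.degree B₁ + Divisor.degree B₂ - 2 * g := by
    rw [map_sub, map_sub, map_add, dE₀, dE'']; ring
  have dZ : Divisor.degree (B₁ - E'') = Divisor.degree B₁ - g := by rw [map_sub, dE'']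
  have r2y := (hR (B₂ - Ey)).2 (by rw [d2y]; omega)
  have rP := (hR (B₁ + B₂ - Ex - Ey)).2 (by rw [dP]; omega)
  have rY := (hR (B₁ + B₂ - E₀)).2 (by rw [dY]; omega)
  have rR := (hR (B₁ + B₂ - E₀ - E'')).2 (by rw [dR]; omega)
  have rZ := (hR (B₁ - E'')).2 (by rw [dZ]; omega)
  rw [d2y] at r2y
  rw [dP] at rP
  rw [dY] at rY
  rw [dR] at rR
  rw [dZ] at rZ
  -- step 1
  have hW2 : X.W2 = coordSpace e₂ (L (B₂ - Ey)) := by
    have hmul : L (B₁ - Ey) * L (B₂ - B₁) = L (B₂ - Ey) := by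
      have := mul_L_eq_of_isRiemann hFF H hR (D₁ := B₁ - Ey) (D₂ := B₂ - B₁)
        (by rw [map_sub]; omega) (by rw [map_sub, map_sub]; omega)
      have heq : B₁ - Ey + (B₂ - B₁) = B₂ - Ey := by abel
      rwa [heq] at this
    show mulSpan X.a X.Wy ⊤ = _
    rw [mulSpan_eq_coordSpace li₂ ha, hWy, map_coordSpace hLy1, Submodule.map_top, range_lin,
      sp₂₁, hmul]
  -- step 2
  have hP : X.P = coordSpace e₃ (L (B₁ + B₂ - Ex - Ey)) := by
    have hmul : L (B₁ - Ex) * L (B₂ - Ey) = L (B₁ + B₂ - Ex - Ey) := by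
      have := mul_L_eq_of_isRiemann hFF H hR (D₁ := B₁ - Ex) (D₂ := B₂ - Ey)
        (by rw [map_sub]; omega) (by rw [map_sub, map_sub]; omega)
      have heq : B₁ - Ex + (B₂ - Ey) = B₁ + B₂ - Ex - Ey := by abel
      rwa [heq] at this
    show mulSpan X.b X.Wx X.W2 = _
    rw [mulSpan_eq_coordSpace li₃ hb, hWx, hW2, map_coordSpace hLx1, map_coordSpace hL2y, hmul]
  -- step 3
  have hspanz : (Submodule.span k {X.z}).map (lin e₃) = Submodule.span k {zf} := by
    rw [Submodule.map_span, Set.image_singleton, hzlin]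
  have hYz : X.Yz = coordSpace e₄ (L (B₁ + B₂ - E₀) * Submodule.span k {zf}) := by
    show mulSpan X.c X.Y₀ (Submodule.span k {X.z}) = _
    rw [mulSpan_eq_coordSpace li₄ hcc, hY₀, map_coordSpace hLY, hspanz]
  have hYzle : (L (B₁ + B₂ - E₀) * Submodule.span k {zf} : Submodule k E)
      ≤ Submodule.span k (Set.range e₄) := by
    rw [sp₄, Submodule.mul_le]
    intro m hm n hn
    obtain ⟨a, rfl⟩ := Submodule.mem_span_singleton.mp hn
    rw [mul_smul_comm]
    exact Submodule.smul_mem _ _ (h4 (hLY3 hm) (hLP3 hzf))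
  -- the element `h * zf`
  have hhz0 : h * zf ≠ 0 := mul_ne_zero hh hzf0
  have hhzR : h * zf ∈ L (B₁ + B₂ - E₀ - E'') := (s4 _).mpr ⟨zf, hzf, rfl⟩
  have hhzle : Submodule.span k {h * zf} ≤ Submodule.span k (Set.range e₃) := by
    rw [Submodule.span_singleton_le_iff_mem]
    exact hLR hhzR
  -- step 4
  have hYs : X.Ys = coordSpace e₃ (Submodule.span k {h * zf}) := by
    show X.Y₀ ⊓ transp X.c X.P X.Yz = _
    rw [hY₀, hP, hYz]
    ext u
    rw [Submodule.mem_inf, mem_coordSpace, mem_transp_coordSpace hcc hLP, mem_coordSpace]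
    constructor
    · rintro ⟨hy, hyP⟩
      set y := lin e₃ u with hydef
      let φ : ↥(L (B₁ + B₂ - Ex - Ey)) →ₗ[k] E :=
        (LinearMap.mulLeft k (y * zf⁻¹)).comp (Submodule.subtype _)
      have hφ : ∀ p : ↥(L (B₁ + B₂ - Ex - Ey)), φ p = y * zf⁻¹ * (p : E) := fun p => rfl
      obtain ⟨a, ha⟩ := s3 φ (by
          intro z₁ z₂
          rw [hφ, hφ]; ring) (by
          intro p
          obtain ⟨m, hm, hmp⟩ := Submodule.mem_mul_span_singleton.mp (hyP p p.2)
          have : φ p = m := by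
            rw [hφ]
            have h1 : y * (p : E) = m * zf := hmp.symm
            field_simp
            rw [h1, mul_comm]
          rw [this]
          exact hm)
      have h1 := ha ⟨zf, hzf⟩
      rw [hφ] at h1
      simp only at h1
      have h2 : y = a • (h * zf) := by
        rw [← h1]
        field_simp
      rw [h2]
      exact Submodule.smul_mem _ _ (Submodule.mem_span_singleton_self _)
    · intro hy
      obtain ⟨a, ha⟩ := Submodule.mem_span_singleton.mp hy
      refine ⟨?_, ?_⟩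
      · rw [← ha]
        exact Submodule.smul_mem _ _ (hLRY hhzR)
      · intro p hp
        rw [← ha]
        have hhp : h * p ∈ L (B₁ + B₂ - E₀) := hLRY ((s4 _).mpr ⟨p, hp, rfl⟩)
        have : a • (h * zf) * p = (a • (h * p)) * zf := by
          rw [smul_mul_assoc, smul_mul_assoc]
          congr 1
          ring
        rw [this]
        exact Submodule.mem_mul_span_singleton.mpr ⟨_, Submodule.smul_mem _ _ hhp, rfl⟩
  -- step 5
  have hyP : X.yP = coordSpace e₄ (Submodule.span k {h * zf} * L (B₁ + B₂ - Ex - Ey)) := by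
    show mulSpan X.c X.Ys X.P = _
    rw [mulSpan_eq_coordSpace li₄ hcc, hYs, hP, map_coordSpace hhzle, map_coordSpace hLP]
  have hyPle : (Submodule.span k {h * zf} * L (B₁ + B₂ - Ex - Ey) : Submodule k E)
      ≤ Submodule.span k (Set.range e₄) := by
    rw [sp₄, Submodule.mul_le]
    intro m hm n hn
    obtain ⟨a, rfl⟩ := Submodule.mem_span_singleton.mp hm
    rw [smul_mul_assoc]
    exact Submodule.smul_mem _ _ (h4 (hLY3 (hLRY hhzR)) (hLP3 hn))
  -- step 6
  have hzspan : Submodule.span k {X.z} = coordSpace e₃ (Submodule.span k {zf}) := by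
    rw [← hspanz, coordSpace_map li₃]
  have hzfle : Submodule.span k {zf} ≤ Submodule.span k (Set.range e₃) := by
    rw [Submodule.span_singleton_le_iff_mem]
    exact hLP hzf
  have hRr : X.Rr = coordSpace e₃ (L (B₁ + B₂ - E₀ - E'')) := by
    show transp X.c (Submodule.span k {X.z}) X.yP = _
    rw [hzspan, hyP]
    ext u
    rw [mem_transp_coordSpace hcc hzfle, mem_coordSpace]
    constructor
    · intro hu
      obtain ⟨p, hp, hpe⟩ := Submodule.mem_span_singleton_mul.mp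
        (hu zf (Submodule.mem_span_singleton_self _))
      refine (s4 _).mpr ⟨p, hp, ?_⟩
      have h1 : h * p * zf = lin e₃ u * zf := by rw [← hpe]; ring
      exact (mul_right_cancel₀ hzf0 h1).symm
    · intro hu w hw
      obtain ⟨a, rfl⟩ := Submodule.mem_span_singleton.mp hw
      obtain ⟨p, hp, hpe⟩ := (s4 _).mp hu
      rw [hpe]
      refine Submodule.mem_span_singleton_mul.mpr ⟨a • p, Submodule.smul_mem _ _ hp, ?_⟩
      rw [mul_smul_comm, mul_smul_comm]
      congr 1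
      ring
  -- step 7
  have hZ : X.Z = coordSpace e₁ (L (B₁ - E'')) := by
    show transp X.b X.U₀ X.Rr = _
    rw [hU₀, hRr]
    ext u
    rw [mem_transp_coordSpace hb hLU, mem_coordSpace]
    exact (s5 _).symm
  refine ⟨hW2, hP, hRr, hZ, ?_, ?_, ?_, ?_, ?_, ?_, ?_⟩
  · rw [hW2, finrank_coordSpace li₂ hL2y, r2y]; ring
  · rw [hP, finrank_coordSpace li₃ hLP, rP]; ring
  · rw [hYz, finrank_coordSpace li₄ hYzle, finrank_mul_span_singleton _ hzf0, rY]; ring
  · rw [hYs, finrank_coordSpace li₃ hhzle]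
    exact finrank_span_singleton hhz0
  · rw [hyP, finrank_coordSpace li₄ hyPle, finrank_span_singleton_mul _ hhz0, rP]; ring
  · rw [hRr, finrank_coordSpace li₃ hLR, rR]; ring
  · rw [hZ, finrank_coordSpace li₁ hLZ, rZ]; ring

end Fermat.Agent.FL.H2
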