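import Fermat.Agent.NEB.H14_CorrFF
import Fermat.Agent.GTor.H2_Equivariance
import Fermat.Agent.RED.KD.H22_KD
import Fermat.Agent.RED.H95_IsFF
import Fermat.Agent.Lib.HeckeComm.H2_TowerDefs
import Fermat.Agent.S17.Height.H35_PencilFF
import Fermat.Agent.RED.H17_Place

/-!
# G-FL (S19), package LEVEL (helper2): change of level on `J₀`

For `N ∣ M`, `M ∣ 36 N`: the pull-back `π = π_{N,M}^* : J₀(N) → J₀(M)` along `F_N ⊆ F_M` is
Galois equivariant and injective on torsion (Kummer descent `RED.Stmt_KD` of helper22).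

* `levelPull N M h : JZero N →+ JZero M`.
* `levelPull_smul` : Galois equivariance.
* `levelPull_injective_of_torsion` : `m • x = 0 → π x = 0 → x = 0`.
* `stmt_Level : Stmt_Level`.
-/

set_option autoImplicit false
set_option linter.style.haveILetI false
set_option linter.unusedSectionVars false
set_option maxHeartbeats 1000000
set_option synthInstance.maxHeartbeats 400000

noncomputable section

namespace Fermat.Agent.FL.H2

open AlgebraicCurve AlgebraicCurve.SemilinearAut ModularCurve Fermat.Agent.RED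
  Fermat.Agent.Lib.HeckeComm Fermat.Agent.NEB.H14

local notation "Kb" => AlgebraicClosure ℚ

/-- **LEVEL**: for `N ∣ M ∣ 36 N` there is a Galois equivariant homomorphism
`J₀(N) → J₀(M)` which is injective on torsion. -/
def Stmt_Level : Prop :=
  ∀ (N M : ℕ) [NeZero N] [NeZero M], N ∣ M → M ∣ 36 * N →
    ∃ π : JZero N →+ JZero M,
      (∀ (σ : Kb ≃ₐ[ℚ] Kb) (x : JZero N), π (σ • x) = σ • π x) ∧
      ∀ m : ℕ, 0 < m → ∀ x : JZero N, m • x = 0 → π x = 0 → x = 0

variable (N M : ℕ) [NeZero N] [NeZero M] (h : N ∣ M)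

/-- The pull-back `J₀(N) → J₀(M)`. -/
def levelPull : JZero N →+ JZero M := pullP (inclFN N M h)

theorem intertwines_inclFN (σ : Kb ≃ₐ[ℚ] Kb) :
    IntertwinesAlong ((inclFN N M h : _ →ₐ[Kb] _) : _ →+* _)
      (arithmeticGalois (modularFunctionFieldFull N) σ)
      (arithmeticGalois (modularFunctionFieldFull M) σ) := by
  intro x
  apply Subtype.ext
  rw [coe_arithmeticGalois_smul]
  show coeffMap (σ : Kb →+* Kb) ((inclFN N M h x : _) : LaurentSeries Kb) =
    ((inclFN N M h (arithmeticGalois (modularFunctionFieldFull N) σ • x) : _) :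
      LaurentSeries Kb)
  rw [coe_inclFN, coe_inclFN, coe_arithmeticGalois_smul]

theorem levelPull_mk (D : Divisor.degZero (K := Kb) (F := ↥(modularFunctionFieldBar N))) :
    levelPull N M h (Pic0.mk D)
      = Pic0.mk (degZeroMap (pullD (inclFN N M h))
          (isCorr_pullD (H95.stmt_HKA_isFF N) (H95.stmt_HKA_isFF M) _).isGood D) :=
  picMap_mk _ D

/-- Galois equivariance of the change of level. -/
theorem levelPull_smul (σ : Kb ≃ₐ[ℚ] Kb) (x : JZero N) :
    levelPull N M h (σ • x) = σ • levelPull N M h x := by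
  have hF := H95.stmt_HKA_isFF N
  have hF' := H95.stmt_HKA_isFF M
  obtain ⟨D, rfl⟩ := Pic0.mk_surjective x
  rw [galois_smul_pic0_def, galois_smul_pic0_def, pic0_smul_mk, levelPull_mk, levelPull_mk,
    pic0_smul_mk]
  refine congrArg Pic0.mk (Subtype.ext ?_)
  rw [coe_degZeroMap, coe_degZeroSMulHom, coe_degZeroSMulHom, coe_degZeroMap]
  haveI : HasPrincipalDivisors Kb ↥(modularFunctionFieldBar M) := hasPD hF'
  rw [pullD_eq hF hF']
  exact Fermat.Agent.GTor.H2.pullbackAlong_smul _ _ (inclFN N M h) _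
    (intertwines_inclFN N M h σ) _

/-- A function without zeros and poles is constant. -/
theorem exists_const_of_ord_eq_zero {K F : Type} [Field K] [Field F] [Algebra K F]
    [IsAlgClosed K] (hF : IsFF K F) {u : F} (hu : ∀ v : Place K F, v.ord u = 0) :
    ∃ c : K, algebraMap K F c = u := by
  have H := Fermat.Agent.S17.H35.hyp_of_isFF K F hF
  by_contra hcon
  obtain ⟨v, hv⟩ := H.exists_pole u hcon
  rw [hu v] at hv
  exact lt_irrefl _ hv

/-- Injectivity of the change of level on torsion. -/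
theorem levelPull_injective_of_torsion (hM : M ∣ 36 * N) (m : ℕ) (hm : 0 < m) (x : JZero N)
    (hmx : m • x = 0) (hx : levelPull N M h x = 0) : x = 0 := by
  have hF := H95.stmt_HKA_isFF N
  have hF' := H95.stmt_HKA_isFF M
  obtain ⟨D, rfl⟩ := Pic0.mk_surjective x
  have hm0 : m ≠ 0 := hm.ne'
  have hmZ : (m : ℤ) ≠ 0 := by exact_mod_cast hm0
  -- `m D` is principal
  have hmD : m • (D : Divisor Kb ↥(modularFunctionFieldBar N))
      ∈ Divisor.principal (K := Kb) (F := ↥(modularFunctionFieldBar N)) := by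
    have h1 : ((m • D : Divisor.degZero (K := Kb) (F := ↥(modularFunctionFieldBar N))) :
        Pic0 Kb ↥(modularFunctionFieldBar N)) = 0 := hmx
    rw [QuotientAddGroup.eq_zero_iff, AddSubgroup.mem_addSubgroupOf] at h1
    exact h1
  obtain ⟨f, hf, hDf⟩ := hmD
  have hDf' : ∀ v : Place Kb ↥(modularFunctionFieldBar N),
      (m : ℤ) * (D : Divisor Kb ↥(modularFunctionFieldBar N)) v = v.ord f := by
    intro v
    rw [← hDf v, Finsupp.smul_apply, nsmul_eq_mul]
  -- `π^* D` is principal
  rw [levelPull_mk] at hx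
  have hpD : pullD (inclFN N M h) (D : Divisor Kb ↥(modularFunctionFieldBar N))
      ∈ Divisor.principal (K := Kb) (F := ↥(modularFunctionFieldBar M)) := by
    have h1 := hx
    rw [Pic0.mk, QuotientAddGroup.eq_zero_iff, AddSubgroup.mem_addSubgroupOf] at h1
    exact h1
  obtain ⟨t, ht, hDt⟩ := hpD
  -- `φ f / t ^ m` is constant
  have hφf : inclFN N M h f ≠ 0 := fun h0 =>
    hf ((inclFN N M h).toRingHom.injective (by simpa using h0))
  have hu : ∀ w : Place Kb ↥(modularFunctionFieldBar M),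
      w.ord (inclFN N M h f * (t ^ m)⁻¹) = 0 := by
    intro w
    have h1 := pullD_kummer hF hF' (inclFN N M h) (m : ℤ) _ hf hDf' w
    rw [w.ord_mul hφf (inv_ne_zero (pow_ne_zero m ht)), w.ord_inv, Fermat.Agent.RED.H17.ord_pow, ← h1, hDt w]
    ring
  obtain ⟨c, hc⟩ := exists_const_of_ord_eq_zero hF' hu
  have hc0 : c ≠ 0 := by
    rintro rfl
    rw [map_zero] at hc
    exact mul_ne_zero hφf (inv_ne_zero (pow_ne_zero m ht)) hc.symm
  obtain ⟨d, hd⟩ := IsAlgClosed.exists_pow_nat_eq c hm
  -- `φ f` is an `m`-th power in `F_M`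
  have hpow : (algebraMap Kb ↥(modularFunctionFieldBar M) d * t) ^ m = inclFN N M h f := by
    rw [mul_pow, ← map_pow, hd, hc]
    field_simp
  -- Kummer descent
  obtain ⟨s, hs⟩ := KD.H22.stmt_KD N M m h hM hm f
    (fun P => ⟨(D : Divisor Kb ↥(modularFunctionFieldBar N)) P, (hDf' P).symm⟩)
    ⟨((algebraMap Kb ↥(modularFunctionFieldBar M) d * t : ↥(modularFunctionFieldBar M)) :
        LaurentSeries Kb), Subtype.property _, by
      have := congrArg (Subtype.val) hpow
      simpa using this⟩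
  have hs0 : s ≠ 0 := by
    rintro rfl
    rw [zero_pow hm0] at hs
    exact hf hs.symm
  -- `D = div s`
  show Pic0.mk D = 0
  rw [Pic0.mk, QuotientAddGroup.eq_zero_iff, AddSubgroup.mem_addSubgroupOf]
  refine ⟨s, hs0, fun v => ?_⟩
  have h1 := hDf' v
  rw [← hs, Fermat.Agent.RED.H17.ord_pow] at h1
  exact mul_left_cancel₀ hmZ h1

/-- **LEVEL**. -/
theorem stmt_Level : Stmt_Level := by
  intro N M _ _ h hM
  exact ⟨levelPull N M h, levelPull_smul N M h,
    fun m hm x hmx hx => levelPull_injective_of_torsion N M h hM m hm x hmx hx⟩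

end Fermat.Agent.FL.H2
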