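import Fermat.Agent.FL.Defs4
import Fermat.Agent.RED.H33_UniGal
import Fermat.Agent.RED.H17_TIabs
import Fermat.Agent.RED.H73_GAFinal
import Fermat.Agent.RED.H95_IsFF
import Fermat.Agent.RED.H76_DR2

/-!
# G-FL (S19), package MOD-CTX (helper33): the concrete Galois context of the modular curve

Setting of G-RED: `A` a valuation subring of `L` (`= ℚ̄`), `F = laurentBaseChange L F₀`
(`= F_M · ℚ̄`), `h : HasScale A F`, `r` a map of places with the conservation law
(`hr : IsRed A h r`), `S = H17.redSetupOf A h r hr`.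

* `redGaloisHom`  : `σ ↦ redGalois σ` as a monoid homomorphism from the decomposition group.
* `modCtx`        : **the concrete `GalRed S Γ`**, `Γ = ↥(A.decompositionSubgroup ℚ)`,
  `act = arithmeticGalois F₀`, `act' = redGaloisHom`, `I = A.inertiaSubgroup ℚ`.
* `constVal_redSetupOf` : `constVal S = A`.
* `genusLE'_redSetupOf` : `S.GenusLE'` from `GenusLE A h r`.
* `tameR`, `tameSetup`, `tameCtx` : the objects at a tame level `M` (`ℓ ∤ M`, `ℓ ≥ 5` or
  `ℓ = 3, 2 ∣ M` or `ℓ = 2, 3 ∣ M`), from `H76.stmt_DR2`; `tameSetup_genusLE'`,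
  `constVal_tameSetup`, `isFF_bar`, `isFF_tame`.

This file contains no `sorry`.
-/

set_option autoImplicit false
set_option linter.style.haveILetI false
set_option linter.unusedSectionVars false
set_option linter.unusedVariables false
set_option synthInstance.maxHeartbeats 400000
set_option maxHeartbeats 1000000

noncomputable section

open AlgebraicCurve ModularCurve Fermat.Agent.S28 Fermat.Agent.S28.H73 Fermat.Agent.RED.H73
  Fermat.Agent.RED Fermat.Agent.RED.H17 Fermat.Agent.RED.H33

namespace Fermat.Agent.FL.H33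

section Abstract

variable {L : Type} [Field L] [Algebra ℚ L] (A : ValuationSubring L)
variable (F₀ : IntermediateField ℚ (LaurentSeries ℚ)) (h : HasScale A (laurentBaseChange L F₀))

/-- The residual action of the decomposition group is multiplicative. -/
theorem autkHom_mul_apply (σ τ : ↥(A.decompositionSubgroup ℚ)) (a : kV A) :
    autkHom A ((σ * τ : ↥(A.decompositionSubgroup ℚ)) : L ≃ₐ[ℚ] L).toRingEquiv
        (mem_iff_of_mem_decompositionSubgroup A (σ * τ).2) a =
      autkHom A (σ : L ≃ₐ[ℚ] L).toRingEquiv (mem_iff_of_mem_decompositionSubgroup A σ.2)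
        (autkHom A (τ : L ≃ₐ[ℚ] L).toRingEquiv (mem_iff_of_mem_decompositionSubgroup A τ.2) a) := by
  rw [autkHom_eq_smul A _ (σ * τ).2, autkHom_eq_smul A _ σ.2, autkHom_eq_smul A _ τ.2]
  exact mul_smul σ τ a

theorem autkHom_one_apply (a : kV A) :
    autkHom A ((1 : ↥(A.decompositionSubgroup ℚ)) : L ≃ₐ[ℚ] L).toRingEquiv
        (mem_iff_of_mem_decompositionSubgroup A (1 : ↥(A.decompositionSubgroup ℚ)).2) a = a := by
  rw [autkHom_eq_smul A _ (1 : ↥(A.decompositionSubgroup ℚ)).2]
  exact one_smul _ a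

/-- `σ ↦ redGalois σ` as a monoid homomorphism from the decomposition group. -/
def redGaloisHom : ↥(A.decompositionSubgroup ℚ) →*
    SemilinearAut (kV A) ↥(redField A (laurentBaseChange L F₀) h) where
  toFun σ := redGalois A F₀ h σ.1 σ.2
  map_one' := redSemi_eq_one A h _ _ _ _ (autkHom_one_apply A)
  map_mul' σ τ := by
    apply Subtype.ext
    refine Prod.ext (RingEquiv.ext fun y => Subtype.ext ?_) (RingEquiv.ext fun a => ?_)
    · show coeffMap (autkHom A ((σ * τ : ↥(A.decompositionSubgroup ℚ)) : L ≃ₐ[ℚ] L).toRingEquiv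
          (mem_iff_of_mem_decompositionSubgroup A (σ * τ).2)) (y : LaurentSeries (kV A)) =
        coeffMap (autkHom A (σ : L ≃ₐ[ℚ] L).toRingEquiv
            (mem_iff_of_mem_decompositionSubgroup A σ.2))
          (coeffMap (autkHom A (τ : L ≃ₐ[ℚ] L).toRingEquiv
            (mem_iff_of_mem_decompositionSubgroup A τ.2)) (y : LaurentSeries (kV A)))
      ext n
      simp only [coeffMap_coeff]
      exact autkHom_mul_apply A σ τ _
    · exact autkHom_mul_apply A σ τ a

@[simp]
theorem redGaloisHom_apply (σ : ↥(A.decompositionSubgroup ℚ)) :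
    redGaloisHom A F₀ h σ = redGalois A F₀ h σ.1 σ.2 := rfl

variable {A F₀ h} in
/-- The reduction datum attached to a map of places with the conservation law. -/
abbrev setupOf {r : Place L ↥(laurentBaseChange L F₀) →
      Place (kV A) ↥(redField A (laurentBaseChange L F₀) h)} (hr : IsRed A h r) :
    RedSetup L ↥(laurentBaseChange L F₀) (kV A) ↥(redField A (laurentBaseChange L F₀) h) :=
  redSetupOf A h r hr

/-- The valuation ring of the constants of the Gauss valuation is `A`. -/
theorem constVal_redSetupOf {r : Place L ↥(laurentBaseChange L F₀) →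
      Place (kV A) ↥(redField A (laurentBaseChange L F₀) h)} (hr : IsRed A h r) :
    constVal (redSetupOf A h r hr) = A := by
  ext c
  rw [mem_constVal]
  exact algebraMap_mem_gaussValSub_iff A h c

/-- "The genus does not drop", in the form of `RedSetup`. -/
theorem genusLE'_redSetupOf {r : Place L ↥(laurentBaseChange L F₀) →
      Place (kV A) ↥(redField A (laurentBaseChange L F₀) h)} (hr : IsRed A h r)
    (hG : GenusLE A h r) : (redSetupOf A h r hr).GenusLE' := hG

theorem arithmeticGalois_smul_mem (σ : ↥(A.decompositionSubgroup ℚ))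
    (u : ↥(laurentBaseChange L F₀)) (hu : u ∈ gaussValSub A (laurentBaseChange L F₀) h) :
    arithmeticGalois F₀ (σ : L ≃ₐ[ℚ] L) • u ∈ gaussValSub A (laurentBaseChange L F₀) h :=
  (gaussAct A h (σ : L ≃ₐ[ℚ] L).toRingEquiv (mem_iff_of_mem_decompositionSubgroup A σ.2)
    (coeffMap_toRingEquiv_mem F₀ σ.1) ⟨u, hu⟩).2

theorem gaussResF'_arithmeticGalois_smul (σ : ↥(A.decompositionSubgroup ℚ))
    (u : ↥(laurentBaseChange L F₀)) (hu : u ∈ gaussValSub A (laurentBaseChange L F₀) h) :
    gaussResF' A h ⟨arithmeticGalois F₀ (σ : L ≃ₐ[ℚ] L) • u,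
        arithmeticGalois_smul_mem A F₀ h σ u hu⟩ =
      redGalois A F₀ h σ.1 σ.2 • gaussResF' A h ⟨u, hu⟩ := by
  apply Subtype.ext
  exact gaussResF_gaussAct A h (σ : L ≃ₐ[ℚ] L).toRingEquiv
    (mem_iff_of_mem_decompositionSubgroup A σ.2) (coeffMap_toRingEquiv_mem F₀ σ.1) ⟨u, hu⟩

variable [IsAlgClosed L] [IsAlgClosed (kV A)]

/-- **MOD-CTX**: the concrete Galois context: the decomposition group of `A` acts on
`F = laurentBaseChange L F₀` through the coefficients of `q`-expansions, on the reduced field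
through the residual action on the coefficients; the inertia group acts trivially on the
reduced field. -/
def modCtx (hFF : IsFF L ↥(laurentBaseChange L F₀))
    (hFt : IsFF (kV A) ↥(redField A (laurentBaseChange L F₀) h))
    (hscal : H42.FracScalable A (laurentBaseChange L F₀))
    {r : Place L ↥(laurentBaseChange L F₀) →
      Place (kV A) ↥(redField A (laurentBaseChange L F₀) h)} (hr : IsRed A h r) :
    GalRed (redSetupOf A h r hr) ↥(A.decompositionSubgroup ℚ) where
  act := (arithmeticGalois F₀).comp (A.decompositionSubgroup ℚ).subtype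
  act' := redGaloisHom A F₀ h
  I := A.inertiaSubgroup ℚ
  mem_V σ u hu := arithmeticGalois_smul_mem A F₀ h σ u hu
  rd_smul σ u hu := by
    show (redSetupOf A h r hr).rd (arithmeticGalois F₀ (σ : L ≃ₐ[ℚ] L) • u) =
      redGalois A F₀ h σ.1 σ.2 • (redSetupOf A h r hr).rd u
    rw [(redSetupOf A h r hr).rd_of_mem hu,
      (redSetupOf A h r hr).rd_of_mem (arithmeticGalois_smul_mem A F₀ h σ u hu)]
    exact gaussResF'_arithmeticGalois_smul A F₀ h σ u hu
  r_smul σ P := isRed_decomposition A F₀ h hFF hFt hscal σ.2 hr P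
  inertia σ hσ := by
    have hτ : (σ : L ≃ₐ[ℚ] L) ∈ A.inertiaSubgroupIn ℚ := ⟨σ, hσ, rfl⟩
    exact redSemi_eq_one A h _ _ _ _ (autkHom_inertia A hτ σ.2)

section API

variable (hFF : IsFF L ↥(laurentBaseChange L F₀))
  (hFt : IsFF (kV A) ↥(redField A (laurentBaseChange L F₀) h))
  (hscal : H42.FracScalable A (laurentBaseChange L F₀))
  {r : Place L ↥(laurentBaseChange L F₀) →
    Place (kV A) ↥(redField A (laurentBaseChange L F₀) h)} (hr : IsRed A h r)

@[simp]
theorem modCtx_act (σ : ↥(A.decompositionSubgroup ℚ)) :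
    (modCtx A F₀ h hFF hFt hscal hr).act σ = arithmeticGalois F₀ (σ : L ≃ₐ[ℚ] L) := rfl

@[simp]
theorem modCtx_act' (σ : ↥(A.decompositionSubgroup ℚ)) :
    (modCtx A F₀ h hFF hFt hscal hr).act' σ = redGalois A F₀ h σ.1 σ.2 := rfl

@[simp]
theorem modCtx_I : (modCtx A F₀ h hFF hFt hscal hr).I = A.inertiaSubgroup ℚ := rfl

theorem mem_modCtx_I_iff (σ : ↥(A.decompositionSubgroup ℚ)) :
    σ ∈ (modCtx A F₀ h hFF hFt hscal hr).I ↔ (σ : L ≃ₐ[ℚ] L) ∈ A.inertiaSubgroupIn ℚ := by
  constructor
  · intro hσ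
    exact ⟨σ, hσ, rfl⟩
  · rintro ⟨g, hg, hgσ⟩
    have : g = σ := Subtype.ext hgσ
    exact this ▸ hg

/-- The action of `Γ` on the constants is the Galois action. -/
theorem baseAut_modCtx_act (σ : ↥(A.decompositionSubgroup ℚ)) (c : L) :
    SemilinearAut.baseAut ((modCtx A F₀ h hFF hFt hscal hr).act σ) c = (σ : L ≃ₐ[ℚ] L) c := rfl

/-- The action of `Γ` on `Pic⁰` is the Galois action. -/
theorem modCtx_act_smul_pic0 (σ : ↥(A.decompositionSubgroup ℚ))
    (x : Pic0 L ↥(laurentBaseChange L F₀)) :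
    (modCtx A F₀ h hFF hFt hscal hr).act σ • x = (σ : L ≃ₐ[ℚ] L) • x := rfl

/-- The action of `Γ` on functions is the action on the coefficients of `q`-expansions. -/
theorem coe_modCtx_act_smul (σ : ↥(A.decompositionSubgroup ℚ)) (u : ↥(laurentBaseChange L F₀)) :
    (((modCtx A F₀ h hFF hFt hscal hr).act σ • u : ↥(laurentBaseChange L F₀)) :
        LaurentSeries L) =
      coeffMap ((σ : L ≃ₐ[ℚ] L) : L →+* L) (u : LaurentSeries L) := rfl

/-- The residual action on the reduced field is the action of the decomposition group on the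
coefficients of `q`-expansions. -/
theorem coeff_modCtx_act'_smul (σ : ↥(A.decompositionSubgroup ℚ))
    (y : ↥(redField A (laurentBaseChange L F₀) h)) (n : ℤ) :
    (((modCtx A F₀ h hFF hFt hscal hr).act' σ • y : ↥(redField A (laurentBaseChange L F₀) h)) :
        LaurentSeries (kV A)).coeff n = σ • (y : LaurentSeries (kV A)).coeff n := by
  rw [modCtx_act', coe_redGalois_smul, coeffMap_coeff, autkHom_eq_smul A σ.1 σ.2]

/-- The residual action on the constants of the reduced field. -/
theorem baseAut_modCtx_act' (σ : ↥(A.decompositionSubgroup ℚ)) (a : kV A) :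
    SemilinearAut.baseAut ((modCtx A F₀ h hFF hFt hscal hr).act' σ) a = σ • a :=
  autkHom_eq_smul A σ.1 σ.2 a

/-- **(UNR) from its Galois form**: if every element of the residue field is the residue of an
inertia-fixed element of `A`, then the context has unramified constants. -/
theorem hasUnrConst_modCtx
    (H : ∀ c' : kV A, ∃ c : L, ∃ hc : c ∈ A,
      (∀ σ ∈ A.inertiaSubgroupIn ℚ, σ c = c) ∧ resV A ⟨c, hc⟩ = c') :
    HasUnrConst (redSetupOf A h r hr) (modCtx A F₀ h hFF hFt hscal hr) := by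
  intro c'
  obtain ⟨c, hc, hfix, hres⟩ := H c'
  have hmem : algebraMap L ↥(laurentBaseChange L F₀) c ∈ gaussValSub A (laurentBaseChange L F₀) h :=
    (algebraMap_mem_gaussValSub_iff A h c).mpr hc
  refine ⟨c, hmem, fun σ hσ => ?_, ?_⟩
  · exact hfix _ ((mem_modCtx_I_iff A F₀ h hFF hFt hscal hr σ).mp hσ)
  · rw [(redSetupOf A h r hr).rd_of_mem hmem]
    show gaussResF' A h ⟨algebraMap L ↥(laurentBaseChange L F₀) ((⟨c, hc⟩ : ↥A) : L), hmem⟩ = _
    rw [gaussResF'_algebraMap A h ⟨c, hc⟩ hmem, hres]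

end API

end Abstract

/-! ### The tame levels -/

section Tame

variable (M ℓ : ℕ) [NeZero M] (hℓ : ℓ.Prime) (hM : ¬ ℓ ∣ M)
  (htame : 5 ≤ ℓ ∨ (ℓ = 3 ∧ 2 ∣ M) ∨ (ℓ = 2 ∧ 3 ∣ M))
  (A : ValuationSubring (AlgebraicClosure ℚ)) (hA : A.LiesOverPrime ℓ)

/-- `F_M · ℚ̄` is a function field. -/
theorem isFF_bar : IsFF (AlgebraicClosure ℚ) ↥(modularFunctionFieldBar M) :=
  H95.stmt_HKA_isFF M

/-- The reduced field is a function field. -/
theorem isFF_tame (M ℓ : ℕ) [NeZero M] (hℓ : ℓ.Prime) (hM : ¬ ℓ ∣ M)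
    (A : ValuationSubring (AlgebraicClosure ℚ)) (hA : A.LiesOverPrime ℓ) : IsFF (kV A)
    ↥(redField A (modularFunctionFieldBar M) (hasScale_laurentBaseChange A M)) :=
  isFF_redField_bar M ℓ hℓ hM A hA

/-- The Deuring reduction of places at a tame level. -/
def tameR : Place (AlgebraicClosure ℚ) ↥(modularFunctionFieldBar M) →
    Place (kV A) ↥(redField A (modularFunctionFieldBar M) (hasScale_laurentBaseChange A M)) :=
  Classical.choose (H76.stmt_DR2 M ℓ hℓ hM htame A hA).2

theorem tameR_isRed :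
    IsRed A (hasScale_laurentBaseChange A M) (tameR M ℓ hℓ hM htame A hA) :=
  (Classical.choose_spec (H76.stmt_DR2 M ℓ hℓ hM htame A hA).2).1

theorem tameR_genusLE :
    GenusLE A (hasScale_laurentBaseChange A M) (tameR M ℓ hℓ hM htame A hA) :=
  (Classical.choose_spec (H76.stmt_DR2 M ℓ hℓ hM htame A hA).2).2

/-- The reduction datum at a tame level. -/
def tameSetup : RedSetup (AlgebraicClosure ℚ) ↥(modularFunctionFieldBar M) (kV A)
    ↥(redField A (modularFunctionFieldBar M) (hasScale_laurentBaseChange A M)) :=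
  redSetupOf A (hasScale_laurentBaseChange A M) (tameR M ℓ hℓ hM htame A hA)
    (tameR_isRed M ℓ hℓ hM htame A hA)

theorem tameSetup_genusLE' : (tameSetup M ℓ hℓ hM htame A hA).GenusLE' :=
  tameR_genusLE M ℓ hℓ hM htame A hA

theorem constVal_tameSetup : constVal (tameSetup M ℓ hℓ hM htame A hA) = A :=
  constVal_redSetupOf A (modularFunctionFieldFull M) (hasScale_laurentBaseChange A M)
    (tameR_isRed M ℓ hℓ hM htame A hA)

/-- **MOD-CTX at a tame level**: the Galois context of `F_M · ℚ̄` with its Deuring reduction. -/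
def tameCtx : GalRed (tameSetup M ℓ hℓ hM htame A hA) ↥(A.decompositionSubgroup ℚ) :=
  haveI : IsAlgClosed (kV A) := isAlgClosed_kV A
  modCtx A (modularFunctionFieldFull M) (hasScale_laurentBaseChange A M) (isFF_bar M)
    (isFF_tame M ℓ hℓ hM A hA) (H42.fracScalable_laurentBaseChange A M)
    (tameR_isRed M ℓ hℓ hM htame A hA)

@[simp]
theorem tameCtx_act (σ : ↥(A.decompositionSubgroup ℚ)) :
    (tameCtx M ℓ hℓ hM htame A hA).act σ =
      arithmeticGalois (modularFunctionFieldFull M)
        (σ : AlgebraicClosure ℚ ≃ₐ[ℚ] AlgebraicClosure ℚ) := rfl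

@[simp]
theorem tameCtx_I : (tameCtx M ℓ hℓ hM htame A hA).I = A.inertiaSubgroup ℚ := rfl

theorem mem_tameCtx_I_iff (σ : ↥(A.decompositionSubgroup ℚ)) :
    σ ∈ (tameCtx M ℓ hℓ hM htame A hA).I ↔
      (σ : AlgebraicClosure ℚ ≃ₐ[ℚ] AlgebraicClosure ℚ) ∈ A.inertiaSubgroupIn ℚ := by
  haveI : IsAlgClosed (kV A) := isAlgClosed_kV A
  exact mem_modCtx_I_iff A (modularFunctionFieldFull M) (hasScale_laurentBaseChange A M)
    (isFF_bar M) (isFF_tame M ℓ hℓ hM A hA) (H42.fracScalable_laurentBaseChange A M)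
    (tameR_isRed M ℓ hℓ hM htame A hA) σ

/-- The action of `Γ` on `J₀(M)` is the Galois action. -/
theorem tameCtx_act_smul_pic0 (σ : ↥(A.decompositionSubgroup ℚ)) (x : JZero M) :
    (tameCtx M ℓ hℓ hM htame A hA).act σ • x =
      (σ : AlgebraicClosure ℚ ≃ₐ[ℚ] AlgebraicClosure ℚ) • x := rfl

/-- The action of `Γ` on the constants is the Galois action. -/
theorem baseAut_tameCtx_act (σ : ↥(A.decompositionSubgroup ℚ)) (c : AlgebraicClosure ℚ) :
    SemilinearAut.baseAut ((tameCtx M ℓ hℓ hM htame A hA).act σ) c =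
      (σ : AlgebraicClosure ℚ ≃ₐ[ℚ] AlgebraicClosure ℚ) c := rfl

/-- **(UNR) at a tame level from its Galois form** (the Galois form is package MOD-UNR). -/
theorem hasUnrConst_tameCtx
    (H : ∀ c' : kV A, ∃ c : AlgebraicClosure ℚ, ∃ hc : c ∈ A,
      (∀ σ ∈ A.inertiaSubgroupIn ℚ, σ c = c) ∧ resV A ⟨c, hc⟩ = c') :
    HasUnrConst (tameSetup M ℓ hℓ hM htame A hA) (tameCtx M ℓ hℓ hM htame A hA) := by
  haveI : IsAlgClosed (kV A) := isAlgClosed_kV A
  exact hasUnrConst_modCtx A (modularFunctionFieldFull M) (hasScale_laurentBaseChange A M)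
    (isFF_bar M) (isFF_tame M ℓ hℓ hM A hA) (H42.fracScalable_laurentBaseChange A M)
    (tameR_isRed M ℓ hℓ hM htame A hA) H

end Tame

end Fermat.Agent.FL.H33
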