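import Fermat.Agent.FL.Defs
import Mathlib.LinearAlgebra.Matrix.Rank
import Mathlib.LinearAlgebra.Matrix.NonsingularInverse
import Mathlib.Tactic

/-!
# G-FL, package ABS-SNF (helper33): `stmt_SNF : Stmt_SNF`

`R` a commutative ring with a ring homomorphism `ρ : R →+* k` to a field which detects the units,
and a jointly injective family of evaluations `ev s : R →+* K`.  A matrix `T` over `R` with
`rank (ev s T) ≤ rank (ρ T)` for all `s` is equivalent to the standard matrix of rank
`rank (ρ T)`.

* `blk a b c D` : the block matrix `[[a, b], [c, D]]` on `Fin (m + 1) × Fin (n + 1)`.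
* `exists_elim` : Gauss elimination over a local ring, no rank hypothesis:
  `P T Q = stdE r + Z` with all entries of `Z` non-units, supported in rows and columns `≥ r`.
* `rank_stdE`, `le_rank_stdE_add` : the ranks of the normal forms over a field.
-/

set_option autoImplicit false

noncomputable section

namespace Fermat.Agent.FL.H33

open Matrix

section Blk

variable {R : Type*} [CommRing R] {m n p : ℕ}

/-- The block matrix `[[a, b], [c, D]]` with a `1 × 1` corner. -/
def blk (a : R) (b : Fin n → R) (c : Fin m → R) (D : Matrix (Fin m) (Fin n) R) :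
    Matrix (Fin (m + 1)) (Fin (n + 1)) R :=
  Matrix.of fun i j =>
    Fin.cases (Fin.cases a b j) (fun i' => Fin.cases (c i') (fun j' => D i' j') j) i

variable (a : R) (b : Fin n → R) (c : Fin m → R) (D : Matrix (Fin m) (Fin n) R)

@[simp] theorem blk_zero_zero : blk a b c D 0 0 = a := rfl

@[simp] theorem blk_zero_succ (j : Fin n) : blk a b c D 0 j.succ = b j := rfl

@[simp] theorem blk_succ_zero (i : Fin m) : blk a b c D i.succ 0 = c i := rfl

@[simp] theorem blk_succ_succ (i : Fin m) (j : Fin n) : blk a b c D i.succ j.succ = D i j := rfl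

theorem eq_blk (T : Matrix (Fin (m + 1)) (Fin (n + 1)) R) :
    T = blk (T 0 0) (fun j => T 0 j.succ) (fun i => T i.succ 0)
      (Matrix.of fun i j => T i.succ j.succ) := by
  ext i j
  refine Fin.cases ?_ (fun i' => ?_) i <;> refine Fin.cases ?_ (fun j' => ?_) j <;> rfl

theorem blk_mul_blk (a' : R) (b' : Fin p → R) (c' : Fin n → R) (D' : Matrix (Fin n) (Fin p) R) :
    blk a b c D * blk a' b' c' D' =
      blk (a * a' + b ⬝ᵥ c') (a • b' + b ᵥ* D') (a' • c + D *ᵥ c') (vecMulVec c b' + D * D') := by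
  ext i j
  refine Fin.cases ?_ (fun i' => ?_) i <;> refine Fin.cases ?_ (fun j' => ?_) j
  · simp [Matrix.mul_apply, Fin.sum_univ_succ, dotProduct]
  · simp [Matrix.mul_apply, Fin.sum_univ_succ, vecMul, dotProduct]
  · simp [Matrix.mul_apply, Fin.sum_univ_succ, mulVec, dotProduct, mul_comm]
  · simp [Matrix.mul_apply, Fin.sum_univ_succ, vecMulVec_apply]

/-- The bordered matrix `[[1, 0], [0, D]]`. -/
def bord (D : Matrix (Fin m) (Fin n) R) : Matrix (Fin (m + 1)) (Fin (n + 1)) R :=
  blk 1 0 0 D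

theorem bord_mul (A : Matrix (Fin m) (Fin n) R) (B : Matrix (Fin n) (Fin p) R) :
    bord A * bord B = bord (A * B) := by
  rw [bord, bord, blk_mul_blk, bord]
  congr 1 <;> simp

theorem bord_one : bord (1 : Matrix (Fin m) (Fin m) R) = 1 := by
  ext i j
  refine Fin.cases ?_ (fun i' => ?_) i <;> refine Fin.cases ?_ (fun j' => ?_) j
  · simp [bord]
  · simp [bord, Matrix.one_apply, (Fin.succ_ne_zero j').symm]
  · simp [bord, Matrix.one_apply, Fin.succ_ne_zero i']
  · simp [bord, Matrix.one_apply]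

theorem isUnit_bord {A : Matrix (Fin m) (Fin m) R} (hA : IsUnit A) : IsUnit (bord A) := by
  obtain ⟨u, rfl⟩ := hA
  refine IsUnit.of_mul_eq_one (bord (↑u⁻¹ : Matrix (Fin m) (Fin m) R)) ?_
  rw [bord_mul, Units.mul_inv, bord_one]

/-- One step of Gauss elimination at a unit pivot in position `(0, 0)`. -/
theorem exists_pivot (T : Matrix (Fin (m + 1)) (Fin (n + 1)) R) (hu : IsUnit (T 0 0)) :
    ∃ (P : Matrix (Fin (m + 1)) (Fin (m + 1)) R) (Q : Matrix (Fin (n + 1)) (Fin (n + 1)) R)
      (D' : Matrix (Fin m) (Fin n) R), IsUnit P ∧ IsUnit Q ∧ P * T * Q = bord D' := by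
  obtain ⟨u, hu⟩ := hu
  set b : Fin n → R := fun j => T 0 j.succ with hb
  set c : Fin m → R := fun i => T i.succ 0 with hc
  set D : Matrix (Fin m) (Fin n) R := Matrix.of fun i j => T i.succ j.succ with hD
  have hT : T = blk (u : R) b c D := by
    rw [hu]
    exact eq_blk T
  have huu : ((u⁻¹ : Rˣ) : R) * (u : R) = 1 := Units.inv_mul u
  have huu' : (u : R) * ((u⁻¹ : Rˣ) : R) = 1 := Units.mul_inv u
  refine ⟨blk ((u⁻¹ : Rˣ) : R) 0 (-(((u⁻¹ : Rˣ) : R) • c)) 1,
    blk 1 (-(((u⁻¹ : Rˣ) : R) • b)) 0 1,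
    D - vecMulVec (((u⁻¹ : Rˣ) : R) • c) b, ?_, ?_, ?_⟩
  · refine IsUnit.of_mul_eq_one (blk (u : R) 0 c 1) ?_
    rw [blk_mul_blk, ← bord_one, bord]
    congr 1
    · simp [huu]
    · simp
    · ext i
      simp only [Pi.add_apply, Pi.smul_apply, Pi.neg_apply, smul_eq_mul, one_mulVec]
      rw [mul_neg, ← mul_assoc, huu', one_mul, neg_add_cancel]
      rfl
    · simp
  · refine IsUnit.of_mul_eq_one (blk 1 (((u⁻¹ : Rˣ) : R) • b) 0 1) ?_
    rw [blk_mul_blk, ← bord_one, bord]
    congr 1
    · simp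
    · ext j
      simp
    · simp
    · simp
  · rw [hT, blk_mul_blk, blk_mul_blk, bord]
    congr 1
    · simp [huu]
    · ext j
      simp
    · ext i
      simp only [Pi.add_apply, Pi.smul_apply, Pi.neg_apply, smul_eq_mul, one_mulVec, mulVec_zero,
        Pi.zero_apply, add_zero, one_mul, mul_zero]
      rw [mul_neg, ← mul_assoc, huu', one_mul, neg_add_cancel]
    · ext i j
      simp [vecMulVec_apply, sub_eq_neg_add]

end Blk

section Elim

variable {R : Type} [CommRing R]

/-- The standard matrix of rank `r`. -/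
def stdE (S : Type*) [Zero S] [One S] (m n r : ℕ) : Matrix (Fin m) (Fin n) S :=
  Matrix.of fun i j => if (i : ℕ) = (j : ℕ) ∧ (i : ℕ) < r then 1 else 0

theorem stdE_apply (S : Type*) [Zero S] [One S] (m n r : ℕ) (i : Fin m) (j : Fin n) :
    stdE S m n r i j = if (i : ℕ) = (j : ℕ) ∧ (i : ℕ) < r then 1 else 0 := rfl

/-- **Gauss elimination over a local ring** (no rank hypothesis). -/
theorem exists_elim {k : Type} [Field k] (ρ : R →+* k) (hρ : ∀ x : R, IsUnit x ↔ ρ x ≠ 0) :
    ∀ (m n : ℕ) (T : Matrix (Fin m) (Fin n) R),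
      ∃ (P : Matrix (Fin m) (Fin m) R) (Q : Matrix (Fin n) (Fin n) R) (r : ℕ)
        (Z : Matrix (Fin m) (Fin n) R),
        IsUnit P ∧ IsUnit Q ∧ r ≤ m ∧ r ≤ n ∧ (∀ i j, ρ (Z i j) = 0) ∧
        (∀ i j, Z i j ≠ 0 → r ≤ (i : ℕ) ∧ r ≤ (j : ℕ)) ∧ P * T * Q = stdE R m n r + Z := by
  intro m
  induction m with
  | zero =>
    intro n T
    refine ⟨1, 1, 0, T, isUnit_one, isUnit_one, le_rfl, Nat.zero_le _, fun i => i.elim0,
      fun i => i.elim0, ?_⟩
    ext i
    exact i.elim0
  | succ m ih =>
    intro n T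
    by_cases hall : ∀ i j, ρ (T i j) = 0
    · refine ⟨1, 1, 0, T, isUnit_one, isUnit_one, Nat.zero_le _, Nat.zero_le _, hall,
        fun i j _ => ⟨Nat.zero_le _, Nat.zero_le _⟩, ?_⟩
      rw [Matrix.one_mul, Matrix.mul_one]
      ext i j
      simp [stdE_apply]
    · push Not at hall
      obtain ⟨i₀, j₀, hij⟩ := hall
      rcases n with _ | n
      · exact j₀.elim0
      -- move the pivot to `(0, 0)`
      set T₁ : Matrix (Fin (m + 1)) (Fin (n + 1)) R :=
        T.submatrix (Equiv.swap 0 i₀) (Equiv.swap 0 j₀) with hT₁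
      have hu : IsUnit (T₁ 0 0) := by
        rw [hT₁, submatrix_apply, Equiv.swap_apply_left, Equiv.swap_apply_left]
        exact (hρ _).2 hij
      set P₁ : Matrix (Fin (m + 1)) (Fin (m + 1)) R :=
        (1 : Matrix (Fin (m + 1)) (Fin (m + 1)) R).submatrix (Equiv.swap 0 i₀)
          (Equiv.refl _) with hP₁
      set Q₁ : Matrix (Fin (n + 1)) (Fin (n + 1)) R :=
        (1 : Matrix (Fin (n + 1)) (Fin (n + 1)) R).submatrix (Equiv.refl _)
          (Equiv.swap 0 j₀) with hQ₁
      have hP₁u : IsUnit P₁ := (Matrix.isUnit_submatrix_equiv _ _).2 isUnit_one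
      have hQ₁u : IsUnit Q₁ := (Matrix.isUnit_submatrix_equiv _ _).2 isUnit_one
      have hPTQ₁ : P₁ * T * Q₁ = T₁ := by
        rw [hP₁, hQ₁, Matrix.one_submatrix_mul, Matrix.mul_submatrix_one, hT₁]
        ext i j
        simp
      obtain ⟨P₂, Q₂, D', hP₂, hQ₂, hPTQ₂⟩ := exists_pivot T₁ hu
      obtain ⟨P₃, Q₃, r, Z, hP₃, hQ₃, hrm, hrn, hZρ, hZs, hPTQ₃⟩ := ih n D'
      refine ⟨bord P₃ * P₂ * P₁, Q₁ * Q₂ * bord Q₃, r + 1, blk 0 0 0 Z,
        ((isUnit_bord hP₃).mul hP₂).mul hP₁u, (hQ₁u.mul hQ₂).mul (isUnit_bord hQ₃),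
        Nat.succ_le_succ hrm, Nat.succ_le_succ hrn, ?_, ?_, ?_⟩
      · intro i j
        refine Fin.cases ?_ (fun i' => ?_) i <;> refine Fin.cases ?_ (fun j' => ?_) j
        · simp
        · simp
        · simp
        · simpa using hZρ i' j'
      · intro i j
        refine Fin.cases ?_ (fun i' => ?_) i <;> refine Fin.cases ?_ (fun j' => ?_) j
        · simp
        · simp
        · simp
        · intro h
          have := hZs i' j' (by simpa using h)
          simp only [Fin.val_succ]
          omega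
      · have e : bord P₃ * P₂ * P₁ * T * (Q₁ * Q₂ * bord Q₃)
            = bord P₃ * (P₂ * (P₁ * T * Q₁) * Q₂) * bord Q₃ := by
          simp only [Matrix.mul_assoc]
        rw [e, hPTQ₁, hPTQ₂, bord_mul, bord_mul, hPTQ₃]
        ext i j
        refine Fin.cases ?_ (fun i' => ?_) i <;> refine Fin.cases ?_ (fun j' => ?_) j
        · simp [bord, stdE_apply]
        · simp [bord, stdE_apply]
        · simp [bord, stdE_apply]
        · simp [bord, stdE_apply]

end Elim

section Rank

variable {F : Type} [Field F]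

/-- The rank of the standard matrix. -/
theorem rank_stdE (m n r : ℕ) (hrm : r ≤ m) (hrn : r ≤ n) : (stdE F m n r).rank = r := by
  apply le_antisymm
  · -- the nonzero rows are the first `r`
    have h := rank_le_card_of_support_subset (stdE F m n r)
      (Finset.univ.filter fun i : Fin m => (i : ℕ) < r) (by
        intro i hi
        rw [Function.mem_support] at hi
        simp only [Finset.coe_filter, Finset.mem_univ, true_and, Set.mem_setOf_eq]
        by_contra hlt
        apply hi
        ext j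
        simp [Matrix.row, stdE_apply, hlt])
    refine h.trans ?_
    have hinj : Function.Injective fun i : {i : Fin m // (i : ℕ) < r} =>
        (⟨(i : Fin m), i.2⟩ : Fin r) :=
      fun a b hab => Subtype.ext (Fin.ext (by simpa using congrArg Fin.val hab))
    calc (Finset.univ.filter fun i : Fin m => (i : ℕ) < r).card
        = Fintype.card {i : Fin m // (i : ℕ) < r} := (Fintype.card_subtype _).symm
      _ ≤ Fintype.card (Fin r) := Fintype.card_le_of_injective _ hinj
      _ = r := Fintype.card_fin r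
  · have h := rank_submatrix_le (stdE F m n r) (Fin.castLE hrm) (Fin.castLE hrn)
    have e : (stdE F m n r).submatrix (Fin.castLE hrm) (Fin.castLE hrn)
        = (1 : Matrix (Fin r) (Fin r) F) := by
      ext i j
      simp [stdE_apply, Matrix.one_apply, Fin.ext_iff]
    rw [e, rank_one, Fintype.card_fin] at h
    exact h

/-- A nonzero entry outside the first `r` rows and columns raises the rank. -/
theorem le_rank_stdE_add (m n r : ℕ) (hrm : r ≤ m) (hrn : r ≤ n) (Z : Matrix (Fin m) (Fin n) F)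
    (hZs : ∀ i j, Z i j ≠ 0 → r ≤ (i : ℕ) ∧ r ≤ (j : ℕ)) (i₁ : Fin m) (j₁ : Fin n)
    (h1 : Z i₁ j₁ ≠ 0) : r + 1 ≤ (stdE F m n r + Z).rank := by
  obtain ⟨hi₁, hj₁⟩ := hZs i₁ j₁ h1
  set f : Fin (r + 1) → Fin m := Fin.lastCases i₁ (fun a => Fin.castLE hrm a) with hf
  set g : Fin (r + 1) → Fin n := Fin.lastCases j₁ (fun a => Fin.castLE hrn a) with hg
  have h := rank_submatrix_le (stdE F m n r + Z) f g
  have hZ0 : ∀ (i : Fin m) (j : Fin n), ((i : ℕ) < r ∨ (j : ℕ) < r) → Z i j = 0 := by
    intro i j hij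
    by_contra hne
    have := hZs i j hne
    omega
  have e : (stdE F m n r + Z).submatrix f g
      = Matrix.diagonal (Fin.lastCases (Z i₁ j₁) (fun _ => (1 : F))) := by
    ext a a'
    refine Fin.lastCases ?_ (fun c => ?_) a <;> refine Fin.lastCases ?_ (fun c' => ?_) a'
    · simp only [submatrix_apply, hf, hg, Fin.lastCases_last, Matrix.add_apply, stdE_apply,
        diagonal_apply_eq]
      rw [if_neg (by omega), zero_add]
    · simp only [submatrix_apply, hf, hg, Fin.lastCases_last, Fin.lastCases_castSucc,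
        Matrix.add_apply, stdE_apply, Fin.val_castLE]
      rw [if_neg (by omega), zero_add, hZ0 i₁ (Fin.castLE hrn c') (Or.inr c'.2),
        diagonal_apply_ne _ (Fin.castSucc_lt_last c').ne']
    · simp only [submatrix_apply, hf, hg, Fin.lastCases_last, Fin.lastCases_castSucc,
        Matrix.add_apply, stdE_apply, Fin.val_castLE]
      rw [if_neg (by omega), zero_add, hZ0 (Fin.castLE hrm c) j₁ (Or.inl c.2),
        diagonal_apply_ne _ (Fin.castSucc_lt_last c).ne]
    · simp only [submatrix_apply, hf, hg, Fin.lastCases_castSucc, Matrix.add_apply, stdE_apply,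
        Fin.val_castLE]
      rw [hZ0 (Fin.castLE hrm c) (Fin.castLE hrn c') (Or.inl c.2), add_zero]
      by_cases hcc : c = c'
      · subst hcc
        rw [diagonal_apply_eq, Fin.lastCases_castSucc, if_pos ⟨rfl, c.2⟩]
      · rw [diagonal_apply_ne _ (fun h => hcc (Fin.castSucc_injective _ h)),
          if_neg (fun h => hcc (Fin.ext h.1))]
  have hdet : (Matrix.diagonal (Fin.lastCases (Z i₁ j₁) (fun _ => (1 : F)) :
      Fin (r + 1) → F)).det ≠ 0 := by
    rw [det_diagonal, Finset.prod_ne_zero_iff]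
    intro a _
    refine Fin.lastCases ?_ (fun c => ?_) a
    · rw [Fin.lastCases_last]
      exact h1
    · rw [Fin.lastCases_castSucc]
      exact one_ne_zero
  rw [e, rank_of_det_ne_zero hdet, Fintype.card_fin] at h
  exact h

end Rank

section Main

variable {R : Type} [CommRing R]

/-- Equivalent matrices have the same rank after every base change to a field. -/
theorem rank_map_mul_mul {F : Type} [Field F] (φ : R →+* F) {m n : ℕ}
    (P : Matrix (Fin m) (Fin m) R) (Q : Matrix (Fin n) (Fin n) R) (T : Matrix (Fin m) (Fin n) R)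
    (hP : IsUnit P) (hQ : IsUnit Q) : ((P * T * Q).map φ).rank = (T.map φ).rank := by
  have hP' : IsUnit (P.map φ).det := by
    have := hP.map φ.mapMatrix
    rw [RingHom.mapMatrix_apply] at this
    exact (Matrix.isUnit_iff_isUnit_det _).1 this
  have hQ' : IsUnit (Q.map φ).det := by
    have := hQ.map φ.mapMatrix
    rw [RingHom.mapMatrix_apply] at this
    exact (Matrix.isUnit_iff_isUnit_det _).1 this
  rw [Matrix.map_mul, Matrix.map_mul, rank_mul_eq_left_of_isUnit_det _ _ hQ',
    rank_mul_eq_right_of_isUnit_det _ _ hP']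

theorem map_stdE_add {F : Type} [Field F] (φ : R →+* F) (m n r : ℕ)
    (Z : Matrix (Fin m) (Fin n) R) :
    (stdE R m n r + Z).map φ = stdE F m n r + Z.map φ := by
  ext i j
  simp only [Matrix.map_apply, Matrix.add_apply, stdE_apply, map_add]
  split_ifs <;> simp

/-- **Package ABS-SNF.** -/
theorem stmt_SNF : Stmt_SNF := by
  intro R k K _ _ _ ρ hρ S ev hev m n T hrank
  obtain ⟨P, Q, r, Z, hP, hQ, hrm, hrn, hZρ, hZs, hPTQ⟩ := exists_elim ρ hρ m n T
  have hZρ' : Z.map ρ = 0 := by
    ext i j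
    exact hZρ i j
  have hr : (T.map ρ).rank = r := by
    rw [← rank_map_mul_mul ρ P Q T hP hQ, hPTQ, map_stdE_add, hZρ', add_zero,
      rank_stdE m n r hrm hrn]
  have hZ0 : Z = 0 := by
    by_contra hne
    obtain ⟨i, j, hij⟩ : ∃ i j, Z i j ≠ 0 := by
      by_contra h
      push Not at h
      exact hne (Matrix.ext h)
    obtain ⟨s, hs⟩ : ∃ s, ev s (Z i j) ≠ 0 := by
      by_contra h
      push Not at h
      exact hij (hev _ h)
    have h1 : r + 1 ≤ ((stdE K m n r + Z.map (ev s))).rank :=
      le_rank_stdE_add m n r hrm hrn (Z.map (ev s))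
        (fun a b hab => hZs a b (fun h0 => hab (by rw [Matrix.map_apply, h0, map_zero])))
        i j hs
    rw [← map_stdE_add, ← hPTQ, rank_map_mul_mul (ev s) P Q T hP hQ] at h1
    have := hrank s
    omega
  refine ⟨P, Q, hP, hQ, fun i j => ?_⟩
  rw [hPTQ, hZ0, add_zero, hr]
  rfl

end Main

end Fermat.Agent.FL.H33
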