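import Fermat.Agent.FL.Defs5

/-!
# G-FL: the abstract main theorem from its packages (helper36)

`stmt_FLAbs_of : Stmt_Setup → Stmt_Basic → Stmt_Comul → Stmt_DStab → Stmt_FLAbs`.
The coordinate system is taken for `𝒯 = 𝒮 ∪ (𝒮 + 𝒮)`.
-/

set_option autoImplicit false

noncomputable section

open AlgebraicCurve

namespace Fermat.Agent.FL.H36

open Fermat.Agent.FL Fermat.Agent.RED Fermat.Agent.RED.H17 Fermat.Agent.Lib.HopfOrder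
  Fermat.Agent.Lib.HopfOrderLoc

/-- The set `𝒮 ∪ (𝒮 + 𝒮)`. -/
def sumSet {M : Type} [Add M] (𝒮 : Set M) : Set M :=
  𝒮 ∪ Set.image2 (· + ·) 𝒮 𝒮

theorem subset_sumSet {M : Type} [Add M] (𝒮 : Set M) : 𝒮 ⊆ sumSet 𝒮 :=
  Set.subset_union_left

theorem add_mem_sumSet {M : Type} [Add M] (𝒮 : Set M) {x y : M} (hx : x ∈ 𝒮) (hy : y ∈ 𝒮) :
    x + y ∈ sumSet 𝒮 :=
  Or.inr ⟨x, hx, y, hy, rfl⟩

theorem finite_sumSet {M : Type} [Add M] {𝒮 : Set M} (h : 𝒮.Finite) : (sumSet 𝒮).Finite :=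
  h.union (Set.Finite.image2 _ h h)

/-- **The abstract main theorem from its packages.** -/
theorem stmt_FLAbs_of (h1 : Stmt_Setup) (h2 : Stmt_Basic) (h3 : Stmt_Comul) (h4 : Stmt_DStab) :
    Stmt_FLAbs := by
  intro K F k F' _ _ _ _ _ _ _ _ S hFF hFF' hG Γ _ G hU hFr 𝒮 hfin hstab
  have hTfin : (sumSet 𝒮).Finite := finite_sumSet hfin
  have hTstab : ∀ (σ : Γ), ∀ x ∈ sumSet 𝒮, G.act σ • x ∈ sumSet 𝒮 := by
    rintro σ x (hx | ⟨a, ha, b, hb, rfl⟩)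
    · exact Or.inl (hstab σ x hx)
    · rw [smul_add]
      exact add_mem_sumSet 𝒮 (hstab σ a ha) (hstab σ b hb)
  obtain ⟨CS⟩ := h1 K F k F' S hFF hFF' hG Γ G hU hFr (sumSet 𝒮) hTfin hTstab
  have hsub := subset_sumSet 𝒮
  obtain ⟨hint, heq, hsep⟩ := h2 K F k F' S hFF hFF' Γ G (sumSet 𝒮) CS 𝒮 hsub
  have : Finite ↥(sumSet 𝒮) := hTfin.to_subtype
  refine ⟨_, inferInstance, CS.gen 𝒮 hsub, hint, heq, ?_, hsep, ?_⟩
  · exact h4 K F k F' S hFF hFF' Γ G (sumSet 𝒮) hTfin hTstab CS 𝒮 hsub hstab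
  · exact h3 K F k F' S hFF hFF' Γ G (sumSet 𝒮) hTfin CS 𝒮 hsub
      (fun x hx y hy => add_mem_sumSet 𝒮 hx hy)

end Fermat.Agent.FL.H36
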