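import Fermat.Agent.FL.Defs5

/-!
# G-FL (S19), package RED-FRAME, part 1 (helper38): reduction of constants, FRAME-INT

`S : RedSetup K F k F'`, `A = constVal S`, `rc S : K → k` the reduction of constants.

* `rc_zero`, `rc_one`, `rc_add`, `rc_mul`, `rc_neg`, `rc_sub`: `rc S` is a ring homomorphism on `A`;
  `rcHom S : A →+* k`;
* `inv_mem_of_rc_ne_zero`: an integral constant with non-zero reduction is a unit of `A`;
* `rd_sum_smul`: the reduction of an integral linear combination;
* `exists_normalize`: a non-zero vector of constants has an entry of maximal absolute value;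
* `frameInt`, `stmt_FrameInt : Stmt_FrameInt`;
* `linearIndependent_of_rd`: Gauss-integral functions with linearly independent reductions are
  linearly independent.
-/

set_option autoImplicit false

noncomputable section

open AlgebraicCurve

namespace Fermat.Agent.FL.H38

open Fermat.Agent.FL Fermat.Agent.RED Fermat.Agent.RED.H17

variable {K F k F' : Type} [Field K] [Field F] [Algebra K F] [Field k] [Field F']
  [Algebra k F'] (S : RedSetup K F k F')

/-! ### The reduction of constants -/

theorem rd_algebraMap {c : K} (h : c ∈ constVal S) :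
    S.rd (algebraMap K F c) = algebraMap k F' (rc S c) := by
  rw [S.rd_of_mem h]
  exact rc_spec S h

theorem rc_zero : rc S 0 = 0 := by
  apply (algebraMap k F').injective
  rw [← rd_algebraMap S (constVal S).zero_mem, map_zero, map_zero, S.rd_zero]

theorem rc_one : rc S 1 = 1 := by
  apply (algebraMap k F').injective
  rw [← rd_algebraMap S (constVal S).one_mem, map_one, map_one, S.rd_one]

theorem rc_add {a b : K} (ha : a ∈ constVal S) (hb : b ∈ constVal S) :
    rc S (a + b) = rc S a + rc S b := by
  apply (algebraMap k F').injective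
  rw [← rd_algebraMap S ((constVal S).add_mem _ _ ha hb), map_add, map_add, S.rd_add ha hb,
    rd_algebraMap S ha, rd_algebraMap S hb]

theorem rc_mul {a b : K} (ha : a ∈ constVal S) (hb : b ∈ constVal S) :
    rc S (a * b) = rc S a * rc S b := by
  apply (algebraMap k F').injective
  rw [← rd_algebraMap S ((constVal S).mul_mem _ _ ha hb), map_mul, map_mul, S.rd_mul ha hb,
    rd_algebraMap S ha, rd_algebraMap S hb]

theorem rc_neg {a : K} (ha : a ∈ constVal S) : rc S (-a) = -rc S a := by
  apply (algebraMap k F').injective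
  rw [← rd_algebraMap S ((constVal S).neg_mem _ ha), map_neg, map_neg, S.rd_neg ha,
    rd_algebraMap S ha]

theorem rc_sub {a b : K} (ha : a ∈ constVal S) (hb : b ∈ constVal S) :
    rc S (a - b) = rc S a - rc S b := by
  rw [sub_eq_add_neg, rc_add S ha ((constVal S).neg_mem _ hb), rc_neg S hb, sub_eq_add_neg]

/-- The reduction of constants as a ring homomorphism on `A`. -/
def rcHom : (constVal S) →+* k where
  toFun a := rc S (a : K)
  map_one' := rc_one S
  map_mul' a b := rc_mul S a.2 b.2
  map_zero' := rc_zero S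
  map_add' a b := rc_add S a.2 b.2

theorem rcHom_apply (a : constVal S) : rcHom S a = rc S (a : K) := rfl

/-- An integral constant with non-zero reduction is a unit of `A`. -/
theorem inv_mem_of_rc_ne_zero {c : K} (hc : c ∈ constVal S) (h : rc S c ≠ 0) :
    c⁻¹ ∈ constVal S := by
  have hGU : S.IsGU (algebraMap K F c) := by
    refine ⟨hc, ?_⟩
    rw [rd_algebraMap S hc]
    intro h0
    apply h
    apply (algebraMap k F').injective
    rw [h0, map_zero]
  have := hGU.inv_mem
  rw [← map_inv₀] at this
  exact this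

/-- The inverse of a non-integral constant is integral, with reduction `0`. -/
theorem inv_mem_of_not_mem {c : K} (hc : c ∉ constVal S) :
    c⁻¹ ∈ constVal S ∧ rc S c⁻¹ = 0 := by
  have h1 : c⁻¹ ∈ constVal S := ((constVal S).mem_or_inv_mem c).resolve_left hc
  refine ⟨h1, ?_⟩
  by_contra h
  have := inv_mem_of_rc_ne_zero S h1 h
  rw [inv_inv] at this
  exact hc this

theorem isUnit_of_rcHom_ne_zero {a : constVal S} (h : rcHom S a ≠ 0) : IsUnit a := by
  have h1 : (a : K)⁻¹ ∈ constVal S := inv_mem_of_rc_ne_zero S a.2 h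
  have h0 : (a : K) ≠ 0 := by
    intro h0
    apply h
    rw [rcHom_apply, h0, rc_zero]
  refine IsUnit.of_mul_eq_one (⟨(a : K)⁻¹, h1⟩ : constVal S) ?_
  apply Subtype.ext
  show (a : K) * (a : K)⁻¹ = 1
  exact mul_inv_cancel₀ h0

/-! ### Integral linear combinations -/

theorem rd_smul_of_mem {c : K} (hc : c ∈ constVal S) {f : F} (hf : f ∈ S.V) :
    c • f ∈ S.V ∧ S.rd (c • f) = rc S c • S.rd f := by
  rw [Algebra.smul_def]
  refine ⟨S.V.mul_mem _ _ hc hf, ?_⟩
  rw [S.rd_mul hc hf, rd_algebraMap S hc, Algebra.smul_def]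

theorem rd_sum_smul {ι : Type} (s : Finset ι) (e : ι → F) (he : ∀ i, e i ∈ S.V) (v : ι → K)
    (hv : ∀ i, v i ∈ constVal S) :
    (∑ i ∈ s, v i • e i) ∈ S.V ∧
      S.rd (∑ i ∈ s, v i • e i) = ∑ i ∈ s, rc S (v i) • S.rd (e i) := by
  classical
  induction s using Finset.induction_on with
  | empty =>
    rw [Finset.sum_empty, Finset.sum_empty]
    exact ⟨S.V.zero_mem, S.rd_zero⟩
  | insert a s ha ih =>
    rw [Finset.sum_insert ha, Finset.sum_insert ha]
    obtain ⟨h1, h2⟩ := rd_smul_of_mem S (hv a) (he a)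
    refine ⟨S.V.add_mem _ _ h1 ih.1, ?_⟩
    rw [S.rd_add h1 ih.1, h2, ih.2]

/-- A non-zero vector of constants has an entry of maximal absolute value. -/
theorem exists_normalize {ι : Type} [Fintype ι] (u : ι → K) {j : ι} (hj : u j ≠ 0) :
    ∃ i₀, u i₀ ≠ 0 ∧ ∀ i, u i / u i₀ ∈ constVal S := by
  obtain ⟨i₀, -, hmax⟩ := Finset.exists_max_image Finset.univ
    (fun i => (constVal S).valuation (u i)) ⟨j, Finset.mem_univ j⟩
  have h0 : u i₀ ≠ 0 := by
    intro h
    have h1 := hmax j (Finset.mem_univ j)
    rw [h, map_zero] at h1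
    exact hj ((map_eq_zero _).mp (le_antisymm h1 zero_le))
  refine ⟨i₀, h0, fun i => ?_⟩
  rw [← ValuationSubring.valuation_le_one_iff, map_div₀]
  have hpos : 0 < (constVal S).valuation (u i₀) :=
    lt_of_le_of_ne zero_le (Ne.symm ((map_ne_zero _).mpr h0))
  exact (div_le_one₀ hpos).mpr (hmax i (Finset.mem_univ i))

/-- **FRAME-INT.** -/
theorem frameInt {ι : Type} [Fintype ι] (e : ι → F) (he : ∀ i, e i ∈ S.V)
    (hli : LinearIndependent k (fun i => S.rd (e i))) (u : ι → K)
    (hu : (∑ i, u i • e i) ∈ S.V) :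
    (∀ i, u i ∈ constVal S) ∧ S.rd (∑ i, u i • e i) = ∑ i, rc S (u i) • S.rd (e i) := by
  have key : ∀ i, u i ∈ constVal S := by
    by_contra hcon
    rw [not_forall] at hcon
    obtain ⟨j, hj⟩ := hcon
    have hj0 : u j ≠ 0 := by
      intro h
      exact hj (h ▸ (constVal S).zero_mem)
    obtain ⟨i₀, h0, hv⟩ := exists_normalize S u hj0
    have hi₀ : u i₀ ∉ constVal S := by
      intro h
      apply hj
      have := (constVal S).mul_mem _ _ (hv j) h
      rwa [div_mul_cancel₀ _ h0] at this
    obtain ⟨h1, h2⟩ := inv_mem_of_not_mem S hi₀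
    have hsum : ∑ i, (u i / u i₀) • e i = (u i₀)⁻¹ • ∑ i, u i • e i := by
      rw [Finset.smul_sum]
      refine Finset.sum_congr rfl fun i _ => ?_
      rw [smul_smul, div_eq_inv_mul]
    have h3 := (rd_sum_smul S Finset.univ e he (fun i => u i / u i₀) hv).2
    rw [hsum, (rd_smul_of_mem S h1 hu).2, h2, zero_smul] at h3
    have h4 := Fintype.linearIndependent_iff.mp hli (fun i => rc S (u i / u i₀)) h3.symm i₀
    rw [div_self h0, rc_one] at h4
    exact one_ne_zero h4
  exact ⟨key, (rd_sum_smul S Finset.univ e he u key).2⟩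

theorem stmt_FrameInt : Stmt_FrameInt := by
  intro K F k F' _ _ _ _ _ _ S ι _ e he hli u hu
  exact frameInt S e he hli u hu

/-- Gauss-integral functions with linearly independent reductions are linearly independent. -/
theorem linearIndependent_of_rd {ι : Type} [Fintype ι] (e : ι → F) (he : ∀ i, e i ∈ S.V)
    (hli : LinearIndependent k (fun i => S.rd (e i))) : LinearIndependent K e := by
  rw [Fintype.linearIndependent_iff]
  intro u hu
  by_contra hcon
  rw [not_forall] at hcon
  obtain ⟨j, hj0⟩ := hcon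
  obtain ⟨i₀, h0, hv⟩ := exists_normalize S u hj0
  have hsum : ∑ i, (u i / u i₀) • e i = (u i₀)⁻¹ • ∑ i, u i • e i := by
    rw [Finset.smul_sum]
    refine Finset.sum_congr rfl fun i _ => ?_
    rw [smul_smul, div_eq_inv_mul]
  have h3 := (rd_sum_smul S Finset.univ e he (fun i => u i / u i₀) hv).2
  rw [hsum, hu, smul_zero, S.rd_zero] at h3
  have h4 := Fintype.linearIndependent_iff.mp hli (fun i => rc S (u i / u i₀)) h3.symm i₀
  rw [div_self h0, rc_one] at h4
  exact one_ne_zero h4

end Fermat.Agent.FL.H38
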