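import Fermat.Agent.FL.H46_FamAdd
import Fermat.Agent.FL.H38_FrameInt
import Fermat.Agent.FL.H38_SubRed

/-!
# G-FL, package FAM-ADD (helper46): `Stmt_FamAdd`, unconditional

`stmt_FamAdd : Stmt_FamAdd`, from `stmt_FamAdd_of` and helper38's `stmt_FrameInt`,
`stmt_SubRed`.
-/

set_option autoImplicit false

namespace Fermat.Agent.FL.H46

open Fermat.Agent.FL

/-- **FAM-ADD.** -/
theorem stmt_FamAdd : Stmt_FamAdd :=
  stmt_FamAdd_of H38.stmt_FrameInt H38.stmt_SubRed

end Fermat.Agent.FL.H46
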