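import Fermat.Agent.FL.H36_Main
import Fermat.Agent.FL.H46_FamAddFinal
import Fermat.Agent.FL.H21_EchConst
import Fermat.Agent.FL.H22_TameFrames
import Fermat.Agent.FL.H33_Tame

/-!
# G-FL: the main theorems, unconditional (helper36, assembly of the work of ~15 seats)

* `stmt_FLAbs : Stmt_FLAbs` : the abstract main theorem (FL/Defs4.lean).
* `stmt_FLTameC : Stmt_FLTameC` : integral coordinates on every finite set of points of `J₀(M)`
  stable under the decomposition group, at every tame level (FL/Defs6.lean).
-/

set_option autoImplicit false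

noncomputable section

namespace Fermat.Agent.FL.H36

open Fermat.Agent.FL

/-- **The abstract main theorem of G-FL.** -/
theorem stmt_FLAbs : Stmt_FLAbs :=
  stmt_FLAbs_of_famAdd_dStab H46.stmt_FamAdd (H21.stmt_DStab_of_famAdd H46.stmt_FamAdd)

/-- **The concrete main theorem of G-FL at the tame levels.** -/
theorem stmt_FLTameC : Stmt_FLTameC :=
  H33.stmt_FLTameC_of stmt_FLAbs H22.stmt_TameFrames

end Fermat.Agent.FL.H36
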