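import Fermat.Agent.FL.Defs5
import Fermat.Agent.FL.H18_Loc
import Fermat.Agent.FL.H2_FF

/-!
# G-FL (S19), package COMUL (helper40): `Stmt_FamAdd → Stmt_RedLinEq → Stmt_EchUnique → Stmt_Comul`

Plan: `NOTES/plan/G_FL.md`, interface `FL/Defs5.lean`.

The generators `CS.gen 𝒮 h𝒮` are the indicators of the classes (`cls x = r_* (E x)`) and the
entries of the integral echelon bases `M x`, cut off by the indicators.  On a product of two
classes `C_a × C_b` the class of `x + y` is constant (`cls_add_eq`: reduction of principal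
divisors + `l~(r_* E_z) = 1`), the entries of `M (x + y)` are quotients `N / D` of elements of
the ring generated by the entries of `M x`, `M y` with unit-valued `D` (`Stmt_FamAdd`), and
`H18.mem_pairRing_of_classes` glues.
-/

set_option autoImplicit false
set_option linter.unusedSectionVars false
set_option linter.style.haveILetI false

noncomputable section

open AlgebraicCurve Matrix

namespace Fermat.Agent.FL.H40

open Fermat.Agent.RED Fermat.Agent.RED.H17 Fermat.Agent.RED.H42 Fermat.Agent.Lib.HopfOrder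
  Fermat.Agent.Lib.HopfOrderLoc Fermat.Agent.FL

local notation "L" => riemannRochSpace

/-! ## Reduction of constants -/

section RC

variable {K F k F' : Type} [Field K] [Field F] [Algebra K F] [Field k] [Field F']
  [Algebra k F'] (S : RedSetup K F k F')

theorem rc_zero : rc S (0 : K) = 0 := by
  have h0 : algebraMap K F (0 : K) ∈ S.V := by rw [map_zero]; exact S.V.zero_mem
  have h1 := rc_spec S h0
  have h2 : (⟨algebraMap K F (0 : K), h0⟩ : S.V) = 0 := Subtype.ext (map_zero _)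
  rw [h2, map_zero] at h1
  exact ((algebraMap k F').injective (by rw [map_zero]; exact h1.symm))

theorem rc_one : rc S (1 : K) = 1 := by
  have h0 : algebraMap K F (1 : K) ∈ S.V := by rw [map_one]; exact S.V.one_mem
  have h1 := rc_spec S h0
  have h2 : (⟨algebraMap K F (1 : K), h0⟩ : S.V) = 1 := Subtype.ext (map_one _)
  rw [h2, map_one] at h1
  exact ((algebraMap k F').injective (by rw [map_one]; exact h1.symm))

/-- Integral constants with the same reduction differ by a non-unit. -/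
theorem val_sub_lt_one_of_rc_eq {c c' : K} (hc : c ∈ constVal S) (hc' : c' ∈ constVal S)
    (h : rc S c = rc S c') : (constVal S).valuation (c - c') < 1 := by
  have hc0 : algebraMap K F c ∈ S.V := hc
  have hc0' : algebraMap K F c' ∈ S.V := hc'
  have hd : c - c' ∈ constVal S := (constVal S).sub_mem hc hc'
  have hle : (constVal S).valuation (c - c') ≤ 1 := (constVal S).valuation_le_one_iff _ |>.mpr hd
  refine lt_of_le_of_ne hle fun h1 => ?_
  -- `c - c'` is a unit of `A`, so its image is a unit of `V`, but it reduces to `0`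
  have hinv : (c - c')⁻¹ ∈ constVal S := by
    rw [← (constVal S).valuation_le_one_iff, map_inv₀, h1, inv_one]
  have hne : c - c' ≠ 0 := by
    intro h0
    rw [h0, map_zero] at h1
    exact zero_ne_one h1
  have hdV : algebraMap K F (c - c') ∈ S.V := hd
  have hiV : algebraMap K F (c - c')⁻¹ ∈ S.V := hinv
  have hred : S.red ⟨_, hdV⟩ = 0 := by
    have e1 : (⟨algebraMap K F (c - c'), hdV⟩ : S.V) =
        ⟨algebraMap K F c, hc0⟩ - ⟨algebraMap K F c', hc0'⟩ := Subtype.ext (map_sub _ _ _)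
    rw [e1, map_sub, rc_spec S hc0, rc_spec S hc0', h, sub_self]
  have hmul : (⟨algebraMap K F (c - c'), hdV⟩ : S.V) * ⟨algebraMap K F (c - c')⁻¹, hiV⟩ = 1 := by
    apply Subtype.ext
    show algebraMap K F (c - c') * algebraMap K F (c - c')⁻¹ = 1
    rw [← map_mul, mul_inv_cancel₀ hne, map_one]
  have h2 := congrArg S.red hmul
  rw [map_mul, hred, zero_mul, map_one] at h2
  exact zero_ne_one h2

end RC

/-! ## Function field lemmas -/

section FF

variable {k E : Type} [Field k] [Field E] [Algebra k E]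

theorem ord_algebraMap_eq_zero (v : Place k E) {c : k} (hc : c ≠ 0) :
    v.ord (algebraMap k E c) = 0 := by
  unfold Place.ord
  rw [H42.adicValuation_algebraMap v hc]
  simp

/-- An effective divisor `E₂` with `l(E₂) = 1` is the only effective divisor in its class. -/
theorem eq_of_principal_of_finrank_one {E₁ E₂ : Divisor k E} (h₁ : 0 ≤ E₁) (h₂ : 0 ≤ E₂)
    (hl : Module.finrank k (L E₂) = 1) {f : E} (hf : f ≠ 0)
    (hdiv : ∀ v : Place k E, (E₁ - E₂) v = v.ord f) : E₁ = E₂ := by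
  have hfL : f ∈ L E₂ := by
    rw [mem_riemannRochSpace_iff]
    intro v
    right
    rw [← hdiv v, Finsupp.sub_apply]
    have := Finsupp.le_def.mp h₁ v
    simp only [Finsupp.coe_zero, Pi.zero_apply] at this
    omega
  have h1L : (1 : E) ∈ L E₂ := by
    rw [mem_riemannRochSpace_iff]
    intro v
    right
    rw [Place.ord_one]
    have := Finsupp.le_def.mp h₂ v
    simp only [Finsupp.coe_zero, Pi.zero_apply] at this
    omega
  have hne : (⟨1, h1L⟩ : L E₂) ≠ 0 := fun h => one_ne_zero (congrArg Subtype.val h)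
  obtain ⟨c, hc⟩ := exists_smul_eq_of_finrank_eq_one hl hne ⟨f, hfL⟩
  have hc' : algebraMap k E c = f := by
    have := congrArg Subtype.val hc
    simpa [Algebra.smul_def] using this
  have hc0 : c ≠ 0 := by
    rintro rfl
    rw [map_zero] at hc'
    exact hf hc'.symm
  ext v
  have h3 := hdiv v
  rw [← hc', ord_algebraMap_eq_zero v hc0, Finsupp.sub_apply] at h3
  omega

end FF

/-! ## The classes of a coordinate system -/

section CS

variable {K F k F' : Type} [Field K] [Field F] [Algebra K F] [Field k] [Field F']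
  [Algebra k F'] {S : RedSetup K F k F'} {Γ : Type} [Group Γ] {G : GalRed S Γ}
  {𝒯 : Set (Pic0 K F)} (CS : CoordSys S G 𝒯)

theorem cls_nonneg (x : 𝒯) : 0 ≤ CS.cls x :=
  Finsupp.mapDomain_nonneg (CS.hE x).1

/-- `E_z + E₀ - E_x - E_y` is principal if `z = x + y`. -/
theorem exists_principal_add (x y z : 𝒯) (hz : (z : Pic0 K F) = (x : Pic0 K F) + y) :
    ∃ f : F, f ≠ 0 ∧ ∀ v : Place K F, v.ord f = (CS.E z + CS.E₀ - CS.E x - CS.E y) v := by
  obtain ⟨Dx, hDx, hEx⟩ := CS.mkE x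
  obtain ⟨Dy, hDy, hEy⟩ := CS.mkE y
  obtain ⟨Dz, hDz, hEz⟩ := CS.mkE z
  have h1 : Pic0.mk Dz = Pic0.mk (Dx + Dy) := by
    rw [hDz, hz, ← hDx, ← hDy]
    rfl
  have h2 : Dz - (Dx + Dy) ∈
      (Divisor.principal (K := K) (F := F)).addSubgroupOf (Divisor.degZero (K := K) (F := F)) := by
    have := (QuotientAddGroup.eq_iff_sub_mem).mp h1
    exact this
  rw [AddSubgroup.mem_addSubgroupOf] at h2
  obtain ⟨f, hf, hdiv⟩ := h2
  refine ⟨f, hf, fun v => ?_⟩
  rw [← hdiv v]
  have h3 : ((Dz - (Dx + Dy) : Divisor.degZero (K := K) (F := F)) : Divisor K F) =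
      CS.E z + CS.E₀ - CS.E x - CS.E y := by
    rw [AddSubgroup.coe_sub, AddSubgroup.coe_add, hEx, hEy, hEz]
    abel
  rw [h3]

open Classical in
/-- The generators, as functions on `𝒯`. -/
def gen0 : (𝒯 ⊕ (𝒯 × Fin CS.n₁ × Fin CS.d)) → 𝒯 → K
  | Sum.inl x₀, z => if CS.cls z = CS.cls x₀ then 1 else 0
  | Sum.inr (x₀, i, b), z => if CS.cls z = CS.cls x₀ then CS.M z i b else 0

theorem gen_eq_gen0 (𝒮 : Set (Pic0 K F)) (h𝒮 : 𝒮 ⊆ 𝒯) (j : 𝒯 ⊕ (𝒯 × Fin CS.n₁ × Fin CS.d))
    (x : 𝒮) : CS.gen 𝒮 h𝒮 j x = gen0 CS j ⟨x, h𝒮 x.2⟩ := by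
  rcases j with x₀ | ⟨x₀, i, b⟩
  · rfl
  · rfl

theorem M_mem (z : 𝒯) (i : Fin CS.n₁) (b : Fin CS.d) : CS.M z i b ∈ constVal S :=
  (CS.hM z).2.2.1 i b

theorem gen0_mem (j : 𝒯 ⊕ (𝒯 × Fin CS.n₁ × Fin CS.d)) (z : 𝒯) : gen0 CS j z ∈ constVal S := by
  classical
  rcases j with x₀ | ⟨x₀, i, b⟩
  · show (if CS.cls z = CS.cls x₀ then (1 : K) else 0) ∈ constVal S
    split_ifs
    · exact (constVal S).one_mem
    · exact (constVal S).zero_mem
  · show (if CS.cls z = CS.cls x₀ then CS.M z i b else 0) ∈ constVal S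
    split_ifs
    · exact M_mem CS z i b
    · exact (constVal S).zero_mem

/-- The reductions of the echelon bases are constant on the classes. -/
theorem M_map_rc_eq (hEU : Stmt_EchUnique) (z z' : 𝒯) (h : CS.cls z = CS.cls z') :
    (CS.M z).map (rc S) = (CS.M z').map (rc S) := by
  have hech : ∀ w : 𝒯, ∀ a b, ((CS.M w).map (rc S)) (CS.J (CS.cls w) a) b =
      if a = b then 1 else 0 := by
    intro w a b
    rw [Matrix.map_apply]
    have := (CS.hM w).1 a b
    unfold CoordSys.cls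
    rw [this]
    split_ifs
    · exact rc_one S
    · exact rc_zero S
  have hcol : ∀ w : 𝒯, colSpace ((CS.M w).map (rc S)) =
      coordSpace (fun i => S.rd (CS.e₁ i))
        (L (Finsupp.mapDomain S.r CS.B₁ - CS.cls w)) := by
    intro w
    have := (CS.hM w).2.2.2
    rw [Finsupp.mapDomain_sub] at this
    exact this
  refine (hEU k (Fin CS.n₁) CS.d).1 (CS.J (CS.cls z)) _ _ (hech z) ?_ ?_
  · rw [h]
    exact hech z'
  · rw [hcol z, hcol z', h]

theorem val_M_sub_lt (hEU : Stmt_EchUnique) (z z' : 𝒯) (h : CS.cls z = CS.cls z')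
    (i : Fin CS.n₁) (b : Fin CS.d) : (constVal S).valuation (CS.M z i b - CS.M z' i b) < 1 := by
  refine val_sub_lt_one_of_rc_eq S (M_mem CS z i b) (M_mem CS z' i b) ?_
  have := congrFun (congrFun (M_map_rc_eq CS hEU z z' h) i) b
  rwa [Matrix.map_apply, Matrix.map_apply] at this

/-- The generators have constant reduction on the classes. -/
theorem val_gen0_sub_lt (hEU : Stmt_EchUnique) (z z' : 𝒯) (h : CS.cls z = CS.cls z')
    (j : 𝒯 ⊕ (𝒯 × Fin CS.n₁ × Fin CS.d)) :
    (constVal S).valuation (gen0 CS j z - gen0 CS j z') < 1 := by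
  classical
  rcases j with x₀ | ⟨x₀, i, b⟩
  · show (constVal S).valuation ((if CS.cls z = CS.cls x₀ then (1 : K) else 0) -
      (if CS.cls z' = CS.cls x₀ then (1 : K) else 0)) < 1
    rw [h, sub_self, map_zero]
    exact zero_lt_one
  · show (constVal S).valuation ((if CS.cls z = CS.cls x₀ then CS.M z i b else 0) -
      (if CS.cls z' = CS.cls x₀ then CS.M z' i b else 0)) < 1
    rw [h]
    split_ifs
    · exact val_M_sub_lt CS hEU z z' h i b
    · rw [sub_self, map_zero]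
      exact zero_lt_one

variable [IsAlgClosed K] [IsAlgClosed k]

/-- The reduction of `E_z + E₀ - E_x - E_y` is principal if `z = x + y`. -/
theorem exists_principal_cls (hRL : Stmt_RedLinEq) (hFF : IsFF K F) (hFF' : IsFF k F')
    (x y z : 𝒯) (hz : (z : Pic0 K F) = (x : Pic0 K F) + y) :
    ∃ f' : F', f' ≠ 0 ∧ ∀ Q : Place k F',
      (CS.cls z + Finsupp.mapDomain S.r CS.E₀ - CS.cls x - CS.cls y) Q = Q.ord f' := by
  obtain ⟨f, hf, hdiv⟩ := exists_principal_add CS x y z hz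
  obtain ⟨f', hf', hdiv'⟩ := hRL K F k F' S hFF hFF' (CS.E z + CS.E₀ - CS.E x - CS.E y) f hf
    (fun v => (hdiv v).symm)
  refine ⟨f', hf', fun Q => ?_⟩
  rw [← hdiv' Q]
  unfold CoordSys.cls
  rw [Finsupp.mapDomain_sub, Finsupp.mapDomain_sub, Finsupp.mapDomain_add]

/-- The class of `x + y` depends only on the classes of `x` and `y`. -/
theorem cls_add_eq (hRL : Stmt_RedLinEq) (hFF : IsFF K F) (hFF' : IsFF k F')
    (x y z x' y' z' : 𝒯) (hz : (z : Pic0 K F) = (x : Pic0 K F) + y)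
    (hz' : (z' : Pic0 K F) = (x' : Pic0 K F) + y')
    (hx : CS.cls x = CS.cls x') (hy : CS.cls y = CS.cls y') : CS.cls z = CS.cls z' := by
  obtain ⟨f₁, hf₁, h₁⟩ := exists_principal_cls CS hRL hFF hFF' x y z hz
  obtain ⟨f₂, hf₂, h₂⟩ := exists_principal_cls CS hRL hFF hFF' x' y' z' hz'
  refine eq_of_principal_of_finrank_one (cls_nonneg CS z) (cls_nonneg CS z') (CS.ns z')
    (f := f₁ * f₂⁻¹) (mul_ne_zero hf₁ (inv_ne_zero hf₂)) fun v => ?_
  rw [Place.ord_mul _ hf₁ (inv_ne_zero hf₂), Place.ord_inv, ← h₁ v, ← h₂ v, hx, hy]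
  simp only [Finsupp.sub_apply, Finsupp.add_apply]
  ring

/-- `l~(cls x + cls y - r_* E₀) = 1` if `x + y ∈ 𝒯`. -/
theorem finrank_cls_add (hRL : Stmt_RedLinEq) (hFF : IsFF K F) (hFF' : IsFF k F')
    (x y z : 𝒯) (hz : (z : Pic0 K F) = (x : Pic0 K F) + y) :
    Module.finrank k (L (CS.cls x + CS.cls y - Finsupp.mapDomain S.r CS.E₀)) = 1 := by
  obtain ⟨f, hf, h⟩ := exists_principal_cls CS hRL hFF hFF' x y z hz
  have H : Hyp k F' := Fermat.Agent.S17.H35.hyp_of_isFF k F' hFF'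
  have h1 := finrank_L_add_principal H (D := CS.cls z)
    (E := CS.cls x + CS.cls y - Finsupp.mapDomain S.r CS.E₀ - CS.cls z) (f := f⁻¹)
    (inv_ne_zero hf) (fun v => by
      rw [Place.ord_inv, ← h v]
      simp only [Finsupp.sub_apply, Finsupp.add_apply]
      ring)
  have h2 : CS.cls z + (CS.cls x + CS.cls y - Finsupp.mapDomain S.r CS.E₀ - CS.cls z) =
      CS.cls x + CS.cls y - Finsupp.mapDomain S.r CS.E₀ := by abel
  rw [h2] at h1
  rw [h1]
  exact CS.ns z

end CS

/-! ## The main theorem -/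

section Main

variable {K : Type} [Field K]

/-- Every element of `famRing` on a product of two classes is the restriction of an element of
`pairRing`, if the entries of the matrices are. -/
theorem exists_pair_of_mem_famRing {M ι₀ P ι : Type} {d : ℕ} (A : ValuationSubring K)
    (h : ι₀ → M → K) (incP : P → M × M) (Mx My : P → Matrix ι (Fin d) K)
    (hx : ∀ i b, ∃ f' ∈ pairRing A.toSubring h, ∀ p : P, f' (incP p) = Mx p i b)
    (hy : ∀ i b, ∃ f' ∈ pairRing A.toSubring h, ∀ p : P, f' (incP p) = My p i b)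
    (f : P → K) (hf : f ∈ famRing A.toSubring Mx My) :
    ∃ f' ∈ pairRing A.toSubring h, ∀ p : P, f' (incP p) = f p := by
  unfold famRing at hf
  induction hf using Subring.closure_induction with
  | mem g hg =>
    rcases hg with ⟨a, ha, rfl⟩ | ⟨i, b, rfl⟩ | ⟨i, b, rfl⟩
    · exact ⟨fun _ => a, H18.const_mem_pairRing' h ha, fun _ => rfl⟩
    · exact hx i b
    · exact hy i b
  | zero => exact ⟨0, Subring.zero_mem _, fun _ => rfl⟩
  | one => exact ⟨1, Subring.one_mem _, fun _ => rfl⟩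
  | add g g' _ _ hg hg' =>
    obtain ⟨a, ha, ha'⟩ := hg
    obtain ⟨b, hb, hb'⟩ := hg'
    exact ⟨a + b, Subring.add_mem _ ha hb, fun p => by
      show a (incP p) + b (incP p) = g p + g' p
      rw [ha' p, hb' p]⟩
  | neg g _ hg =>
    obtain ⟨a, ha, ha'⟩ := hg
    exact ⟨-a, Subring.neg_mem _ ha, fun p => by
      show -a (incP p) = -g p
      rw [ha' p]⟩
  | mul g g' _ _ hg hg' =>
    obtain ⟨a, ha, ha'⟩ := hg
    obtain ⟨b, hb, hb'⟩ := hg'
    exact ⟨a * b, Subring.mul_mem _ ha hb, fun p => by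
      show a (incP p) * b (incP p) = g p * g' p
      rw [ha' p, hb' p]⟩

theorem val_eq_one_of_inv_mem (A : ValuationSubring K) {a : K} (ha : a ∈ A) (ha0 : a ≠ 0)
    (hinv : a⁻¹ ∈ A) : A.valuation a = 1 := by
  have h1 : A.valuation a ≤ 1 := (A.valuation_le_one_iff _).mpr ha
  have h2 : A.valuation a⁻¹ ≤ 1 := (A.valuation_le_one_iff _).mpr hinv
  rw [map_inv₀] at h2
  have h3 : A.valuation a ≠ 0 := (Valuation.ne_zero_iff _).mpr ha0
  have h4 : 1 ≤ A.valuation a := (inv_le_one₀ (zero_lt_iff.mpr h3)).mp h2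
  exact le_antisymm h1 h4

end Main

/-- **COMUL**, from the family version of the addition. -/
theorem stmt_Comul_of (hFam : Stmt_FamAdd) (hRL : Stmt_RedLinEq) (hEU : Stmt_EchUnique) :
    Stmt_Comul := by
  intro K F k F' _ _ _ _ _ _ _ _ S hFF hFF' Γ _ G 𝒯 h𝒯fin CS 𝒮 h𝒮 hadd j
  classical
  haveI : Finite ↥𝒮 := Set.finite_coe_iff.mpr (h𝒯fin.subset h𝒮)
  set h := CS.gen 𝒮 h𝒮 with hh
  have hA : ∀ j x, h j x ∈ constVal S := fun j x => by
    rw [hh, gen_eq_gen0]
    exact gen0_mem CS j _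
  -- inclusion into `𝒯` and the addition
  let inc : 𝒮 → 𝒯 := fun x => ⟨x, h𝒮 x.2⟩
  let add : 𝒮 → 𝒮 → 𝒯 := fun x y => ⟨(x : Pic0 K F) + y, hadd _ x.2 _ y.2⟩
  let φ : 𝒮 × 𝒮 → K := fun p => gen0 CS j (add p.1 p.2)
  refine ⟨φ, ?_, fun x y hxy => ?_⟩
  swap
  · rw [hh, gen_eq_gen0]
  -- the classes
  let C : 𝒮 → Set 𝒮 := fun x => {x' | CS.cls (inc x') = CS.cls (inc x)}
  have hC : ∀ x, H18.IsClass (constVal S) (genRing (constVal S).toSubring h) (C x) := by
    intro x
    refine H18.isClass_genRing h hA (C x) ⟨x, rfl⟩ ?_ ?_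
    · have e1 : (fun s => (C x).indicator (fun _ => (1 : K)) s) = h (Sum.inl (inc x)) := by
        funext s
        rw [hh, gen_eq_gen0]
        show (C x).indicator (fun _ => (1 : K)) s =
          if CS.cls (inc s) = CS.cls (inc x) then 1 else 0
        by_cases hs : CS.cls (inc s) = CS.cls (inc x)
        · rw [if_pos hs, Set.indicator_of_mem (show s ∈ C x from hs)]
        · rw [if_neg hs, Set.indicator_of_notMem (show s ∉ C x from hs)]
      rw [e1]
      exact Subring.subset_closure (Or.inr ⟨_, rfl⟩)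
    · intro j' s hs s' hs'
      rw [hh, gen_eq_gen0, gen_eq_gen0]
      exact val_gen0_sub_lt CS hEU _ _ (hs.trans hs'.symm) j'
  refine H18.mem_pairRing_of_classes h hA φ fun x y => ⟨C x, C y, rfl, rfl, hC x, hC y, ?_⟩
  -- the class of the sum is constant on `C x × C y`
  have hcls : ∀ p : ↥(C x ×ˢ C y), CS.cls (add p.1.1 p.1.2) = CS.cls (add x y) := fun p =>
    cls_add_eq CS hRL hFF hFF' (inc p.1.1) (inc p.1.2) (add p.1.1 p.1.2) (inc x) (inc y)
      (add x y) rfl rfl p.2.1 p.2.2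
  rw [H18.mem_locRing]
  -- constants
  have hconst : ∀ ε : K, ε ∈ constVal S → (∀ p : ↥(C x ×ˢ C y), φ p = ε) →
      ∃ N ∈ pairRing (constVal S).toSubring h, ∃ D ∈ pairRing (constVal S).toSubring h,
        (∀ s : ↥(C x ×ˢ C y), (constVal S).valuation (D s) = 1) ∧
        ∀ s : ↥(C x ×ˢ C y), D s * φ s = N s := by
    intro ε hε hφ
    refine ⟨fun _ => ε, H18.const_mem_pairRing' h hε, 1, Subring.one_mem _, fun s => ?_,
      fun s => ?_⟩
    · show (constVal S).valuation 1 = 1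
      exact map_one _
    · show (1 : K) * φ s = ε
      rw [one_mul, hφ s]
  rcases j with x₀ | ⟨x₀, i, b⟩
  · -- an indicator
    by_cases hx₀ : CS.cls (add x y) = CS.cls x₀
    · refine hconst 1 (constVal S).one_mem fun p => ?_
      show (if CS.cls (add p.1.1 p.1.2) = CS.cls x₀ then (1 : K) else 0) = 1
      rw [hcls p, if_pos hx₀]
    · refine hconst 0 (constVal S).zero_mem fun p => ?_
      show (if CS.cls (add p.1.1 p.1.2) = CS.cls x₀ then (1 : K) else 0) = 0
      rw [hcls p, if_neg hx₀]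
  · -- an entry of the echelon basis
    by_cases hx₀ : CS.cls (add x y) = CS.cls x₀
    swap
    · refine hconst 0 (constVal S).zero_mem fun p => ?_
      show (if CS.cls (add p.1.1 p.1.2) = CS.cls x₀ then CS.M (add p.1.1 p.1.2) i b else 0) = 0
      rw [hcls p, if_neg hx₀]
    have hφ : ∀ p : ↥(C x ×ˢ C y), φ p = CS.M (add p.1.1 p.1.2) i b := by
      intro p
      show (if CS.cls (add p.1.1 p.1.2) = CS.cls x₀ then CS.M (add p.1.1 p.1.2) i b else 0) = _
      rw [hcls p, if_pos hx₀]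
    -- the family
    have hMx : ∀ p : ↥(C x ×ˢ C y),
        IsEch S CS.e₁ (CS.B₁ - CS.E (inc p.1.1)) (CS.J (CS.cls (inc x))) (CS.M (inc p.1.1)) := by
      intro p
      have h1 := CS.hM (inc p.1.1)
      have h2 : Finsupp.mapDomain S.r (CS.E (inc p.1.1)) = CS.cls (inc x) := p.2.1
      rwa [h2] at h1
    have hMy : ∀ p : ↥(C x ×ˢ C y),
        IsEch S CS.e₁ (CS.B₁ - CS.E (inc p.1.2)) (CS.J (CS.cls (inc y))) (CS.M (inc p.1.2)) := by
      intro p
      have h1 := CS.hM (inc p.1.2)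
      have h2 : Finsupp.mapDomain S.r (CS.E (inc p.1.2)) = CS.cls (inc y) := p.2.2
      rwa [h2] at h1
    have hMz : ∀ p : ↥(C x ×ˢ C y),
        IsEch S CS.e₁ (CS.B₁ - CS.E (add p.1.1 p.1.2)) (CS.J (CS.cls (add x y)))
          (CS.M (add p.1.1 p.1.2)) := by
      intro p
      have h1 := CS.hM (add p.1.1 p.1.2)
      have h2 : Finsupp.mapDomain S.r (CS.E (add p.1.1 p.1.2)) = CS.cls (add x y) := hcls p
      rwa [h2] at h1
    obtain ⟨D, N, hD, hN, hDu, hDN⟩ := hFam K F k F' S hFF hFF' CS.g CS.c CS.hc CS.hR CS.hR'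
      CS.semi CS.B₁ CS.B₂ CS.E₀ CS.hB₁ CS.hB₂ CS.hE₀ CS.degE₀ CS.n₁ CS.n₂₁ CS.n₂ CS.n₃ CS.n₄
      CS.e₁ CS.e₂₁ CS.e₂ CS.e₃ CS.e₄ CS.he₁ CS.he₂₁ CS.he₂ CS.he₃ CS.he₄
      ↥(C x ×ˢ C y) (fun p => CS.E (inc p.1.1)) (fun p => CS.E (inc p.1.2))
      (fun p => CS.E (add p.1.1 p.1.2)) (CS.cls (inc x)) (CS.cls (inc y)) (CS.cls (add x y))
      (fun p => ⟨(CS.hE _).1, (CS.hE _).2, p.2.1⟩)
      (fun p => ⟨(CS.hE _).1, (CS.hE _).2, p.2.2⟩)
      (fun p => ⟨(CS.hE _).1, (CS.hE _).2, hcls p⟩)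
      (fun p => exists_principal_add CS (inc p.1.1) (inc p.1.2) (add p.1.1 p.1.2) rfl)
      (finrank_cls_add CS hRL hFF hFF' (inc x) (inc y) (add x y) rfl)
      CS.d (CS.J (CS.cls (inc x))) (CS.J (CS.cls (inc y))) (CS.J (CS.cls (add x y)))
      (fun p => CS.M (inc p.1.1)) (fun p => CS.M (inc p.1.2))
      (fun p => CS.M (add p.1.1 p.1.2)) hMx hMy hMz i b
    -- entries of `Mx`, `My` as elements of `pairRing`
    have hx : ∀ i' b', ∃ f' ∈ pairRing (constVal S).toSubring h,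
        ∀ p : ↥(C x ×ˢ C y), f' p.1 = CS.M (inc p.1.1) i' b' := by
      intro i' b'
      refine ⟨fun q => h (Sum.inr (inc x, i', b')) q.1, H18.fst_mem_pairRing' h _, fun p => ?_⟩
      show h (Sum.inr (inc x, i', b')) p.1.1 = _
      rw [hh, gen_eq_gen0]
      show (if CS.cls (inc p.1.1) = CS.cls (inc x) then CS.M (inc p.1.1) i' b' else 0) = _
      rw [if_pos (show CS.cls (inc p.1.1) = CS.cls (inc x) from p.2.1)]
    have hy : ∀ i' b', ∃ f' ∈ pairRing (constVal S).toSubring h,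
        ∀ p : ↥(C x ×ˢ C y), f' p.1 = CS.M (inc p.1.2) i' b' := by
      intro i' b'
      refine ⟨fun q => h (Sum.inr (inc y, i', b')) q.2, H18.snd_mem_pairRing' h _, fun p => ?_⟩
      show h (Sum.inr (inc y, i', b')) p.1.2 = _
      rw [hh, gen_eq_gen0]
      show (if CS.cls (inc p.1.2) = CS.cls (inc y) then CS.M (inc p.1.2) i' b' else 0) = _
      rw [if_pos (show CS.cls (inc p.1.2) = CS.cls (inc y) from p.2.2)]
    obtain ⟨D', hD', hDD'⟩ := exists_pair_of_mem_famRing (constVal S) h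
      (fun p : ↥(C x ×ˢ C y) => p.1) _ _ hx hy D hD
    obtain ⟨N', hN', hNN'⟩ := exists_pair_of_mem_famRing (constVal S) h
      (fun p : ↥(C x ×ˢ C y) => p.1) _ _ hx hy N hN
    refine ⟨N', hN', D', hD', fun s => ?_, fun s => ?_⟩
    · have h1 : D' s.1 = D s := hDD' s
      show (constVal S).valuation (D' s.1) = 1
      rw [h1]
      refine val_eq_one_of_inv_mem _ ?_ (hDu s).1 (hDu s).2
      rw [← h1]
      exact H18.pairRing_val_mem' h hA hD' _
    · show D' s.1 * φ s = N' s.1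
      rw [hDD' s, hNN' s, hφ s]
      exact hDN s

end Fermat.Agent.FL.H40
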