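import Fermat.Agent.FL.H60_Rep

/-!
# G-FL (S19), package RED-REP (helper60), part 2: `Stmt_ILift`

Every effective divisor of the reduced field is the reduction of an effective divisor fixed by
the inertia group.

* `exists_fixed_place` : every place `Q` of the reduced field is the reduction of an
  inertia-fixed place.  If `Q ≠ r(Pinf)`: choose `t ∈ L~(b r(Pinf) - Q)` with a simple zero at `Q`
  (FF-BPF), write it in the reduced rational frame, lift the coefficients to inertia-fixed
  integral constants (UNR); the lift `T` is inertia-fixed, regular on the fibre of `Q`, and its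
  unique zero in the fibre of `Q` is an inertia-fixed place.
* `stmt_ILift`.
-/

set_option autoImplicit false
set_option linter.style.haveILetI false
set_option linter.unusedSectionVars false

noncomputable section

open AlgebraicCurve

attribute [local instance] Classical.propDecidable

namespace Fermat.Agent.FL.H60

open Fermat.Agent.RED Fermat.Agent.RED.H17

local notation "L" => riemannRochSpace

section

variable {K F k F' : Type} [Field K] [Field F] [Algebra K F] [Field k] [Field F']
  [Algebra k F'] (S : RedSetup K F k F') {Γ : Type} [Group Γ] (G : GalRed S Γ)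

/-- Every place of the reduced field is the reduction of an inertia-fixed place. -/
theorem exists_fixed_place [IsAlgClosed K] [IsAlgClosed k] (hFF : IsFF K F) (hFF' : IsFF k F')
    (hU : HasUnrConst S G) (hFR : HasRatFrames S G) (Q : Place k F') :
    ∃ P : Place K F, S.r P = Q ∧ ∀ σ ∈ G.I, G.act σ • P = P := by
  have H := ffHyp_of_isFF hFF
  have H' := ffHyp_of_isFF hFF'
  obtain ⟨Pinf, hfix, b₀, hb⟩ := hFR
  by_cases hQ : Q = S.r Pinf
  · exact ⟨Pinf, hQ.symm, fun σ _ => hfix σ⟩
  obtain ⟨g', c', hR'⟩ := H42.stmt_FFR_riemann k F' hFF'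
  have hRm : IsRiemann k F' g' c' := fun D => hR' D
  set b : ℕ := max b₀ (c' + 2).toNat with hbdef
  have hb0 : b₀ ≤ b := le_max_left _ _
  have hbc : c' + 2 ≤ (b : ℤ) := by
    have h1 : (c' + 2).toNat ≤ b := le_max_right _ _
    have h2 : c' + 2 ≤ ((c' + 2).toNat : ℤ) := Int.self_le_toNat _
    have h3 : (((c' + 2).toNat : ℕ) : ℤ) ≤ (b : ℤ) := by exact_mod_cast h1
    omega
  obtain ⟨n, e, he, heV, hefix, he'⟩ := hb b hb0
  -- a function on the reduced curve with a simple zero at `Q`
  set D' : Divisor k F' := Finsupp.single (S.r Pinf) (b : ℤ) - Finsupp.single Q 1 with hD'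
  have hdeg : c' + 1 ≤ Divisor.degree D' := by
    rw [hD', map_sub, Divisor.degree_single, Divisor.degree_single, H'.deg_one, H'.deg_one]
    simp only [Nat.cast_one, mul_one]
    omega
  obtain ⟨t, ht0, htL, htord⟩ := H2.stmt_BPF k F' hFF' g' c' hRm D' hdeg {Q}
  have hQ1 : Q.ord t = 1 := by
    rw [htord Q (Finset.mem_singleton_self Q), hD', Finsupp.sub_apply,
      Finsupp.single_apply, Finsupp.single_apply, if_neg (Ne.symm hQ), if_pos rfl]
    norm_num
  have htL' : t ∈ L (Finsupp.single (S.r Pinf) (b : ℤ) : Divisor k F') := by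
    refine L_mono' (fun v => ?_) htL
    rw [hD', Finsupp.sub_apply]
    have : (0 : ℤ) ≤ (Finsupp.single Q (1 : ℤ)) v := by
      rw [Finsupp.single_apply]
      split_ifs <;> norm_num
    omega
  -- coordinates of `t` in the reduced frame
  rw [← he'.2] at htL'
  obtain ⟨c₁, hc₁⟩ := (Submodule.mem_span_range_iff_exists_fun k).mp htL'
  -- lift the coordinates
  choose c hcA hcfix hcrd using fun i => hU (c₁ i)
  have hcV : ∀ i, algebraMap K F (c i) ∈ S.V := fun i => hcA i
  obtain ⟨T, hT⟩ : ∃ T : F, T = ∑ i, algebraMap K F (c i) * e i := ⟨_, rfl⟩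
  have hTV : T ∈ S.V := by
    rw [hT]
    exact Subring.sum_mem _ fun i _ => S.V.mul_mem _ _ (hcV i) (heV i)
  have hTrd : S.rd T = t := by
    have h1 : (⟨T, hTV⟩ : S.V) = ∑ i, (⟨algebraMap K F (c i), hcV i⟩ : S.V) * ⟨e i, heV i⟩ := by
      apply Subtype.ext
      show T = S.V.subtype (∑ i, (⟨algebraMap K F (c i), hcV i⟩ : S.V) * ⟨e i, heV i⟩)
      rw [hT, map_sum]
      refine Finset.sum_congr rfl fun i _ => ?_
      rw [map_mul]
      rfl
    rw [S.rd_of_mem hTV, h1, map_sum, ← hc₁]
    refine Finset.sum_congr rfl fun i _ => ?_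
    rw [map_mul, ← S.rd_of_mem (hcV i), ← S.rd_of_mem (heV i), hcrd i, Algebra.smul_def]
  have hGU : S.IsGU T := ⟨hTV, by rw [hTrd]; exact ht0⟩
  have hTL : T ∈ L (Finsupp.single Pinf (b : ℤ) : Divisor K F) := by
    rw [← he.2, hT]
    refine Submodule.sum_mem _ fun i _ => ?_
    rw [← Algebra.smul_def]
    exact Submodule.smul_mem _ _ (Submodule.subset_span (Set.mem_range_self i))
  -- `T` is regular on the fibre of `Q`
  have hreg : ∀ P, S.r P = Q → 0 ≤ P.ord T := by
    intro P hP
    have hne : Pinf ≠ P := by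
      rintro rfl
      exact hQ hP.symm
    have h1 := ord_ge_of_mem_L hTL hGU.ne_zero P
    rw [Finsupp.single_apply, if_neg hne] at h1
    omega
  obtain ⟨P, hPQ, hP1, huniq⟩ :=
    S.exists_unique_zero_of_ord_rd_eq_one H.principal hGU Q hreg (by rw [hTrd]; exact hQ1)
  refine ⟨P, hPQ, fun σ hσ => ?_⟩
  by_contra hne
  have hrσ : S.r (G.act σ • P) = Q := by
    rw [G.r_smul σ P, G.inertia σ hσ, one_smul, hPQ]
  have h0 := huniq _ hrσ hne
  have hσT : G.act σ • T = T := by
    rw [hT, Finset.smul_sum]
    refine Finset.sum_congr rfl fun i _ => ?_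
    rw [smul_mul', SemilinearAut.smul_algebraMap, hcfix i σ hσ, hefix σ i]
  have h1 := SemilinearAut.ord_smul (G.act σ) P T
  rw [hσT] at h1
  omega

end

/-- **I-LIFT.** -/
theorem stmt_ILift : Stmt_ILift := by
  intro K F k F' _ _ _ _ _ _ _ _ S hFF hFF' _ Γ _ G hU hFR E' hE'
  choose lift hlift hfixed using exists_fixed_place S G hFF hFF' hU hFR
  refine ⟨Finsupp.mapDomain lift E', ?_, ?_, fun σ hσ => ?_⟩
  · rw [Finsupp.le_def]
    intro v
    simp only [Finsupp.coe_zero, Pi.zero_apply]
    exact mapDomain_nonneg' lift (fun a => by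
      have := Finsupp.le_def.mp hE' a
      simpa using this) v
  · rw [← Finsupp.mapDomain_comp]
    have : S.r ∘ lift = id := funext hlift
    rw [this, Finsupp.mapDomain_id]
  · rw [SemilinearAut.divisor_smul_def, ← Finsupp.mapDomain_comp]
    congr 1
    funext Q
    exact hfixed Q σ hσ

end Fermat.Agent.FL.H60
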