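import Fermat.Agent.FL.H36_Asm
import Fermat.Agent.FL.H36_Setup
import Fermat.Agent.FL.H38_SubRed
import Fermat.Agent.FL.H46_EchUnique
import Fermat.Agent.FL.H60_Rep
import Fermat.Agent.FL.H60_ILift
import Fermat.Agent.FL.H40_Comul
import Fermat.Agent.FL.H2_Basic

/-!
# G-FL: the abstract main theorem, status (helper36)

`stmt_FLAbs_of_famAdd_dStab : Stmt_FamAdd → Stmt_DStab → Stmt_FLAbs`: everything except
FAM-ADD and DSTAB is proved.
-/

set_option autoImplicit false

noncomputable section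

namespace Fermat.Agent.FL.H36

open Fermat.Agent.FL

/-- **SETUP**, unconditional. -/
theorem stmt_Setup : Stmt_Setup :=
  stmt_Setup_of H38.stmt_Genus H60.stmt_ILift H60.stmt_Rep H46.stmt_EchUnique H38.stmt_EchInt

/-- The abstract main theorem from FAM-ADD and DSTAB. -/
theorem stmt_FLAbs_of_famAdd_dStab (hFam : Stmt_FamAdd) (hD : Stmt_DStab) : Stmt_FLAbs :=
  stmt_FLAbs_of stmt_Setup H2.stmt_Basic
    (H40.stmt_Comul_of hFam H60.stmt_RedLinEq H46.stmt_EchUnique) hD

end Fermat.Agent.FL.H36
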