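import Fermat.Agent.FL.H38_FrameInt
import Fermat.Agent.RED.H42_RiemannFinal
import Fermat.Agent.RED.H51_Basic

/-!
# G-FL (S19), package RED-FRAME, part 2 (helper38): GENUS and FRAME-LIFT

* `ffHyp_of_isFF`: the function field toolkit `FFHyp` for a function field of one variable over
  an algebraically closed field;
* `finrank_le_finrank_red`: semicontinuity `l(D) ≤ l~(r_* D)`;
* `stmt_Genus : Stmt_Genus`;
* `exists_lift_frame`: if `l~(r_* D) ≤ l(D)`, every frame of `L~(r_* D)` is the reduction of a
  frame of `L(D)` of Gauss-integral functions;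
* `stmt_FrameLift : Stmt_FrameLift`.
-/

set_option autoImplicit false

noncomputable section

open AlgebraicCurve

namespace Fermat.Agent.FL.H38

open Fermat.Agent.FL Fermat.Agent.RED Fermat.Agent.RED.H17

local notation "L" => riemannRochSpace

theorem ffHyp_of_isFF {k E : Type} [Field k] [Field E] [Algebra k E] [IsAlgClosed k]
    (hFF : IsFF k E) : FFHyp k E :=
  { principal := H42.stmt_FFB_principal k E hFF
    deg_one := H51.stmt_FFB_deg k E hFF
    finite := H42.stmt_FFR_finite k E hFF
    le := fun D => (H42.stmt_FFR_le k E hFF D).2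
    transc := by
      obtain ⟨x, hx, -⟩ := hFF
      exact ⟨x, hx⟩ }

variable {K F k F' : Type} [Field K] [Field F] [Algebra K F] [Field k] [Field F']
  [Algebra k F'] (S : RedSetup K F k F')

/-- Semicontinuity: `l(D) ≤ l~(r_* D)`. -/
theorem finrank_le_finrank_red (H : FFHyp K F) (H' : FFHyp k F') [Infinite k]
    (D : Divisor K F) :
    Module.finrank K (L D) ≤ Module.finrank k (L (Finsupp.mapDomain S.r D)) := by
  have h1 := S.le_finrank_Rsub H H' _ D rfl
  have : Module.Finite k (L (Finsupp.mapDomain S.r D)) := H'.finite _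
  have h2 := Submodule.finrank_mono (S.Rsub_le H.principal D)
  exact h1.trans h2

/-- **GENUS.** -/
theorem stmt_Genus : Stmt_Genus := by
  intro K F k F' _ _ _ _ _ _ _ _ S hFF hFF' hG
  have H := ffHyp_of_isFF hFF
  have H' := ffHyp_of_isFF hFF'
  have : Infinite k := IsAlgClosed.instInfinite
  have : Infinite K := IsAlgClosed.instInfinite
  obtain ⟨g, c₁, hR⟩ := H42.stmt_FFR_riemann K F hFF
  obtain ⟨g', c₂, hR'⟩ := H42.stmt_FFR_riemann k F' hFF'
  obtain ⟨c₀, hc₀⟩ := hG
  obtain ⟨P, -⟩ := H.exists_notMem ∅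
  obtain ⟨c, hc⟩ : ∃ c : ℤ, c = max (max c₀ c₁) (max c₂ 0) := ⟨_, rfl⟩
  have hc0 : c₀ ≤ c := by omega
  have hc1 : c₁ ≤ c := by omega
  have hc2 : c₂ ≤ c := by omega
  have hc3 : 0 ≤ c := by omega
  have hdegr : ∀ D : Divisor K F,
      Divisor.degree (Finsupp.mapDomain S.r D) = Divisor.degree D :=
    fun D => degree_mapDomain H.deg_one H'.deg_one S.r D
  have hsemi : ∀ D : Divisor K F, Module.finrank K (L D) ≤
      Module.finrank k (L (Finsupp.mapDomain S.r D)) :=
    fun D => finrank_le_finrank_red S H H' D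
  have heq : ∀ D : Divisor K F, c ≤ Divisor.degree D →
      Module.finrank k (L (Finsupp.mapDomain S.r D)) = Module.finrank K (L D) :=
    fun D hD => le_antisymm (hc₀ D (hc0.trans hD)) (hsemi D)
  -- the genera agree
  have hgg : g' = g := by
    have hdeg : Divisor.degree (Finsupp.single P c : Divisor K F) = c := by
      rw [Divisor.degree_single, H.deg_one, Nat.cast_one, mul_one]
    have h1 := (hR (Finsupp.single P c)).2 (by rw [hdeg]; exact hc1)
    have h2 := (hR' (Finsupp.mapDomain S.r (Finsupp.single P c))).2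
      (by rw [hdegr, hdeg]; exact hc2)
    have h3 := heq (Finsupp.single P c) (by rw [hdeg])
    rw [hdegr, hdeg] at h2
    rw [hdeg] at h1
    rw [h3] at h2
    omega
  subst hgg
  refine ⟨g', c, hc3, ?_, ?_, hsemi, heq⟩
  · intro D
    exact ⟨(hR D).1, fun hD => (hR D).2 (hc1.trans hD)⟩
  · intro D
    exact ⟨(hR' D).1, fun hD => (hR' D).2 (hc2.trans hD)⟩

/-- If `l~(r_* D) ≤ l(D)`, every frame of `L~(r_* D)` is the reduction of a frame of `L(D)`
consisting of Gauss-integral functions. -/
theorem exists_lift_frame (H : FFHyp K F) (H' : FFHyp k F') [Infinite k] {D : Divisor K F}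
    (hle : Module.finrank k (L (Finsupp.mapDomain S.r D)) ≤ Module.finrank K (L D))
    {κ : Type} [Fintype κ] (y : κ → F') (hy : IsFrameOf y (Finsupp.mapDomain S.r D)) :
    ∃ f : κ → F, (∀ b, f b ∈ S.V) ∧ (∀ b, S.rd (f b) = y b) ∧ IsFrameOf f D := by
  have hmem : ∀ b, y b ∈ L (Finsupp.mapDomain S.r D) := fun b => by
    rw [← hy.2]
    exact Submodule.subset_span (Set.mem_range_self b)
  choose f hfV hfD hfy using fun b => S.exists_lift H H' hle (hmem b)
  have hrd : (fun b => S.rd (f b)) = y := funext hfy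
  have hli : LinearIndependent K f := linearIndependent_of_rd S f hfV (by rw [hrd]; exact hy.1)
  refine ⟨f, hfV, hfy, hli, ?_⟩
  have hcard : Fintype.card κ = Module.finrank k (L (Finsupp.mapDomain S.r D)) := by
    rw [← hy.2]
    exact (finrank_span_eq_card hy.1).symm
  have h1 : Submodule.span K (Set.range f) ≤ L D := by
    rw [Submodule.span_le]
    rintro _ ⟨b, rfl⟩
    exact hfD b
  have := H.finite D
  apply Submodule.eq_of_le_of_finrank_le h1
  rw [finrank_span_eq_card hli, hcard]
  exact finrank_le_finrank_red S H H' D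

/-- A basis of a finite dimensional subspace, as a frame. -/
theorem exists_frame {k E : Type} [Field k] [Field E] [Algebra k E] (W : Submodule k E)
    [Module.Finite k W] :
    ∃ y : Fin (Module.finrank k W) → E, LinearIndependent k y ∧
      Submodule.span k (Set.range y) = W := by
  let b := Module.finBasis k W
  refine ⟨fun i => (b i : E), ?_, ?_⟩
  · exact b.linearIndependent.map' W.subtype (Submodule.ker_subtype W)
  · have h1 : Set.range (fun i => (b i : E)) = W.subtype '' Set.range b := by
      rw [← Set.range_comp]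
      rfl
    rw [h1, ← Submodule.map_span, b.span_eq, Submodule.map_top, Submodule.range_subtype]

/-- **FRAME-LIFT.** -/
theorem stmt_FrameLift : Stmt_FrameLift := by
  intro K F k F' _ _ _ _ _ _ _ _ S hFF hFF' D hle
  have H := ffHyp_of_isFF hFF
  have H' := ffHyp_of_isFF hFF'
  have : Infinite k := IsAlgClosed.instInfinite
  have := H'.finite (Finsupp.mapDomain S.r D)
  obtain ⟨y, hy1, hy2⟩ := exists_frame (L (Finsupp.mapDomain S.r D))
  obtain ⟨f, hfV, hfy, hf⟩ := exists_lift_frame S H H' hle y ⟨hy1, hy2⟩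
  refine ⟨_, f, hf, hfV, ?_⟩
  rw [funext hfy]
  exact ⟨hy1, hy2⟩

end Fermat.Agent.FL.H38
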