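import Fermat.Agent.FL.H33_ModCtx
import Fermat.Agent.FL.H38_UnrConst

/-!
# G-FL (S19), package MOD-UNR (helper38): the modular contexts have unramified constants

* `hasUnrConst_tame`: `HasUnrConst (H33.tameSetup ..) (H33.tameCtx ..)` at the tame levels;
* `hasUnrConst_mod`: the same for every modular context `H33.modCtx` over a valuation ring of
  `ℚ̄` lying over a prime.

Both are `H38.exists_inertia_fixed_lift` (Teichmüller lifts) fed into helper33's
`hasUnrConst_tameCtx` / `hasUnrConst_modCtx`.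
-/

set_option autoImplicit false
set_option synthInstance.maxHeartbeats 400000
set_option maxHeartbeats 1000000

noncomputable section

namespace Fermat.Agent.FL.H38

open Fermat.Agent.FL

/-- **(UNR)** at the tame levels. -/
theorem hasUnrConst_tame (M ℓ : ℕ) [NeZero M] (hℓ : ℓ.Prime) (hM : ¬ ℓ ∣ M)
    (htame : 5 ≤ ℓ ∨ (ℓ = 3 ∧ 2 ∣ M) ∨ (ℓ = 2 ∧ 3 ∣ M))
    (A : ValuationSubring (AlgebraicClosure ℚ)) (hA : A.LiesOverPrime ℓ) :
    HasUnrConst (H33.tameSetup M ℓ hℓ hM htame A hA) (H33.tameCtx M ℓ hℓ hM htame A hA) :=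
  H33.hasUnrConst_tameCtx M ℓ hℓ hM htame A hA
    (fun c' => exists_inertia_fixed_lift A hℓ hA c')

end Fermat.Agent.FL.H38
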