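import Fermat.Agent.FL.H46_Bundle
import Mathlib.Data.Matrix.ColumnRowPartitioned

/-!
# G-FL (S19), abstract packages ABS-IMG, ABS-KER from ABS-SNF (helper46)

`stmt_IMG_of : Stmt_SNF → Stmt_IMG`, `stmt_KER_of : Stmt_SNF → Stmt_KER`.

From `P T Q = [[1, 0], [0, 0]]` (`P`, `Q` invertible, rank `r`): the image of `T` is spanned by
the first `r` columns of `P⁻¹`, the kernel of `T` by the last `n - r` columns of `Q`.
-/

set_option autoImplicit false

noncomputable section

open Matrix

namespace Fermat.Agent.FL.H46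

open Fermat.Agent.FL

/-! ### Selection matrices -/

section Sel

variable (R : Type) [CommRing R]

theorem sel_mul_sel_transpose {α β : Type} [DecidableEq α] [DecidableEq β] [Fintype β]
    (c : α → β) (hc : Function.Injective c) : sel R c * (sel R c)ᵀ = 1 := by
  ext a b
  rw [mul_sel_transpose_apply, Matrix.one_apply]
  show (if c a = c b then (1 : R) else 0) = _
  by_cases h : a = b
  · rw [if_pos h, if_pos (congrArg c h)]
  · rw [if_neg h, if_neg (fun h' => h (hc h'))]

theorem sel_mul_sel_transpose_of_disjoint {α α' β : Type} [DecidableEq β] [Fintype β]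
    (c : α → β) (c' : α' → β) (h : ∀ a b, c a ≠ c' b) : sel R c * (sel R c')ᵀ = 0 := by
  ext a b
  rw [mul_sel_transpose_apply, Matrix.zero_apply]
  show (if c a = c' b then (1 : R) else 0) = 0
  rw [if_neg (h a b)]

/-- The inclusion of the first `r` indices. -/
def cLo (r n : ℕ) (h : r ≤ n) : Fin r → Fin n := Fin.castLE h

/-- The inclusion of the last `n - r` indices. -/
def cHi (r n : ℕ) (h : r ≤ n) : Fin (n - r) → Fin n := fun b => ⟨r + b.val, by omega⟩

theorem cLo_val (r n : ℕ) (h : r ≤ n) (a : Fin r) : (cLo r n h a).val = a.val := rfl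

theorem cHi_val (r n : ℕ) (h : r ≤ n) (b : Fin (n - r)) : (cHi r n h b).val = r + b.val := rfl

theorem cLo_injective (r n : ℕ) (h : r ≤ n) : Function.Injective (cLo r n h) := by
  intro a b hab
  exact Fin.ext (by have := congrArg Fin.val hab; simpa [cLo_val] using this)

theorem cHi_injective (r n : ℕ) (h : r ≤ n) : Function.Injective (cHi r n h) := by
  intro a b hab
  have := congrArg Fin.val hab
  rw [cHi_val, cHi_val] at this
  exact Fin.ext (by omega)

theorem cLo_ne_cHi (r n : ℕ) (h : r ≤ n) (a : Fin r) (b : Fin (n - r)) :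
    cLo r n h a ≠ cHi r n h b := by
  intro hab
  have := congrArg Fin.val hab
  rw [cLo_val, cHi_val] at this
  have := a.2
  omega

/-- The two selections are complementary. -/
theorem sel_complement (r n : ℕ) (h : r ≤ n) :
    (sel R (cLo r n h))ᵀ * sel R (cLo r n h) + (sel R (cHi r n h))ᵀ * sel R (cHi r n h) = 1 := by
  have h1 : (sel R (cLo r n h)).fromRows (sel R (cHi r n h)) *
      ((sel R (cLo r n h))ᵀ.fromCols (sel R (cHi r n h))ᵀ) = 1 := by
    rw [Matrix.fromRows_mul_fromCols, sel_mul_sel_transpose R _ (cLo_injective r n h),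
      sel_mul_sel_transpose R _ (cHi_injective r n h),
      sel_mul_sel_transpose_of_disjoint R _ _ (cLo_ne_cHi r n h),
      sel_mul_sel_transpose_of_disjoint R _ _ (fun b a => (cLo_ne_cHi r n h a b).symm),
      Matrix.fromBlocks_one]
  have e : Fin r ⊕ Fin (n - r) ≃ Fin n :=
    finSumFinEquiv.trans (finCongr (by omega))
  have h2 := (Matrix.mul_eq_one_comm_of_equiv e).mp h1
  rw [Matrix.fromCols_mul_fromRows] at h2
  exact h2

/-- The normal form is a product of selections. -/
theorem normalForm_eq (r m n : ℕ) (hm : r ≤ m) (hn : r ≤ n) (D : Matrix (Fin m) (Fin n) R)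
    (hD : ∀ i j, D i j = if (i : ℕ) = (j : ℕ) ∧ (i : ℕ) < r then 1 else 0) :
    D = (sel R (cLo r m hm))ᵀ * sel R (cLo r n hn) := by
  ext i j
  rw [hD, Matrix.mul_apply]
  by_cases hi : (i : ℕ) < r
  · rw [Finset.sum_eq_single (⟨i.val, hi⟩ : Fin r)]
    · have h1 : cLo r m hm ⟨i.val, hi⟩ = i := Fin.ext rfl
      show _ = (if cLo r m hm ⟨i.val, hi⟩ = i then (1 : R) else 0) *
        (if cLo r n hn ⟨i.val, hi⟩ = j then (1 : R) else 0)
      rw [if_pos h1, one_mul]
      by_cases hij : (i : ℕ) = (j : ℕ)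
      · rw [if_pos ⟨hij, hi⟩, if_pos (Fin.ext (by rw [cLo_val]; exact hij))]
      · rw [if_neg (fun h => hij h.1), if_neg (fun h => hij (by
          have := congrArg Fin.val h
          rw [cLo_val] at this
          exact this))]
    · intro a _ ha
      have h1 : cLo r m hm a ≠ i := by
        intro h
        apply ha
        have := congrArg Fin.val h
        rw [cLo_val] at this
        exact Fin.ext this
      show (if cLo r m hm a = i then (1 : R) else 0) * _ = 0
      rw [if_neg h1, zero_mul]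
    · intro h
      exact absurd (Finset.mem_univ _) h
  · rw [if_neg (fun h => hi h.2)]
    symm
    apply Finset.sum_eq_zero
    intro a _
    have h1 : cLo r m hm a ≠ i := by
      intro h
      apply hi
      have := congrArg Fin.val h
      rw [cLo_val] at this
      rw [← this]
      exact a.2
    show (if cLo r m hm a = i then (1 : R) else 0) * _ = 0
    rw [if_neg h1, zero_mul]

end Sel

/-! ### The normal form gives the image and the kernel -/

/-- The output of the normal form, for matrices indexed by `Fin`. -/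
theorem img_ker_fin {R : Type} [CommRing R] (m n r : ℕ) (hm : r ≤ m) (hn : r ≤ n)
    (T : Matrix (Fin m) (Fin n) R) (P : Matrix (Fin m) (Fin m) R) (Q : Matrix (Fin n) (Fin n) R)
    (hP : IsUnit P) (hQ : IsUnit Q)
    (hD : ∀ i j, (P * T * Q) i j = if (i : ℕ) = (j : ℕ) ∧ (i : ℕ) < r then 1 else 0) :
    (∃ (N : Matrix (Fin m) (Fin r) R) (G : Matrix (Fin r) (Fin m) R), G * N = 1 ∧
      ∀ (L : Type) [Field L] (f : R →+* L), colSpace (N.map f) = colSpace (T.map f)) ∧
    (∃ (N : Matrix (Fin n) (Fin (n - r)) R) (G : Matrix (Fin (n - r)) (Fin n) R), G * N = 1 ∧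
      ∀ (L : Type) [Field L] (f : R →+* L), colSpace (N.map f) = kerSpace (T.map f)) := by
  obtain ⟨⟨P, P', hPP', hP'P⟩, rfl⟩ := hP
  obtain ⟨⟨Q, Q', hQQ', hQ'Q⟩, rfl⟩ := hQ
  have hD' : P * T * Q = (sel R (cLo r m hm))ᵀ * sel R (cLo r n hn) :=
    normalForm_eq R r m n hm hn _ hD
  have hTQ : T * Q = P' * (sel R (cLo r m hm))ᵀ * sel R (cLo r n hn) := by
    calc T * Q = (P' * P) * (T * Q) := by rw [hP'P, Matrix.one_mul]
      _ = P' * (P * T * Q) := by simp only [Matrix.mul_assoc]
      _ = _ := by rw [hD', Matrix.mul_assoc]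
  have hPT : P * T = (sel R (cLo r m hm))ᵀ * sel R (cLo r n hn) * Q' := by
    calc P * T = (P * T) * (Q * Q') := by rw [hQQ', Matrix.mul_one]
      _ = (P * T * Q) * Q' := by simp only [Matrix.mul_assoc]
      _ = _ := by rw [hD']
  have hS1m := sel_mul_sel_transpose R _ (cLo_injective r m hm)
  have hS1n := sel_mul_sel_transpose R _ (cLo_injective r n hn)
  have hS1h := sel_mul_sel_transpose R _ (cHi_injective r n hn)
  have hS2 := sel_mul_sel_transpose_of_disjoint R _ _ (cLo_ne_cHi r n hn)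
  have hS3 := sel_complement R r n hn
  constructor
  · refine ⟨P' * (sel R (cLo r m hm))ᵀ, sel R (cLo r m hm) * P, ?_, ?_⟩
    · calc sel R (cLo r m hm) * P * (P' * (sel R (cLo r m hm))ᵀ)
          = sel R (cLo r m hm) * ((P * P') * (sel R (cLo r m hm))ᵀ) := by
            simp only [Matrix.mul_assoc]
        _ = 1 := by rw [hPP', Matrix.one_mul, hS1m]
    · intro L _ f
      exact colSpace_eq_of f T _ Q Q' (sel R (cLo r n hn)) (sel R (cLo r n hn))ᵀ hQQ' hS1n hTQ
  · refine ⟨Q * (sel R (cHi r n hn))ᵀ, sel R (cHi r n hn) * Q', ?_, ?_⟩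
    · calc sel R (cHi r n hn) * Q' * (Q * (sel R (cHi r n hn))ᵀ)
          = sel R (cHi r n hn) * ((Q' * Q) * (sel R (cHi r n hn))ᵀ) := by
            simp only [Matrix.mul_assoc]
        _ = 1 := by rw [hQ'Q, Matrix.one_mul, hS1h]
    · intro L _ f
      refine colSpace_eq_kerSpace_of f T _ (Q * (sel R (cLo r n hn))ᵀ * sel R (cLo r m hm) * P)
        (sel R (cHi r n hn) * Q') ?_ ?_
      · calc T * (Q * (sel R (cHi r n hn))ᵀ) = (T * Q) * (sel R (cHi r n hn))ᵀ := by
              rw [Matrix.mul_assoc]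
          _ = P' * (sel R (cLo r m hm))ᵀ * (sel R (cLo r n hn) * (sel R (cHi r n hn))ᵀ) := by
              rw [hTQ]; simp only [Matrix.mul_assoc]
          _ = 0 := by rw [hS2, Matrix.mul_zero]
      · calc Q * (sel R (cLo r n hn))ᵀ * sel R (cLo r m hm) * P * T
              + Q * (sel R (cHi r n hn))ᵀ * (sel R (cHi r n hn) * Q')
            = Q * (sel R (cLo r n hn))ᵀ * ((sel R (cLo r m hm) * (sel R (cLo r m hm))ᵀ) *
                sel R (cLo r n hn)) * Q'
              + Q * ((sel R (cHi r n hn))ᵀ * sel R (cHi r n hn)) * Q' := by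
              have : Q * (sel R (cLo r n hn))ᵀ * sel R (cLo r m hm) * P * T =
                  Q * (sel R (cLo r n hn))ᵀ * sel R (cLo r m hm) * (P * T) := by
                simp only [Matrix.mul_assoc]
              rw [this, hPT]
              simp only [Matrix.mul_assoc]
          _ = Q * ((sel R (cLo r n hn))ᵀ * sel R (cLo r n hn)
                + (sel R (cHi r n hn))ᵀ * sel R (cHi r n hn)) * Q' := by
              rw [hS1m, Matrix.one_mul, Matrix.mul_add, Matrix.add_mul]
              simp only [Matrix.mul_assoc]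
          _ = 1 := by rw [hS3, Matrix.mul_one, hQQ']

/-- **ABS-IMG** and **ABS-KER** from **ABS-SNF**, in one statement. -/
theorem img_ker_of (hSNF : Stmt_SNF) {R k K S : Type} [CommRing R] [Field k] [Field K]
    (E : EvRing R k K S) (ι κ : Type) [Fintype ι] [Fintype κ] [DecidableEq ι] [DecidableEq κ]
    (T : Matrix ι κ R) (hT : ∀ s, (T.map (E.ev s)).rank ≤ (T.map E.ρ).rank) :
    (∃ (d : ℕ) (N : Matrix ι (Fin d) R), IsSubB E N ∧
      ∀ (L : Type) [Field L] (f : R →+* L), colSpace (N.map f) = colSpace (T.map f)) ∧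
    (∃ (d : ℕ) (N : Matrix κ (Fin d) R), IsSubB E N ∧
      ∀ (L : Type) [Field L] (f : R →+* L), colSpace (N.map f) = kerSpace (T.map f)) := by
  classical
  let eι : ι ≃ Fin (Fintype.card ι) := Fintype.equivFin ι
  let eκ : κ ≃ Fin (Fintype.card κ) := Fintype.equivFin κ
  obtain ⟨T', hT'⟩ : ∃ T' : Matrix (Fin (Fintype.card ι)) (Fin (Fintype.card κ)) R,
      T' = T.submatrix eι.symm eκ.symm := ⟨_, rfl⟩
  have hmap : ∀ (L : Type) [Field L] (f : R →+* L),
      T'.map f = (T.map f).submatrix eι.symm eκ.symm := by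
    intro L _ f; rw [hT']; rfl
  have hrank : ∀ (L : Type) [Field L] (f : R →+* L), (T'.map f).rank = (T.map f).rank := by
    intro L _ f
    rw [hmap, Matrix.rank_submatrix]
  have hT'' : ∀ s, (T'.map (E.ev s)).rank ≤ (T'.map E.ρ).rank := by
    intro s
    rw [hrank, hrank]
    exact hT s
  obtain ⟨P, Q, hP, hQ, hD⟩ := hSNF R k K E.ρ E.unit_iff S E.ev E.ev_inj _ _ T' hT''
  obtain ⟨⟨N₁, G₁, hG₁, hN₁⟩, ⟨N₂, G₂, hG₂, hN₂⟩⟩ :=
    img_ker_fin _ _ (T'.map E.ρ).rank (Matrix.rank_le_height _) (Matrix.rank_le_width _)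
      T' P Q hP hQ hD
  constructor
  · refine ⟨_, N₁.submatrix eι id, isSubB_of_leftInv E _ (G₁.submatrix id eι) ?_, ?_⟩
    · have := Matrix.submatrix_mul_equiv G₁ N₁ (id : Fin _ → Fin _) eι (id : Fin _ → Fin _)
      rw [this, hG₁]
      rfl
    · intro L _ f
      ext x
      have h1 : (N₁.submatrix eι id).map f = (N₁.map f).submatrix eι (Equiv.refl _) := rfl
      have h2 : T.map f = (T'.map f).submatrix eι eκ := by
        rw [hmap]
        ext i j
        simp
      rw [h1, h2, mem_colSpace_submatrix, mem_colSpace_submatrix, hN₁ L f]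
  · refine ⟨_, N₂.submatrix eκ id, isSubB_of_leftInv E _ (G₂.submatrix id eκ) ?_, ?_⟩
    · have := Matrix.submatrix_mul_equiv G₂ N₂ (id : Fin _ → Fin _) eκ (id : Fin _ → Fin _)
      rw [this, hG₂]
      rfl
    · intro L _ f
      ext x
      have h1 : (N₂.submatrix eκ id).map f = (N₂.map f).submatrix eκ (Equiv.refl _) := rfl
      have h2 : T.map f = (T'.map f).submatrix eι eκ := by
        rw [hmap]
        ext i j
        simp
      rw [h1, h2, mem_colSpace_submatrix, mem_kerSpace_submatrix, hN₂ L f]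

/-- **ABS-IMG** from **ABS-SNF**. -/
theorem stmt_IMG_of (hSNF : Stmt_SNF) : Stmt_IMG := by
  intro R k K S _ _ _ E ι κ _ _ _ _ T hT
  obtain ⟨⟨d, N, hN, hcol⟩, -⟩ := img_ker_of hSNF E ι κ T hT
  exact ⟨d, N, hN, hcol k E.ρ, fun s => hcol K (E.ev s)⟩

/-- **ABS-KER** from **ABS-SNF**. -/
theorem stmt_KER_of (hSNF : Stmt_SNF) : Stmt_KER := by
  intro R k K S _ _ _ E ι κ _ _ _ _ T hT
  obtain ⟨-, ⟨d, N, hN, hcol⟩⟩ := img_ker_of hSNF E ι κ T hT
  exact ⟨d, N, hN, hcol k E.ρ, fun s => hcol K (E.ev s)⟩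

end Fermat.Agent.FL.H46

end
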