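import Fermat.Agent.FL.Defs3
import Fermat.Agent.FL.H46_ImgKer
import Mathlib.Algebra.Module.Submodule.Bilinear

/-!
# G-FL (S19), abstract package ABS-ADD (helper46)

`stmt_AbsAdd_of : Stmt_SNF → Stmt_AbsAdd`: the seven steps of the addition chain over an
`EvRing`.

* `mulSpan t (colSpace A) (colSpace B) = colSpace (prodMat t A B)` (product matrix);
* `transp t (colSpace B) (kerSpace P) = kerSpace (trMat t B P)` (transporter matrix);
* image steps by `img_ker_of` (first part), kernel steps by `ann_strong` and `img_ker_of`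
  (second part); ranks from the dimension hypotheses.
-/

set_option autoImplicit false

noncomputable section

open Matrix

namespace Fermat.Agent.FL.H46

open Fermat.Agent.FL

/-! ### The bilinear map `bil` -/

section Bil

variable {L : Type} [Field L] {α β γ : Type} [Fintype α] [Fintype β]

/-- `bil t` as a bilinear map. -/
def bilin (t : α → β → γ → L) : (α → L) →ₗ[L] (β → L) →ₗ[L] (γ → L) :=
  LinearMap.mk₂ L (bil t)
    (fun u u' w => by
      funext l
      simp only [bil, Pi.add_apply, mul_add, add_mul, Finset.sum_add_distrib])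
    (fun r u w => by
      funext l
      simp only [bil, Pi.smul_apply, smul_eq_mul, Finset.mul_sum]
      refine Finset.sum_congr rfl fun i _ => Finset.sum_congr rfl fun j _ => ?_
      ring)
    (fun u w w' => by
      funext l
      simp only [bil, Pi.add_apply, mul_add, Finset.sum_add_distrib])
    (fun r u w => by
      funext l
      simp only [bil, Pi.smul_apply, smul_eq_mul, Finset.mul_sum]
      refine Finset.sum_congr rfl fun i _ => Finset.sum_congr rfl fun j _ => ?_
      ring)

theorem bilin_apply (t : α → β → γ → L) (u : α → L) (w : β → L) :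
    bilin t u w = bil t u w := rfl

theorem mulSpan_eq_map₂ (t : α → β → γ → L) (U : Submodule L (α → L))
    (W : Submodule L (β → L)) : mulSpan t U W = Submodule.map₂ (bilin t) U W := by
  rw [Submodule.map₂_eq_span_image2, mulSpan]
  congr 1
  ext v
  simp only [Set.mem_setOf_eq, Set.mem_image2, SetLike.mem_coe, bilin_apply]
  constructor
  · rintro ⟨u, hu, w, hw, rfl⟩
    exact ⟨u, hu, w, hw, rfl⟩
  · rintro ⟨u, hu, w, hw, rfl⟩
    exact ⟨u, hu, w, hw, rfl⟩

end Bil

/-! ### The matrices of the chain -/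

section Mats

variable {A : Type} [CommRing A] {α β γ κA κB ε : Type} [Fintype α] [Fintype β] [Fintype γ]

/-- The matrix of `u ↦ bil t u (B.col q)`. -/
def cMat (t : α → β → γ → A) (B : Matrix β κB A) (q : κB) : Matrix γ α A :=
  fun l i => ∑ j, t i j l * B j q

/-- The product matrix: its columns are the products of the columns of `M` and of `B`. -/
def prodMat (t : α → β → γ → A) (M : Matrix α κA A) (B : Matrix β κB A) :
    Matrix γ (κA × κB) A :=
  fun l pq => (cMat t B pq.2 * M) l pq.1

/-- The transporter matrix: its kernel is the transporter of the columns of `B` into the kernel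
of `P`. -/
def trMat (t : α → β → γ → A) (B : Matrix β κB A) (P : Matrix ε γ A) :
    Matrix (ε × κB) α A :=
  fun aq i => (P * cMat t B aq.2) aq.1 i

variable {L : Type} [Field L] (f : A →+* L)

theorem cMat_map (t : α → β → γ → A) (B : Matrix β κB A) (q : κB) :
    (cMat t B q).map f = cMat (fun i j l => f (t i j l)) (B.map f) q := by
  ext l i
  simp only [Matrix.map_apply, cMat, map_sum, map_mul]

theorem prodMat_map (t : α → β → γ → A) (M : Matrix α κA A) (B : Matrix β κB A) :
    (prodMat t M B).map f = prodMat (fun i j l => f (t i j l)) (M.map f) (B.map f) := by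
  ext l pq
  have h1 := congrFun (congrFun (map_mul' f (cMat t B pq.2) M) l) pq.1
  rw [cMat_map] at h1
  exact h1

theorem trMat_map (t : α → β → γ → A) (B : Matrix β κB A) (P : Matrix ε γ A) :
    (trMat t B P).map f = trMat (fun i j l => f (t i j l)) (B.map f) (P.map f) := by
  ext aq i
  have h1 := congrFun (congrFun (map_mul' f P (cMat t B aq.2)) aq.1) i
  rw [cMat_map] at h1
  exact h1

end Mats

section FieldMats

variable {L : Type} [Field L] {α β γ κA κB ε : Type} [Fintype α] [Fintype β] [Fintype γ]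
  [Fintype κA] [Fintype κB]

theorem cMat_mulVec (t : α → β → γ → L) (B : Matrix β κB L) (q : κB) (u : α → L) :
    cMat t B q *ᵥ u = bil t u (B.col q) := by
  funext l
  simp only [Matrix.mulVec, dotProduct, cMat, bil, Matrix.col_apply, Finset.sum_mul]
  refine Finset.sum_congr rfl fun i _ => Finset.sum_congr rfl fun j _ => ?_
  ring

theorem prodMat_col (t : α → β → γ → L) (M : Matrix α κA L) (B : Matrix β κB L)
    (pq : κA × κB) : (prodMat t M B).col pq = bil t (M.col pq.1) (B.col pq.2) := by
  rw [← cMat_mulVec]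
  funext l
  rfl

theorem colSpace_eq_span (M : Matrix α κA L) :
    colSpace M = Submodule.span L (Set.range M.col) :=
  Matrix.range_mulVecLin M

/-- The products of two column spaces span the column space of the product matrix. -/
theorem mulSpan_colSpace (t : α → β → γ → L) (M : Matrix α κA L) (B : Matrix β κB L) :
    mulSpan t (colSpace M) (colSpace B) = colSpace (prodMat t M B) := by
  rw [mulSpan_eq_map₂, colSpace_eq_span M, colSpace_eq_span B, Submodule.map₂_span_span,
    colSpace_eq_span]
  congr 1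
  ext v
  simp only [Set.mem_image2, Set.mem_range, bilin_apply]
  constructor
  · rintro ⟨_, ⟨p, rfl⟩, _, ⟨q, rfl⟩, rfl⟩
    exact ⟨(p, q), prodMat_col t M B (p, q)⟩
  · rintro ⟨pq, rfl⟩
    exact ⟨_, ⟨pq.1, rfl⟩, _, ⟨pq.2, rfl⟩, (prodMat_col t M B pq).symm⟩

theorem mem_transp_iff (t : α → β → γ → L) (W : Submodule L (β → L))
    (T : Submodule L (γ → L)) (u : α → L) :
    u ∈ transp t W T ↔ ∀ w ∈ W, bil t u w ∈ T := Iff.rfl

/-- The transporter of a column space into a kernel is the kernel of the transporter matrix. -/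
theorem transp_colSpace_kerSpace (t : α → β → γ → L) (B : Matrix β κB L) (P : Matrix ε γ L) :
    transp t (colSpace B) (kerSpace P) = kerSpace (trMat t B P) := by
  ext u
  rw [mem_transp_iff, mem_kerSpace_iff]
  have key : ∀ q : κB, P *ᵥ bil t u (B.col q) = fun a => (trMat t B P *ᵥ u) (a, q) := by
    intro q
    rw [← cMat_mulVec, Matrix.mulVec_mulVec]
    rfl
  constructor
  · intro h
    funext aq
    have h1 : B.col aq.2 ∈ colSpace B := by
      rw [colSpace_eq_span]
      exact Submodule.subset_span ⟨aq.2, rfl⟩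
    have h2 := (mem_kerSpace_iff P _).mp (h _ h1)
    rw [key] at h2
    exact congrFun h2 aq.1
  · intro h w hw
    have hle : colSpace B ≤ (kerSpace P).comap (bilin t u) := by
      rw [colSpace_eq_span, Submodule.span_le]
      rintro _ ⟨q, rfl⟩
      show bil t u (B.col q) ∈ kerSpace P
      rw [mem_kerSpace_iff, key]
      funext a
      exact congrFun h (a, q)
    exact hle hw

theorem kerSpace_fromRows (P₁ : Matrix ε α L) {ε' : Type} (P₂ : Matrix ε' α L) :
    kerSpace (P₁.fromRows P₂) = kerSpace P₁ ⊓ kerSpace P₂ := by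
  ext u
  rw [Submodule.mem_inf, mem_kerSpace_iff, mem_kerSpace_iff, mem_kerSpace_iff,
    Matrix.fromRows_mulVec]
  constructor
  · intro h
    constructor
    · funext a
      exact congrFun h (Sum.inl a)
    · funext a
      exact congrFun h (Sum.inr a)
  · rintro ⟨h1, h2⟩
    funext a
    rcases a with a | a
    · exact congrFun h1 a
    · exact congrFun h2 a

theorem colSpace_one [DecidableEq α] : colSpace (1 : Matrix α α L) = ⊤ := by
  rw [eq_top_iff]
  intro x _
  rw [mem_colSpace_iff]
  exact ⟨x, Matrix.one_mulVec x⟩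

theorem colSpace_single (z : α → L) :
    colSpace (fun (i : α) (_ : Fin 1) => z i : Matrix α (Fin 1) L) = Submodule.span L {z} := by
  rw [colSpace_eq_span]
  congr 1
  ext v
  simp only [Set.mem_range, Set.mem_singleton_iff]
  constructor
  · rintro ⟨_, rfl⟩
    rfl
  · rintro rfl
    exact ⟨0, rfl⟩

theorem rank_eq_finrank_colSpace {μ : Type} (M : Matrix μ α L) :
    M.rank = Module.finrank L (colSpace M) := rfl

theorem rank_add_finrank_kerSpace {μ : Type} (M : Matrix μ α L) :
    M.rank + Module.finrank L (kerSpace M) = Fintype.card α := by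
  have := LinearMap.finrank_range_add_finrank_ker M.mulVecLin
  rw [Module.finrank_fintype_fun_eq_card] at this
  exact this

end FieldMats

/-! ### Strong forms of the packages -/

section Strong

variable {R k K S : Type} [CommRing R] [Field k] [Field K] (E : EvRing R k K S)

/-- **ABS-ANN**, strong form: one matrix for all ring homomorphisms to fields. -/
theorem ann_strong {ι : Type} [Fintype ι] [DecidableEq ι] (d : ℕ) (N : Matrix ι (Fin d) R)
    (hN : IsSubB E N) :
    ∃ (e : ℕ) (P : Matrix (Fin e) ι R),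
      ∀ (L : Type) [Field L] (f : R →+* L), kerSpace (P.map f) = colSpace (N.map f) := by
  obtain ⟨j, hj⟩ := exists_chart d (N.map E.ρ) hN
  obtain ⟨M, V, V', hM, hMN, hVV', hV'V⟩ := exists_echelon E d N j hj
  have h1 : sel R j * M = 1 := by
    ext a b
    rw [sel_mul_apply, hM, Matrix.one_apply]
  obtain ⟨P₀, hP₀⟩ : ∃ P₀ : Matrix ι ι R, P₀ = 1 - M * sel R j := ⟨_, rfl⟩
  have h2 : P₀ * M = 0 := by
    rw [hP₀, Matrix.sub_mul, Matrix.one_mul, Matrix.mul_assoc, h1, Matrix.mul_one, sub_self]
  have h3 : P₀ + M * sel R j = 1 := by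
    rw [hP₀]; abel
  let eι : ι ≃ Fin (Fintype.card ι) := Fintype.equivFin ι
  refine ⟨Fintype.card ι, P₀.submatrix eι.symm id, ?_⟩
  intro L _ f
  have hA : (1 : Matrix ι ι R).submatrix id eι.symm * P₀.submatrix eι.symm id = P₀ := by
    have := Matrix.submatrix_mul_equiv (1 : Matrix ι ι R) P₀ (id : ι → ι) eι.symm (id : ι → ι)
    rw [this, Matrix.one_mul]
    rfl
  have hker := colSpace_eq_kerSpace_of f (P₀.submatrix eι.symm id) M
    ((1 : Matrix ι ι R).submatrix id eι.symm) (sel R j)
    (by
      have := Matrix.submatrix_mul_equiv P₀ M (eι.symm : Fin (Fintype.card ι) → ι)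
        (Equiv.refl ι) (id : Fin d → Fin d)
      have h5 : P₀.submatrix eι.symm id * M = (P₀ * M).submatrix eι.symm id := by
        rw [← this]; rfl
      rw [h5, h2]; rfl)
    (by rw [hA]; exact h3)
  rw [← hker, hMN, map_mul']
  exact colSpace_mul_rightInv _ _ (V'.map f) (by rw [← map_mul', hVV', map_one'])

/-- Image step: a family of subspaces which is the column space of a matrix over `R`, with
dimension at the points at most the dimension of the reduction, is a subbundle. -/
theorem img_step (hSNF : Stmt_SNF) {ι κ : Type} [Fintype ι] [Fintype κ] [DecidableEq ι]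
    [DecidableEq κ] (T : Matrix ι κ R)
    (h : ∀ s, Module.finrank K (colSpace (T.map (E.ev s))) ≤
      Module.finrank k (colSpace (T.map E.ρ))) :
    ∃ (d : ℕ) (N : Matrix ι (Fin d) R), IsSubB E N ∧
      ∀ (L : Type) [Field L] (f : R →+* L), colSpace (N.map f) = colSpace (T.map f) :=
  (img_ker_of hSNF E ι κ T h).1

/-- Kernel step: a family of subspaces which is the kernel of a matrix over `R`, with
dimension at the points at least the dimension of the reduction, is a subbundle. -/
theorem ker_step (hSNF : Stmt_SNF) {ι κ : Type} [Fintype ι] [Fintype κ] [DecidableEq ι]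
    [DecidableEq κ] (T : Matrix ι κ R)
    (h : ∀ s, Module.finrank k (kerSpace (T.map E.ρ)) ≤
      Module.finrank K (kerSpace (T.map (E.ev s)))) :
    ∃ (d : ℕ) (N : Matrix κ (Fin d) R), IsSubB E N ∧
      ∀ (L : Type) [Field L] (f : R →+* L), colSpace (N.map f) = kerSpace (T.map f) := by
  refine (img_ker_of hSNF E ι κ T ?_).2
  intro s
  have h1 := rank_add_finrank_kerSpace (T.map (E.ev s))
  have h2 := rank_add_finrank_kerSpace (T.map E.ρ)
  have h3 := h s
  omega

end Strong

/-! ### The chain -/

theorem fromRows_map' {A L : Type} [CommRing A] [Field L] (f : A →+* L) {ε ε' α : Type}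
    (P₁ : Matrix ε α A) (P₂ : Matrix ε' α A) :
    (P₁.fromRows P₂).map f = (P₁.map f).fromRows (P₂.map f) := by
  ext i j
  rcases i with i | i <;> rfl

/-- **ABS-ADD** from **ABS-SNF**. -/
theorem stmt_AbsAdd_of (hSNF : Stmt_SNF) : Stmt_AbsAdd := by
  intro R k K S _ _ _ E ι₁ ι₂₁ ι₂ ι₃ ι₄ _ _ _ _ _ _ _ _ _ _ dx dy dY dU a b c Nx Ny NY NU z
    hNx hNy hNY hNU h1 h2 h3 h4 h5 h6 h7
  classical
  -- the column of `z`
  obtain ⟨zc, hzc⟩ : ∃ zc : Matrix ι₃ (Fin 1) R, zc = fun i _ => z i := ⟨_, rfl⟩
  have hz : ∀ (L : Type) [Field L] (f : R →+* L),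
      Submodule.span L {fun i => f (z i)} = colSpace (zc.map f) := by
    intro L _ f
    rw [hzc]
    exact (colSpace_single (fun i => f (z i))).symm
  -- step 1: `W2`
  have e1 : ∀ (L : Type) [Field L] (f : R →+* L),
      (chainAt a b c Nx Ny NY NU z f).W2 =
        colSpace ((prodMat a Ny (1 : Matrix ι₂₁ ι₂₁ R)).map f) := by
    intro L _ f
    rw [prodMat_map, map_one', ← mulSpan_colSpace, colSpace_one]
    rfl
  obtain ⟨d2, N2, -, hN2⟩ := img_step E hSNF (prodMat a Ny (1 : Matrix ι₂₁ ι₂₁ R))
    (fun s => by rw [← e1, ← e1]; exact h1 s)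
  -- step 2: `P`
  have e2 : ∀ (L : Type) [Field L] (f : R →+* L),
      (chainAt a b c Nx Ny NY NU z f).P = colSpace ((prodMat b Nx N2).map f) := by
    intro L _ f
    rw [prodMat_map, ← mulSpan_colSpace, hN2, ← e1]
    rfl
  obtain ⟨d3, N3, -, hN3⟩ := img_step E hSNF (prodMat b Nx N2)
    (fun s => by rw [← e2, ← e2]; exact h2 s)
  -- step 3: `Yz`
  have e3 : ∀ (L : Type) [Field L] (f : R →+* L),
      (chainAt a b c Nx Ny NY NU z f).Yz = colSpace ((prodMat c NY zc).map f) := by
    intro L _ f
    rw [prodMat_map, ← mulSpan_colSpace, ← hz]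
    rfl
  obtain ⟨d4, N4, hN4s, hN4⟩ := img_step E hSNF (prodMat c NY zc)
    (fun s => by rw [← e3, ← e3]; exact h3 s)
  -- step 4: `Ys`
  obtain ⟨eY, PY, hPY⟩ := ann_strong E dY NY hNY
  obtain ⟨e4', P4, hP4⟩ := ann_strong E d4 N4 hN4s
  have e4 : ∀ (L : Type) [Field L] (f : R →+* L),
      (chainAt a b c Nx Ny NY NU z f).Ys =
        kerSpace ((PY.fromRows (trMat c N3 P4)).map f) := by
    intro L _ f
    rw [fromRows_map', kerSpace_fromRows, trMat_map, ← transp_colSpace_kerSpace, hPY, hP4,
      hN3, hN4, ← e2, ← e3]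
    rfl
  obtain ⟨d5, N5, -, hN5⟩ := ker_step E hSNF (PY.fromRows (trMat c N3 P4))
    (fun s => by rw [← e4, ← e4]; exact h4 s)
  -- step 5: `yP`
  have e5 : ∀ (L : Type) [Field L] (f : R →+* L),
      (chainAt a b c Nx Ny NY NU z f).yP = colSpace ((prodMat c N5 N3).map f) := by
    intro L _ f
    rw [prodMat_map, ← mulSpan_colSpace, hN5, hN3, ← e4, ← e2]
    rfl
  obtain ⟨d6, N6, hN6s, hN6⟩ := img_step E hSNF (prodMat c N5 N3)
    (fun s => by rw [← e5, ← e5]; exact h5 s)
  -- step 6: `Rr`
  obtain ⟨e6', P6, hP6⟩ := ann_strong E d6 N6 hN6s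
  have e6 : ∀ (L : Type) [Field L] (f : R →+* L),
      (chainAt a b c Nx Ny NY NU z f).Rr = kerSpace ((trMat c zc P6).map f) := by
    intro L _ f
    rw [trMat_map, ← transp_colSpace_kerSpace, hP6, hN6, ← e5, ← hz]
    rfl
  obtain ⟨d7, N7, hN7s, hN7⟩ := ker_step E hSNF (trMat c zc P6)
    (fun s => by rw [← e6, ← e6]; exact h6 s)
  -- step 7: `Z`
  obtain ⟨e7', P7, hP7⟩ := ann_strong E d7 N7 hN7s
  have e7 : ∀ (L : Type) [Field L] (f : R →+* L),
      (chainAt a b c Nx Ny NY NU z f).Z = kerSpace ((trMat b NU P7).map f) := by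
    intro L _ f
    rw [trMat_map, ← transp_colSpace_kerSpace, hP7, hN7, ← e6]
    rfl
  obtain ⟨d8, N8, hN8s, hN8⟩ := ker_step E hSNF (trMat b NU P7)
    (fun s => by rw [← e7, ← e7]; exact h7 s)
  exact ⟨d8, N8, hN8s, by rw [hN8, ← e7], fun s => by rw [hN8, ← e7]⟩

end Fermat.Agent.FL.H46

end
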