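import Fermat.Agent.FL.H46_AbsAdd
import Fermat.Agent.FL.H33_SNF

/-!
# G-FL (S19): the abstract packages ABS-IMG, ABS-KER, ABS-ADD, unconditionally (helper46)

`stmt_IMG : Stmt_IMG`, `stmt_KER : Stmt_KER`, `stmt_AbsAdd : Stmt_AbsAdd`, from helper33's
`stmt_SNF`.
-/

set_option autoImplicit false

namespace Fermat.Agent.FL.H46

open Fermat.Agent.FL

/-- **ABS-IMG.** -/
theorem stmt_IMG : Stmt_IMG := stmt_IMG_of H33.stmt_SNF

/-- **ABS-KER.** -/
theorem stmt_KER : Stmt_KER := stmt_KER_of H33.stmt_SNF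

/-- **ABS-ADD.** -/
theorem stmt_AbsAdd : Stmt_AbsAdd := stmt_AbsAdd_of H33.stmt_SNF

end Fermat.Agent.FL.H46
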