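import Fermat.Agent.FL.H46_FamAux
import Fermat.Agent.FL.H46_Final

/-!
# G-FL, package FAM-ADD (helper46), part 5: `Stmt_FamAdd`

`stmt_FamAdd_of : Stmt_FrameInt → Stmt_SubRed → Stmt_FamAdd`.

The local ring of the class `univ` of `famRing A Mx My` is an `EvRing`; the chain over it has the
ranks of `Stmt_ChainCoord` at every point (on `F`) and modulo the maximal ideal (on `F'`);
`stmt_AbsAdd` gives a subbundle, `stmt_ECH` its echelon basis in the chart `Jz`, which is `Mz`
at every point by the uniqueness of echelon bases.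
-/

set_option autoImplicit false
set_option linter.style.haveILetI false
set_option linter.unusedSectionVars false
set_option linter.unusedVariables false
set_option maxHeartbeats 1600000

noncomputable section

open AlgebraicCurve Matrix

namespace Fermat.Agent.FL.H46

open Fermat.Agent.FL Fermat.Agent.RED Fermat.Agent.RED.H17

local notation "L" => riemannRochSpace

/-- A good chart of the reduction: if the column space of a matrix with independent columns is
the column space of an echelon matrix in the chart `J`, the minor of the chart is not zero. -/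
theorem det_chart_ne_zero {Lf ι : Type} [Field Lf] [Fintype ι] [DecidableEq ι] {d : ℕ}
    (N M : Matrix ι (Fin d) Lf) (J : Fin d → ι)
    (hM : ∀ a b, M (J a) b = if a = b then 1 else 0) (hN : LinearIndependent Lf N.col)
    (h : colSpace N = colSpace M) : (N.submatrix J id).det ≠ 0 := by
  have hinj : Function.Injective (N.submatrix J id).mulVec := by
    intro v w hvw
    have h0 : (N.submatrix J id) *ᵥ (v - w) = 0 := by
      rw [Matrix.mulVec_sub]
      exact sub_eq_zero.mpr hvw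
    have h1 : N *ᵥ (v - w) ∈ colSpace M := by
      rw [← h, mem_colSpace_iff]
      exact ⟨_, rfl⟩
    rw [mem_colSpace_iff] at h1
    obtain ⟨y, hy⟩ := h1
    have h2 : y = 0 := by
      funext a
      have h3 := congrFun hy (J a)
      rw [mulVec_ech_apply J M hM] at h3
      have h4 : (N *ᵥ (v - w)) (J a) = ((N.submatrix J id) *ᵥ (v - w)) a := rfl
      rw [h3, h4, h0]
    rw [h2, Matrix.mulVec_zero] at hy
    have h5 : Function.Injective N.mulVec := Matrix.mulVec_injective_iff.mpr hN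
    have h6 : v - w = 0 := h5 (by rw [← hy, Matrix.mulVec_zero])
    exact sub_eq_zero.mp h6
  have h7 := Matrix.mulVec_injective_iff_isUnit.mp hinj
  exact ((Matrix.isUnit_iff_isUnit_det _).mp h7).ne_zero

/-- **FAM-ADD**, given the frame packages. -/
theorem stmt_FamAdd_of (hFI : Stmt_FrameInt) (hSR : Stmt_SubRed) : Stmt_FamAdd := by
  intro K F k F' _ _ _ _ _ _ _ _ S hFF hFF' g c hc hR hR' hsemi B₁ B₂ E₀ hB₁ hB₂ hE₀ dE₀
    n₁ n₂₁ n₂ n₃ n₄ e₁ e₂₁ e₂ e₃ e₄ he₁ he₂₁ he₂ he₃ he₄ P _ Ex Ey Ez Ex' Ey' Ez' hEx hEy hEz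
    hlin hl' d Jx Jy Jz Mx My Mz hMx hMy hMz i b
  classical
  rcases isEmpty_or_nonempty P with hP | hP
  · exact ⟨1, 1, Subring.one_mem _, Subring.one_mem _, fun p => (hP.false p).elim,
      fun p => (hP.false p).elim⟩
  obtain ⟨p₀⟩ := hP
  have H := ffHyp_of hFF
  have H' := ffHyp_of hFF'
  have hdeg : ∀ D : Divisor K F,
      Divisor.degree (Finsupp.mapDomain S.r D) = Divisor.degree D :=
    fun D => degree_mapDomain H.deg_one H'.deg_one S.r D
  -- the ring and the class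
  have hMxA : ∀ p i b, Mx p i b ∈ constVal S := fun p => (hMx p).2.2.1
  have hMyA : ∀ p i b, My p i b ∈ constVal S := fun p => (hMy p).2.2.1
  have hcx : ∀ p p', (Mx p).map (rc S) = (Mx p').map (rc S) := fun p p' =>
    ech_rc_const S (hMx p) (hMx p')
      (by rw [mapDomain_sub', mapDomain_sub', (hEx p).2.2, (hEx p').2.2])
  have hcy : ∀ p p', (My p).map (rc S) = (My p').map (rc S) := fun p p' =>
    ech_rc_const S (hMy p) (hMy p')
      (by rw [mapDomain_sub', mapDomain_sub', (hEy p).2.2, (hEy p').2.2])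
  have hT := isFunRingA_famRing S Mx My hMxA hMyA
  have hC := isClass_famRing S Mx My p₀ hMxA hMyA
    (fun p p' i b => congrFun (congrFun (hcx p p') i) b)
    (fun p p' i b => congrFun (congrFun (hcy p p') i) b)
  obtain ⟨T, hTdef⟩ : ∃ T : Subring (P → K), T = famRing (constVal S).toSubring Mx My :=
    ⟨_, rfl⟩
  rw [← hTdef] at hT hC ⊢
  obtain ⟨Ev, hEv⟩ : ∃ Ev : EvRing (H18.locRing (constVal S) T Set.univ) k K
      (Set.univ : Set P), Ev = famEv S hT hC := ⟨_, rfl⟩
  have hev : ∀ {φ : P → K} (_ : φ ∈ T) (s : (Set.univ : Set P)),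
      Ev.ev s (liftF S T Set.univ φ) = φ s := by
    intro φ h s
    rw [hEv]
    exact ev_liftF S hT hC h s
  have hρ : ∀ {φ : P → K} (_ : φ ∈ T) (s : (Set.univ : Set P)),
      Ev.ρ (liftF S T Set.univ φ) = rc S (φ s) := by
    intro φ h s
    rw [hEv]
    exact ρ_liftF S hT hC h s
  have hconstT : ∀ {a : K}, a ∈ constVal S → (fun _ : P => a) ∈ T := by
    intro a ha
    rw [hTdef]
    exact const_mem_famRing S Mx My ha
  have hxT : ∀ i b, (fun p => Mx p i b) ∈ T := by
    intro i b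
    rw [hTdef]
    exact entry_mem_famRing_left S Mx My i b
  have hyT : ∀ i b, (fun p => My p i b) ∈ T := by
    intro i b
    rw [hTdef]
    exact entry_mem_famRing_right S Mx My i b
  let s₀ : (Set.univ : Set P) := ⟨p₀, Set.mem_univ p₀⟩
  -- structure constants
  obtain ⟨a, haA, ha, ha'⟩ := exists_structConst S hFI he₁ he₂₁ he₂
    (by abel : B₁ + (B₂ - B₁) = B₂)
  obtain ⟨bb, hbA, hb, hb'⟩ := exists_structConst S hFI he₁ he₂ he₃ rfl
  obtain ⟨cc, hcA, hcc, hcc'⟩ := exists_structConst S hFI he₃ he₃ he₄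
    (by rw [two_nsmul, two_nsmul]; abel : B₁ + B₂ + (B₁ + B₂) = 2 • B₁ + 2 • B₂)
  -- degrees
  have dY : c ≤ Divisor.degree (B₁ + B₂ - E₀) := by
    rw [map_sub, map_add, dE₀]
    omega
  have dU : c ≤ Divisor.degree (B₂ - E₀) := by
    rw [map_sub, dE₀]
    omega
  -- basis matrices of `L(B₁ + B₂ - E₀)` and `L(B₂ - E₀)`
  obtain ⟨dY, NY₀, hNYA, hNYli, hNY, hNY'⟩ := hSR K F k F' S hFF hFF' (B₁ + B₂) E₀ (Fin n₃) e₃
    he₃ hE₀ (riemann_le S hR hR' hdeg _ dY)
  obtain ⟨dU, NU₀, hNUA, hNUli, hNU, hNU'⟩ := hSR K F k F' S hFF hFF' B₂ E₀ (Fin n₂) e₂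
    he₂ hE₀ (riemann_le S hR hR' hdeg _ dU)
  -- the frame of `L(B₂ - B₁)` is not empty
  have hn₂₁ : 0 < n₂₁ := by
    have h1 := (hR (B₂ - B₁)).1
    have h2 : Module.finrank K (L (B₂ - B₁)) = n₂₁ := by
      rw [← he₂₁.1.2, finrank_span_eq_card he₂₁.1.1, Fintype.card_fin]
    rw [h2, map_sub] at h1
    omega
  have hd : 0 < d := b.pos
  let j₀ : Fin n₂₁ := ⟨0, hn₂₁⟩
  let q : Fin d := ⟨0, hd⟩
  -- the data over the local ring
  obtain ⟨aR, haR⟩ : ∃ aR : Fin n₁ → Fin n₂₁ → Fin n₂ → H18.locRing (constVal S) T Set.univ,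
      aR = fun i j l => liftF S T Set.univ (fun _ => a i j l) := ⟨_, rfl⟩
  obtain ⟨bR, hbR⟩ : ∃ bR : Fin n₁ → Fin n₂ → Fin n₃ → H18.locRing (constVal S) T Set.univ,
      bR = fun i j l => liftF S T Set.univ (fun _ => bb i j l) := ⟨_, rfl⟩
  obtain ⟨cR, hcR⟩ : ∃ cR : Fin n₃ → Fin n₃ → Fin n₄ → H18.locRing (constVal S) T Set.univ,
      cR = fun i j l => liftF S T Set.univ (fun _ => cc i j l) := ⟨_, rfl⟩
  obtain ⟨Nx, hNx⟩ : ∃ Nx : Matrix (Fin n₁) (Fin d) (H18.locRing (constVal S) T Set.univ),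
      Nx = fun i b => liftF S T Set.univ (fun p => Mx p i b) := ⟨_, rfl⟩
  obtain ⟨Ny, hNy⟩ : ∃ Ny : Matrix (Fin n₁) (Fin d) (H18.locRing (constVal S) T Set.univ),
      Ny = fun i b => liftF S T Set.univ (fun p => My p i b) := ⟨_, rfl⟩
  obtain ⟨NY, hNYdef⟩ : ∃ NY : Matrix (Fin n₃) (Fin dY) (H18.locRing (constVal S) T Set.univ),
      NY = fun i b => liftF S T Set.univ (fun _ => NY₀ i b) := ⟨_, rfl⟩
  obtain ⟨NU, hNUdef⟩ : ∃ NU : Matrix (Fin n₂) (Fin dU) (H18.locRing (constVal S) T Set.univ),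
      NU = fun i b => liftF S T Set.univ (fun _ => NU₀ i b) := ⟨_, rfl⟩
  obtain ⟨zv, hzv⟩ : ∃ zv : Fin n₃ → H18.locRing (constVal S) T Set.univ,
      zv = zR aR bR Nx Ny j₀ q := ⟨_, rfl⟩
  -- evaluations
  have eva : ∀ s, (fun i j l => Ev.ev s (aR i j l)) = a := by
    intro s
    funext i j l
    rw [haR]
    exact hev (hconstT (haA i j l)) s
  have evb : ∀ s, (fun i j l => Ev.ev s (bR i j l)) = bb := by
    intro s
    funext i j l
    rw [hbR]
    exact hev (hconstT (hbA i j l)) s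
  have evc : ∀ s, (fun i j l => Ev.ev s (cR i j l)) = cc := by
    intro s
    funext i j l
    rw [hcR]
    exact hev (hconstT (hcA i j l)) s
  have evx : ∀ s : (Set.univ : Set P), Nx.map (Ev.ev s) = Mx s := by
    intro s
    ext i b
    rw [Matrix.map_apply, hNx]
    exact hev (hxT i b) s
  have evy : ∀ s : (Set.univ : Set P), Ny.map (Ev.ev s) = My s := by
    intro s
    ext i b
    rw [Matrix.map_apply, hNy]
    exact hev (hyT i b) s
  have evY : ∀ s : (Set.univ : Set P), NY.map (Ev.ev s) = NY₀ := by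
    intro s
    ext i b
    rw [Matrix.map_apply, hNYdef]
    exact hev (hconstT (hNYA i b)) s
  have evU : ∀ s : (Set.univ : Set P), NU.map (Ev.ev s) = NU₀ := by
    intro s
    ext i b
    rw [Matrix.map_apply, hNUdef]
    exact hev (hconstT (hNUA i b)) s
  -- reductions
  have rda : (fun i j l => Ev.ρ (aR i j l)) = fun i j l => rc S (a i j l) := by
    funext i j l
    rw [haR]
    exact hρ (hconstT (haA i j l)) s₀
  have rdb : (fun i j l => Ev.ρ (bR i j l)) = fun i j l => rc S (bb i j l) := by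
    funext i j l
    rw [hbR]
    exact hρ (hconstT (hbA i j l)) s₀
  have rdc : (fun i j l => Ev.ρ (cR i j l)) = fun i j l => rc S (cc i j l) := by
    funext i j l
    rw [hcR]
    exact hρ (hconstT (hcA i j l)) s₀
  have rdx : Nx.map Ev.ρ = (Mx p₀).map (rc S) := by
    ext i b
    rw [Matrix.map_apply, Matrix.map_apply, hNx]
    exact hρ (hxT i b) s₀
  have rdy : Ny.map Ev.ρ = (My p₀).map (rc S) := by
    ext i b
    rw [Matrix.map_apply, Matrix.map_apply, hNy]
    exact hρ (hyT i b) s₀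
  have rdY : NY.map Ev.ρ = NY₀.map (rc S) := by
    ext i b
    rw [Matrix.map_apply, Matrix.map_apply, hNYdef]
    exact hρ (hconstT (hNYA i b)) s₀
  have rdU : NU.map Ev.ρ = NU₀.map (rc S) := by
    ext i b
    rw [Matrix.map_apply, Matrix.map_apply, hNUdef]
    exact hρ (hconstT (hNUA i b)) s₀
  -- subbundles
  have subx : IsSubB Ev Nx := by
    have h1 := linearIndependent_col_of_ech Jx _ (ech_map_rc S Jx (Mx p₀) (hMx p₀).1)
    rw [← rdx] at h1
    exact h1
  have suby : IsSubB Ev Ny := by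
    have h1 := linearIndependent_col_of_ech Jy _ (ech_map_rc S Jy (My p₀) (hMy p₀).1)
    rw [← rdy] at h1
    exact h1
  have subY : IsSubB Ev NY := by
    have h1 : LinearIndependent k (NY₀.map (rc S)).col := hNYli
    rw [← rdY] at h1
    exact h1
  have subU : IsSubB Ev NU := by
    have h1 : LinearIndependent k (NU₀.map (rc S)).col := hNUli
    rw [← rdU] at h1
    exact h1
  -- nonzero columns
  have colne : ∀ {Lf : Type} [Field Lf] (J : Fin d → Fin n₁) (M : Matrix (Fin n₁) (Fin d) Lf),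
      (∀ a b, M (J a) b = if a = b then 1 else 0) → M.col q ≠ 0 := by
    intro Lf _ J M hM h0
    have h1 := congrFun h0 (J q)
    rw [Matrix.col_apply, hM, if_pos rfl] at h1
    exact one_ne_zero h1
  -- the chain on `F`
  have hK : ∀ s : (Set.univ : Set P),
      (chainAt aR bR cR Nx Ny NY NU zv (Ev.ev s)).Z = coordSpace e₁ (L (B₁ - Ez s)) ∧
      (Module.finrank K (chainAt aR bR cR Nx Ny NY NU zv (Ev.ev s)).W2 : ℤ) =
        Divisor.degree B₂ - 2 * g + 1 ∧
      (Module.finrank K (chainAt aR bR cR Nx Ny NY NU zv (Ev.ev s)).P : ℤ) =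
        Divisor.degree B₁ + Divisor.degree B₂ - 3 * g + 1 ∧
      (Module.finrank K (chainAt aR bR cR Nx Ny NY NU zv (Ev.ev s)).Yz : ℤ) =
        Divisor.degree B₁ + Divisor.degree B₂ - 2 * g + 1 ∧
      Module.finrank K (chainAt aR bR cR Nx Ny NY NU zv (Ev.ev s)).Ys = 1 ∧
      (Module.finrank K (chainAt aR bR cR Nx Ny NY NU zv (Ev.ev s)).yP : ℤ) =
        Divisor.degree B₁ + Divisor.degree B₂ - 3 * g + 1 ∧
      (Module.finrank K (chainAt aR bR cR Nx Ny NY NU zv (Ev.ev s)).Rr : ℤ) =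
        Divisor.degree B₁ + Divisor.degree B₂ - 3 * g + 1 ∧
      (Module.finrank K (chainAt aR bR cR Nx Ny NY NU zv (Ev.ev s)).Z : ℤ) =
        Divisor.degree B₁ - 2 * g + 1 := by
    intro s
    obtain ⟨f, hf0, hfdiv⟩ := hlin s
    have hfL : f ∈ L (Ex s + Ey s - E₀) := by
      rw [mem_L_iff_ord]
      intro v
      right
      rw [hfdiv v]
      have h1 := H2.nonneg_apply (hEz s).1 v
      simp only [Finsupp.sub_apply, Finsupp.add_apply]
      omega
    have hl1 : Module.finrank K (L (Ex s + Ey s - E₀)) = 1 := by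
      haveI := H.finite (Ex s + Ey s - E₀)
      have h1 := hsemi (Ex s + Ey s - E₀)
      rw [mapDomain_sub', Finsupp.mapDomain_add, (hEx s).2.2, (hEy s).2.2, hl'] at h1
      have h2 : 0 < Module.finrank K (L (Ex s + Ey s - E₀)) := by
        rw [Module.finrank_pos_iff_exists_ne_zero]
        exact ⟨⟨f, hfL⟩, fun h => hf0 (congrArg Subtype.val h)⟩
      omega
    refine chain_model hFF hR hc hE₀ (hEx s).1 (hEy s).1 (hEz s).1 dE₀ (hEx s).2.1
      (hEy s).2.1 (hEz s).2.1 hB₁ hB₂ hf0 hfdiv hl1 he₁.1 he₂₁.1 he₂.1 he₃.1 he₄.1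
      (chainAt aR bR cR Nx Ny NY NU zv (Ev.ev s)) ?_ ?_ ?_ (Nx.map (Ev.ev s))
      (Ny.map (Ev.ev s)) q j₀ rfl rfl ?_ ?_ ?_ ?_ ?_ ?_ ?_
    · intro i j
      rw [show (chainAt aR bR cR Nx Ny NY NU zv (Ev.ev s)).a = a from eva s]
      exact ha i j
    · intro i j
      rw [show (chainAt aR bR cR Nx Ny NY NU zv (Ev.ev s)).b = bb from evb s]
      exact hb i j
    · intro i j
      rw [show (chainAt aR bR cR Nx Ny NY NU zv (Ev.ev s)).c = cc from evc s]
      exact hcc i j
    · rw [evx s]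
      exact (hMx s).2.1
    · rw [evy s]
      exact (hMy s).2.1
    · rw [evx s]
      exact colne Jx _ (hMx s).1
    · rw [evy s]
      exact colne Jy _ (hMy s).1
    · show colSpace (NY.map (Ev.ev s)) = _
      rw [evY s]
      exact hNY
    · show colSpace (NU.map (Ev.ev s)) = _
      rw [evU s]
      exact hNU
    · show (fun l => Ev.ev s (zv l)) = _
      rw [hzv]
      exact map_zR (Ev.ev s) aR bR Nx Ny j₀ q
  -- the chain on `F'`
  have hEx0 := hEx p₀
  have hEy0 := hEy p₀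
  have hEz0 := hEz p₀
  have hk : (chainAt aR bR cR Nx Ny NY NU zv Ev.ρ).Z =
        coordSpace (fun i => S.rd (e₁ i)) (L (Finsupp.mapDomain S.r B₁ - Ez')) ∧
      (Module.finrank k (chainAt aR bR cR Nx Ny NY NU zv Ev.ρ).W2 : ℤ) =
        Divisor.degree B₂ - 2 * g + 1 ∧
      (Module.finrank k (chainAt aR bR cR Nx Ny NY NU zv Ev.ρ).P : ℤ) =
        Divisor.degree B₁ + Divisor.degree B₂ - 3 * g + 1 ∧
      (Module.finrank k (chainAt aR bR cR Nx Ny NY NU zv Ev.ρ).Yz : ℤ) =
        Divisor.degree B₁ + Divisor.degree B₂ - 2 * g + 1 ∧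
      Module.finrank k (chainAt aR bR cR Nx Ny NY NU zv Ev.ρ).Ys = 1 ∧
      (Module.finrank k (chainAt aR bR cR Nx Ny NY NU zv Ev.ρ).yP : ℤ) =
        Divisor.degree B₁ + Divisor.degree B₂ - 3 * g + 1 ∧
      (Module.finrank k (chainAt aR bR cR Nx Ny NY NU zv Ev.ρ).Rr : ℤ) =
        Divisor.degree B₁ + Divisor.degree B₂ - 3 * g + 1 ∧
      (Module.finrank k (chainAt aR bR cR Nx Ny NY NU zv Ev.ρ).Z : ℤ) =
        Divisor.degree B₁ - 2 * g + 1 := by
    obtain ⟨f, hf0, hfdiv⟩ := hlin p₀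
    obtain ⟨f', hf'0, hf'div⟩ := exists_red_principal S hf0 _ hfdiv
    have e1 : Finsupp.mapDomain S.r (Ez p₀ + E₀ - Ex p₀ - Ey p₀) =
        Ez' + Finsupp.mapDomain S.r E₀ - Ex' - Ey' := by
      rw [mapDomain_sub', mapDomain_sub', Finsupp.mapDomain_add, hEx0.2.2, hEy0.2.2,
        hEz0.2.2]
    rw [e1] at hf'div
    have h1 := chain_model hFF' hR' hc (B₁ := Finsupp.mapDomain S.r B₁)
      (B₂ := Finsupp.mapDomain S.r B₂) (E₀ := Finsupp.mapDomain S.r E₀) (Ex := Ex')
      (Ey := Ey') (Ez := Ez') (mapDomain_nonneg S.r hE₀)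
      (by rw [← hEx0.2.2]; exact mapDomain_nonneg S.r hEx0.1)
      (by rw [← hEy0.2.2]; exact mapDomain_nonneg S.r hEy0.1)
      (by rw [← hEz0.2.2]; exact mapDomain_nonneg S.r hEz0.1)
      (by rw [hdeg, dE₀]) (by rw [← hEx0.2.2, hdeg, hEx0.2.1])
      (by rw [← hEy0.2.2, hdeg, hEy0.2.1]) (by rw [← hEz0.2.2, hdeg, hEz0.2.1])
      (by rw [hdeg]; exact hB₁) (by rw [hdeg, hdeg]; exact hB₂) hf'0 hf'div hl'
      (e₁ := fun i => S.rd (e₁ i)) (e₂₁ := fun i => S.rd (e₂₁ i)) (e₂ := fun i => S.rd (e₂ i))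
      (e₃ := fun i => S.rd (e₃ i)) (e₄ := fun i => S.rd (e₄ i))
      he₁.2.2 (by rw [← mapDomain_sub']; exact he₂₁.2.2) he₂.2.2
      (by rw [← Finsupp.mapDomain_add]; exact he₃.2.2)
      (by
        have h2 := he₄.2.2
        rw [two_nsmul, two_nsmul, Finsupp.mapDomain_add, Finsupp.mapDomain_add,
          Finsupp.mapDomain_add, ← two_nsmul, ← two_nsmul] at h2
        exact h2)
      (chainAt aR bR cR Nx Ny NY NU zv Ev.ρ) ?_ ?_ ?_ (Nx.map Ev.ρ) (Ny.map Ev.ρ) q j₀
      rfl rfl ?_ ?_ ?_ ?_ ?_ ?_ ?_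
    · rw [hdeg, hdeg] at h1
      exact h1
    · intro i j
      rw [show (chainAt aR bR cR Nx Ny NY NU zv Ev.ρ).a = fun i j l => rc S (a i j l) from rda]
      exact ha' i j
    · intro i j
      rw [show (chainAt aR bR cR Nx Ny NY NU zv Ev.ρ).b = fun i j l => rc S (bb i j l)
        from rdb]
      exact hb' i j
    · intro i j
      rw [show (chainAt aR bR cR Nx Ny NY NU zv Ev.ρ).c = fun i j l => rc S (cc i j l)
        from rdc]
      exact hcc' i j
    · rw [rdx, (hMx p₀).2.2.2, mapDomain_sub', hEx0.2.2]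
    · rw [rdy, (hMy p₀).2.2.2, mapDomain_sub', hEy0.2.2]
    · rw [rdx]
      exact colne Jx _ (ech_map_rc S Jx (Mx p₀) (hMx p₀).1)
    · rw [rdy]
      exact colne Jy _ (ech_map_rc S Jy (My p₀) (hMy p₀).1)
    · show colSpace (NY.map Ev.ρ) = _
      rw [rdY, hNY', mapDomain_sub', Finsupp.mapDomain_add]
    · show colSpace (NU.map Ev.ρ) = _
      rw [rdU, hNU', mapDomain_sub']
    · show (fun l => Ev.ρ (zv l)) = _
      rw [hzv]
      exact map_zR Ev.ρ aR bR Nx Ny j₀ q
  -- the abstract addition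
  obtain ⟨d', N, hNsub, hNρ, hNev⟩ := stmt_AbsAdd (H18.locRing (constVal S) T Set.univ) k K
    (Set.univ : Set P) Ev (Fin n₁) (Fin n₂₁) (Fin n₂) (Fin n₃) (Fin n₄) d d dY dU aR bR cR
    Nx Ny NY NU zv subx suby subY subU
    (fun s => by
      have h1 := (hK s).2.1
      have h2 := hk.2.1
      have h3 : (Module.finrank K (chainAt aR bR cR Nx Ny NY NU zv (Ev.ev s)).W2 : ℤ) =
          (Module.finrank k (chainAt aR bR cR Nx Ny NY NU zv Ev.ρ).W2 : ℤ) := by rw [h1, h2]
      exact le_of_eq (by exact_mod_cast h3))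
    (fun s => by
      have h1 := (hK s).2.2.1
      have h2 := hk.2.2.1
      have h3 : (Module.finrank K (chainAt aR bR cR Nx Ny NY NU zv (Ev.ev s)).P : ℤ) =
          (Module.finrank k (chainAt aR bR cR Nx Ny NY NU zv Ev.ρ).P : ℤ) := by rw [h1, h2]
      exact le_of_eq (by exact_mod_cast h3))
    (fun s => by
      have h1 := (hK s).2.2.2.1
      have h2 := hk.2.2.2.1
      have h3 : (Module.finrank K (chainAt aR bR cR Nx Ny NY NU zv (Ev.ev s)).Yz : ℤ) =
          (Module.finrank k (chainAt aR bR cR Nx Ny NY NU zv Ev.ρ).Yz : ℤ) := by rw [h1, h2]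
      exact le_of_eq (by exact_mod_cast h3))
    (fun s => by
      have h1 := (hK s).2.2.2.2.1
      have h2 := hk.2.2.2.2.1
      rw [h1, h2])
    (fun s => by
      have h1 := (hK s).2.2.2.2.2.1
      have h2 := hk.2.2.2.2.2.1
      have h3 : (Module.finrank K (chainAt aR bR cR Nx Ny NY NU zv (Ev.ev s)).yP : ℤ) =
          (Module.finrank k (chainAt aR bR cR Nx Ny NY NU zv Ev.ρ).yP : ℤ) := by rw [h1, h2]
      exact le_of_eq (by exact_mod_cast h3))
    (fun s => by
      have h1 := (hK s).2.2.2.2.2.2.1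
      have h2 := hk.2.2.2.2.2.2.1
      have h3 : (Module.finrank k (chainAt aR bR cR Nx Ny NY NU zv Ev.ρ).Rr : ℤ) =
          (Module.finrank K (chainAt aR bR cR Nx Ny NY NU zv (Ev.ev s)).Rr : ℤ) := by
        rw [h1, h2]
      exact le_of_eq (by exact_mod_cast h3))
    (fun s => by
      have h1 := (hK s).2.2.2.2.2.2.2
      have h2 := hk.2.2.2.2.2.2.2
      have h3 : (Module.finrank k (chainAt aR bR cR Nx Ny NY NU zv Ev.ρ).Z : ℤ) =
          (Module.finrank K (chainAt aR bR cR Nx Ny NY NU zv (Ev.ev s)).Z : ℤ) := by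
        rw [h1, h2]
      exact le_of_eq (by exact_mod_cast h3))
  -- the reduction of the result
  have hMz'ech := ech_map_rc S Jz (Mz p₀) (hMz p₀).1
  have hNρ' : colSpace (N.map Ev.ρ) = colSpace ((Mz p₀).map (rc S)) := by
    rw [hNρ, hk.1, (hMz p₀).2.2.2, mapDomain_sub', hEz0.2.2]
  have hNli : LinearIndependent k (N.map Ev.ρ).col := hNsub
  have hdd : d' = d := by
    have h1 := finrank_colSpace_of_li _ hNli
    have h2 := finrank_colSpace_of_li _ (linearIndependent_col_of_ech Jz _ hMz'ech)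
    rw [hNρ'] at h1
    omega
  subst hdd
  have hdet : ((N.map Ev.ρ).submatrix Jz id).det ≠ 0 :=
    det_chart_ne_zero _ _ Jz hMz'ech hNli hNρ'
  obtain ⟨MR, hMRech, -, hMRev⟩ := stmt_ECH (H18.locRing (constVal S) T Set.univ) k K
    (Set.univ : Set P) Ev (Fin n₁) d' N Jz hdet
  have hfinal : ∀ s : (Set.univ : Set P), MR.map (Ev.ev s) = Mz s := by
    intro s
    refine ech_unique Jz _ _ (fun a b => ?_) (hMz s).1 ?_
    · rw [Matrix.map_apply, hMRech]
      split_ifs
      · exact map_one _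
      · exact map_zero _
    · rw [hMRev s, hNev s, (hK s).1]
      exact (hMz s).2.1.symm
  -- the entry
  obtain ⟨Nn, hNn, D, hD, hDu, hND⟩ := (MR i b).2
  refine ⟨D, Nn, hD, hNn, fun p => ?_, fun p => ?_⟩
  · have h1 := hDu ⟨p, Set.mem_univ p⟩
    exact ⟨H18.ne_zero_of_val_eq_one h1, H18.mem_of_val_le_one (H18.val_inv_eq_one h1).le⟩
  · have h1 := hND ⟨p, Set.mem_univ p⟩
    have h2 := congrFun (congrFun (hfinal ⟨p, Set.mem_univ p⟩) i) b
    rw [Matrix.map_apply] at h2
    have h3 : Ev.ev ⟨p, Set.mem_univ p⟩ (MR i b) = (MR i b).1 ⟨p, Set.mem_univ p⟩ := by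
      rw [hEv]
      rfl
    rw [h3] at h2
    rw [← h2]
    exact h1

end Fermat.Agent.FL.H46
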