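import Fermat.Agent.FL.H2_ChainCoord
import Fermat.Agent.FL.H46_EchUnique

/-!
# G-FL, package FAM-ADD (helper46), part 3: the chain on one function field

* `bilR`, `zR`: the bilinear maps over a commutative ring and the vector `z` (the product of
  the columns `q` of the two basis matrices and of the element `j₀` of the frame of
  `L(B₂ - B₁)`), with their compatibility with ring homomorphisms.
* `chain_model`: `Stmt_ChainCoord` for a chain started with basis matrices and this vector.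
-/

set_option autoImplicit false
set_option linter.style.haveILetI false
set_option linter.unusedSectionVars false

noncomputable section

open AlgebraicCurve Matrix

namespace Fermat.Agent.FL.H46

open Fermat.Agent.FL Fermat.Agent.RED Fermat.Agent.RED.H42

local notation "L" => riemannRochSpace

section Ring

variable {A : Type} [CommRing A] {α β γ : Type} [Fintype α] [Fintype β]

/-- The bilinear map with structure constants `t`, over a commutative ring. -/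
def bilR (t : α → β → γ → A) (u : α → A) (w : β → A) : γ → A :=
  fun l => ∑ i, ∑ j, t i j l * u i * w j

theorem map_bilR {Lf : Type} [Field Lf] (f : A →+* Lf) (t : α → β → γ → A) (u : α → A)
    (w : β → A) :
    (fun l => f (bilR t u w l)) =
      bil (fun i j l => f (t i j l)) (fun i => f (u i)) (fun j => f (w j)) := by
  funext l
  simp only [bilR, bil, map_sum, map_mul]

variable {ι₁ ι₂₁ ι₂ ι₃ : Type} [Fintype ι₁] [Fintype ι₂₁] [Fintype ι₂] [DecidableEq ι₂₁]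

/-- The vector `z`: the product of the columns `q` of `Nx` and `Ny` and of the element `j₀` of
the frame of `L(B₂ - B₁)`. -/
def zR {d : ℕ} (a : ι₁ → ι₂₁ → ι₂ → A) (b : ι₁ → ι₂ → ι₃ → A) (Nx Ny : Matrix ι₁ (Fin d) A)
    (j₀ : ι₂₁) (q : Fin d) : ι₃ → A :=
  bilR b (fun i => Nx i q) (bilR a (fun i => Ny i q) (Pi.single j₀ 1))

theorem map_zR {Lf : Type} [Field Lf] (f : A →+* Lf) {d : ℕ} (a : ι₁ → ι₂₁ → ι₂ → A)
    (b : ι₁ → ι₂ → ι₃ → A) (Nx Ny : Matrix ι₁ (Fin d) A) (j₀ : ι₂₁) (q : Fin d) :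
    (fun l => f (zR a b Nx Ny j₀ q l)) =
      bil (fun i j l => f (b i j l)) ((Nx.map f).col q)
        (bil (fun i j l => f (a i j l)) ((Ny.map f).col q) (Pi.single j₀ 1)) := by
  unfold zR
  rw [map_bilR f b, map_bilR f a]
  have h1 : (fun j => f ((Pi.single j₀ 1 : ι₂₁ → A) j)) = (Pi.single j₀ 1 : ι₂₁ → Lf) := by
    funext j
    by_cases h : j = j₀
    · subst h
      simp
    · rw [Pi.single_eq_of_ne h, Pi.single_eq_of_ne h, map_zero]
  rw [h1]
  rfl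

end Ring

section Field

variable {k E : Type} [Field k] [Field E] [Algebra k E]

theorem lin_single {ι : Type} [Fintype ι] [DecidableEq ι] (e : ι → E) (j₀ : ι) :
    H2.lin (k := k) e (Pi.single j₀ 1) = e j₀ := by
  rw [H2.lin_apply, Finset.sum_eq_single j₀]
  · rw [Pi.single_eq_same, one_smul]
  · intro j _ hj
    rw [Pi.single_eq_of_ne hj, zero_smul]
  · intro h
    exact absurd (Finset.mem_univ j₀) h

theorem col_mem_colSpace {ι : Type} {d : ℕ} (M : Matrix ι (Fin d) k) (q : Fin d) :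
    M.col q ∈ colSpace M := by
  rw [colSpace, Matrix.range_mulVecLin]
  exact Submodule.subset_span ⟨q, rfl⟩

theorem finrank_colSpace_of_li {ι : Type} {d : ℕ} (M : Matrix ι (Fin d) k)
    (h : LinearIndependent k M.col) : Module.finrank k (colSpace M) = d := by
  rw [colSpace, Matrix.range_mulVecLin, finrank_span_eq_card h, Fintype.card_fin]

/-- `Stmt_ChainCoord` for a chain started with basis matrices and the vector `z` built from
their columns. -/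
theorem chain_model [IsAlgClosed k] (hFF : IsFF k E) {g : ℕ} {c : ℤ} (hR : IsRiemann k E g c)
    (hc : 0 ≤ c) {B₁ B₂ E₀ Ex Ey Ez : Divisor k E} (hE₀ : 0 ≤ E₀) (hEx : 0 ≤ Ex)
    (hEy : 0 ≤ Ey) (hEz : 0 ≤ Ez) (dE₀ : Divisor.degree E₀ = g)
    (dEx : Divisor.degree Ex = g) (dEy : Divisor.degree Ey = g)
    (dEz : Divisor.degree Ez = g) (hB₁ : (g : ℤ) + c + 1 ≤ Divisor.degree B₁)
    (hB₂ : 2 * Divisor.degree B₁ + c ≤ Divisor.degree B₂) {h : E} (hh : h ≠ 0)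
    (hdiv : ∀ v : Place k E, v.ord h = (Ez + E₀ - Ex - Ey) v)
    (hl : Module.finrank k (L (Ex + Ey - E₀)) = 1)
    {n₁ n₂₁ n₂ n₃ n₄ : ℕ} {e₁ : Fin n₁ → E} {e₂₁ : Fin n₂₁ → E} {e₂ : Fin n₂ → E}
    {e₃ : Fin n₃ → E} {e₄ : Fin n₄ → E}
    (f₁ : IsFrameOf e₁ B₁) (f₂₁ : IsFrameOf e₂₁ (B₂ - B₁)) (f₂ : IsFrameOf e₂ B₂)
    (f₃ : IsFrameOf e₃ (B₁ + B₂)) (f₄ : IsFrameOf e₄ (2 • B₁ + 2 • B₂))
    (X : ChainData k (Fin n₁) (Fin n₂₁) (Fin n₂) (Fin n₃) (Fin n₄))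
    (ha : ∀ i j, e₁ i * e₂₁ j = ∑ l, X.a i j l • e₂ l)
    (hb : ∀ i j, e₁ i * e₂ j = ∑ l, X.b i j l • e₃ l)
    (hcc : ∀ i j, e₃ i * e₃ j = ∑ l, X.c i j l • e₄ l)
    {d : ℕ} (Mx My : Matrix (Fin n₁) (Fin d) k) (q : Fin d) (j₀ : Fin n₂₁)
    (hWx : X.Wx = colSpace Mx) (hWy : X.Wy = colSpace My)
    (hMx : colSpace Mx = coordSpace e₁ (L (B₁ - Ex)))
    (hMy : colSpace My = coordSpace e₁ (L (B₁ - Ey)))
    (hMxq : Mx.col q ≠ 0) (hMyq : My.col q ≠ 0)
    (hY₀ : X.Y₀ = coordSpace e₃ (L (B₁ + B₂ - E₀)))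
    (hU₀ : X.U₀ = coordSpace e₂ (L (B₂ - E₀)))
    (hz : X.z = bil X.b (Mx.col q) (bil X.a (My.col q) (Pi.single j₀ 1))) :
    X.Z = coordSpace e₁ (L (B₁ - Ez)) ∧
      (Module.finrank k X.W2 : ℤ) = Divisor.degree B₂ - 2 * g + 1 ∧
      (Module.finrank k X.P : ℤ) = Divisor.degree B₁ + Divisor.degree B₂ - 3 * g + 1 ∧
      (Module.finrank k X.Yz : ℤ) = Divisor.degree B₁ + Divisor.degree B₂ - 2 * g + 1 ∧
      Module.finrank k X.Ys = 1 ∧
      (Module.finrank k X.yP : ℤ) = Divisor.degree B₁ + Divisor.degree B₂ - 3 * g + 1 ∧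
      (Module.finrank k X.Rr : ℤ) = Divisor.degree B₁ + Divisor.degree B₂ - 3 * g + 1 ∧
      (Module.finrank k X.Z : ℤ) = Divisor.degree B₁ - 2 * g + 1 := by
  -- the function `zf`
  have hux : H2.lin e₁ (Mx.col q) ∈ L (B₁ - Ex) := by
    rw [← H2.mem_coordSpace, ← hMx]
    exact col_mem_colSpace Mx q
  have huy : H2.lin e₁ (My.col q) ∈ L (B₁ - Ey) := by
    rw [← H2.mem_coordSpace, ← hMy]
    exact col_mem_colSpace My q
  have hux0 : H2.lin (k := k) e₁ (Mx.col q) ≠ 0 := by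
    intro h0
    apply hMxq
    apply H2.lin_injective f₁.1
    rw [h0, map_zero]
  have huy0 : H2.lin (k := k) e₁ (My.col q) ≠ 0 := by
    intro h0
    apply hMyq
    apply H2.lin_injective f₁.1
    rw [h0, map_zero]
  have he0 : e₂₁ j₀ ≠ 0 := f₂₁.1.ne_zero j₀
  have hej : e₂₁ j₀ ∈ L (B₂ - B₁) := by
    rw [← f₂₁.2]
    exact Submodule.subset_span ⟨j₀, rfl⟩
  obtain ⟨zf, hzf⟩ : ∃ zf : E, zf = H2.lin e₁ (Mx.col q) * (H2.lin e₁ (My.col q) * e₂₁ j₀) :=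
    ⟨_, rfl⟩
  have hzf0 : zf ≠ 0 := by
    rw [hzf]
    exact mul_ne_zero hux0 (mul_ne_zero huy0 he0)
  have hzfL : zf ∈ L (B₁ + B₂ - Ex - Ey) := by
    have h1 := mul_mem_L_add hux (mul_mem_L_add huy hej)
    have h2 : B₁ - Ex + (B₁ - Ey + (B₂ - B₁)) = B₁ + B₂ - Ex - Ey := by abel
    rw [h2, ← hzf] at h1
    exact h1
  have hzsum : zf = ∑ i, X.z i • e₃ i := by
    rw [← H2.lin_apply, hz, H2.lin_bil hb, H2.lin_bil ha, lin_single, hzf]
  obtain ⟨-, -, -, hZ, r1, r2, r3, r4, r5, r6, r7⟩ := H2.stmt_ChainCoord k E hFF g c hR hc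
    B₁ B₂ E₀ Ex Ey Ez h zf hE₀ hEx hEy hEz dE₀ dEx dEy dEz hB₁ hB₂ hh hdiv hl hzf0 hzfL
    (Fin n₁) (Fin n₂₁) (Fin n₂) (Fin n₃) (Fin n₄) e₁ e₂₁ e₂ e₃ e₄ f₁ f₂₁ f₂ f₃ f₄ X ha hb hcc
    (hWx.trans hMx) (hWy.trans hMy) hY₀ hU₀ hzsum
  exact ⟨hZ, r1, r2, r3, r4, r5, r6, r7⟩

end Field

end Fermat.Agent.FL.H46
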