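import Fermat.Agent.FL.H46_FamRc
import Fermat.Agent.FL.H46_FamChain
import Fermat.Agent.RED.H42_RiemannFinal
import Fermat.Agent.RED.H51_Basic

/-!
# G-FL, package FAM-ADD (helper46), part 4: auxiliary statements

* `ffHyp_of`: the facts on a function field.
* `mapDomain_sub'`, `mapDomain_nonneg`, `riemann_le`.
* `exists_structConst`: integral structure constants of a product of integral frames.
* `ech_rc_const`: the reduction of an integral echelon basis depends only on the reduction of
  the divisor.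
* `isFunRingA_famRing`, `isClass_famRing`: the ring `famRing` and its class `univ`.
* `exists_red_principal`: the reduction of a principal divisor is principal.
-/

set_option autoImplicit false
set_option linter.style.haveILetI false
set_option linter.unusedSectionVars false

noncomputable section

open AlgebraicCurve Matrix

namespace Fermat.Agent.FL.H46

open Fermat.Agent.FL Fermat.Agent.RED Fermat.Agent.RED.H17

local notation "L" => riemannRochSpace

theorem ffHyp_of {k E : Type} [Field k] [Field E] [Algebra k E] [IsAlgClosed k]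
    (hFF : IsFF k E) : FFHyp k E :=
  { principal := H42.stmt_FFB_principal k E hFF
    deg_one := H51.stmt_FFB_deg k E hFF
    finite := H42.stmt_FFR_finite k E hFF
    le := fun D => (H42.stmt_FFR_le k E hFF D).2
    transc := by
      obtain ⟨x, hx, -⟩ := hFF
      exact ⟨x, hx⟩ }

theorem mapDomain_sub' {α β : Type} (r : α → β) (D E : α →₀ ℤ) :
    Finsupp.mapDomain r (D - E) = Finsupp.mapDomain r D - Finsupp.mapDomain r E := by
  rw [eq_sub_iff_add_eq, ← Finsupp.mapDomain_add, sub_add_cancel]

theorem mapDomain_nonneg {α β : Type} (r : α → β) {D : α →₀ ℤ} (hD : 0 ≤ D) :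
    0 ≤ Finsupp.mapDomain r D := by
  rw [Finsupp.le_def]
  intro b
  have h1 : ∀ a, 0 ≤ D a := fun a => by
    have := hD
    rw [Finsupp.le_def] at this
    simpa using this a
  simpa using mapDomain_nonneg' r h1 b

variable {K F k F' : Type} [Field K] [Field F] [Algebra K F] [Field k] [Field F']
  [Algebra k F'] (S : RedSetup K F k F')

/-- In large degree the dimensions of `L(D)` and of `L~(r_* D)` agree. -/
theorem riemann_le {g : ℕ} {c : ℤ} (hR : IsRiemann K F g c) (hR' : IsRiemann k F' g c)
    (hdeg : ∀ D : Divisor K F, Divisor.degree (Finsupp.mapDomain S.r D) = Divisor.degree D)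
    (D : Divisor K F) (hD : c ≤ Divisor.degree D) :
    Module.finrank k (L (Finsupp.mapDomain S.r D)) ≤ Module.finrank K (L D) := by
  have h1 := (hR D).2 hD
  have h2 := (hR' (Finsupp.mapDomain S.r D)).2 (by rw [hdeg]; exact hD)
  rw [hdeg] at h2
  have h3 : (Module.finrank k (L (Finsupp.mapDomain S.r D)) : ℤ) =
      (Module.finrank K (L D) : ℤ) := by rw [h1, h2]
  exact le_of_eq (by exact_mod_cast h3)

/-- Integral structure constants. -/
theorem exists_structConst (hFI : Stmt_FrameInt) {ι ι' ι'' : Type} [Fintype ι'']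
    {e : ι → F} {e' : ι' → F} {e'' : ι'' → F} {D D' D'' : Divisor K F}
    (he : IsIntFrame S e D) (he' : IsIntFrame S e' D') (he'' : IsIntFrame S e'' D'')
    (hD : D + D' = D'') :
    ∃ t : ι → ι' → ι'' → K, (∀ i j l, t i j l ∈ constVal S) ∧
      (∀ i j, e i * e' j = ∑ l, t i j l • e'' l) ∧
      (∀ i j, S.rd (e i) * S.rd (e' j) = ∑ l, rc S (t i j l) • S.rd (e'' l)) := by
  have h1 : ∀ i j, ∃ u : ι'' → K, ∑ l, u l • e'' l = e i * e' j := by
    intro i j
    have h2 : e i ∈ L D := by
      rw [← he.1.2]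
      exact Submodule.subset_span ⟨i, rfl⟩
    have h3 : e' j ∈ L D' := by
      rw [← he'.1.2]
      exact Submodule.subset_span ⟨j, rfl⟩
    have h4 : e i * e' j ∈ L D'' := by
      rw [← hD]
      exact H42.mul_mem_L_add h2 h3
    rw [← he''.1.2] at h4
    exact (Submodule.mem_span_range_iff_exists_fun K).mp h4
  choose t ht using h1
  have h5 : ∀ i j, (∀ l, t i j l ∈ constVal S) ∧
      S.rd (∑ l, t i j l • e'' l) = ∑ l, rc S (t i j l) • S.rd (e'' l) := by
    intro i j
    refine hFI K F k F' S ι'' e'' he''.2.1 he''.2.2.1 (t i j) ?_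
    rw [ht i j]
    exact S.V.mul_mem _ _ (he.2.1 i) (he'.2.1 j)
  refine ⟨t, fun i j l => (h5 i j).1 l, fun i j => (ht i j).symm, fun i j => ?_⟩
  rw [← (h5 i j).2, ht i j, S.rd_mul (he.2.1 i) (he'.2.1 j)]

/-- The reduction of an integral echelon basis is echelon. -/
theorem ech_map_rc {ι : Type} {d : ℕ} (J : Fin d → ι) (M : Matrix ι (Fin d) K)
    (hM : ∀ a b, M (J a) b = if a = b then 1 else 0) (a b : Fin d) :
    (M.map (rc S)) (J a) b = if a = b then 1 else 0 := by
  rw [Matrix.map_apply, hM]
  split_ifs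
  · exact rc_one S
  · exact rc_zero S

/-- The reduction of an integral echelon basis depends only on the reduction of the divisor. -/
theorem ech_rc_const {ι : Type} [Fintype ι] {d : ℕ} {e : ι → F} {D D₂ : Divisor K F}
    {J : Fin d → ι} {M M₂ : Matrix ι (Fin d) K} (hM : IsEch S e D J M)
    (hM₂ : IsEch S e D₂ J M₂) (hD : Finsupp.mapDomain S.r D = Finsupp.mapDomain S.r D₂) :
    M.map (rc S) = M₂.map (rc S) := by
  refine ech_unique J _ _ (ech_map_rc S J M hM.1) (ech_map_rc S J M₂ hM₂.1) ?_
  rw [hM.2.2.2, hM₂.2.2.2, hD]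

section FamRing

variable {P ι : Type} {d : ℕ} (Mx My : P → Matrix ι (Fin d) K)

theorem const_mem_famRing {a : K} (ha : a ∈ constVal S) :
    (fun _ : P => a) ∈ famRing (constVal S).toSubring Mx My :=
  Subring.subset_closure (Or.inl ⟨a, ha, rfl⟩)

theorem entry_mem_famRing_left (i : ι) (b : Fin d) :
    (fun p => Mx p i b) ∈ famRing (constVal S).toSubring Mx My :=
  Subring.subset_closure (Or.inr (Or.inl ⟨i, b, rfl⟩))

theorem entry_mem_famRing_right (i : ι) (b : Fin d) :
    (fun p => My p i b) ∈ famRing (constVal S).toSubring Mx My :=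
  Subring.subset_closure (Or.inr (Or.inr ⟨i, b, rfl⟩))

theorem famRing_closure_props (hMx : ∀ p i b, Mx p i b ∈ constVal S)
    (hMy : ∀ p i b, My p i b ∈ constVal S)
    (hcx : ∀ p p' i b, rc S (Mx p i b) = rc S (Mx p' i b))
    (hcy : ∀ p p' i b, rc S (My p i b) = rc S (My p' i b))
    (g : P → K) (hg : g ∈ famRing (constVal S).toSubring Mx My) :
    (∀ s, g s ∈ constVal S) ∧
      ∀ s ∈ (Set.univ : Set P), ∀ s' ∈ (Set.univ : Set P),
        (constVal S).valuation (g s - g s') < 1 := by
  refine H18.cong_closure _ Set.univ (fun g hg => ?_) g hg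
  rcases hg with ⟨a, ha, rfl⟩ | ⟨i, b, rfl⟩ | ⟨i, b, rfl⟩
  · exact ⟨fun _ => ha, fun s _ s' _ => by simp⟩
  · exact ⟨fun s => hMx s i b, fun s _ s' _ =>
      val_sub_lt_of_rc_eq S (hMx s i b) (hMx s' i b) (hcx s s' i b)⟩
  · exact ⟨fun s => hMy s i b, fun s _ s' _ =>
      val_sub_lt_of_rc_eq S (hMy s i b) (hMy s' i b) (hcy s s' i b)⟩

theorem isFunRingA_famRing (hMx : ∀ p i b, Mx p i b ∈ constVal S)
    (hMy : ∀ p i b, My p i b ∈ constVal S) :
    H18.IsFunRingA (constVal S) (famRing (constVal S).toSubring Mx My) where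
  const_mem := fun _ ha => const_mem_famRing S Mx My ha
  val_mem := fun g hg s => by
    have h := H18.cong_closure (A := constVal S) _ (∅ : Set P) (fun g hg => ?_) g hg
    · exact h.1 s
    · rcases hg with ⟨a, ha, rfl⟩ | ⟨i, b, rfl⟩ | ⟨i, b, rfl⟩
      · exact ⟨fun _ => ha, fun s hs => absurd hs (Set.notMem_empty s)⟩
      · exact ⟨fun s => hMx s i b, fun s hs => absurd hs (Set.notMem_empty s)⟩
      · exact ⟨fun s => hMy s i b, fun s hs => absurd hs (Set.notMem_empty s)⟩

theorem isClass_famRing (p₀ : P) (hMx : ∀ p i b, Mx p i b ∈ constVal S)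
    (hMy : ∀ p i b, My p i b ∈ constVal S)
    (hcx : ∀ p p' i b, rc S (Mx p i b) = rc S (Mx p' i b))
    (hcy : ∀ p p' i b, rc S (My p i b) = rc S (My p' i b)) :
    H18.IsClass (constVal S) (famRing (constVal S).toSubring Mx My) Set.univ where
  nonempty := ⟨p₀, Set.mem_univ p₀⟩
  ind_mem := by
    have h1 : (fun s : P => (Set.univ : Set P).indicator (fun _ => (1 : K)) s) = 1 := by
      funext s
      simp
    rw [h1]
    exact Subring.one_mem _
  cong := fun g hg => (famRing_closure_props S Mx My hMx hMy hcx hcy g hg).2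

end FamRing

/-- The reduction of a principal divisor is principal. -/
theorem exists_red_principal {f : F} (hf : f ≠ 0) (D : Divisor K F)
    (hD : ∀ v : Place K F, v.ord f = D v) :
    ∃ f' : F', f' ≠ 0 ∧ ∀ Q : Place k F', Q.ord f' = Finsupp.mapDomain S.r D Q := by
  obtain ⟨c, hc0, hu, hred⟩ := S.exists_scale f hf
  refine ⟨S.red ⟨_, hu⟩, hred, fun Q => ?_⟩
  have h1 := S.DI ⟨_, hu⟩ hred D (fun P => by
    show D P = P.ord (algebraMap K F c * f)
    rw [ord_algebraMap_mul P hc0, hD]) Q
  exact h1.symm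

end Fermat.Agent.FL.H46
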