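import Fermat.Agent.FL.Defs5
import Fermat.Agent.FL.H18_LocEv

/-!
# G-FL, package FAM-ADD (helper46), part 2: reduction of constants and the `EvRing` of a class

`S : RedSetup K F k F'`, `A = constVal S`.

* `rc S` is a ring homomorphism on `A` (`rc_add`, `rc_mul`, …, `rcHom`), with kernel the maximal
  ideal (`rc_eq_zero_iff`).
* `famEv S hT hC : EvRing (locRing A T C) k K C`: the local ring of a class `C` of a ring `T` of
  `A`-valued functions, with the reduction to `k` and the evaluations.
* `liftF`: the elements of `T` as elements of the local ring.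
-/

set_option autoImplicit false

noncomputable section

open AlgebraicCurve

namespace Fermat.Agent.FL.H46

open Fermat.Agent.RED Fermat.Agent.RED.H17 Fermat.Agent.FL

variable {K F k F' : Type} [Field K] [Field F] [Algebra K F] [Field k] [Field F']
  [Algebra k F'] (S : RedSetup K F k F')

theorem rd_algebraMap {c : K} (h : c ∈ constVal S) :
    S.rd (algebraMap K F c) = algebraMap k F' (rc S c) := by
  have h' : algebraMap K F c ∈ S.V := h
  rw [S.rd_of_mem h']
  exact rc_spec S h'

theorem rc_zero : rc S 0 = 0 := by
  apply (algebraMap k F').injective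
  rw [← rd_algebraMap S (constVal S).zero_mem, map_zero, map_zero]
  exact S.rd_zero

theorem rc_one : rc S 1 = 1 := by
  apply (algebraMap k F').injective
  rw [← rd_algebraMap S (constVal S).one_mem, map_one, map_one]
  exact S.rd_one

theorem rc_add {a b : K} (ha : a ∈ constVal S) (hb : b ∈ constVal S) :
    rc S (a + b) = rc S a + rc S b := by
  apply (algebraMap k F').injective
  rw [← rd_algebraMap S ((constVal S).add_mem _ _ ha hb), map_add, map_add,
    ← rd_algebraMap S ha, ← rd_algebraMap S hb]
  exact S.rd_add ha hb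

theorem rc_mul {a b : K} (ha : a ∈ constVal S) (hb : b ∈ constVal S) :
    rc S (a * b) = rc S a * rc S b := by
  apply (algebraMap k F').injective
  rw [← rd_algebraMap S ((constVal S).mul_mem _ _ ha hb), map_mul, map_mul,
    ← rd_algebraMap S ha, ← rd_algebraMap S hb]
  exact S.rd_mul ha hb

/-- The reduction of constants, as a ring homomorphism. -/
def rcHom : (constVal S) →+* k where
  toFun a := rc S (a : K)
  map_one' := rc_one S
  map_mul' a b := rc_mul S a.2 b.2
  map_zero' := rc_zero S
  map_add' a b := rc_add S a.2 b.2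

@[simp] theorem rcHom_apply (a : constVal S) : rcHom S a = rc S (a : K) := rfl

theorem rc_neg {a : K} (ha : a ∈ constVal S) : rc S (-a) = -rc S a := by
  have := map_neg (rcHom S) ⟨a, ha⟩
  exact this

theorem rc_sub {a b : K} (ha : a ∈ constVal S) (hb : b ∈ constVal S) :
    rc S (a - b) = rc S a - rc S b := by
  have := map_sub (rcHom S) ⟨a, ha⟩ ⟨b, hb⟩
  exact this

/-- The kernel of the reduction of constants is the maximal ideal of `A`. -/
theorem rc_eq_zero_iff {a : K} (ha : a ∈ constVal S) :
    rc S a = 0 ↔ (constVal S).valuation a < 1 := by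
  constructor
  · intro h0
    by_contra hlt
    have hle : (constVal S).valuation a ≤ 1 := ((constVal S).valuation_le_one_iff a).mpr ha
    have h1 : (constVal S).valuation a = 1 := le_antisymm hle (not_lt.mp hlt)
    have ha0 : a ≠ 0 := H18.ne_zero_of_val_eq_one h1
    have hinv : a⁻¹ ∈ constVal S := H18.mem_of_val_le_one (H18.val_inv_eq_one h1).le
    have h2 := rc_mul S ha hinv
    rw [mul_inv_cancel₀ ha0, rc_one, h0, zero_mul] at h2
    exact one_ne_zero h2
  · intro hlt
    by_contra h0
    have ha' : algebraMap K F a ∈ S.V := ha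
    have h1 : S.red ⟨_, ha'⟩ ≠ 0 := by
      rw [rc_spec S ha']
      intro h
      exact h0 ((algebraMap k F').injective (by rw [h, map_zero]))
    have h2 : (⟨_, ha'⟩ : S.V) ∉ IsLocalRing.maximalIdeal S.V := fun h =>
      h1 ((S.red_eq_zero_iff _).mpr h)
    have h3 : IsUnit (⟨_, ha'⟩ : S.V) := IsLocalRing.notMem_maximalIdeal.mp h2
    obtain ⟨w, hw⟩ := h3.exists_right_inv
    have hw' : algebraMap K F a * (w : F) = 1 := congrArg Subtype.val hw
    have ha0 : a ≠ 0 := by
      rintro rfl
      rw [map_zero, zero_mul] at hw'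
      exact zero_ne_one hw'
    have h4 : algebraMap K F a⁻¹ = (w : F) := by
      rw [map_inv₀]
      exact inv_eq_of_mul_eq_one_right hw'
    have hinv : a⁻¹ ∈ constVal S := by
      show algebraMap K F a⁻¹ ∈ S.V
      rw [h4]
      exact w.2
    have h5 : (constVal S).valuation a⁻¹ ≤ 1 := ((constVal S).valuation_le_one_iff _).mpr hinv
    have h6 : (constVal S).valuation a * (constVal S).valuation a⁻¹ = 1 := by
      rw [← map_mul, mul_inv_cancel₀ ha0, map_one]
    have h7 : (constVal S).valuation a * (constVal S).valuation a⁻¹ < 1 :=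
      mul_lt_one_of_lt_of_le hlt h5
    rw [h6] at h7
    exact lt_irrefl _ h7

theorem rc_ne_zero_iff {a : K} (ha : a ∈ constVal S) :
    rc S a ≠ 0 ↔ (constVal S).valuation a = 1 := by
  rw [Ne, rc_eq_zero_iff S ha, not_lt]
  constructor
  · intro h
    exact le_antisymm (((constVal S).valuation_le_one_iff a).mpr ha) h
  · intro h
    exact h.ge

theorem rc_eq_of_val_sub_lt {a b : K} (ha : a ∈ constVal S) (hb : b ∈ constVal S)
    (h : (constVal S).valuation (a - b) < 1) : rc S a = rc S b := by
  have h1 := (rc_eq_zero_iff S ((constVal S).sub_mem ha hb)).mpr h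
  rw [rc_sub S ha hb, sub_eq_zero] at h1
  exact h1

theorem val_sub_lt_of_rc_eq {a b : K} (ha : a ∈ constVal S) (hb : b ∈ constVal S)
    (h : rc S a = rc S b) : (constVal S).valuation (a - b) < 1 := by
  rw [← rc_eq_zero_iff S ((constVal S).sub_mem ha hb), rc_sub S ha hb, h, sub_self]

/-! ### The `EvRing` of a class -/

section Ev

variable {P : Type} {T : Subring (P → K)} {C : Set P}

/-- Evaluation at a point of the class, with values in `A`. -/
def evA (hT : H18.IsFunRingA (constVal S) T) (s : C) :
    H18.locRing (constVal S) T C →+* (constVal S) :=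
  (H18.locEv (constVal S) T C s).codRestrict (constVal S)
    (fun φ => H18.locRing_val_mem hT φ s)

@[simp] theorem coe_evA (hT : H18.IsFunRingA (constVal S) T) (s : C)
    (φ : H18.locRing (constVal S) T C) : ((evA S hT s φ : constVal S) : K) = (φ : C → K) s :=
  rfl

/-- The local ring of a class, with the reduction to `k` and the evaluations. -/
def famEv (hT : H18.IsFunRingA (constVal S) T) (hC : H18.IsClass (constVal S) T C) :
    EvRing (H18.locRing (constVal S) T C) k K C where
  ρ := (rcHom S).comp (evA S hT hC.pt)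
  ev := H18.locEv (constVal S) T C
  unit_iff := fun φ => by
    rw [H18.isUnit_iff_locRed_ne_zero hT hC, H18.locRed_ne_zero_iff hT hC φ hC.pt]
    exact (rc_ne_zero_iff S (H18.locRing_val_mem hT φ hC.pt)).symm
  ev_inj := H18.eq_zero_of_locEv

theorem famEv_ev (hT : H18.IsFunRingA (constVal S) T) (hC : H18.IsClass (constVal S) T C)
    (s : C) (φ : H18.locRing (constVal S) T C) : (famEv S hT hC).ev s φ = (φ : C → K) s := rfl

/-- The reduction can be computed at any point of the class. -/
theorem famEv_ρ (hT : H18.IsFunRingA (constVal S) T) (hC : H18.IsClass (constVal S) T C)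
    (s : C) (φ : H18.locRing (constVal S) T C) :
    (famEv S hT hC).ρ φ = rc S ((φ : C → K) s) := by
  show rc S ((φ : C → K) hC.pt) = rc S ((φ : C → K) s)
  exact rc_eq_of_val_sub_lt S (H18.locRing_val_mem hT φ _) (H18.locRing_val_mem hT φ _)
    (H18.locRing_cong hT hC φ _ _)

open Classical in
/-- The elements of `T` as elements of the local ring (junk value `0` outside `T`). -/
def liftF (T : Subring (P → K)) (C : Set P) (φ : P → K) : H18.locRing (constVal S) T C :=
  if h : φ ∈ T then H18.restr (constVal S) T C ⟨φ, h⟩ else 0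

theorem liftF_coe {φ : P → K} (h : φ ∈ T) (s : C) :
    ((liftF S T C φ : H18.locRing (constVal S) T C) : C → K) s = φ s := by
  unfold liftF
  rw [dif_pos h]
  rfl

theorem ev_liftF (hT : H18.IsFunRingA (constVal S) T) (hC : H18.IsClass (constVal S) T C)
    {φ : P → K} (h : φ ∈ T) (s : C) : (famEv S hT hC).ev s (liftF S T C φ) = φ s := by
  rw [famEv_ev, liftF_coe S h]

theorem ρ_liftF (hT : H18.IsFunRingA (constVal S) T) (hC : H18.IsClass (constVal S) T C)
    {φ : P → K} (h : φ ∈ T) (s : C) : (famEv S hT hC).ρ (liftF S T C φ) = rc S (φ s) := by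
  rw [famEv_ρ S hT hC s, liftF_coe S h]

end Ev

end Fermat.Agent.FL.H46
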