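import Fermat.Agent.FL.H51_DStabFF
import Fermat.Agent.FL.H18_Loc

/-!
# G-FL, package DSTAB (helper51): the ring generated by the coordinates is `Γ`-stable

`stmt_DStab_of : Stmt_FamAdd → Stmt_RedLinEq → Stmt_EchSmul → Stmt_EchConst → Stmt_DStab`.

For `σ ∈ Γ` the twisted coordinates `y ↦ σ (M (σ⁻¹ y))` are the echelon coordinates of
`L(B₁ - σ E_{σ⁻¹ y})`, and `σ E_{σ⁻¹ y} + E₀ ~ E_y + σ E₀`: this is the addition in families
(`Stmt_FamAdd`) with the constant second summand `σ E₀`.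

* `Stmt_EchSmul`  : transport of `IsEch` by `σ` (helper21).
* `Stmt_EchConst` : existence of an integral echelon basis of `L(B₁ - E)`, `E ≥ 0` of degree `g`
  (helper21, from `Stmt_EchInt` and `Stmt_EchUnique`).
This file contains no `sorry`.
-/

set_option autoImplicit false
set_option linter.style.haveILetI false
set_option linter.unusedSectionVars false
set_option maxHeartbeats 1000000

noncomputable section

open AlgebraicCurve Matrix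

namespace Fermat.Agent.FL.H51

open Fermat.Agent.RED Fermat.Agent.RED.H17 Fermat.Agent.Lib.HopfOrder
  Fermat.Agent.Lib.HopfOrderLoc Fermat.Agent.S17.H35

local notation "L" => riemannRochSpace

/-- **(B) transport of `IsEch`** by an element of `Γ` fixing the frame. -/
def Stmt_EchSmul : Prop :=
  ∀ (K F k F' : Type) [Field K] [Field F] [Algebra K F] [Field k] [Field F'] [Algebra k F']
    (S : RedSetup K F k F') (Γ : Type) [Group Γ] (G : GalRed S Γ) (σ : Γ)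
    (ι : Type) [Fintype ι] (d : ℕ) (e : ι → F), (∀ i, G.act σ • e i = e i) → (∀ i, e i ∈ S.V) →
    ∀ (D : Divisor K F) (J : Fin d → ι) (M : Matrix ι (Fin d) K), IsEch S e D J M →
      IsEch S e (G.act σ • D) J (M.map (SemilinearAut.baseAut (G.act σ)))

/-- **(D) constant echelon bases**: in a coordinate system with at least one point, `L(B₁ - E)`
has an integral echelon basis in some chart, for every effective divisor `E` of degree `g`. -/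
def Stmt_EchConst : Prop :=
  ∀ (K F k F' : Type) [Field K] [Field F] [Algebra K F] [Field k] [Field F'] [Algebra k F']
    [IsAlgClosed K] [IsAlgClosed k] (S : RedSetup K F k F'), IsFF K F → IsFF k F' →
  ∀ (Γ : Type) [Group Γ] (G : GalRed S Γ) (𝒯 : Set (Pic0 K F)) (CS : CoordSys S G 𝒯),
    𝒯.Nonempty → ∀ E : Divisor K F, 0 ≤ E → Divisor.degree E = CS.g →
    ∃ (J : Fin CS.d → Fin CS.n₁) (M : Matrix (Fin CS.n₁) (Fin CS.d) K),
      IsEch S CS.e₁ (CS.B₁ - E) J M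

section Ctx

variable {K F k F' : Type} [Field K] [Field F] [Algebra K F] [Field k] [Field F']
  [Algebra k F'] {S : RedSetup K F k F'} {Γ : Type} [Group Γ] {G : GalRed S Γ}

/-- The reduction of places commutes with the Galois action, on divisors. -/
theorem mapDomain_r_smul (G : GalRed S Γ) (σ : Γ) (D : Divisor K F) :
    Finsupp.mapDomain S.r (G.act σ • D) = G.act' σ • Finsupp.mapDomain S.r D := by
  rw [SemilinearAut.divisor_smul_def, SemilinearAut.divisor_smul_def,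
    ← Finsupp.mapDomain_comp, ← Finsupp.mapDomain_comp]
  congr 1
  funext P
  exact G.r_smul σ P

variable {𝒯 : Set (Pic0 K F)} (CS : CoordSys S G 𝒯)

theorem cls_def (x : 𝒯) : CS.cls x = Finsupp.mapDomain S.r (CS.E x) := rfl

theorem cls_nonneg (x : 𝒯) : 0 ≤ CS.cls x :=
  mapDomain_nonneg_of_nonneg _ (CS.hE x).1

/-- The generators are integral. -/
theorem gen_mem (𝒮 : Set (Pic0 K F)) (h𝒮 : 𝒮 ⊆ 𝒯) (j : 𝒯 ⊕ (𝒯 × Fin CS.n₁ × Fin CS.d))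
    (x : 𝒮) : CS.gen 𝒮 h𝒮 j x ∈ constVal S := by
  classical
  rcases j with x₀ | ⟨x₀, i, b⟩
  · simp only [CoordSys.gen]
    split_ifs
    · exact (constVal S).one_mem
    · exact (constVal S).zero_mem
  · simp only [CoordSys.gen]
    split_ifs
    · exact (CS.hM _).2.2.1 i b
    · exact (constVal S).zero_mem

/-- The principal divisor relating the representatives of `y` and of `x = g • y`. -/
theorem exists_ord_eq_of_smul (g : SemilinearAut K F) (x y : 𝒯)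
    (hxy : (x : Pic0 K F) = g • (y : Pic0 K F)) :
    ∃ f : F, f ≠ 0 ∧ ∀ v : Place K F,
      v.ord f = (g • CS.E y + CS.E₀ - CS.E x - g • CS.E₀) v := by
  obtain ⟨Dx, hDx, hDx'⟩ := CS.mkE x
  obtain ⟨Dy, hDy, hDy'⟩ := CS.mkE y
  have h1 : Pic0.mk Dx = Pic0.mk (SemilinearAut.degZeroSMulHom g Dy) := by
    rw [hDx, hxy, ← hDy, SemilinearAut.pic0_smul_mk]
  obtain ⟨f, hf, hord⟩ := principal_of_mk_eq h1
  refine ⟨f, hf, fun v => ?_⟩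
  rw [hord v, SemilinearAut.coe_degZeroSMulHom, hDx', hDy', smul_sub]
  simp only [Finsupp.sub_apply, Finsupp.add_apply]
  ring

/-- The reduction of the principal divisor relating the representatives of `x` and of
`y = σ • x`. -/
theorem exists_ord_red (hRL : Stmt_RedLinEq) [IsAlgClosed K] [IsAlgClosed k] (hFF : IsFF K F)
    (hFF' : IsFF k F') (σ : Γ) (x y : 𝒯)
    (hxy : (y : Pic0 K F) = G.act σ • (x : Pic0 K F)) :
    ∃ f' : F', f' ≠ 0 ∧ ∀ Q : Place k F',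
      Q.ord f' = (G.act' σ • CS.cls x + Finsupp.mapDomain S.r CS.E₀ - CS.cls y
        - Finsupp.mapDomain S.r (G.act σ • CS.E₀)) Q := by
  obtain ⟨f, hf, hord⟩ := exists_ord_eq_of_smul CS (G.act σ) y x hxy
  obtain ⟨f', hf', hord'⟩ := hRL K F k F' S hFF hFF'
    (G.act σ • CS.E x + CS.E₀ - CS.E y - G.act σ • CS.E₀) f hf (fun v => (hord v).symm)
  refine ⟨f', hf', fun Q => ?_⟩
  rw [← hord' Q, mapDomain_sub', mapDomain_sub', Finsupp.mapDomain_add, mapDomain_r_smul]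
  rfl

/-- **The class map**: the class of `x` is determined by the class of `σ • x`. -/
theorem cls_eq_of_smul (hRL : Stmt_RedLinEq) [IsAlgClosed K] [IsAlgClosed k] (hFF : IsFF K F)
    (hFF' : IsFF k F') (σ : Γ) (x₁ x₂ y₁ y₂ : 𝒯)
    (h1 : (y₁ : Pic0 K F) = G.act σ • (x₁ : Pic0 K F))
    (h2 : (y₂ : Pic0 K F) = G.act σ • (x₂ : Pic0 K F)) (hy : CS.cls y₁ = CS.cls y₂) :
    CS.cls x₁ = CS.cls x₂ := by
  obtain ⟨f₁, hf₁, hord₁⟩ := exists_ord_red CS hRL hFF hFF' σ x₁ y₁ h1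
  obtain ⟨f₂, hf₂, hord₂⟩ := exists_ord_red CS hRL hFF hFF' σ x₂ y₂ h2
  have hkey : G.act' σ • CS.cls x₁ = G.act' σ • CS.cls x₂ := by
    refine eq_of_principal_of_finrank_one (h := f₁ * f₂⁻¹)
      (smul_nonneg_of_nonneg _ (cls_nonneg CS x₁)) (smul_nonneg_of_nonneg _ (cls_nonneg CS x₂))
      (fun v => ?_) ?_
    · rw [v.ord_mul hf₁ (inv_ne_zero hf₂), v.ord_inv, hord₁ v, hord₂ v, hy]
      simp only [Finsupp.sub_apply, Finsupp.add_apply]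
      ring
    · rw [finrank_L_smul]
      exact CS.ns x₂
  exact MulAction.injective (G.act' σ) hkey

/-- The hypothesis `ns` of `Stmt_FamAdd` for the translation by `σ E₀ - E₀`. -/
theorem finrank_ns (hRL : Stmt_RedLinEq) [IsAlgClosed K] [IsAlgClosed k] (hFF : IsFF K F)
    (hFF' : IsFF k F') (σ : Γ) (x y : 𝒯)
    (hxy : (y : Pic0 K F) = G.act σ • (x : Pic0 K F)) :
    Module.finrank k (L (CS.cls y + Finsupp.mapDomain S.r (G.act σ • CS.E₀)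
      - Finsupp.mapDomain S.r CS.E₀)) = 1 := by
  obtain ⟨f', hf', hord'⟩ := exists_ord_red CS hRL hFF hFF' σ x y hxy
  rw [finrank_L_eq_of_principal hf' hord' (D₂ := G.act' σ • CS.cls x) (by abel),
    finrank_L_smul]
  exact CS.ns x

/-- The inclusion `𝒮 → 𝒯`. -/
def inc {𝒮 : Set (Pic0 K F)} (h𝒮 : 𝒮 ⊆ 𝒯) (y : 𝒮) : 𝒯 := ⟨y, h𝒮 y.2⟩

theorem gen_inl_of_eq {𝒮 : Set (Pic0 K F)} (h𝒮 : 𝒮 ⊆ 𝒯) (x₀ : 𝒯) (y : 𝒮)
    (h : CS.cls (inc h𝒮 y) = CS.cls x₀) : CS.gen 𝒮 h𝒮 (Sum.inl x₀) y = 1 := by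
  simp only [CoordSys.gen]
  exact if_pos h

theorem gen_inl_of_ne {𝒮 : Set (Pic0 K F)} (h𝒮 : 𝒮 ⊆ 𝒯) (x₀ : 𝒯) (y : 𝒮)
    (h : CS.cls (inc h𝒮 y) ≠ CS.cls x₀) : CS.gen 𝒮 h𝒮 (Sum.inl x₀) y = 0 := by
  simp only [CoordSys.gen]
  exact if_neg h

theorem gen_inr_of_eq {𝒮 : Set (Pic0 K F)} (h𝒮 : 𝒮 ⊆ 𝒯) (x₀ : 𝒯) (i : Fin CS.n₁)
    (b : Fin CS.d) (y : 𝒮) (h : CS.cls (inc h𝒮 y) = CS.cls x₀) :
    CS.gen 𝒮 h𝒮 (Sum.inr (x₀, i, b)) y = CS.M (inc h𝒮 y) i b := by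
  simp only [CoordSys.gen]
  exact if_pos h

theorem gen_inr_of_ne {𝒮 : Set (Pic0 K F)} (h𝒮 : 𝒮 ⊆ 𝒯) (x₀ : 𝒯) (i : Fin CS.n₁)
    (b : Fin CS.d) (y : 𝒮) (h : CS.cls (inc h𝒮 y) ≠ CS.cls x₀) :
    CS.gen 𝒮 h𝒮 (Sum.inr (x₀, i, b)) y = 0 := by
  simp only [CoordSys.gen]
  exact if_neg h

/-- **The cut-off**: a function of the ring generated on a class by the integral constants, the
coordinates and an integral constant matrix is the restriction of an element of `genRing`. -/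
theorem cutoff {𝒮 : Set (Pic0 K F)} (h𝒮 : 𝒮 ⊆ 𝒯) (y₀ : 𝒮)
    (My₀ : Matrix (Fin CS.n₁) (Fin CS.d) K) (hMy : ∀ i b, My₀ i b ∈ constVal S)
    (ψ : {y : 𝒮 // CS.cls (inc h𝒮 y) = CS.cls (inc h𝒮 y₀)} → K)
    (hψ : ψ ∈ famRing (constVal S).toSubring
      (fun p : {y : 𝒮 // CS.cls (inc h𝒮 y) = CS.cls (inc h𝒮 y₀)} => CS.M (inc h𝒮 p.1))
      (fun _ => My₀)) :
    ∃ Ψ ∈ genRing (constVal S).toSubring (CS.gen 𝒮 h𝒮),
      ∀ p : {y : 𝒮 // CS.cls (inc h𝒮 y) = CS.cls (inc h𝒮 y₀)}, Ψ p.1 = ψ p := by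
  unfold famRing at hψ
  induction hψ using Subring.closure_induction with
  | mem φ hφ =>
    rcases hφ with ⟨a, ha, rfl⟩ | ⟨i, b, rfl⟩ | ⟨i, b, rfl⟩
    · exact ⟨fun _ => a, Subring.subset_closure (Or.inl ⟨a, ha, rfl⟩), fun p => rfl⟩
    · exact ⟨CS.gen 𝒮 h𝒮 (Sum.inr (inc h𝒮 y₀, i, b)),
        Subring.subset_closure (Or.inr ⟨_, rfl⟩), fun p => gen_inr_of_eq CS h𝒮 _ i b p.1 p.2⟩
    · exact ⟨fun _ => My₀ i b, Subring.subset_closure (Or.inl ⟨_, hMy i b, rfl⟩), fun p => rfl⟩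
  | zero => exact ⟨0, Subring.zero_mem _, fun p => rfl⟩
  | one => exact ⟨1, Subring.one_mem _, fun p => rfl⟩
  | add f g _ _ hf hg =>
    obtain ⟨Ψf, hΨf, hf'⟩ := hf
    obtain ⟨Ψg, hΨg, hg'⟩ := hg
    exact ⟨Ψf + Ψg, Subring.add_mem _ hΨf hΨg, fun p => by
      rw [Pi.add_apply, Pi.add_apply, hf' p, hg' p]⟩
  | neg f _ hf =>
    obtain ⟨Ψf, hΨf, hf'⟩ := hf
    exact ⟨-Ψf, Subring.neg_mem _ hΨf, fun p => by rw [Pi.neg_apply, Pi.neg_apply, hf' p]⟩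
  | mul f g _ _ hf hg =>
    obtain ⟨Ψf, hΨf, hf'⟩ := hf
    obtain ⟨Ψg, hΨg, hg'⟩ := hg
    exact ⟨Ψf * Ψg, Subring.mul_mem _ hΨf hΨg, fun p => by
      rw [Pi.mul_apply, Pi.mul_apply, hf' p, hg' p]⟩

end Ctx

/-- **DSTAB**: the ring generated by the generators is stable under the twist by `Γ`. -/
theorem stmt_DStab_of (hFA : Stmt_FamAdd) (hRL : Stmt_RedLinEq) (hES : Stmt_EchSmul)
    (hEC : Stmt_EchConst) : Stmt_DStab := by
  intro K F k F' _ _ _ _ _ _ _ _ S hFF hFF' Γ _ G 𝒯 h𝒯fin h𝒯stab CS 𝒮 h𝒮 h𝒮stab j σ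
  classical
  haveI : Finite 𝒮 := (h𝒯fin.subset h𝒮).to_subtype
  have hA := gen_mem CS 𝒮 h𝒮
  have hfun := H18.isFunRingA_genRing (A := constVal S) (CS.gen 𝒮 h𝒮) hA
  -- the map `τ = σ⁻¹`
  let τ : 𝒮 → 𝒮 := fun y => ⟨G.act σ⁻¹ • (y : Pic0 K F), h𝒮stab σ⁻¹ y y.2⟩
  have hτ : ∀ (x : 𝒮) (hx : G.act σ • (x : Pic0 K F) ∈ 𝒮), τ ⟨_, hx⟩ = x := fun x hx =>
    Subtype.ext (by
      show G.act σ⁻¹ • (G.act σ • (x : Pic0 K F)) = x
      rw [map_inv, inv_smul_smul])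
  have hyτ : ∀ y : 𝒮, ((inc h𝒮 y : 𝒯) : Pic0 K F)
      = G.act σ • ((inc h𝒮 (τ y) : 𝒯) : Pic0 K F) := fun y => by
    show (y : Pic0 K F) = G.act σ • (G.act σ⁻¹ • (y : Pic0 K F))
    rw [map_inv, smul_inv_smul]
  -- the class map
  have hcls : ∀ y₁ y₂ : 𝒮, CS.cls (inc h𝒮 y₁) = CS.cls (inc h𝒮 y₂) →
      CS.cls (inc h𝒮 (τ y₁)) = CS.cls (inc h𝒮 (τ y₂)) := fun y₁ y₂ h =>
    cls_eq_of_smul CS hRL hFF hFF' σ _ _ _ _ (hyτ y₁) (hyτ y₂) h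
  refine ⟨fun y => SemilinearAut.baseAut (G.act σ) (CS.gen 𝒮 h𝒮 j (τ y)), ?_,
    fun x hx => by
      show SemilinearAut.baseAut (G.act σ) (CS.gen 𝒮 h𝒮 j (τ ⟨_, hx⟩)) = _
      rw [hτ x hx]⟩
  refine mem_of_local_units (constVal S) _ hfun.const_mem hfun.val_mem _ (fun y₀ => ?_)
  -- the indicator of the class of `y₀`
  have heR : CS.gen 𝒮 h𝒮 (Sum.inl (inc h𝒮 y₀)) ∈
      genRing (constVal S).toSubring (CS.gen 𝒮 h𝒮) :=
    Subring.subset_closure (Or.inr ⟨_, rfl⟩)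
  -- it suffices to find `D`, `N` on the class
  suffices hsuff : ∃ 𝒟 𝒩 : 𝒮 → K, 𝒟 ∈ genRing (constVal S).toSubring (CS.gen 𝒮 h𝒮) ∧
      𝒩 ∈ genRing (constVal S).toSubring (CS.gen 𝒮 h𝒮) ∧
      (∀ y : 𝒮, CS.cls (inc h𝒮 y) = CS.cls (inc h𝒮 y₀) →
        𝒟 y * SemilinearAut.baseAut (G.act σ) (CS.gen 𝒮 h𝒮 j (τ y)) = 𝒩 y) ∧
      (𝒟 y₀ ≠ 0 ∧ (𝒟 y₀)⁻¹ ∈ constVal S) by
    obtain ⟨𝒟, 𝒩, h𝒟, h𝒩, hrel, hunit⟩ := hsuff
    refine ⟨CS.gen 𝒮 h𝒮 (Sum.inl (inc h𝒮 y₀)) * 𝒟, CS.gen 𝒮 h𝒮 (Sum.inl (inc h𝒮 y₀)) * 𝒩,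
      Subring.mul_mem _ heR h𝒟, Subring.mul_mem _ heR h𝒩, fun y => ?_, ?_⟩
    · by_cases hy : CS.cls (inc h𝒮 y) = CS.cls (inc h𝒮 y₀)
      · rw [Pi.mul_apply, Pi.mul_apply, gen_inl_of_eq CS h𝒮 _ y hy, one_mul, one_mul]
        exact hrel y hy
      · rw [Pi.mul_apply, Pi.mul_apply, gen_inl_of_ne CS h𝒮 _ y hy, zero_mul, zero_mul,
          zero_mul]
    · rw [Pi.mul_apply, gen_inl_of_eq CS h𝒮 _ y₀ rfl, one_mul]
      exact hunit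
  have hone : ((1 : 𝒮 → K) y₀ ≠ 0 ∧ ((1 : 𝒮 → K) y₀)⁻¹ ∈ constVal S) := by
    rw [Pi.one_apply, inv_one]
    exact ⟨one_ne_zero, (constVal S).one_mem⟩
  rcases j with x₀ | ⟨x₀, i, b⟩
  · -- the indicators: constant on the class
    by_cases hx₀ : CS.cls (inc h𝒮 (τ y₀)) = CS.cls x₀
    · refine ⟨1, 1, Subring.one_mem _, Subring.one_mem _, fun y hy => ?_, hone⟩
      rw [gen_inl_of_eq CS h𝒮 _ _ ((hcls y y₀ hy).trans hx₀), map_one, Pi.one_apply, mul_one]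
    · refine ⟨1, 0, Subring.one_mem _, Subring.zero_mem _, fun y hy => ?_, hone⟩
      rw [gen_inl_of_ne CS h𝒮 _ _ (fun h => hx₀ ((hcls y y₀ hy).symm.trans h)), map_zero,
        mul_zero, Pi.zero_apply]
  · by_cases hx₀ : CS.cls (inc h𝒮 (τ y₀)) = CS.cls x₀
    · -- the main case: the addition in families
      obtain ⟨Jy, My₀, hMy₀⟩ := hEC K F k F' S hFF hFF' Γ G 𝒯 CS ⟨y₀, h𝒮 y₀.2⟩
        (G.act σ • CS.E₀) (smul_nonneg_of_nonneg _ CS.hE₀)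
        (by rw [SemilinearAut.degree_smul]; exact CS.degE₀)
      have hfam := hFA K F k F' S hFF hFF' CS.g CS.c CS.hc CS.hR CS.hR' CS.semi CS.B₁ CS.B₂
        CS.E₀ CS.hB₁ CS.hB₂ CS.hE₀ CS.degE₀ CS.n₁ CS.n₂₁ CS.n₂ CS.n₃ CS.n₄ CS.e₁ CS.e₂₁ CS.e₂
        CS.e₃ CS.e₄ CS.he₁ CS.he₂₁ CS.he₂ CS.he₃ CS.he₄
        {y : 𝒮 // CS.cls (inc h𝒮 y) = CS.cls (inc h𝒮 y₀)}
        (fun p => CS.E (inc h𝒮 p.1)) (fun _ => G.act σ • CS.E₀)
        (fun p => G.act σ • CS.E (inc h𝒮 (τ p.1)))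
        (CS.cls (inc h𝒮 y₀)) (Finsupp.mapDomain S.r (G.act σ • CS.E₀))
        (G.act' σ • CS.cls (inc h𝒮 (τ y₀)))
        (fun p => ⟨(CS.hE _).1, (CS.hE _).2, p.2⟩)
        (fun _ => ⟨smul_nonneg_of_nonneg _ CS.hE₀,
          by rw [SemilinearAut.degree_smul]; exact CS.degE₀, rfl⟩)
        (fun p => ⟨smul_nonneg_of_nonneg _ (CS.hE _).1,
          by rw [SemilinearAut.degree_smul]; exact (CS.hE _).2,
          by rw [mapDomain_r_smul, ← cls_def, hcls p.1 y₀ p.2]⟩)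
        (fun p => exists_ord_eq_of_smul CS (G.act σ) (inc h𝒮 p.1) (inc h𝒮 (τ p.1)) (hyτ p.1))
        (finrank_ns CS hRL hFF hFF' σ (inc h𝒮 (τ y₀)) (inc h𝒮 y₀) (hyτ y₀))
        CS.d (CS.J (CS.cls (inc h𝒮 y₀))) Jy (CS.J (CS.cls (inc h𝒮 (τ y₀))))
        (fun p => CS.M (inc h𝒮 p.1)) (fun _ => My₀)
        (fun p => (CS.M (inc h𝒮 (τ p.1))).map (SemilinearAut.baseAut (G.act σ)))
        (fun p => by
          have h1 := CS.hM (inc h𝒮 p.1)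
          rw [← cls_def, p.2] at h1
          exact h1)
        (fun _ => hMy₀)
        (fun p => by
          have h1 := hES K F k F' S Γ G σ (Fin CS.n₁) CS.d CS.e₁ (CS.fix₁ σ) CS.he₁.2.1 _ _ _
            (CS.hM (inc h𝒮 (τ p.1)))
          rw [smul_sub, CS.fixB₁ σ, ← cls_def, hcls p.1 y₀ p.2] at h1
          exact h1)
        i b
      obtain ⟨Dp, Np, hDp, hNp, hunit, hrel⟩ := hfam
      obtain ⟨𝒟, h𝒟, h𝒟'⟩ := cutoff CS h𝒮 y₀ My₀ hMy₀.2.2.1 Dp hDp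
      obtain ⟨𝒩, h𝒩, h𝒩'⟩ := cutoff CS h𝒮 y₀ My₀ hMy₀.2.2.1 Np hNp
      refine ⟨𝒟, 𝒩, h𝒟, h𝒩, fun y hy => ?_, ?_⟩
      · rw [h𝒟' ⟨y, hy⟩, h𝒩' ⟨y, hy⟩, gen_inr_of_eq CS h𝒮 _ i b _ ((hcls y y₀ hy).trans hx₀)]
        exact hrel ⟨y, hy⟩
      · rw [h𝒟' ⟨y₀, rfl⟩]
        exact hunit _
    · refine ⟨1, 0, Subring.one_mem _, Subring.zero_mem _, fun y hy => ?_, hone⟩
      rw [gen_inr_of_ne CS h𝒮 _ i b _ (fun h => hx₀ ((hcls y y₀ hy).symm.trans h)), map_zero,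
        mul_zero, Pi.zero_apply]

end Fermat.Agent.FL.H51
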