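import Fermat.Agent.FL.Defs5
import Fermat.Agent.FL.H2_AddChain
import Fermat.Agent.RED.H51_Ord

/-!
# G-FL, package DSTAB (helper51): function field lemmas

* `finrank_L_smul` : `l(g • D) = l(D)` for a semilinear automorphism `g`.
* `finrank_L_eq_of_principal` : `l(D₁) = l(D₂)` if `D₂ - D₁` is principal.
* `eq_of_principal_of_finrank_one` : an effective divisor `E₂` with `l(E₂) = 1` is the only
  effective divisor in its class.
* `principal_of_mk_eq` : two divisors of degree zero with the same class differ by a principal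
  divisor.
This file contains no `sorry`.
-/

set_option autoImplicit false
set_option linter.style.haveILetI false
set_option linter.unusedSectionVars false

noncomputable section

open AlgebraicCurve

namespace Fermat.Agent.FL.H51

open Fermat.Agent.RED Fermat.Agent.S17.H35

variable {k E : Type} [Field k] [Field E] [Algebra k E]

local notation "L" => riemannRochSpace

/-- `g • f ∈ L(g • D)` iff `f ∈ L(D)`. -/
theorem smul_mem_L_iff (g : SemilinearAut k E) (D : Divisor k E) (f : E) :
    g • f ∈ L (g • D) ↔ f ∈ L D := by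
  rw [mem_riemannRochSpace_iff, mem_riemannRochSpace_iff]
  constructor
  · intro h v
    rcases h (g • v) with h0 | h1
    · left
      have : g⁻¹ • (g • f) = g⁻¹ • (0 : E) := congrArg (g⁻¹ • ·) h0
      rwa [inv_smul_smul, smul_zero] at this
    · right
      rwa [SemilinearAut.divisor_smul_apply_smul, SemilinearAut.ord_smul] at h1
  · intro h w
    rcases h (g⁻¹ • w) with h0 | h1
    · left
      rw [h0, smul_zero]
    · right
      have h2 := SemilinearAut.ord_smul g (g⁻¹ • w) f
      rw [smul_inv_smul] at h2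
      rw [SemilinearAut.divisor_smul_apply, h2]
      exact h1

/-- The additive equivalence `L(D) ≃ L(g • D)`. -/
def smulLEquiv (g : SemilinearAut k E) (D : Divisor k E) : ↥(L D) ≃+ ↥(L (g • D)) where
  toFun f := ⟨g • (f : E), (smul_mem_L_iff g D f).2 f.2⟩
  invFun f := ⟨g⁻¹ • (f : E), by
    have h := f.2
    rw [← smul_inv_smul g (f : E)] at h
    exact (smul_mem_L_iff g D _).1 h⟩
  left_inv f := Subtype.ext (inv_smul_smul g (f : E))
  right_inv f := Subtype.ext (smul_inv_smul g (f : E))
  map_add' f f' := Subtype.ext (smul_add g (f : E) (f' : E))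

/-- `l(g • D) = l(D)`. -/
theorem finrank_L_smul (g : SemilinearAut k E) (D : Divisor k E) :
    Module.finrank k (L (g • D)) = Module.finrank k (L D) := by
  have h := rank_eq_of_equiv_equiv (R := k) (R' := k) (SemilinearAut.baseAut g)
    (smulLEquiv g D) (SemilinearAut.baseAut g).bijective (fun c f => by
      apply Subtype.ext
      show g • ((c • f : ↥(L D)) : E) = SemilinearAut.baseAut g c • (g • (f : E))
      rw [Submodule.coe_smul, Algebra.smul_def, Algebra.smul_def, smul_mul',
        SemilinearAut.smul_algebraMap])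
  unfold Module.finrank
  rw [h]

/-- `l(D₁) = l(D₂)` if `D₂ - D₁` is the divisor of `h`. -/
theorem finrank_L_eq_of_principal {h : E} (hh : h ≠ 0) {D₁ D₂ P : Divisor k E}
    (hdiv : ∀ v : Place k E, v.ord h = P v) (hD : D₁ + P = D₂) :
    Module.finrank k (L D₁) = Module.finrank k (L D₂) := by
  have hinj : Function.Injective (LinearMap.mulLeft k h) := fun a b hab =>
    mul_left_cancel₀ hh hab
  have h1 := (Submodule.equivMapOfInjective (LinearMap.mulLeft k h) hinj (L D₂)).finrank_eq
  have h2 : (L D₂).map (LinearMap.mulLeft k h) = L D₁ := by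
    ext f
    rw [Submodule.mem_map, Fermat.Agent.FL.H2.mem_L_iff_exists_mul hh hdiv hD f]
    constructor
    · rintro ⟨z, hz, rfl⟩
      exact ⟨z, hz, rfl⟩
    · rintro ⟨z, hz, rfl⟩
      exact ⟨z, hz, rfl⟩
  rw [← h2, ← h1]

/-- An effective divisor `E₂` with `l(E₂) = 1` is the only effective divisor in its class. -/
theorem eq_of_principal_of_finrank_one {E₁ E₂ : Divisor k E} (h1 : 0 ≤ E₁) (h2 : 0 ≤ E₂)
    {h : E} (hdiv : ∀ v : Place k E, v.ord h = (E₁ - E₂) v)
    (hl : Module.finrank k (L E₂) = 1) : E₁ = E₂ := by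
  have hone : (1 : E) ∈ L E₂ := by
    apply mem_L_of_neg_le_ord
    intro v
    have := Finsupp.le_def.mp h2 v
    simp only [Finsupp.coe_zero, Pi.zero_apply] at this
    rw [Place.ord_one]
    omega
  have hmem : h ∈ L E₂ := by
    apply mem_L_of_neg_le_ord
    intro v
    have := Finsupp.le_def.mp h1 v
    simp only [Finsupp.coe_zero, Pi.zero_apply] at this
    rw [hdiv v, Finsupp.sub_apply]
    omega
  have hne : (⟨1, hone⟩ : ↥(L E₂)) ≠ 0 := fun h0 => one_ne_zero (congrArg Subtype.val h0)
  obtain ⟨c, hc⟩ := (finrank_eq_one_iff_of_nonzero' (⟨1, hone⟩ : ↥(L E₂)) hne).1 hl ⟨h, hmem⟩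
  have hc' : h = algebraMap k E c := by
    have := congrArg Subtype.val hc
    simp only [Submodule.coe_smul] at this
    rw [← this, Algebra.smul_def, mul_one]
  ext v
  have h3 := hdiv v
  rw [hc', Fermat.Agent.RED.H51.ord_algebraMap, Finsupp.sub_apply] at h3
  omega

/-- `mapDomain` commutes with subtraction. -/
theorem mapDomain_sub' {α β : Type*} (r : α → β) (D D' : α →₀ ℤ) :
    Finsupp.mapDomain r (D - D') = Finsupp.mapDomain r D - Finsupp.mapDomain r D' :=
  map_sub (Finsupp.mapDomain.addMonoidHom r) D D'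

/-- The push-forward of an effective divisor is effective. -/
theorem mapDomain_nonneg_of_nonneg {α β : Type*} (r : α → β) {D : α →₀ ℤ} (hD : 0 ≤ D) :
    0 ≤ Finsupp.mapDomain r D := by
  rw [Finsupp.le_def]
  intro b
  exact Fermat.Agent.RED.H17.mapDomain_nonneg' r (fun a => by
    have := Finsupp.le_def.mp hD a
    simpa using this) b

/-- The action of a semilinear automorphism preserves effectivity. -/
theorem smul_nonneg_of_nonneg (g : SemilinearAut k E) {D : Divisor k E} (hD : 0 ≤ D) :
    0 ≤ g • D := by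
  rw [SemilinearAut.divisor_smul_def]
  exact mapDomain_nonneg_of_nonneg _ hD

/-- Two divisors of degree zero with the same class differ by a principal divisor. -/
theorem principal_of_mk_eq {K F : Type} [Field K] [Field F] [Algebra K F]
    {D₁ D₂ : Divisor.degZero (K := K) (F := F)} (h : Pic0.mk D₁ = Pic0.mk D₂) :
    ∃ f : F, f ≠ 0 ∧ ∀ v : Place K F, v.ord f = ((D₂ : Divisor K F) - (D₁ : Divisor K F)) v := by
  have h1 : -D₁ + D₂ ∈ (Divisor.principal (K := K) (F := F)).addSubgroupOf
      (Divisor.degZero (K := K) (F := F)) := QuotientAddGroup.eq.mp h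
  rw [AddSubgroup.mem_addSubgroupOf] at h1
  obtain ⟨f, hf, hD⟩ := h1
  refine ⟨f, hf, fun v => ?_⟩
  rw [← hD v]
  simp only [AddSubgroup.coe_add, NegMemClass.coe_neg, Finsupp.add_apply, Finsupp.neg_apply,
    Finsupp.sub_apply]
  ring

end Fermat.Agent.FL.H51
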